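import Fermat.Agent.GammaH.Torsion

/-!
# Conjugates of modular functions and relations over `ℚ̄[j]`

The conjugates `conjC q f` of a modular function are indexed by the cosets of `± Γ₁(M)`; the
polynomial with these roots descends to `ℚ̄[j]`, so every modular function satisfies a monic
relation over `ℚ̄[j]` of degree the index of `± Γ₁(M)` (`exists_monic_relation`).
-/

set_option autoImplicit false

noncomputable section

open UpperHalfPlane Filter CongruenceSubgroup ModularCurve Polynomial
open scoped Manifold MatrixGroups Topology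

namespace FLTAgent.GammaH

open FLTAgent.LevelM FLTAgent.HeckeJacobian

local notation "Qbar" => AlgebraicClosure ℚ

/-- `± Γ₁(M)`. -/
def gammaPM (M : ℕ) : Subgroup SL(2, ℤ) where
  carrier := {γ | γ ∈ Gamma1 M ∨ -γ ∈ Gamma1 M}
  one_mem' := Or.inl (one_mem _)
  mul_mem' := by
    rintro a b (ha | ha) (hb | hb)
    · exact Or.inl (mul_mem ha hb)
    · exact Or.inr (by simpa using mul_mem ha hb)
    · exact Or.inr (by simpa using mul_mem ha hb)
    · exact Or.inl (by simpa using mul_mem ha hb)
  inv_mem' := by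
    rintro a (ha | ha)
    · exact Or.inl (inv_mem ha)
    · refine Or.inr ?_
      have := inv_mem ha
      rwa [show (-a)⁻¹ = -a⁻¹ from inv_eq_of_mul_eq_one_right (by simp)] at this

theorem gamma1_le_gammaPM (M : ℕ) : Gamma1 M ≤ gammaPM M := fun _ h => Or.inl h

theorem neg_one_mem_gammaPM (M : ℕ) : (-1 : SL(2, ℤ)) ∈ gammaPM M :=
  Or.inr (by simp [one_mem])

instance instFiniteIndexGammaPM (M : ℕ) [NeZero M] : (gammaPM M).FiniteIndex :=
  Subgroup.finiteIndex_of_le (gamma1_le_gammaPM M)

variable {M : ℕ}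

theorem modFun_act_pm (f : modFun M) {γ : SL(2, ℤ)} (hγ : γ ∈ gammaPM M) :
    act γ (f : ℍ → ℂ) = f := by
  rcases hγ with h | h
  · exact modFun_act f h
  · rw [← act_neg]; exact modFun_act f h

/-- The cosets `SL(2, ℤ) / ± Γ₁(M)`. -/
abbrev Cos (M : ℕ) : Type := SL(2, ℤ) ⧸ gammaPM M

instance instFintypeCos [NeZero M] : Fintype (Cos M) := Fintype.ofFinite _

/-! ## The ring of holomorphic functions meromorphic at all cusps of level `M` -/

variable (M) in
/-- Holomorphic functions with expansions in `q^(1/M)` of all translates. -/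
def cuspRing : Subring Hol where
  carrier := {f | ∀ γ, ∃ s, HasExp M (act γ (f : ℍ → ℂ)) s}
  mul_mem' {f g} hf hg γ := by
    obtain ⟨s, hs⟩ := hf γ; obtain ⟨t, ht⟩ := hg γ
    exact ⟨s * t,
      by rw [show ((f * g : Hol) : ℍ → ℂ) = (f : ℍ → ℂ) * g from rfl, map_mul]; exact hs.mul ht⟩
  one_mem' γ := ⟨1, by rw [show ((1 : Hol) : ℍ → ℂ) = 1 from rfl, map_one]; exact hasExp_one M⟩
  add_mem' {f g} hf hg γ := by
    obtain ⟨s, hs⟩ := hf γ; obtain ⟨t, ht⟩ := hg γ
    exact ⟨s + t,
      by rw [show ((f + g : Hol) : ℍ → ℂ) = (f : ℍ → ℂ) + g from rfl, map_add]; exact hs.add ht⟩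
  zero_mem' γ := ⟨0, by rw [show ((0 : Hol) : ℍ → ℂ) = 0 from rfl, map_zero]; exact hasExp_zero M⟩
  neg_mem' {f} hf γ := by
    obtain ⟨s, hs⟩ := hf γ
    exact ⟨-s, by rw [show ((-f : Hol) : ℍ → ℂ) = -(f : ℍ → ℂ) from rfl, map_neg]; exact hs.neg⟩

/-- The underlying function. -/
def cuspVal (f : cuspRing M) : ℍ → ℂ := ((f : Hol) : ℍ → ℂ)

theorem cuspVal_injective : Function.Injective (cuspVal : cuspRing M → ℍ → ℂ) := fun _ _ h =>
  Subtype.ext (Subtype.ext h)

/-- The action of `SL(2, ℤ)`. -/
def actC (g : SL(2, ℤ)) : cuspRing M →+* cuspRing M where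
  toFun f := ⟨⟨act g (cuspVal f), mdifferentiable_act g f.1.2⟩, fun γ => by
    show ∃ s, HasExp M (act γ (act g (cuspVal f))) s
    rw [← act_mul]; exact f.2 _⟩
  map_one' := cuspVal_injective (map_one (act g))
  map_mul' a b := cuspVal_injective (map_mul (act g) (cuspVal a) (cuspVal b))
  map_zero' := cuspVal_injective (map_zero (act g))
  map_add' a b := cuspVal_injective (map_add (act g) (cuspVal a) (cuspVal b))

@[simp] theorem cuspVal_actC (g : SL(2, ℤ)) (f : cuspRing M) :
    cuspVal (actC g f) = act g (cuspVal f) := rfl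

/-- The conjugate attached to a coset. -/
def conjC (q : Cos M) : modFun M →+* cuspRing M where
  toFun f := Quotient.liftOn' q (fun g => (⟨⟨act g⁻¹ (f : ℍ → ℂ),
      mdifferentiable_act _ (modFun_mdiff f)⟩, fun γ => by
        show ∃ s, HasExp M (act γ (act g⁻¹ (f : ℍ → ℂ))) s
        rw [← act_mul]; exact modFun_exp f _⟩ : cuspRing M)) fun a b hab => by
    refine cuspVal_injective ?_
    show act a⁻¹ (f : ℍ → ℂ) = act b⁻¹ (f : ℍ → ℂ)
    rw [show a⁻¹ = (a⁻¹ * b) * b⁻¹ by group, act_mul,
      modFun_act_pm f (QuotientGroup.leftRel_apply.mp hab)]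
  map_one' := q.inductionOn' fun g => cuspVal_injective (map_one (act g⁻¹))
  map_mul' a b := q.inductionOn' fun g =>
    cuspVal_injective (map_mul (act g⁻¹) (a : ℍ → ℂ) (b : ℍ → ℂ))
  map_zero' := q.inductionOn' fun g => cuspVal_injective (map_zero (act g⁻¹))
  map_add' a b := q.inductionOn' fun g =>
    cuspVal_injective (map_add (act g⁻¹) (a : ℍ → ℂ) (b : ℍ → ℂ))

theorem cuspVal_conjC (g : SL(2, ℤ)) (f : modFun M) :
    cuspVal (conjC (g : Cos M) f) = act g⁻¹ (f : ℍ → ℂ) := rfl

theorem conjC_one (f : modFun M) : cuspVal (conjC ((1 : SL(2, ℤ)) : Cos M) f) = (f : ℍ → ℂ) := by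
  rw [cuspVal_conjC, inv_one, act_one]

theorem actC_conjC (g : SL(2, ℤ)) (q : Cos M) (f : modFun M) :
    actC g (conjC q f) = conjC (g⁻¹ • q) f := by
  induction q using QuotientGroup.induction_on with
  | H a =>
    refine cuspVal_injective ?_
    rw [cuspVal_actC, cuspVal_conjC, MulAction.Quotient.smul_coe, cuspVal_conjC, smul_eq_mul,
      mul_inv_rev, inv_inv, act_mul]

theorem conjC_injective (q : Cos M) : Function.Injective (conjC q) := by
  induction q using QuotientGroup.induction_on with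
  | H g =>
    intro a b h
    have h' := congrArg (fun u => act g (cuspVal u)) h
    simp only [cuspVal_conjC] at h'
    rw [← act_mul, ← act_mul, inv_mul_cancel, act_one, act_one] at h'
    exact Subtype.ext h'

variable [NeZero M]

theorem coeff_jqModC_below {R : Type*} [CommRing R] {n : ℤ} (hn : n < -1) :
    (jqModC R).coeff n = 0 := by
  rw [jqModC, HahnSeries.coeff_single_mul, ofPowerSeries_coeff_of_neg _ (by omega), mul_zero]

/-- A level one element of `cuspRing M` is a polynomial in `j`. -/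
theorem exists_poly_of_invariant (f : cuspRing M) (h : ∀ g, actC g f = f) :
    ∃ P : ℂ[X], ∀ τ, cuspVal f τ = P.eval (ModularFF.jFun τ) := by
  have hinv : ∀ g : SL(2, ℤ), act g (cuspVal f) = cuspVal f := fun g => by
    rw [← cuspVal_actC, h]
  have hmem : cuspVal f ∈ modularRing (⊤ : Subgroup SL(2, ℤ)) 1 ⊤ := by
    refine ⟨f.1.2, fun g _ => hinv g, fun γ => ?_⟩
    rw [hinv]
    obtain ⟨s, hs⟩ : ∃ s, HasExp (M * 1) (cuspVal f) s := by
      obtain ⟨s, hs⟩ := f.2 1
      rw [act_one] at hs
      exact ⟨s, by rwa [mul_one]⟩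
    obtain ⟨t, ht, -⟩ := hs.exists_descend one_pos (hinv _)
    exact intExp_iff.mpr ⟨t, ht, fun _ => trivial⟩
  let φ : ℂ[X] →+* (ℍ → ℂ) :=
    Polynomial.eval₂RingHom (Pi.constRingHom ℍ ℂ) ModularFF.jFun
  have hj : ModularFF.jFun ∈ modularRing (⊤ : Subgroup SL(2, ℤ)) 1 ⊤ ∧
      HasExp 1 ModularFF.jFun (jqModC ℂ) := by
    have h1 := hasExp_ser (jMod 1)
    have h2 : ser (jMod 1) = jqModC Qbar := by
      have := (mem_modFun.mp (jFun_mem (M := 1))).2.2.2
      exact ser_eq (hasExp_jFun)
    rw [coe_jMod, h2, liftC, coeffMap_jqModC] at h1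
    refine ⟨⟨ModularFF.mdiff_jFun, fun g _ => funext fun τ => ModularFF.jFun_smul g τ, fun γ => ?_⟩,
      h1⟩
    rw [show act γ ModularFF.jFun = ModularFF.jFun from funext fun τ => ModularFF.jFun_smul γ τ]
    exact intExp_iff.mpr ⟨_, h1, fun _ => trivial⟩
  have key := modularRing_le_of_pole_reducers (ι := Unit) one_pos (fun _ => 1)
    (fun δ => ⟨(), 0, fun u hu => by rw [zpow_zero, act_one, act_one]; exact hu δ trivial⟩)
    (fun _ => ModularFF.jFun) (fun _ => hj.1) (fun _ => 1) (fun _ => ⟨one_ne_zero, trivial⟩)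
    (fun _ => ⟨_, (act_one ModularFF.jFun).symm ▸ hj.2, fun n hn => coeff_jqModC_below hn,
      coeff_jqModC_neg_one ℂ⟩)
    (fun i k hk => absurd (Subsingleton.elim k i) hk) φ.range
    (fun _ => ⟨Polynomial.X, by simp [φ]⟩) (fun c _ => ⟨Polynomial.C c, by simp [φ]; rfl⟩) _ hmem
  obtain ⟨P, hP⟩ := key
  refine ⟨P, fun τ => ?_⟩
  rw [← hP]
  show φ P τ = _
  rw [show φ P τ = (Pi.evalRingHom (fun _ : ℍ => ℂ) τ) (φ P) from rfl]
  simp only [φ, Polynomial.coe_eval₂RingHom]
  rw [Polynomial.hom_eval₂]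
  rfl

/-! ## Descent of linear relations to `ℚ̄` -/

omit [NeZero M] in
theorem descend_combination {ι : Type*} (s : Finset ι) (u : ι → modFun M) (v : modFun M)
    (c : ι → ℂ) (h : ∀ τ, (v : ℍ → ℂ) τ = ∑ i ∈ s, c i * (u i : ℍ → ℂ) τ) :
    ∃ d : ι → Qbar, v = ∑ i ∈ s, constHom (d i) * u i := by
  classical
  let : Algebra Qbar ℂ := (iotaC : Qbar →+* ℂ).toAlgebra
  let W := Submodule.span Qbar ((fun i => ser (u i)) '' (s : Set ι))
  suffices hv : ser v ∈ W by
    obtain ⟨d, hd⟩ := (Submodule.mem_span_image_finset_iff_exists_fun Qbar).mp hv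
    refine ⟨fun i => if hi : i ∈ s then d ⟨i, hi⟩ else 0, ser_injective ?_⟩
    rw [map_sum, ← hd, ← Finset.sum_coe_sort s]
    refine Finset.sum_congr rfl fun i _ => ?_
    simp only [map_mul, ser_constHom, dif_pos i.2]
    rw [algebraMap_laurentSeries_eq_single, ← HahnSeries.C_apply, HahnSeries.C_mul_eq_smul]
  by_contra hv
  have hseries : liftC (ser v) = ∑ i ∈ s, HahnSeries.C (c i) * liftC (ser (u i)) := by
    refine (hasExp_ser v).unique one_pos ?_
    have := hasExp_finset_sum s (F := fun i => fun τ => c i * (u i : ℍ → ℂ) τ)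
      (fun i _ => (hasExp_ser (u i)).const_mul (c i))
    refine this.congr (Eventually.of_forall fun τ => ?_)
    rw [h τ, Finset.sum_apply]
  have : FiniteDimensional Qbar W := FiniteDimensional.span_of_finite _ ((s.finite_toSet).image _)
  let b := Module.finBasis Qbar W
  let w : Option (Fin (Module.finrank Qbar W)) → LaurentSeries Qbar :=
    fun o => o.elim (ser v) (fun k => (b k : LaurentSeries Qbar))
  have hw : LinearIndependent Qbar w := by
    refine linearIndependent_option.mpr ⟨?_, ?_⟩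
    · exact b.linearIndependent.map' W.subtype W.ker_subtype
    · intro hmem
      refine hv ((Submodule.span_le.mpr ?_) hmem)
      rintro _ ⟨k, rfl⟩
      exact (b k).2
  -- coordinates of the `u i`
  let e : ι → Fin (Module.finrank Qbar W) → Qbar := fun i k =>
    if hi : i ∈ s then b.repr ⟨_, Submodule.subset_span (Set.mem_image_of_mem _ hi)⟩ k else 0
  have he : ∀ i ∈ s, liftC (ser (u i)) = ∑ k, HahnSeries.C (iotaC (e i k)) * liftC (b k) := by
    intro i hi
    have h1 := congrArg Subtype.val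
      (b.sum_repr ⟨ser (u i), Submodule.subset_span (Set.mem_image_of_mem _ hi)⟩)
    simp only [AddSubmonoidClass.coe_finsetSum, SetLike.val_smul] at h1
    rw [← h1, map_sum]
    refine Finset.sum_congr rfl fun k _ => ?_
    simp only [e, dif_pos hi]
    rw [← HahnSeries.C_mul_eq_smul, map_mul, liftC_C]
  let C' : Option (Fin (Module.finrank Qbar W)) → ℂ := fun o =>
    o.elim (-1) (fun k => ∑ i ∈ s, c i * iotaC (e i k))
  have := ModularFF.linearIndependent_map_coeff hw Finset.univ C' (by
    rw [Fintype.sum_option]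
    show HahnSeries.C (-1 : ℂ) * liftC (ser v) + ∑ k, _ = 0
    rw [map_neg, map_one, neg_one_mul, neg_add_eq_zero, hseries]
    simp only [C', Option.elim, map_sum, map_mul, Finset.sum_mul]
    rw [Finset.sum_comm]
    refine Finset.sum_congr rfl fun i hi => ?_
    rw [he i hi, Finset.mul_sum]
    refine Finset.sum_congr rfl fun k _ => ?_
    rw [mul_assoc]; rfl) none (Finset.mem_univ _)
  simp [C'] at this

variable (M) in
/-- Evaluation of a polynomial over `ℚ̄` at `j`. -/
def jEval : Qbar[X] →ₐ[Qbar] modFun M := Polynomial.aeval (jMod M)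

theorem jEval_apply (P : Qbar[X]) (τ : ℍ) :
    ((jEval M P : modFun M) : ℍ → ℂ) τ = (P.map (iotaC : Qbar →+* ℂ)).eval (ModularFF.jFun τ) := by
  induction P using Polynomial.induction_on' with
  | add p q hp hq =>
    rw [map_add, Polynomial.map_add, Polynomial.eval_add]
    simp [hp, hq]
  | monomial n a =>
    simp [jEval, algebraMap_modFun]

/-- A function which is a combination over `ℂ[j]` of modular functions is one over `ℚ̄[j]`. -/
theorem descend_poly {n : ℕ} (u : ℕ → modFun M) (v : modFun M) (p : ℕ → ℂ[X])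
    (h : ∀ τ, (v : ℍ → ℂ) τ =
      ∑ b ∈ Finset.range n, (p b).eval (ModularFF.jFun τ) * (u b : ℍ → ℂ) τ) :
    ∃ P : ℕ → Qbar[X], v = ∑ b ∈ Finset.range n, jEval M (P b) * u b := by
  classical
  set A := (Finset.range n).sup fun b => (p b).natDegree
  obtain ⟨d, hd⟩ := descend_combination (Finset.range (A + 1) ×ˢ Finset.range n)
    (fun ab => jMod M ^ ab.1 * u ab.2) v (fun ab => (p ab.2).coeff ab.1) fun τ => by
      rw [h τ, Finset.sum_product_right]
      refine Finset.sum_congr rfl fun b hb => ?_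
      rw [Polynomial.eval_eq_sum_range' (n := A + 1)
        (Nat.lt_succ_of_le (Finset.le_sup (f := fun b => (p b).natDegree) hb)), Finset.sum_mul]
      refine Finset.sum_congr rfl fun a _ => ?_
      simp [mul_assoc]
  refine ⟨fun b => ∑ a ∈ Finset.range (A + 1), Polynomial.monomial a (d (a, b)), ?_⟩
  rw [hd, Finset.sum_product_right]
  refine Finset.sum_congr rfl fun b _ => ?_
  rw [map_sum, Finset.sum_mul]
  refine Finset.sum_congr rfl fun a _ => ?_
  simp [jEval, algebraMap_modFun, mul_assoc]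

/-- The characteristic polynomial of `f` over the level one functions. -/
def charC (f : modFun M) : (cuspRing M)[X] := ∏ q : Cos M, (X - C (conjC q f))

theorem charC_map_actC (g : SL(2, ℤ)) (f : modFun M) : (charC f).map (actC g) = charC f := by
  simp only [charC, Polynomial.map_prod, Polynomial.map_sub, Polynomial.map_X, Polynomial.map_C,
    actC_conjC]
  exact Equiv.prod_comp (MulAction.toPerm g⁻¹) fun q => (X - C (conjC q f) : (cuspRing M)[X])

theorem eval_charC (f : modFun M) :
    (charC f).eval (conjC ((1 : SL(2, ℤ)) : Cos M) f) = 0 := by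
  rw [charC, Polynomial.eval_prod]
  exact Finset.prod_eq_zero (Finset.mem_univ ((1 : SL(2, ℤ)) : Cos M)) (by simp)

/-- Every modular function is a root of a monic polynomial over `ℚ̄[j]` of degree the index. -/
theorem exists_monic_relation (f : modFun M) :
    ∃ Q : (Qbar[X])[X], Q.Monic ∧ Q.natDegree = (gammaPM M).index ∧
      Q.eval₂ (jEval M : Qbar[X] →+* modFun M) f = 0 := by
  classical
  set n := (gammaPM M).index with hn
  have hcard : Fintype.card (Cos M) = n := by
    rw [hn, Subgroup.index, Nat.card_eq_fintype_card]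
  have hdeg : (charC f).natDegree = n := by
    rw [charC, Polynomial.natDegree_finsetProd_X_sub_C_eq_card, Finset.card_univ, hcard]
  have hmon : (charC f).Monic := Polynomial.monic_prod_of_monic _ _ fun q _ => monic_X_sub_C _
  choose p hp using fun b => exists_poly_of_invariant ((charC f).coeff b) fun g => by
    rw [← Polynomial.coeff_map, charC_map_actC]
  obtain ⟨P, hP⟩ := descend_poly (n := n) (fun b => f ^ b) (f ^ n) (fun b => -p b) fun τ => by
    let ev : cuspRing M →+* ℂ :=
      ((Pi.evalRingHom (fun _ : ℍ => ℂ) τ).comp Hol.val.toRingHom).comp (cuspRing M).subtype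
    have h0 := congrArg ev (eval_charC f)
    rw [map_zero, Polynomial.eval, Polynomial.eval₂_eq_sum_range, hdeg,
      Finset.sum_range_succ, map_add, map_sum] at h0
    have hev : ev (conjC ((1 : SL(2, ℤ)) : Cos M) f) = (f : ℍ → ℂ) τ :=
      congrFun (conjC_one f) τ
    have hlead : (charC f).coeff n = 1 := by rw [← hdeg]; exact hmon.coeff_natDegree
    simp only [RingHom.id_apply, map_mul, map_pow, hev, hlead, map_one, one_mul] at h0
    rw [SubmonoidClass.coe_pow, Pi.pow_apply, eq_neg_of_add_eq_zero_right h0,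
      ← Finset.sum_neg_distrib]
    refine Finset.sum_congr rfl fun b _ => ?_
    rw [Polynomial.eval_neg, ← hp b τ, neg_mul, SubmonoidClass.coe_pow, Pi.pow_apply]
    rfl
  set R : (Qbar[X])[X] := ∑ b ∈ Finset.range n, C (P b) * X ^ b with hR
  have hRdeg : R.degree < n := by
    rw [hR]
    refine lt_of_le_of_lt (Polynomial.degree_sum_le _ _) ?_
    refine (Finset.sup_lt_iff (WithBot.bot_lt_coe _)).mpr fun b hb => ?_
    exact lt_of_le_of_lt (Polynomial.degree_C_mul_X_pow_le _ _)
      (by exact_mod_cast Finset.mem_range.mp hb)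
  refine ⟨X ^ n - R, monic_X_pow_sub hRdeg, ?_, ?_⟩
  · exact Polynomial.natDegree_eq_of_degree_eq_some
      (by rw [Polynomial.degree_sub_eq_left_of_degree_lt] <;> simp [hRdeg])
  · rw [Polynomial.eval₂_sub, Polynomial.eval₂_X_pow, hP, hR, Polynomial.eval₂_finsetSum,
      sub_eq_zero]
    refine Finset.sum_congr rfl fun b _ => ?_
    rw [Polynomial.eval₂_mul, Polynomial.eval₂_C, Polynomial.eval₂_X_pow]
    rfl

end FLTAgent.GammaH

end
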