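import Fermat.Agent.GammaH.Field
import Fermat.Agent.FFBasic.Discrete

/-!
# Orders at points of `ℍ` and at cusps, and the induced places

A `RingOrd` extends to an integer valuation of `FF M`, which is trivial or a multiple of the
order at a place. The orders at a point of `ℍ` (`ptOrd`) and at a cusp (`cuspOrd`) are examples.
-/

set_option autoImplicit false

noncomputable section

open UpperHalfPlane Filter CongruenceSubgroup ModularCurve AlgebraicCurve
open scoped Manifold MatrixGroups Topology

namespace FLTAgent.GammaH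

open FLTAgent.LevelM FLTAgent.HeckeJacobian

/-! ## Integer valued valuations -/

section IntVal

variable (K F : Type*) [Field K] [Field F] [Algebra K F]

/-- An integer valued valuation, trivial on constants (possibly trivial, possibly not
normalised). -/
structure IntVal where
  w : F → ℤ
  map_mul : ∀ x y, x ≠ 0 → y ≠ 0 → w (x * y) = w x + w y
  map_add : ∀ x y, x ≠ 0 → y ≠ 0 → x + y ≠ 0 → min (w x) (w y) ≤ w (x + y)
  map_const : ∀ c : K, c ≠ 0 → w (algebraMap K F c) = 0

variable {K F}

namespace IntVal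

/-- The valuation of `1` is `0`. -/
theorem map_one (W : IntVal K F) : W.w 1 = 0 := by
  simpa using W.map_mul 1 1 one_ne_zero one_ne_zero

theorem map_inv (W : IntVal K F) {x : F} (hx : x ≠ 0) : W.w x⁻¹ = -W.w x := by
  have := W.map_mul x x⁻¹ hx (inv_ne_zero hx)
  rw [mul_inv_cancel₀ hx, W.map_one] at this
  omega

/-- The valuation of a negative. -/
theorem map_neg (W : IntVal K F) {x : F} (hx : x ≠ 0) : W.w (-x) = W.w x := by
  have hm := W.map_mul (-1) (-1) (neg_ne_zero.mpr one_ne_zero) (neg_ne_zero.mpr one_ne_zero)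
  rw [neg_mul_neg, mul_one, W.map_one] at hm
  have := W.map_mul (-1) x (neg_ne_zero.mpr one_ne_zero) hx
  rw [neg_one_mul] at this
  omega

/-- A nontrivial integer valuation is a positive multiple of the order at a place. -/
theorem exists_place [FFBasic.IsFunctionField K F] (W : IntVal K F)
    (hW : ∃ x, x ≠ 0 ∧ W.w x ≠ 0) :
    ∃ (v : Place K F) (e : ℕ), 0 < e ∧ ∀ f, f ≠ 0 → W.w f = e * v.ord f := by
  obtain ⟨x₀, hx₀, hwx₀⟩ := hW
  let A : ValuationSubring F :=
    { carrier := {x | x = 0 ∨ 0 ≤ W.w x}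
      zero_mem' := Or.inl rfl
      one_mem' := Or.inr W.map_one.ge
      mul_mem' := fun {a b} ha hb => by
        rcases eq_or_ne a 0 with rfl | ha0
        · exact Or.inl (zero_mul b)
        rcases eq_or_ne b 0 with rfl | hb0
        · exact Or.inl (mul_zero a)
        refine Or.inr ?_
        rw [W.map_mul a b ha0 hb0]
        have := ha.resolve_left ha0
        have := hb.resolve_left hb0
        omega
      add_mem' := fun {a b} ha hb => by
        rcases eq_or_ne a 0 with rfl | ha0
        · rwa [zero_add]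
        rcases eq_or_ne b 0 with rfl | hb0
        · rwa [add_zero]
        rcases eq_or_ne (a + b) 0 with h | h
        · exact Or.inl h
        · exact Or.inr (le_trans (le_min (ha.resolve_left ha0) (hb.resolve_left hb0))
            (W.map_add a b ha0 hb0 h))
      neg_mem' := fun {a} ha => by
        rcases eq_or_ne a 0 with rfl | ha0
        · exact Or.inl neg_zero
        refine Or.inr ?_
        rw [W.map_neg ha0]
        exact ha.resolve_left ha0
      mem_or_inv_mem' := fun x => by
        rcases eq_or_ne x 0 with rfl | hx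
        · exact Or.inl (Or.inl rfl)
        · by_cases h : 0 ≤ W.w x
          · exact Or.inl (Or.inr h)
          · exact Or.inr (Or.inr (by rw [W.map_inv hx]; omega)) }
  have hAK : ∀ a : K, algebraMap K F a ∈ A := fun a => by
    rcases eq_or_ne a 0 with rfl | ha
    · exact Or.inl (_root_.map_zero _)
    · exact Or.inr (W.map_const a ha).ge
  have hAtop : A ≠ ⊤ := by
    intro h
    rcases lt_or_gt_of_ne hwx₀ with hlt | hgt
    · have : x₀ ∈ A := h ▸ ValuationSubring.mem_top x₀
      rcases this with h' | h'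
      · exact hx₀ h'
      · omega
    · have : x₀⁻¹ ∈ A := h ▸ ValuationSubring.mem_top _
      rcases this with h' | h'
      · exact inv_ne_zero hx₀ h'
      · rw [W.map_inv hx₀] at h'; omega
  set v := FLTAgent.FFBasic.placeOfValuationSubring A hAK hAtop with hv
  obtain ⟨π, hπ⟩ := IsDiscreteValuationRing.exists_irreducible v.toValuationSubring
  have hπ0 : (π : F) ≠ 0 := by simpa [ne_eq, ZeroMemClass.coe_eq_zero] using hπ.ne_zero
  have hzpow : ∀ m : ℤ, W.w ((π : F) ^ m) = m * W.w (π : F) := fun m => by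
    induction m using Int.induction_on with
    | zero => simpa using W.map_one
    | succ m ih =>
      rw [zpow_add_one₀ hπ0, W.map_mul _ _ (zpow_ne_zero _ hπ0) hπ0, ih]; ring
    | pred m ih =>
      rw [zpow_sub_one₀ hπ0, W.map_mul _ _ (zpow_ne_zero _ hπ0) (inv_ne_zero hπ0), ih,
        W.map_inv hπ0]
      ring
  have hkey : ∀ f, f ≠ 0 → W.w f = W.w (π : F) * v.ord f := fun f hf => by
    obtain ⟨u, hu⟩ := v.exists_unit_mul_zpow hf hπ
    have hu0 : ((u : v.toValuationSubring) : F) ≠ 0 := by simp [ne_eq, ZeroMemClass.coe_eq_zero]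
    have hb0 : (((u⁻¹ : v.toValuationSubringˣ) : v.toValuationSubring) : F) ≠ 0 := by
      simp [ne_eq, ZeroMemClass.coe_eq_zero]
    have hwu : W.w ((u : v.toValuationSubring) : F) = 0 := by
      have ha : ((u : v.toValuationSubring) : F) ∈ A := (u : v.toValuationSubring).2
      have hb : (((u⁻¹ : v.toValuationSubringˣ) : v.toValuationSubring) : F) ∈ A :=
        ((u⁻¹ : v.toValuationSubringˣ) : v.toValuationSubring).2
      have hprod : ((u : v.toValuationSubring) : F) *
          (((u⁻¹ : v.toValuationSubringˣ) : v.toValuationSubring) : F) = 1 :=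
        congrArg Subtype.val (Units.mul_inv u)
      have h := W.map_mul _ _ hu0 hb0
      rw [hprod, W.map_one] at h
      have := ha.resolve_left hu0
      have := hb.resolve_left hb0
      omega
    conv_lhs => rw [hu, W.map_mul _ _ hu0 (zpow_ne_zero _ hπ0), hwu, hzpow, zero_add]
    ring
  have hπpos : 0 < W.w (π : F) := by
    have h0 : 0 ≤ W.w (π : F) := by
      have : (π : F) ∈ A := π.2
      exact this.resolve_left hπ0
    refine lt_of_le_of_ne h0 fun h => hwx₀ ?_
    rw [hkey x₀ hx₀, ← h, zero_mul]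
  refine ⟨v, (W.w (π : F)).toNat, by omega, fun f hf => ?_⟩
  rw [Int.toNat_of_nonneg hπpos.le, hkey f hf]

/-- An integer valuation takes multiples of `n` on a function whose divisor is one. -/
theorem dvd_of_forall_dvd [FFBasic.IsFunctionField K F] (W : IntVal K F) {f : F} (hf : f ≠ 0)
    {n : ℤ} (h : ∀ v : Place K F, n ∣ v.ord f) : n ∣ W.w f := by
  by_cases hW : ∃ x, x ≠ 0 ∧ W.w x ≠ 0
  · obtain ⟨v, e, -, he⟩ := W.exists_place hW
    rw [he f hf]; exact (h v).mul_left _
  · push Not at hW
    rw [hW f hf]; exact dvd_zero n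

end IntVal

end IntVal

local notation "Qbar" => AlgebraicClosure ℚ

variable {M : ℕ}

/-- An additive, ultrametric, integer valued function on `modFun M`, zero on constants. -/
structure RingOrd (M : ℕ) where
  o : modFun M → ℤ
  map_mul : ∀ f g, f ≠ 0 → g ≠ 0 → o (f * g) = o f + o g
  map_add : ∀ f g, f ≠ 0 → g ≠ 0 → f + g ≠ 0 → min (o f) (o g) ≤ o (f + g)
  map_const : ∀ c, c ≠ 0 → o (constHom c) = 0

namespace RingOrd

variable (R : RingOrd M)

/-- Extension to the field. -/
def wFF (x : FF M) : ℤ := R.o (exists_eq_div x).choose - R.o (exists_eq_div x).choose_spec.choose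

theorem wFF_eq {x : FF M} {f g : modFun M} (hf : f ≠ 0) (hg : g ≠ 0)
    (h : x = toFF f / toFF g) : R.wFF x = R.o f - R.o g := by
  obtain ⟨hg', h'⟩ := (exists_eq_div x).choose_spec.choose_spec
  set f' := (exists_eq_div x).choose
  set g' := (exists_eq_div x).choose_spec.choose
  have hx : x ≠ 0 := h ▸ div_ne_zero (toFF_ne_zero hf) (toFF_ne_zero hg)
  have hf' : f' ≠ 0 := fun h0 =>
    hx (h'.trans (by rw [show (exists_eq_div x).choose = 0 from h0, _root_.map_zero, zero_div]))
  have heq : f' * g = f * g' := by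
    refine toFF_injective ?_
    rw [_root_.map_mul, _root_.map_mul]
    exact (div_eq_div_iff (toFF_ne_zero hg') (toFF_ne_zero hg)).mp (h'.symm.trans h)
  have h1 := congrArg R.o heq
  rw [R.map_mul _ _ hf' hg, R.map_mul _ _ hf hg'] at h1
  show R.o f' - R.o g' = _
  omega

theorem exists_nonzero {x : FF M} (hx : x ≠ 0) :
    ∃ f g : modFun M, f ≠ 0 ∧ g ≠ 0 ∧ x = toFF f / toFF g := by
  obtain ⟨f, g, hg, h⟩ := exists_eq_div x
  exact ⟨f, g, fun h0 => hx (by rw [h, h0, _root_.map_zero, zero_div]), hg, h⟩

theorem o_one : R.o 1 = 0 := by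
  have := R.map_mul 1 1 one_ne_zero one_ne_zero
  rw [mul_one] at this
  omega

/-- The associated valuation of the field. -/
def toIntVal : IntVal Qbar (FF M) where
  w := R.wFF
  map_mul x y hx hy := by
    obtain ⟨f, g, hf, hg, hxe⟩ := exists_nonzero hx
    obtain ⟨f', g', hf', hg', hye⟩ := exists_nonzero hy
    rw [R.wFF_eq hf hg hxe, R.wFF_eq hf' hg' hye,
      R.wFF_eq (mul_ne_zero hf hf') (mul_ne_zero hg hg')
        (by rw [_root_.map_mul, _root_.map_mul, hxe, hye, div_mul_div_comm]),
      R.map_mul _ _ hf hf', R.map_mul _ _ hg hg']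
    ring
  map_add x y hx hy hxy := by
    obtain ⟨f, g, hf, hg, hxe⟩ := exists_nonzero hx
    obtain ⟨f', g', hf', hg', hye⟩ := exists_nonzero hy
    have hsum : x + y = toFF (f * g' + f' * g) / toFF (g * g') := by
      rw [hxe, hye, _root_.map_add, _root_.map_mul, _root_.map_mul, _root_.map_mul,
        div_add_div _ _ (toFF_ne_zero hg) (toFF_ne_zero hg')]
      ring
    have hnum : f * g' + f' * g ≠ 0 := fun h0 => hxy (by rw [hsum, h0, _root_.map_zero, zero_div])
    rw [R.wFF_eq hf hg hxe, R.wFF_eq hf' hg' hye, R.wFF_eq hnum (mul_ne_zero hg hg') hsum,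
      R.map_mul _ _ hg hg']
    have := R.map_add _ _ (mul_ne_zero hf hg') (mul_ne_zero hf' hg) hnum
    rw [R.map_mul _ _ hf hg', R.map_mul _ _ hf' hg] at this
    omega
  map_const c hc := by
    rw [R.wFF_eq (f := constHom c) (g := 1)
      ((map_ne_zero_iff _ (constHom (M := M)).injective).mpr hc)
      one_ne_zero (by rw [_root_.map_one, div_one]; exact ((toFF (M := M)).commutes c).symm),
      R.map_const c hc, R.o_one, sub_zero]

theorem toIntVal_toFF {f : modFun M} (hf : f ≠ 0) : R.toIntVal.w (toFF f) = R.o f := by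
  show R.wFF _ = _
  rw [R.wFF_eq hf one_ne_zero (by rw [_root_.map_one, div_one]), R.o_one, sub_zero]

end RingOrd

theorem toHol_ne_zero {f : modFun M} (h : f ≠ 0) : toHol f ≠ 0 :=
  (map_ne_zero_iff _ toHol_injective).mpr h

theorem ordI_const {c : ℂ} (hc : c ≠ 0) (τ : ℍ) :
    Hol.ordI (⟨fun _ => c, mdifferentiable_const⟩ : Hol) τ = 0 := by
  have h : Hol.order (⟨fun _ => c, mdifferentiable_const⟩ : Hol) τ = 0 :=
    ((Hol.analyticAt _ τ).analyticOrderAt_eq_zero).mpr (by simpa using hc)
  simp [Hol.ordI, h]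

/-- The order at a point of `ℍ`. -/
def ptOrd (M : ℕ) (τ : ℍ) : RingOrd M where
  o f := Hol.ordI (toHol f) τ
  map_mul f g hf hg := by rw [map_mul]; exact Hol.ordI_mul (toHol_ne_zero hf) (toHol_ne_zero hg) τ
  map_add f g _ _ hfg := by
    rw [map_add]; exact Hol.ordI_add_ge (by rw [← map_add]; exact toHol_ne_zero hfg) τ
  map_const c hc := ordI_const ((map_ne_zero_iff _ iotaC_injective).mpr hc) τ

/-- The expansion of the translate by `γ`. -/
def serAt [NeZero M] (γ : SL(2, ℤ)) : modFun M →+* LaurentSeries ℂ where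
  toFun f := (modFun_exp f γ).choose
  map_one' := (modFun_exp (1 : modFun M) γ).choose_spec.unique (NeZero.pos M)
    (by rw [OneMemClass.coe_one, map_one]; exact hasExp_one M)
  map_zero' := (modFun_exp (0 : modFun M) γ).choose_spec.unique (NeZero.pos M)
    (by rw [ZeroMemClass.coe_zero, map_zero]; exact hasExp_zero M)
  map_mul' f g := (modFun_exp (f * g) γ).choose_spec.unique (NeZero.pos M)
    (by rw [MulMemClass.coe_mul, map_mul]
        exact (modFun_exp f γ).choose_spec.mul (modFun_exp g γ).choose_spec)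
  map_add' f g := (modFun_exp (f + g) γ).choose_spec.unique (NeZero.pos M)
    (by rw [AddMemClass.coe_add, map_add]
        exact (modFun_exp f γ).choose_spec.add (modFun_exp g γ).choose_spec)

theorem hasExp_serAt [NeZero M] (γ : SL(2, ℤ)) (f : modFun M) :
    HasExp M (act γ (f : ℍ → ℂ)) (serAt γ f) := (modFun_exp f γ).choose_spec

theorem serAt_ne_zero [NeZero M] (γ : SL(2, ℤ)) {f : modFun M} (hf : f ≠ 0) :
    serAt γ f ≠ 0 := fun h => hf (Subtype.ext (by
  have h1 := eq_of_hasExp (mdifferentiable_act γ (modFun_mdiff f)) mdifferentiable_const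
    (h ▸ hasExp_serAt γ f) (hasExp_zero M)
  have h2 := congrArg (act γ⁻¹) h1
  rw [← act_mul, mul_inv_cancel, act_one] at h2
  rw [h2]
  rfl))

/-- The order, in `q^(1/M)`, of the translate by `γ`. -/
def cuspOrd (M : ℕ) [NeZero M] (γ : SL(2, ℤ)) : RingOrd M where
  o f := (serAt γ f).order
  map_mul f g hf hg := by
    rw [map_mul]; exact HahnSeries.order_mul (serAt_ne_zero γ hf) (serAt_ne_zero γ hg)
  map_add f g _ _ hfg := by
    rw [map_add]
    exact HahnSeries.min_order_le_order_add (by rw [← map_add]; exact serAt_ne_zero γ hfg)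
  map_const c hc := by
    have h : serAt γ (constHom (M := M) c) = HahnSeries.C (iotaC c) :=
      (hasExp_serAt γ _).unique (NeZero.pos M) (hasExp_C M (iotaC c))
    rw [h, HahnSeries.C_apply, HahnSeries.order_single ((map_ne_zero_iff _ iotaC_injective).mpr hc)]

end FLTAgent.GammaH

end
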