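import Fermat.Agent.GammaH.ParHomBound
import Fermat.Agent.FFBasic.Degree

/-!
# `V_n(M) ≅ Pic⁰[n]` and bijectivity of the Kummer map

Sending `h` to the class of `div h / n` gives `kumTorsion : V_n(M) ≃ Pic⁰[n]`. Comparing
cardinalities with the bound on parabolic homomorphisms shows that the Kummer map is bijective
for prime powers (`kummer_bijective`) and that `V_n(M)` is then finite.
-/

set_option autoImplicit false

noncomputable section

open CongruenceSubgroup AlgebraicCurve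

namespace FLTAgent.GammaH

local notation "Qbar" => AlgebraicClosure ℚ

variable {M : ℕ} [NeZero M] [Fact (1 < M)] {n : ℕ} [NeZero n]

theorem exists_divPart (h : divGroup M n) :
    ∃ D : Divisor.degZero (K := Qbar) (F := FF M),
      ∀ v : Place Qbar (FF M), (n : ℤ) * (D : Divisor Qbar (FF M)) v
        = v.ord ((h : (FF M)ˣ) : FF M) := by
  obtain ⟨E, hE, hdeg⟩ := HasPrincipalDivisors.exists_divisor (K := Qbar) (F := FF M)
    ((h : (FF M)ˣ) : FF M) (Units.ne_zero _)
  let D : Divisor Qbar (FF M) := E.mapRange (fun z => z / (n : ℤ)) (Int.zero_ediv _)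
  have hD : (n : ℤ) • D = E := Finsupp.ext fun v => by
    rw [Finsupp.smul_apply, smul_eq_mul, Finsupp.mapRange_apply,
      Int.mul_ediv_cancel' (hE v ▸ h.2 v)]
  refine ⟨⟨D, ?_⟩, fun v => ?_⟩
  · have h1 := congrArg Divisor.degree hD
    rw [map_zsmul, hdeg, smul_eq_mul, mul_eq_zero] at h1
    exact h1.resolve_left (Int.natCast_ne_zero.mpr (NeZero.ne n))
  · have h1 := DFunLike.congr_fun hD v
    rw [Finsupp.smul_apply, smul_eq_mul] at h1
    exact h1.trans (hE v)

/-- The divisor `div h / n`. -/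
def divPart (h : divGroup M n) : Divisor.degZero (K := Qbar) (F := FF M) :=
  (exists_divPart h).choose

theorem divPart_spec (h : divGroup M n) (v : Place Qbar (FF M)) :
    (n : ℤ) * (divPart h : Divisor Qbar (FF M)) v = v.ord ((h : (FF M)ˣ) : FF M) :=
  (exists_divPart h).choose_spec v

theorem divPart_eq {h : divGroup M n} {D : Divisor.degZero (K := Qbar) (F := FF M)}
    (hD : ∀ v : Place Qbar (FF M), (n : ℤ) * (D : Divisor Qbar (FF M)) v
      = v.ord ((h : (FF M)ˣ) : FF M)) : divPart h = D :=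
  Subtype.ext (Finsupp.ext fun v =>
    mul_left_cancel₀ (Int.natCast_ne_zero.mpr (NeZero.ne n)) ((divPart_spec h v).trans (hD v).symm))

theorem mk_divPart_mem (h : divGroup M n) :
    Pic0.mk (divPart h) ∈ Pic0.torsion Qbar (FF M) n := by
  rw [Pic0.mem_torsion]
  refine (QuotientAddGroup.eq_zero_iff ((n : ℤ) • divPart h)).mpr
    ⟨((h : (FF M)ˣ) : FF M), Units.ne_zero _, fun v => ?_⟩
  rw [AddSubgroup.subtype_apply, AddSubgroup.coe_zsmul, Finsupp.smul_apply, smul_eq_mul,
    divPart_spec]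

variable (M n) in
/-- The class of `div h / n`. -/
def torsHom : divGroup M n →* Multiplicative (Pic0.torsion Qbar (FF M) n) :=
  MonoidHom.mk' (fun h => Multiplicative.ofAdd ⟨Pic0.mk (divPart h), mk_divPart_mem h⟩)
    fun a b => by
      rw [← ofAdd_add]
      refine congrArg _ (Subtype.ext ?_)
      rw [AddSubgroup.coe_add, ← Pic0.mk_add]
      refine congrArg _ (divPart_eq fun v => ?_)
      rw [AddSubgroup.coe_add, Finsupp.add_apply, mul_add, divPart_spec, divPart_spec,
        Subgroup.coe_mul, Units.val_mul, v.ord_mul (Units.ne_zero _) (Units.ne_zero _)]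

theorem exists_root_const {f : FF M} (hf : f ≠ 0) (h : ∀ v : Place Qbar (FF M), v.ord f = 0) :
    ∃ c : Qbar, algebraMap Qbar (FF M) c = f ∧ c ≠ 0 := by
  have hint : IsIntegral Qbar f :=
    isAlgebraic_iff_isIntegral.mp (FFBasic.isAlgebraic_iff_forall_ord_eq_zero.mpr h)
  obtain ⟨c, hc⟩ := minpoly.mem_range_of_degree_eq_one Qbar f
    (IsAlgClosed.degree_eq_one_of_irreducible Qbar (minpoly.irreducible hint))
  exact ⟨c, hc, fun h0 => hf (by rw [← hc, h0, map_zero])⟩

theorem torsHom_eq_one_iff (h : divGroup M n) : torsHom M n h = 1 ↔ h ∈ powGroup M n := by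
  constructor
  · intro h1
    have h0 : Pic0.mk (divPart h) = 0 :=
      congrArg Subtype.val (Multiplicative.ofAdd.injective (h1.trans ofAdd_zero.symm))
    obtain ⟨u, hu, hDu⟩ := (QuotientAddGroup.eq_zero_iff (divPart h)).mp h0
    obtain ⟨c, hc, hc0⟩ := exists_root_const
      (div_ne_zero (Units.ne_zero (h : (FF M)ˣ)) (pow_ne_zero n hu)) fun v => by
        rw [div_eq_mul_inv, v.ord_mul (Units.ne_zero _) (inv_ne_zero (pow_ne_zero n hu)), v.ord_inv,
          FFBasic.ord_pow, ← hDu, ← divPart_spec h v, AddSubgroup.subtype_apply]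
        ring
    obtain ⟨d, hd⟩ := IsAlgClosed.exists_pow_nat_eq c (NeZero.pos n)
    have hd0 : algebraMap Qbar (FF M) d * u ≠ 0 := mul_ne_zero
      ((map_ne_zero _).mpr fun h' => hc0 (by rw [← hd, h', zero_pow (NeZero.ne n)])) hu
    refine ⟨Units.mk0 _ hd0, Units.ext ?_⟩
    show (algebraMap Qbar (FF M) d * u) ^ n = _
    rw [mul_pow, ← map_pow, hd, hc, div_mul_cancel₀ _ (pow_ne_zero n hu)]
    rfl
  · rintro ⟨y, hy⟩
    obtain ⟨E, hE, hdeg⟩ := HasPrincipalDivisors.exists_divisor (K := Qbar) (F := FF M)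
      (y : FF M) (Units.ne_zero _)
    have hD : divPart h = ⟨E, hdeg⟩ := divPart_eq fun v => by
      rw [show ((h : (FF M)ˣ) : FF M) = (y : FF M) ^ n by
        rw [← Units.val_pow_eq_pow_val]; exact congrArg Units.val hy.symm, FFBasic.ord_pow, hE]
    show Multiplicative.ofAdd _ = 1
    rw [← ofAdd_zero]
    refine congrArg _ (Subtype.ext ?_)
    show Pic0.mk (divPart h) = 0
    rw [hD]
    exact (QuotientAddGroup.eq_zero_iff _).mpr ⟨y, Units.ne_zero _, hE⟩

theorem exists_divPart_of_torsion (D : Divisor.degZero (K := Qbar) (F := FF M))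
    (hD : Pic0.mk D ∈ Pic0.torsion Qbar (FF M) n) : ∃ h : divGroup M n, divPart h = D := by
  rw [Pic0.mem_torsion] at hD
  have hmem : ((n : ℤ) • D) ∈ (Divisor.principal (K := Qbar) (F := FF M)).addSubgroupOf
      (Divisor.degZero (K := Qbar) (F := FF M)) :=
    (QuotientAddGroup.eq_zero_iff _).mp ((QuotientAddGroup.mk_zsmul _ D (n : ℤ)).trans hD)
  obtain ⟨f, hf, hDf⟩ := AddSubgroup.mem_addSubgroupOf.mp hmem
  have hord : ∀ v : Place Qbar (FF M),
      (n : ℤ) * (D : Divisor Qbar (FF M)) v = v.ord f := fun v => by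
    rw [← hDf v, AddSubgroup.coe_zsmul, Finsupp.smul_apply, smul_eq_mul]
  exact ⟨⟨Units.mk0 f hf, fun v => ⟨_, (hord v).symm⟩⟩, divPart_eq hord⟩

theorem torsHom_apply (h : divGroup M n) :
    ((Multiplicative.toAdd (torsHom M n h) : Pic0.torsion Qbar (FF M) n) : Pic0 Qbar (FF M))
      = Pic0.mk (divPart h) := rfl

theorem torsHom_surjective : Function.Surjective (torsHom M n) := by
  intro x
  obtain ⟨D, hD⟩ := Pic0.mk_surjective (Multiplicative.toAdd x).1
  obtain ⟨h, hh⟩ := exists_divPart_of_torsion D (hD ▸ (Multiplicative.toAdd x).2)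
  refine ⟨h, Multiplicative.toAdd.injective (Subtype.ext ?_)⟩
  rw [torsHom_apply, hh, hD]

variable (M n) in
/-- `V_n(M) ≅ Pic⁰[n]`. -/
def kumTorsion : Kum M n ≃+ Pic0.torsion Qbar (FF M) n :=
  AddEquiv.ofBijective
    (MonoidHom.toAdditiveLeft (QuotientGroup.lift (powGroup M n) (torsHom M n)
      fun h hh => (torsHom_eq_one_iff h).mpr hh))
    ⟨by
      rw [injective_iff_map_eq_zero]
      intro x hx
      obtain ⟨h, rfl⟩ := kumMk_surjective x
      exact congrArg Additive.ofMul ((QuotientGroup.eq_one_iff h).mpr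
        ((torsHom_eq_one_iff h).mp (congrArg Multiplicative.ofAdd hx))),
    fun x => by
      obtain ⟨h, hh⟩ := torsHom_surjective (Multiplicative.ofAdd x)
      exact ⟨kumMk h, congrArg Multiplicative.toAdd hh⟩⟩

theorem natCard_kum : Nat.card (Kum M n) = Nat.card (Pic0.torsion Qbar (FF M) n) :=
  Nat.card_congr (kumTorsion M n).toEquiv

omit [NeZero n] in
/-- The Kummer map is bijective for prime powers, given the count of `Pic⁰[ℓᵏ]`. -/
theorem kummer_bijective (h5 : 5 ≤ M) (ℓ k : ℕ) [hℓ : Fact ℓ.Prime]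
    (hcount : Nat.card (Pic0.torsion Qbar (FF M) (ℓ ^ k)) = ℓ ^ (2 * genusFF Qbar (FF M) * k)) :
    haveI : NeZero (ℓ ^ k) := ⟨pow_ne_zero k hℓ.out.ne_zero⟩
    Function.Bijective (kummer M (ℓ ^ k)) := by
  have : NeZero (ℓ ^ k) := ⟨pow_ne_zero k hℓ.out.ne_zero⟩
  obtain ⟨hfin, hle⟩ := natCard_parHom_le h5 ℓ k
  have hc : Nat.card (Kum M (ℓ ^ k)) = ℓ ^ (2 * genusFF Qbar (FF M) * k) := natCard_kum.trans hcount
  refine (Function.Injective.bijective_of_nat_card_le kummer_injective ?_)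
  rw [hc]
  exact hle

omit [NeZero n] in
theorem finite_kum (h5 : 5 ≤ M) (ℓ k : ℕ) [hℓ : Fact ℓ.Prime] :
    Finite (Kum M (ℓ ^ k)) :=
  haveI : NeZero (ℓ ^ k) := ⟨pow_ne_zero k hℓ.out.ne_zero⟩
  haveI := (natCard_parHom_le h5 ℓ k).1
  Finite.of_injective _ kummer_injective

end FLTAgent.GammaH

end
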