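import Fermat.Agent.GammaH.Rep
import Fermat.Agent.GammaH.KummerBij
import Fermat.Agent.Jacobian.General

/-!
# Residual representations of weight two eigen systems on `Γ₁(M)` modulo `ℓ ∣ M`

`exists_residualRep`: a weight two eigen system modulo `ℓ ∣ M`, `ℓ ≥ 5`, has a residual
representation, unramified outside `M`, with the expected traces and determinants at Frobenius
elements.
-/

set_option autoImplicit false
set_option maxSynthPendingDepth 3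

noncomputable section

open UpperHalfPlane CongruenceSubgroup ModularCurve AlgebraicCurve
open scoped MatrixGroups ModularForm

namespace FLTAgent.GammaH

open FLTAgent.LevelM

local notation "Qbar" => AlgebraicClosure ℚ
local notation "Γℚ" => (AlgebraicClosure ℚ ≃ₐ[ℚ] AlgebraicClosure ℚ)

/-- The Kummer map is bijective for prime exponents. -/
theorem kummer_bijective_prime {M : ℕ} [NeZero M] [Fact (1 < M)] (h5 : 5 ≤ M) (ℓ : ℕ)
    [hℓ : Fact ℓ.Prime] [NeZero ℓ] :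
    Function.Bijective (kummer M ℓ) ∧ Finite (Kum M ℓ) := by
  have key : ∀ (n : ℕ) [NeZero n], n = ℓ ^ 1 →
      Function.Bijective (kummer M n) ∧ Finite (Kum M n) := by
    intro n _ hn
    subst hn
    refine ⟨kummer_bijective h5 ℓ 1 ?_, finite_kum h5 ℓ 1⟩
    have h := Jacobian.natCard_torsion Qbar (FF M) (n := ℓ ^ 1) (pow_ne_zero 1 hℓ.out.ne_zero)
    rw [pow_mul, pow_right_comm, ← h]
    exact Nat.card_congr (Equiv.subtypeEquivRight fun x => by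
      rw [Pic0.mem_torsion, natCast_zsmul])
  exact key ℓ (pow_one ℓ).symm

/-- Residual representations attached to weight two eigen systems modulo `ℓ`. -/
theorem exists_residualRep (M : ℕ) [NeZero M] (ℓ : ℕ) (hℓp : ℓ.Prime) (hℓ : 5 ≤ ℓ) (hℓM : ℓ ∣ M)
    (χ : DirichletCharacter ℂ M) (F : CuspForm (Gamma1 M) 2)
    (hchar : ∀ γ : SL(2, ℤ), γ ∈ Gamma0 M →
      (F : ℍ → ℂ) ∣[(2 : ℤ)] γ = χ ((γ 1 1 : ℤ) : ZMod M) • (F : ℍ → ℂ))
    (R : Subring ℂ) (hR : ∀ n, ModularFormClass.qCoeff F n ∈ R) (hχ : ∀ x, χ x ∈ R) {k : Type}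
    [Field k] [IsAlgClosed k] [CharP k ℓ] (φ : R →+* k) (h1 : φ ⟨_, hR 1⟩ = 1)
    (heig : ∀ p : ℕ, p.Prime → ¬ p ∣ M → ∀ n, φ ⟨_, hR (p * n)⟩
      + (p : k) * φ ⟨χ p, hχ _⟩ * (if p ∣ n then φ ⟨_, hR (n / p)⟩ else 0)
        = φ ⟨_, hR p⟩ * φ ⟨_, hR n⟩) :
    ∃ ρ : Γℚ →* GL (Fin 2) k, GaloisFactorsThroughFiniteLevel ρ ∧ ∀ p : ℕ, p.Prime → ¬ p ∣ M →
      ∀ A : ValuationSubring (AlgebraicClosure ℚ), A.LiesOverPrime p →
        (∀ σ ∈ A.inertiaSubgroupIn ℚ, ρ σ = 1) ∧ ∀ σ, A.IsFrobeniusAt σ p →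
          (ρ σ).val.trace = φ ⟨_, hR p⟩ ∧ (ρ σ).val.det = (p : k) * φ ⟨χ p, hχ _⟩ := by
  have h5 : 5 ≤ M := hℓ.trans (Nat.le_of_dvd (NeZero.pos M) hℓM)
  have : Fact (1 < M) := ⟨by omega⟩
  have : Fact ℓ.Prime := ⟨hℓp⟩
  have : NeZero ℓ := ⟨hℓp.ne_zero⟩
  obtain ⟨hbij, hfin⟩ := kummer_bijective_prime h5 ℓ (M := M)
  obtain ⟨c, hD⟩ := exists_perData χ F hchar
  let E : EigenInput M k :=
    ⟨χ, ModularFormClass.qCoeff F, c, hD, R, hR, hχ, φ, h1, heig⟩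
  refine E.exists_rep hbij hℓM ?_
  intro h2
  have h : ((2 : ℕ) : k) = 0 := by simpa using h2
  rw [CharP.cast_eq_zero_iff k ℓ] at h
  have := Nat.le_of_dvd two_pos h
  omega

end FLTAgent.GammaH

end
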