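import Fermat.Agent.ModularFF.Degree
import Fermat.Agent.LevelM.ModularRing
import Fermat.Agent.HeckeJacobian.HolRoot
import Fermat.Prelude.Def_ModularCurve_X0ModL
import Fermat.Prelude.Def_GaloisRep_ComplexConjugation

/-!
# The ring and field of modular functions on `Γ₁(M)` with algebraic expansion at `∞`

`modFun M` is the ring of holomorphic `Γ₁(M)`-invariant functions on `ℍ` which are meromorphic
at every cusp and have algebraic `q`-expansion at `∞`. Its expansion map `ser` embeds it into
`ℚ̄((q))`, where `FF M` is the field it generates (the function field of `X₁(M)` over `ℚ̄`);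
`jMod` and `jF` are `j` in the ring and in the field.
-/

set_option autoImplicit false

noncomputable section

open UpperHalfPlane Filter CongruenceSubgroup ModularCurve
open scoped Manifold MatrixGroups Topology

namespace FLTAgent.GammaH

open FLTAgent.LevelM FLTAgent.HeckeJacobian

local notation "Qbar" => AlgebraicClosure ℚ
local notation "𝕢" => Function.Periodic.qParam

/-- A fixed embedding of `ℚ̄` into `ℂ`. -/
def iotaC : Qbar →ₐ[ℚ] ℂ := complexEmbedding

theorem iotaC_injective : Function.Injective iotaC := (iotaC : Qbar →+* ℂ).injective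

/-- Coefficientwise embedding of series. -/
def liftC : LaurentSeries Qbar →+* LaurentSeries ℂ := coeffMap (iotaC : Qbar →+* ℂ)

@[simp] theorem liftC_coeff (s : LaurentSeries Qbar) (n : ℤ) :
    (liftC s).coeff n = iotaC (s.coeff n) := rfl

theorem liftC_injective : Function.Injective liftC := fun s t h => by
  ext n
  exact iotaC_injective (by simpa using congrArg (fun u => HahnSeries.coeff u n) h)

theorem liftC_single (k : ℤ) (c : Qbar) :
    liftC (HahnSeries.single k c) = HahnSeries.single k (iotaC c) := coeffMap_single _ _ _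

theorem liftC_C (c : Qbar) : liftC (HahnSeries.C c) = HahnSeries.C (iotaC c) := by
  rw [HahnSeries.C_apply, HahnSeries.C_apply, liftC_single]

/-- A series all whose coefficients are algebraic descends to `ℚ̄`. -/
theorem exists_liftC_eq {s : LaurentSeries ℂ} (h : ∀ n, ∃ c, iotaC c = s.coeff n) :
    ∃ t, liftC t = s := by
  choose c hc using h
  refine ⟨⟨c, s.isPWO_support'.mono fun n hn h0 => hn ?_⟩, by ext n; exact hc n⟩
  exact iotaC_injective (by rw [hc, map_zero]; exact h0)

theorem eq_of_hasExp {h : ℕ} {f g : ℍ → ℂ} (hf : MDiff f) (hg : MDiff g) {s : LaurentSeries ℂ}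
    (hfs : HasExp h f s) (hgs : HasExp h g s) : f = g := by
  have he : ∀ᶠ τ in atImInfty, f τ = g τ := (hfs.and hgs).mono fun _ h => h.1.unique h.2
  obtain ⟨T, hT⟩ := (UpperHalfPlane.atImInfty_mem _).mp he
  refine congrArg Subtype.val (Hol.eq_of_eqOn (f := ⟨f, hf⟩) (g := ⟨g, hg⟩)
    (U := {τ : ℍ | T < τ.im}) (isOpen_lt continuous_const continuous_im)
    ⟨⟨((|T| + 1 : ℝ) : ℂ) * Complex.I, by simp; positivity⟩, ?_⟩ fun τ hτ => hT τ (le_of_lt hτ))
  show T < ((((|T| + 1 : ℝ) : ℂ)) * Complex.I).im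
  simp only [Complex.mul_im, Complex.I_im, Complex.I_re, Complex.ofReal_re, Complex.ofReal_im]
  linarith [le_abs_self T]

/-- `f` has a Laurent expansion in `q = exp (2πiτ)` with algebraic coefficients. -/
def AlgExp (f : ℍ → ℂ) : Prop := ∃ t : LaurentSeries Qbar, HasExp 1 f (liftC t)

/-- Holomorphic functions invariant under `Γ₁(M)`, meromorphic at every cusp, with algebraic
expansion at `∞`. -/
def modFun (M : ℕ) : Subring (ℍ → ℂ) where
  carrier := {f | f ∈ modularRing (Gamma1 M) M ⊤ ∧ AlgExp f}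
  mul_mem' := fun ⟨a, s, hs⟩ ⟨b, t, ht⟩ => ⟨mul_mem a b, s * t, by rw [map_mul]; exact hs.mul ht⟩
  one_mem' := ⟨one_mem _, 1, by rw [map_one]; exact hasExp_one 1⟩
  add_mem' := fun ⟨a, s, hs⟩ ⟨b, t, ht⟩ => ⟨add_mem a b, s + t, by rw [map_add]; exact hs.add ht⟩
  zero_mem' := ⟨zero_mem _, 0, by rw [map_zero]; exact hasExp_zero 1⟩
  neg_mem' := fun ⟨a, s, hs⟩ => ⟨neg_mem a, -s, by rw [map_neg]; exact hs.neg⟩

variable {M : ℕ}

theorem mem_modFun {f : ℍ → ℂ} : f ∈ modFun M ↔
    MDiff f ∧ (∀ γ ∈ Gamma1 M, act γ f = f) ∧ (∀ γ, ∃ s, HasExp M (act γ f) s) ∧ AlgExp f := by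
  refine ⟨fun ⟨⟨h1, h2, h3⟩, h4⟩ => ⟨h1, h2, fun γ => ?_, h4⟩,
    fun ⟨h1, h2, h3, h4⟩ => ⟨⟨h1, h2, fun γ => ?_⟩, h4⟩⟩
  · obtain ⟨s, hs, -⟩ := intExp_iff.mp (h3 γ); exact ⟨s, hs⟩
  · obtain ⟨s, hs⟩ := h3 γ; exact intExp_iff.mpr ⟨s, hs, fun _ => trivial⟩

theorem modFun_mdiff (f : modFun M) : MDiff (f : ℍ → ℂ) := (mem_modFun.mp f.2).1

theorem modFun_act (f : modFun M) {γ : SL(2, ℤ)} (hγ : γ ∈ Gamma1 M) :
    act γ (f : ℍ → ℂ) = f := (mem_modFun.mp f.2).2.1 γ hγ

theorem modFun_exp (f : modFun M) (γ : SL(2, ℤ)) : ∃ s, HasExp M (act γ (f : ℍ → ℂ)) s :=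
  (mem_modFun.mp f.2).2.2.1 γ

theorem modFun_alg (f : modFun M) : AlgExp (f : ℍ → ℂ) := (mem_modFun.mp f.2).2.2.2

/-- A modular function as a holomorphic function. -/
def toHol : modFun M →+* Hol where
  toFun f := ⟨f, modFun_mdiff f⟩
  map_one' := rfl
  map_mul' _ _ := rfl
  map_zero' := rfl
  map_add' _ _ := rfl

@[simp] theorem coe_toHol (f : modFun M) : ((toHol f : Hol) : ℍ → ℂ) = f := rfl

theorem toHol_injective : Function.Injective (toHol : modFun M →+* Hol) := fun _ _ h =>
  Subtype.ext (congrArg (fun u : Hol => (u : ℍ → ℂ)) h)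

instance : IsDomain (modFun M) := toHol_injective.isDomain

/-- The expansion at `∞`. -/
def ser : modFun M →+* LaurentSeries Qbar where
  toFun f := (modFun_alg f).choose
  map_one' := liftC_injective ((modFun_alg (1 : modFun M)).choose_spec.unique one_pos
    (by rw [map_one]; exact hasExp_one 1))
  map_zero' := liftC_injective ((modFun_alg (0 : modFun M)).choose_spec.unique one_pos
    (by rw [map_zero]; exact hasExp_zero 1))
  map_mul' f g := liftC_injective ((modFun_alg (f * g)).choose_spec.unique one_pos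
    (by rw [map_mul]; exact (modFun_alg f).choose_spec.mul (modFun_alg g).choose_spec))
  map_add' f g := liftC_injective ((modFun_alg (f + g)).choose_spec.unique one_pos
    (by rw [map_add]; exact (modFun_alg f).choose_spec.add (modFun_alg g).choose_spec))

theorem hasExp_ser (f : modFun M) : HasExp 1 (f : ℍ → ℂ) (liftC (ser f)) :=
  (modFun_alg f).choose_spec

theorem ser_eq {f : modFun M} {t : LaurentSeries Qbar} (h : HasExp 1 (f : ℍ → ℂ) (liftC t)) :
    ser f = t := liftC_injective ((hasExp_ser f).unique one_pos h)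

theorem ser_injective : Function.Injective (ser : modFun M →+* LaurentSeries Qbar) := fun f g h =>
  Subtype.ext (eq_of_hasExp (modFun_mdiff f) (modFun_mdiff g) (hasExp_ser f) (h ▸ hasExp_ser g))

theorem ser_ne_zero {f : modFun M} (h : f ≠ 0) : ser f ≠ 0 := fun h0 =>
  h (ser_injective (h0.trans (map_zero ser).symm))

theorem const_mem (c : Qbar) : (fun _ : ℍ => iotaC c) ∈ modFun M :=
  mem_modFun.mpr ⟨mdifferentiable_const, fun _ _ => rfl, fun _ => ⟨_, hasExp_C M _⟩,
    HahnSeries.C c, by rw [liftC_C]; exact hasExp_C 1 _⟩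

/-- Constant functions. -/
def constHom : Qbar →+* modFun M where
  toFun c := ⟨fun _ => iotaC c, const_mem c⟩
  map_one' := Subtype.ext (funext fun _ => map_one iotaC)
  map_mul' a b := Subtype.ext (funext fun _ => map_mul iotaC a b)
  map_zero' := Subtype.ext (funext fun _ => map_zero iotaC)
  map_add' a b := Subtype.ext (funext fun _ => map_add iotaC a b)

@[simp] theorem coe_constHom (c : Qbar) (τ : ℍ) :
    ((constHom c : modFun M) : ℍ → ℂ) τ = iotaC c := rfl

theorem ser_constHom (c : Qbar) :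
    ser (constHom (M := M) c) = algebraMap Qbar (LaurentSeries Qbar) c := by
  refine ser_eq ?_
  rw [algebraMap_laurentSeries_eq_single, ← HahnSeries.C_apply, liftC_C]
  exact hasExp_C 1 _

instance : Algebra Qbar (modFun M) := (constHom (M := M)).toAlgebra

theorem algebraMap_modFun (c : Qbar) : algebraMap Qbar (modFun M) c = constHom c := rfl

/-- The expansion as an algebra map. -/
def serAlg : modFun M →ₐ[Qbar] LaurentSeries Qbar :=
  { ser with commutes' := fun c => ser_constHom c }

@[simp] theorem serAlg_apply (f : modFun M) : serAlg f = ser f := rfl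

variable (M) in
/-- The function field of `X₁(M)` over `ℚ̄`, inside `ℚ̄((q))`. -/
def FF : IntermediateField Qbar (LaurentSeries Qbar) :=
  IntermediateField.adjoin Qbar (Set.range (ser : modFun M → LaurentSeries Qbar))

theorem ser_mem (f : modFun M) : ser f ∈ FF M := IntermediateField.subset_adjoin _ _ ⟨f, rfl⟩

theorem mem_FF_iff {x : LaurentSeries Qbar} :
    x ∈ FF M ↔ ∃ f g : modFun M, g ≠ 0 ∧ x = ser f / ser g := by
  refine ⟨fun hx => ?_, ?_⟩
  · obtain ⟨a, ha, b, hb, rfl⟩ := IntermediateField.mem_adjoin_iff_div.mp hx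
    have hle : Algebra.adjoin Qbar (Set.range (ser : modFun M → LaurentSeries Qbar)) ≤
        (serAlg (M := M)).range := Algebra.adjoin_le (by rintro _ ⟨f, rfl⟩; exact ⟨f, rfl⟩)
    obtain ⟨f, rfl⟩ := hle ha
    obtain ⟨g, rfl⟩ := hle hb
    rcases eq_or_ne g 0 with rfl | hg
    · exact ⟨0, 1, one_ne_zero, by simp⟩
    · exact ⟨f, g, hg, rfl⟩
  · rintro ⟨f, g, -, rfl⟩
    exact div_mem (ser_mem f) (ser_mem g)

/-- A modular function as an element of the field. -/
def toFF : modFun M →ₐ[Qbar] FF M := serAlg.codRestrict (FF M).toSubalgebra ser_mem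

@[simp] theorem coe_toFF (f : modFun M) : (toFF f : LaurentSeries Qbar) = ser f := rfl

theorem toFF_injective : Function.Injective (toFF : modFun M →ₐ[Qbar] FF M) := fun _ _ h =>
  ser_injective (congrArg Subtype.val h)

theorem toFF_ne_zero {f : modFun M} (h : f ≠ 0) : toFF f ≠ 0 := fun h0 =>
  h (toFF_injective (h0.trans (map_zero toFF).symm))

theorem exists_eq_div (x : FF M) : ∃ f g : modFun M, g ≠ 0 ∧ x = toFF f / toFF g := by
  obtain ⟨f, g, hg, h⟩ := mem_FF_iff.mp x.2
  exact ⟨f, g, hg, Subtype.ext (by simpa using h)⟩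

/-- The expansion of `j`. -/
theorem hasExp_jFun : HasExp 1 ModularFF.jFun (liftC (jqModC Qbar)) := by
  have h1 : HasExp 1 ModularFF.jFun (jqModC ℂ) := by
    obtain ⟨n, P, hP, hsum⟩ := ModularFF.hasLaurent_jFun
    have hPs : HasExp 1 (fun τ => 𝕢 1 τ ^ (n : ℤ) * ModularFF.jFun τ)
        (HahnSeries.single (n : ℤ) 1 * jqModC ℂ) := by
      rw [← hP]
      refine Eventually.of_forall fun τ => ?_
      have hinj : Function.Injective (Nat.cast : ℕ → ℤ) := Nat.cast_injective
      simp only [Nat.cast_one, zpow_natCast]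
      refine (hinj.hasSum_iff ?_).mp ?_
      · intro k hk
        rw [ModularCurve.ofPowerSeries_coeff_of_neg, zero_mul]
        by_contra h
        exact hk ⟨k.toNat, Int.toNat_of_nonneg (not_lt.mp h)⟩
      · simpa [Function.comp_def, HahnSeries.ofPowerSeries_apply_coeff] using hsum τ
    have hq : HasExp 1 (fun τ => 1 * 𝕢 ((1 : ℕ) : ℝ) τ ^ (-(n : ℤ)))
        (HahnSeries.single (-(n : ℤ)) (1 : ℂ)) := hasExp_single 1 _ 1
    have := hq.mul hPs
    rw [← mul_assoc, HahnSeries.single_mul_single, neg_add_cancel, one_mul,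
      HahnSeries.single_zero_one, one_mul] at this
    refine this.congr (Eventually.of_forall fun τ => ?_)
    simp only [Pi.mul_apply, Nat.cast_one, one_mul]
    have hne : 𝕢 1 (τ : ℂ) ≠ 0 := Complex.exp_ne_zero _
    rw [← mul_assoc, zpow_neg, inv_mul_cancel₀ (zpow_ne_zero _ hne), one_mul]
  rwa [liftC, coeffMap_jqModC]

/-- `j` is a modular function of every level. -/
theorem jFun_mem [NeZero M] : ModularFF.jFun ∈ modFun M := by
  have h1 := hasExp_jFun
  have hinv : ∀ γ : SL(2, ℤ), act γ ModularFF.jFun = ModularFF.jFun := fun γ =>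
    funext fun τ => ModularFF.jFun_smul γ τ
  refine mem_modFun.mpr ⟨ModularFF.mdiff_jFun, fun γ _ => hinv γ, fun γ => ?_, jqModC Qbar, h1⟩
  rw [hinv]
  have := h1.qExpand M
  rw [mul_one] at this
  exact ⟨_, this⟩

variable (M) in
/-- `j` as a modular function. -/
def jMod [NeZero M] : modFun M := ⟨ModularFF.jFun, jFun_mem⟩

@[simp] theorem coe_jMod [NeZero M] : (jMod M : ℍ → ℂ) = ModularFF.jFun := rfl

variable (M) in
/-- `j` in the field. -/
def jF [NeZero M] : FF M := toFF (jMod M)

end FLTAgent.GammaH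

end
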