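import Fermat.Agent.GammaH.HeckeCommute
import Mathlib.Algebra.FreeAlgebra

/-!
# The free Hecke algebra and its actions on homomorphisms and on `V_n(M)`

`HAlg M` is the free algebra on the `T_p` and `⟨d⟩`; `actHom` and `actKum` are its actions on
homomorphisms and on `V_n(M)`. The Kummer map intertwines them, the operators on `V_n(M)`
commute, and they commute with Galois.
-/

set_option autoImplicit false
set_option maxSynthPendingDepth 3

noncomputable section

open UpperHalfPlane CongruenceSubgroup ModularCurve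
open scoped MatrixGroups

namespace FLTAgent.GammaH

open FLTAgent.LevelM

/-- Labels of the operators `T_p` (`p ∤ M`) and `⟨d⟩`. -/
abbrev HeckeIdx (M : ℕ) : Type := {p : ℕ // p.Prime ∧ ¬ p ∣ M} ⊕ ↥(Gamma0 M)

/-- The free algebra on the operators. -/
abbrev HAlg (M : ℕ) : Type := FreeAlgebra ℤ (HeckeIdx M)

variable {M : ℕ} [NeZero M]

/-- The representatives of an operator. -/
def heckeRep : HeckeIdx M → HeckeReps M M
  | .inl p => tRep p.1 p.2.1 p.2.2
  | .inr σ => dRep σ.1 σ.2

/-- An operator on homomorphisms, as an endomorphism. -/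
def homEnd (A : Type*) [AddCommGroup A] (i : HeckeIdx M) :
    AddMonoid.End (Additive (Gamma1 M) →+ A) :=
  (heckeRep i).homT A

/-- The action on homomorphisms. -/
def actHom (A : Type*) [AddCommGroup A] :
    HAlg M →ₐ[ℤ] AddMonoid.End (Additive (Gamma1 M) →+ A) :=
  FreeAlgebra.lift ℤ (homEnd A)

omit [NeZero M] in
@[simp] theorem actHom_ι (A : Type*) [AddCommGroup A] (i : HeckeIdx M)
    (c : Additive (Gamma1 M) →+ A) :
    actHom A (FreeAlgebra.ι ℤ i) c = (heckeRep i).homT A c := by
  rw [actHom, FreeAlgebra.lift_ι_apply]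
  rfl

omit [NeZero M] in
theorem actHom_algebraMap (A : Type*) [AddCommGroup A] (z : ℤ) (c : Additive (Gamma1 M) →+ A) :
    actHom A (algebraMap ℤ (HAlg M) z) c = z • c := by
  rw [AlgHom.commutes, algebraMap_int_eq, eq_intCast, AddMonoid.End.intCast_apply]

omit [NeZero M] in
theorem actHom_mul (A : Type*) [AddCommGroup A] (s t : HAlg M) (c : Additive (Gamma1 M) →+ A) :
    actHom A (s * t) c = actHom A s (actHom A t c) :=
  DFunLike.congr_fun ((actHom A).map_mul' s t) c

omit [NeZero M] in
theorem actHom_add (A : Type*) [AddCommGroup A] (s t : HAlg M) (c : Additive (Gamma1 M) →+ A) :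
    actHom A (s + t) c = actHom A s c + actHom A t c :=
  DFunLike.congr_fun ((actHom A).map_add' s t) c

omit [NeZero M] in
/-- The action is natural in the coefficients. -/
theorem actHom_comp {A B : Type*} [AddCommGroup A] [AddCommGroup B] (f : A →+ B) (t : HAlg M) :
    ∀ c : Additive (Gamma1 M) →+ A, actHom B t (f.comp c) = f.comp (actHom A t c) := by
  induction t using FreeAlgebra.induction with
  | grade0 z =>
    intro c
    rw [actHom_algebraMap, actHom_algebraMap]
    exact AddMonoidHom.ext fun x => (map_zsmul f z (c x)).symm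
  | grade1 i => intro c; rw [actHom_ι, actHom_ι, HeckeReps.homT_comp]
  | mul s t hs ht =>
    intro c
    rw [actHom_mul, actHom_mul, ht, hs]
  | add s t hs ht =>
    intro c
    rw [actHom_add, actHom_add, hs, ht, AddMonoidHom.comp_add]

variable [Fact (1 < M)] {n : ℕ} [NeZero n] (hsurj : Function.Surjective (kummer M n))

/-- An operator on `V_n(M)`, as an endomorphism. -/
def kumEnd (i : HeckeIdx M) : AddMonoid.End (Kum M n) :=
  (heckeRep i).kumT hsurj

/-- The action on `V_n(M)`. -/
def actKum : HAlg M →ₐ[ℤ] AddMonoid.End (Kum M n) :=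
  FreeAlgebra.lift ℤ (kumEnd hsurj)

@[simp] theorem actKum_ι (i : HeckeIdx M) (x : Kum M n) :
    actKum hsurj (FreeAlgebra.ι ℤ i) x = (heckeRep i).kumT hsurj x := by
  rw [actKum, FreeAlgebra.lift_ι_apply]
  rfl

theorem actKum_algebraMap (z : ℤ) (x : Kum M n) :
    actKum hsurj (algebraMap ℤ (HAlg M) z) x = z • x := by
  rw [AlgHom.commutes, algebraMap_int_eq, eq_intCast, AddMonoid.End.intCast_apply]

theorem kummer_add (x y : Kum M n) :
    kummer M n (x + y) = kummer M n x + kummer M n y := (kummer M n).map_add' x y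

omit [NeZero n] in
theorem galKum_add (g : AlgebraicClosure ℚ ≃ₐ[ℚ] AlgebraicClosure ℚ) (x y : Kum M n) :
    galKum n g (x + y) = galKum n g x + galKum n g y := (galKum n g).map_add' x y

theorem actKum_mul (s t : HAlg M) (x : Kum M n) :
    actKum hsurj (s * t) x = actKum hsurj s (actKum hsurj t x) :=
  DFunLike.congr_fun ((actKum hsurj).map_mul' s t) x

theorem actKum_add (s t : HAlg M) (x : Kum M n) :
    actKum hsurj (s + t) x = actKum hsurj s x + actKum hsurj t x :=
  DFunLike.congr_fun ((actKum hsurj).map_add' s t) x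

/-- The Kummer map intertwines the two actions. -/
theorem kummer_actKum (t : HAlg M) :
    ∀ x : Kum M n, ((kummer M n (actKum hsurj t x) : ParHom M n) : Additive (Gamma1 M) →+ ZMod n)
      = actHom (ZMod n) t (kummer M n x).1 := by
  induction t using FreeAlgebra.induction with
  | grade0 z =>
    intro x
    rw [actKum_algebraMap, map_zsmul, actHom_algebraMap]
    rfl
  | grade1 i =>
    intro x
    rw [actKum_ι, HeckeReps.kummer_kumT, actHom_ι]
    rfl
  | mul s t hs ht =>
    intro x
    rw [actKum_mul, actHom_mul, hs, ht]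
  | add s t hs ht =>
    intro x
    rw [actKum_add, actHom_add]
    exact (congrArg Subtype.val (kummer_add (actKum hsurj s x) (actKum hsurj t x))).trans
      (congrArg₂ (· + ·) (hs x) (ht x))

theorem actKum_commute_ι (i j : HeckeIdx M) (x : Kum M n) :
    actKum hsurj (FreeAlgebra.ι ℤ i) (actKum hsurj (FreeAlgebra.ι ℤ j) x)
      = actKum hsurj (FreeAlgebra.ι ℤ j) (actKum hsurj (FreeAlgebra.ι ℤ i) x) := by
  simp only [actKum_ι]
  rcases i with ⟨p, hp, hpM⟩ | ⟨σ, hσ⟩ <;> rcases j with ⟨q, hq, hqM⟩ | ⟨τ, hτ⟩
  · have : NeZero p := ⟨hp.ne_zero⟩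
    have : NeZero q := ⟨hq.ne_zero⟩
    exact kumT_tRep_comm hp hpM hq hqM hsurj x
  · exact kumT_tRep_dRep hp hpM hsurj τ hτ x
  · exact (kumT_tRep_dRep hq hqM hsurj σ hσ x).symm
  · exact kumT_dRep_comm hsurj σ τ hσ hτ x

/-- The operators on `V_n(M)` commute. -/
theorem actKum_commute (s t : HAlg M) : Commute (actKum hsurj s) (actKum hsurj t) := by
  induction s using FreeAlgebra.induction with
  | grade0 z => rw [AlgHom.commutes]; exact Algebra.commutes z _
  | grade1 i =>
    induction t using FreeAlgebra.induction with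
    | grade0 z => rw [AlgHom.commutes]; exact (Algebra.commutes z _).symm
    | grade1 j => exact AddMonoidHom.ext fun x => actKum_commute_ι hsurj i j x
    | mul a b ha hb => rw [map_mul]; exact ha.mul_right hb
    | add a b ha hb => rw [map_add]; exact ha.add_right hb
  | mul a b ha hb => rw [map_mul]; exact ha.mul_left hb
  | add a b ha hb => rw [map_add]; exact ha.add_left hb

/-- Galois commutes with the operators. -/
theorem galKum_actKum (g : AlgebraicClosure ℚ ≃ₐ[ℚ] AlgebraicClosure ℚ) (t : HAlg M) :
    ∀ x : Kum M n, galKum n g (actKum hsurj t x) = actKum hsurj t (galKum n g x) := by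
  induction t using FreeAlgebra.induction with
  | grade0 z =>
    intro x
    rw [actKum_algebraMap, actKum_algebraMap, map_zsmul]
  | grade1 i =>
    intro x
    rw [actKum_ι, actKum_ι]
    rcases i with ⟨p, hp, hpM⟩ | ⟨σ, hσ⟩
    · have : NeZero p := ⟨hp.ne_zero⟩
      exact galKum_kumT_tRep hp hpM hsurj g x
    · exact galKum_kumT_dRep hsurj σ hσ g x
  | mul s t hs ht =>
    intro x
    exact (congrArg (fun y : Kum M n => galKum n g y) (actKum_mul hsurj s t x)).trans
      (((hs _).trans (congrArg (actKum hsurj s) (ht x))).trans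
        (actKum_mul hsurj s t (galKum n g x)).symm)
  | add s t hs ht =>
    intro x
    refine (congrArg (fun y : Kum M n => galKum n g y) (actKum_add hsurj s t x)).trans ?_
    refine Eq.trans ?_ (actKum_add hsurj s t (galKum n g x)).symm
    exact (galKum_add g (actKum hsurj s x) (actKum hsurj t x)).trans
      (congrArg₂ (· + ·) (hs x) (ht x))

end FLTAgent.GammaH

end
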