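import Fermat.Agent.GammaH.HeckeForms
import Fermat.Agent.GammaH.HeckeAction
import Mathlib.RingTheory.Polynomial.ScaleRoots
import Mathlib.LinearAlgebra.FreeModule.PID

/-!
# An eigen system modulo `ℓ` is supported on `V_ℓ(M)`

An `EigenInput` is a weight two eigen system modulo `ℓ` given by period data; `theta` is its
character of the free Hecke algebra. An operator killing the lattice of parabolic homomorphisms,
or killing `V_ℓ(M)` when the Kummer map is bijective, is killed by `theta`.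
-/

set_option autoImplicit false
set_option maxSynthPendingDepth 3

noncomputable section

open UpperHalfPlane CongruenceSubgroup ModularCurve Polynomial
open scoped MatrixGroups ModularForm

namespace FLTAgent.GammaH

open FLTAgent.LevelM

/-- A weight two eigen system modulo a prime, given by period data. -/
structure EigenInput (M : ℕ) (k : Type) [Field k] where
  χ : DirichletCharacter ℂ M
  a : ℕ → ℂ
  c : Additive (Gamma1 M) →+ ℂ
  data : Nonempty (PerData M (chiZ χ) a c)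
  R : Subring ℂ
  hR : ∀ n, a n ∈ R
  hχ : ∀ x, χ x ∈ R
  φ : R →+* k
  h1 : φ ⟨_, hR 1⟩ = 1
  heig : ∀ p : ℕ, p.Prime → ¬ p ∣ M → ∀ n, φ ⟨_, hR (p * n)⟩
    + (p : k) * φ ⟨χ p, hχ _⟩ * (if p ∣ n then φ ⟨_, hR (n / p)⟩ else 0)
      = φ ⟨_, hR p⟩ * φ ⟨_, hR n⟩

theorem gamma1_fg (M : ℕ) [NeZero M] : Group.FG (Gamma1 M) := by
  have : Group.FG SL(2, ℤ) :=
    ⟨⟨{ModularGroup.S, ModularGroup.T}, by
      rw [Finset.coe_insert, Finset.coe_singleton]
      exact SpecialLinearGroup.SL2Z_generators⟩⟩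
  infer_instance

variable {M : ℕ} [NeZero M]

/-- Parabolic homomorphisms to `ℤ`. -/
abbrev ParLattice (M : ℕ) : Submodule ℤ (Additive (Gamma1 M) →+ ℤ) :=
  Period.parabolicHoms ℤ (Gamma1 M) ℤ

instance finite_parLattice : Module.Finite ℤ (ParLattice M) := by
  have := gamma1_fg M
  obtain ⟨S, hS⟩ := (AddGroup.fg_def).mp (inferInstance : AddGroup.FG (Additive (Gamma1 M)))
  let ev : ParLattice M →ₗ[ℤ] (S → ℤ) :=
    { toFun := fun c s => c.1 s.1
      map_add' := fun _ _ => rfl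
      map_smul' := fun _ _ => rfl }
  refine Module.Finite.of_injective ev fun c d h => Subtype.ext ?_
  exact AddMonoidHom.eq_of_eqOn_dense hS fun s hs => congrFun h ⟨s, hs⟩

/-- The action on the lattice. -/
def actLat : HAlg M →ₐ[ℤ] Module.End ℤ (ParLattice M) :=
  FreeAlgebra.lift ℤ fun i =>
    (AddMonoidHom.mk' (fun c : ParLattice M =>
      (⟨(heckeRep i).homT ℤ c.1, (heckeRep i).homT_parabolic c.2⟩ : ParLattice M))
      (fun _ _ => Subtype.ext (map_add _ _ _))).toIntLinearMap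

omit [NeZero M] in
theorem coe_actLat (t : HAlg M) :
    ∀ c : ParLattice M, (actLat t c).1 = actHom ℤ t c.1 := by
  induction t using FreeAlgebra.induction with
  | grade0 z =>
    intro c
    rw [actHom_algebraMap, AlgHom.commutes, Module.algebraMap_end_apply]
    rfl
  | grade1 i =>
    intro c
    rw [actHom_ι, actLat, FreeAlgebra.lift_ι_apply]
    rfl
  | mul s t hs ht =>
    intro c
    rw [map_mul, map_mul, Module.End.mul_apply, AddMonoid.End.coe_mul, Function.comp_apply, hs, ht]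
  | add s t hs ht =>
    intro c
    rw [map_add, map_add, LinearMap.add_apply, Submodule.coe_add, hs, ht]
    rfl

namespace EigenInput

variable {k : Type} [Field k] (E : EigenInput M k)

/-- The eigen character on the generators. -/
def eigVal : HeckeIdx M → k
  | .inl p => E.φ ⟨_, E.hR p.1⟩
  | .inr σ => E.φ ⟨chiZ E.χ ((σ : SL(2, ℤ)) 1 1), E.hχ _⟩

/-- The eigen character. -/
def theta : HAlg M →ₐ[ℤ] k := FreeAlgebra.lift ℤ E.eigVal

omit [NeZero M] in
theorem theta_T {p : ℕ} (hp : p.Prime) (hpM : ¬ p ∣ M) :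
    E.theta (FreeAlgebra.ι ℤ (Sum.inl ⟨p, hp, hpM⟩)) = E.φ ⟨_, E.hR p⟩ := by
  rw [theta, FreeAlgebra.lift_ι_apply]
  rfl

omit [NeZero M] in
theorem theta_D (σ : SL(2, ℤ)) (hσ : σ ∈ Gamma0 M) :
    E.theta (FreeAlgebra.ι ℤ (Sum.inr ⟨σ, hσ⟩))
      = E.φ ⟨E.χ ((σ 1 1 : ℤ) : ZMod M), E.hχ _⟩ := by
  rw [theta, FreeAlgebra.lift_ι_apply]
  rfl

omit [NeZero M] in
/-- Operators act on period data through the eigen character, modulo `ℓ`. -/
theorem exists_transform (t : HAlg M) :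
    ∀ {a : ℕ → ℂ} {c : Additive (Gamma1 M) →+ ℂ} (_ : PerData M (chiZ E.χ) a c)
      (ha : ∀ n, a n ∈ E.R) (lam : k), (∀ n, E.φ ⟨_, ha n⟩ = lam * E.φ ⟨_, E.hR n⟩) →
      ∃ a' : ℕ → ℂ, Nonempty (PerData M (chiZ E.χ) a' (actHom ℂ t c)) ∧
        ∃ ha' : ∀ n, a' n ∈ E.R, ∀ n, E.φ ⟨_, ha' n⟩ = E.theta t * lam * E.φ ⟨_, E.hR n⟩ := by
  induction t using FreeAlgebra.induction with
  | grade0 z =>
    intro a c D ha lam hlam
    refine ⟨(z : ℂ) • a, ⟨(D.smul (z : ℂ)).copy rfl ?_⟩,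
      fun n => mul_mem (intCast_mem _ z) (ha n), fun n => ?_⟩
    · rw [actHom_algebraMap]
      exact AddMonoidHom.ext fun x => zsmul_eq_mul (c x) z
    · rw [show (⟨((z : ℂ) • a) n, mul_mem (intCast_mem _ z) (ha n)⟩ : E.R)
          = (z : E.R) * ⟨a n, ha n⟩ from Subtype.ext (by simp),
        map_mul, map_intCast, hlam, AlgHom.commutes, algebraMap_int_eq, eq_intCast, mul_assoc]
  | grade1 i =>
    intro a c D ha lam hlam
    rcases i with ⟨p, hp, hpM⟩ | ⟨σ, hσ⟩
    · have : NeZero p := ⟨hp.ne_zero⟩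
      have hmem : ∀ n, a (p * n)
          + (p : ℂ) * E.χ (p : ZMod M) * (if p ∣ n then a (n / p) else 0) ∈ E.R := fun n => by
        refine add_mem (ha _) (mul_mem (mul_mem (natCast_mem _ p) (E.hχ _)) ?_)
        split_ifs
        exacts [ha _, zero_mem _]
      refine ⟨_, ⟨(D.tData hp hpM).copy rfl (by rw [actHom_ι]; rfl)⟩, hmem, fun n => ?_⟩
      have e : E.φ ⟨_, hmem n⟩ = E.φ ⟨_, ha (p * n)⟩
          + (p : k) * E.φ ⟨E.χ p, E.hχ _⟩ * (if p ∣ n then E.φ ⟨_, ha (n / p)⟩ else 0) := by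
        split_ifs with h
        · rw [← map_natCast E.φ, ← map_mul, ← map_mul, ← map_add]
          exact congrArg E.φ (Subtype.ext (by simp))
        · conv_rhs => rw [mul_zero, add_zero]
          exact congrArg E.φ (Subtype.ext (by simp))
      rw [e, E.theta_T hp hpM, hlam, hlam]
      split_ifs with h
      · have h2 := E.heig p hp hpM n
        rw [if_pos h] at h2
        linear_combination lam * h2
      · have h2 := E.heig p hp hpM n
        rw [if_neg h] at h2
        linear_combination lam * h2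
    · have hmem : ∀ n, (chiZ E.χ (σ 1 1) • a) n ∈ E.R := fun n => mul_mem (E.hχ _) (ha n)
      refine ⟨_, ⟨(D.dData σ hσ).copy rfl (by rw [actHom_ι]; rfl)⟩, hmem, fun n => ?_⟩
      rw [show (⟨(chiZ E.χ (σ 1 1) • a) n, hmem n⟩ : E.R)
          = ⟨E.χ ((σ 1 1 : ℤ) : ZMod M), E.hχ _⟩ * ⟨a n, ha n⟩ from rfl,
        map_mul, hlam, E.theta_D σ hσ, mul_assoc]
  | mul s t hs ht =>
    intro a c D ha lam hlam
    obtain ⟨a₁, ⟨D₁⟩, ha₁, h₁⟩ := ht D ha lam hlam
    obtain ⟨a₂, ⟨D₂⟩, ha₂, h₂⟩ := hs D₁ ha₁ _ h₁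
    refine ⟨a₂, ⟨D₂.copy rfl (by rw [map_mul]; rfl)⟩, ha₂, fun n => ?_⟩
    rw [h₂, map_mul]
    ring
  | add s t hs ht =>
    intro a c D ha lam hlam
    obtain ⟨a₁, ⟨D₁⟩, ha₁, h₁⟩ := ht D ha lam hlam
    obtain ⟨a₂, ⟨D₂⟩, ha₂, h₂⟩ := hs D ha lam hlam
    refine ⟨a₂ + a₁, ⟨(D₂.add D₁).copy rfl (by rw [map_add]; rfl)⟩,
      fun n => add_mem (ha₂ n) (ha₁ n), fun n => ?_⟩
    rw [show (⟨(a₂ + a₁) n, add_mem (ha₂ n) (ha₁ n)⟩ : E.R) =
      ⟨a₂ n, ha₂ n⟩ + ⟨a₁ n, ha₁ n⟩ from rfl,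
      map_add, h₁, h₂, map_add]
    ring

/-- An operator killing all integral parabolic homomorphisms is killed by the eigen character. -/
theorem theta_eq_zero_of_actLat {t : HAlg M} (ht : actLat t = 0) : E.theta t = 0 := by
  obtain ⟨D⟩ := E.data
  have := gamma1_fg M
  let S : Submodule ℤ ℂ := AddSubgroup.toIntSubmodule E.c.range
  have : Module.Finite ℤ S := by
    rw [Module.Finite.iff_addGroup_fg]
    exact AddGroup.fg_of_surjective (f := E.c.rangeRestrict)
      (AddMonoidHom.rangeRestrict_surjective _)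
  let c' : Additive (Gamma1 M) →+ S := E.c.rangeRestrict
  let b := Module.Free.chooseBasis ℤ S
  have hzero : actHom S t c' = 0 := by
    refine AddMonoidHom.ext fun x => b.ext_elem fun i => ?_
    let π : S →+ ℤ := (b.coord i).toAddMonoidHom
    have hπ : Period.IsParabolicHom (Gamma1 M) (π.comp c') := fun γ hγ => by
      have h : c' (Additive.ofMul γ) = 0 := Subtype.ext (D.parabolic γ hγ)
      rw [AddMonoidHom.comp_apply, h, map_zero]
    have h := coe_actLat t ⟨π.comp c', hπ⟩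
    rw [ht, actHom_comp π t c'] at h
    have h' := DFunLike.congr_fun h x
    simpa [π] using h'.symm
  have hc : actHom ℂ t E.c = 0 := by
    have h : E.c = (S.subtype.toAddMonoidHom).comp c' := AddMonoidHom.ext fun x => rfl
    rw [h, actHom_comp, hzero, AddMonoidHom.comp_zero]
  obtain ⟨a', ⟨D'⟩, ha', h'⟩ := E.exists_transform t D E.hR 1 (fun n => by rw [one_mul])
  have h := h' 1
  rw [mul_one, E.h1, mul_one] at h
  rw [← h, show (⟨a' 1, ha' 1⟩ : E.R) = 0 from Subtype.ext (D'.coeff_eq_zero hc 1), map_zero]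

variable [Fact (1 < M)] {ℓ : ℕ} [NeZero ℓ] [CharP k ℓ]

/-- An operator killing `V_ℓ(M)` is killed by the eigen character. -/
theorem theta_eq_zero_of_actKum (hbij : Function.Bijective (kummer M ℓ)) {t : HAlg M}
    (ht : actKum hbij.surjective t = 0) : E.theta t = 0 := by
  have hdiv : ∀ (c : ParLattice M) (x : Additive (Gamma1 M)), (ℓ : ℤ) ∣ (actLat t c).1 x := by
    intro c x
    have hpar : Period.IsParabolicHom (Gamma1 M) ((Int.castAddHom (ZMod ℓ)).comp c.1) :=
      fun γ hγ => by rw [AddMonoidHom.comp_apply, c.2 γ hγ, map_zero]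
    obtain ⟨y, hy⟩ := hbij.surjective ⟨_, hpar⟩
    have h := kummer_actKum hbij.surjective t y
    rw [ht, hy, AddMonoid.End.zero_apply, map_zero, actHom_comp (Int.castAddHom (ZMod ℓ)) t c.1,
      ← coe_actLat] at h
    exact (ZMod.intCast_zmod_eq_zero_iff_dvd _ _).mp (DFunLike.congr_fun h x).symm
  have hℓ0 : (ℓ : ℤ) ≠ 0 := Int.natCast_ne_zero.mpr (NeZero.ne ℓ)
  have hex : ∀ c : ParLattice M, ∃ d : ParLattice M, actLat t c = (ℓ : ℤ) • d := fun c => by
    refine ⟨⟨AddMonoidHom.mk' (fun x => (actLat t c).1 x / (ℓ : ℤ)) fun x y => ?_, fun γ hγ => ?_⟩,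
      Subtype.ext (AddMonoidHom.ext fun x => ?_)⟩
    · rw [map_add, Int.add_ediv_of_dvd_left (hdiv c x)]
    · show (actLat t c).1 _ / (ℓ : ℤ) = 0
      rw [(actLat t c).2 γ hγ, Int.zero_ediv]
    · exact (Int.mul_ediv_cancel' (hdiv c x)).symm
  choose g hg using hex
  have hinj : ∀ {d d' : ParLattice M}, (ℓ : ℤ) • d = (ℓ : ℤ) • d' → d = d' := fun {d d'} h =>
    Subtype.ext (AddMonoidHom.ext fun x =>
      mul_left_cancel₀ hℓ0 (DFunLike.congr_fun (congrArg Subtype.val h) x))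
  let G : Module.End ℤ (ParLattice M) :=
    (AddMonoidHom.mk' g fun c c' => hinj (by rw [← hg, map_add, hg, hg, smul_add])).toIntLinearMap
  obtain ⟨P, hP, hP0⟩ := Algebra.IsIntegral.isIntegral (R := ℤ) G
  have hscale : aeval (algebraMap ℤ (Module.End ℤ (ParLattice M)) (ℓ : ℤ) * G)
      (scaleRoots P (ℓ : ℤ)) = 0 := scaleRoots_aeval_eq_zero hP0
  have hG : algebraMap ℤ (Module.End ℤ (ParLattice M)) (ℓ : ℤ) * G = actLat t :=
    LinearMap.ext fun c => by
      rw [Module.End.mul_apply, Module.algebraMap_end_apply]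
      exact (hg c).symm
  rw [hG, aeval_algHom_apply] at hscale
  have h := E.theta_eq_zero_of_actLat hscale
  rw [← aeval_algHom_apply, aeval_eq_sum_range, natDegree_scaleRoots, Finset.sum_range_succ,
    Finset.sum_eq_zero fun i hi => ?_, zero_add, coeff_scaleRoots_natDegree, hP.leadingCoeff,
    one_smul] at h
  · exact eq_zero_of_pow_eq_zero h
  · rw [coeff_scaleRoots, zsmul_eq_mul, Int.cast_mul, Int.cast_pow, Int.cast_natCast,
      CharP.cast_eq_zero k ℓ, zero_pow (Nat.sub_ne_zero_of_lt (Finset.mem_range.mp hi)), mul_zero,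
      zero_mul]

end EigenInput

end FLTAgent.GammaH

end
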