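import Fermat.Agent.GammaH.HeckeKummer
import Fermat.Agent.Periods.Primitive
import Mathlib.NumberTheory.ModularForms.NormTrace

/-!
# Weight two forms through their expansions, primitives and periods, with Hecke operators

`PerData M ch a c` is a form of weight two with expansion `a`, a primitive and periods `c`.
Vanishing periods force all coefficients to vanish (`coeff_eq_zero`), and a system of
representatives acts on period data through the transfer of the periods (`hecke`).
-/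

set_option autoImplicit false

noncomputable section

open UpperHalfPlane Filter CongruenceSubgroup ModularCurve
open scoped Manifold MatrixGroups Topology ModularForm

namespace FLTAgent.GammaH

open FLTAgent.LevelM FLTAgent.HeckeJacobian FLTAgent.Periods

local notation "Mat" => Matrix (Fin 2) (Fin 2) ℤ
local notation "𝕢" => Function.Periodic.qParam

/-- Chain rule for the pull-back of a primitive. -/
theorem isPrimitive_pullF {G f : ℍ → ℂ} (hG : IsPrimitive G f) (m : Mat) (h : 0 < m.det) :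
    IsPrimitive (pullF m h G) (f ∣[(2 : ℤ)] mGL m h) := by
  intro τ
  have hdet := mGL_pos m h
  have hdet' : 0 < (mGL m h).val.det := by
    rwa [← Matrix.GeneralLinearGroup.val_det_apply]
  have h1 := (hasStrictDerivAt_smul hdet' τ).hasDerivAt
  have h2 : HasDerivAt (G ∘ ofComplex) (f (mGL m h • τ))
      ((fun z ↦ ↑(mGL m h • ofComplex z) : ℂ → ℂ) τ) := by
    simpa using hG (mGL m h • τ)
  have h3 := h2.comp (τ : ℂ) h1
  have hσ : ∀ z : ℂ, UpperHalfPlane.σ (mGL m h) z = z := fun z => by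
    simp only [UpperHalfPlane.σ, hdet, if_true]
    rfl
  have e : (f ∣[(2 : ℤ)] mGL m h) τ
      = f (mGL m h • τ) * ((mGL m h).val.det / denom (mGL m h) τ ^ 2) := by
    rw [ModularForm.slash_apply, hσ, Matrix.GeneralLinearGroup.val_det_apply, abs_of_pos hdet']
    simp [zpow_neg, div_eq_mul_inv, mul_assoc]
  rw [e]
  refine h3.congr_of_eventuallyEq (Eventually.of_forall fun z => ?_)
  simp [Function.comp_apply, mSmul]

theorem slash_SL_eq (f : ℍ → ℂ) (γ : SL(2, ℤ)) :
    f ∣[(2 : ℤ)] mGL (γ : Mat) (det_SL γ) = f ∣[(2 : ℤ)] γ := by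
  rw [ModularForm.SL_slash]
  congr 1
  exact Units.ext (by rw [coe_mGL, coe_SL_GL])

theorem mGL_mul {m m' r : Mat} (h : 0 < m.det) (h' : 0 < m'.det) (hr : 0 < r.det)
    (e : r = m * m') : mGL r hr = mGL m h * mGL m' h' := by
  refine Units.ext ?_
  rw [Units.val_mul, coe_mGL, coe_mGL, coe_mGL, e, map_mul_cast]

theorem slash_mGL_mul {m m' r : Mat} (h : 0 < m.det) (h' : 0 < m'.det) (hr : 0 < r.det)
    (e : r = m * m') (f : ℍ → ℂ) :
    f ∣[(2 : ℤ)] mGL r hr = (f ∣[(2 : ℤ)] mGL m h) ∣[(2 : ℤ)] mGL m' h' := by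
  rw [mGL_mul h h' hr e, SlashAction.slash_mul]

/-- A weight two form given by expansion, primitive and periods. -/
structure PerData (M : ℕ) (ch : ℤ → ℂ) (a : ℕ → ℂ) (c : Additive (Gamma1 M) →+ ℂ) where
  f : ℍ → ℂ
  G : ℍ → ℂ
  hasSum : ∀ τ : ℍ, HasSum (fun n => a n * 𝕢 1 (τ : ℂ) ^ n) (f τ)
  prim : IsPrimitive G f
  lim : ∀ δ : SL(2, ℤ), ∃ L, Tendsto (act δ G) atImInfty (𝓝 L)
  per : ∀ (γ : Gamma1 M) (τ : ℍ), G ((γ : SL(2, ℤ)) • τ) = G τ + c (Additive.ofMul γ)
  chr : ∀ σ : SL(2, ℤ), σ ∈ Gamma0 M → f ∣[(2 : ℤ)] σ = ch (σ 1 1) • f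

namespace PerData

variable {M : ℕ} [NeZero M] {ch : ℤ → ℂ} {a : ℕ → ℂ} {c : Additive (Gamma1 M) →+ ℂ}

/-- Sums. -/
def add {a' : ℕ → ℂ} {c' : Additive (Gamma1 M) →+ ℂ} (D : PerData M ch a c)
    (D' : PerData M ch a' c') : PerData M ch (a + a') (c + c') where
  f := D.f + D'.f
  G := D.G + D'.G
  hasSum τ := by
    simpa [add_mul] using (D.hasSum τ).add (D'.hasSum τ)
  prim := D.prim.add D'.prim
  lim δ := by
    obtain ⟨L, hL⟩ := D.lim δ
    obtain ⟨L', hL'⟩ := D'.lim δ
    exact ⟨L + L', by rw [map_add]; exact hL.add hL'⟩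
  per γ τ := by
    simp only [Pi.add_apply, D.per, D'.per, AddMonoidHom.add_apply]
    ring
  chr σ hσ := by rw [SlashAction.add_slash, D.chr σ hσ, D'.chr σ hσ, smul_add]

/-- Scalar multiples. -/
def smul (z : ℂ) (D : PerData M ch a c) : PerData M ch (z • a) (z • c) where
  f := z • D.f
  G := z • D.G
  hasSum τ := by
    simpa [mul_assoc] using (D.hasSum τ).mul_left z
  prim := D.prim.smul z
  lim δ := by
    obtain ⟨L, hL⟩ := D.lim δ
    exact ⟨z • L, hL.const_smul z⟩
  per γ τ := by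
    simp only [Pi.smul_apply, smul_eq_mul, D.per, AddMonoidHom.smul_apply, mul_add]
  chr σ hσ := by rw [ModularForm.SL_smul_slash, D.chr σ hσ, smul_comm]

/-- Changing the names of expansion and periods along equalities. -/
def copy {a' : ℕ → ℂ} {c' : Additive (Gamma1 M) →+ ℂ} (D : PerData M ch a c) (ha : a' = a)
    (hc : c' = c) : PerData M ch a' c' := ha ▸ hc ▸ D

omit [NeZero M] in
/-- The periods are parabolic. -/
theorem parabolic (D : PerData M ch a c) : Period.IsParabolicHom (Gamma1 M) c := by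
  intro γ hγ
  obtain ⟨δ, hδ⟩ := exists_conj_lowerLeft_eq_zero hγ
  obtain ⟨k, hk⟩ := ModularGroup.exists_eq_T_zpow_of_c_eq_zero hδ
  obtain ⟨L, hL⟩ := D.lim δ
  have hlim : Tendsto (fun w : ℍ => (k : ℝ) +ᵥ w) atImInfty atImInfty := by
    rw [atImInfty, tendsto_comap_iff]
    refine tendsto_comap.congr fun w => ?_
    simp
  have h1 : ∀ w : ℍ, (γ : SL(2, ℤ)) • (δ • w) = δ • ((k : ℝ) +ᵥ w) := fun w => by
    rw [← modular_T_zpow_smul, ← hk w]
    simp [mul_smul]
  have h2 : Tendsto (fun w : ℍ => D.G ((γ : SL(2, ℤ)) • (δ • w)) - D.G (δ • w)) atImInfty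
      (𝓝 (L - L)) :=
    ((hL.comp hlim).congr fun w => by rw [Function.comp_apply, act_apply, h1 w]).sub hL
  have h3 : Tendsto (fun w : ℍ => D.G ((γ : SL(2, ℤ)) • (δ • w)) - D.G (δ • w)) atImInfty
      (𝓝 (c (Additive.ofMul γ))) :=
    tendsto_const_nhds.congr fun w => by rw [D.per, add_sub_cancel_left]
  rw [sub_self] at h2
  exact tendsto_nhds_unique h3 h2

omit [NeZero M] in
theorem primitive_mdiff (D : PerData M ch a c) : MDiff D.G := D.prim.mdiff

/-- Vanishing periods force the form to vanish. -/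
theorem f_eq_zero (D : PerData M ch a c) (hc : c = 0) : D.f = 0 := by
  subst hc
  have hinv : ∀ γ ∈ (Gamma1 M : Subgroup SL(2, ℤ)), D.G ∣[(0 : ℤ)] γ = D.G := fun γ hγ => by
    rw [← act_eq_slash]
    funext τ
    rw [act_apply, show γ = ((⟨γ, hγ⟩ : Gamma1 M) : SL(2, ℤ)) from rfl, D.per]
    simp
  let Φ : ModularForm (Gamma1 M : Subgroup (GL (Fin 2) ℝ)) 0 :=
    { toFun := D.G
      slash_action_eq' := fun g hg => by
        obtain ⟨γ, hγ, rfl⟩ := hg
        exact hinv γ hγ
      holo' := D.primitive_mdiff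
      bdd_at_cusps' := fun {x} hx => by
        rw [OnePoint.isBoundedAt_iff_forall_SL2Z
          ((Subgroup.IsArithmetic.isCusp_iff_isCusp_SL2Z _).mp hx)]
        intro δ _
        obtain ⟨L, hL⟩ := D.lim δ
        rw [act_eq_slash] at hL
        exact hL.isBigO_one ℝ }
  obtain ⟨z, hz⟩ := ModularForm.eq_const_of_weight_zero Φ
  funext τ
  have h1 := D.prim τ
  rw [show D.G = Function.const ℍ z from hz] at h1
  exact h1.unique (hasDerivAt_const _ z)

/-- Vanishing periods force all coefficients to vanish. -/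
theorem coeff_eq_zero (D : PerData M ch a c) (hc : c = 0) (n : ℕ) : a n = 0 := by
  have hf := D.f_eq_zero hc
  have hs : HasExp 1 (0 : ℍ → ℂ) (HahnSeries.ofPowerSeries ℤ ℂ (PowerSeries.mk a)) := by
    refine Eventually.of_forall fun τ => ?_
    rw [← hf]
    have hinj : Function.Injective (fun k : ℕ => (k : ℤ)) := Nat.cast_injective
    refine (hinj.hasSum_iff ?_).mp ?_
    · intro k hk
      rcases lt_or_ge k 0 with h | h
      · rw [ModularCurve.ofPowerSeries_coeff_of_neg _ h, zero_mul]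
      · exact absurd ⟨k.toNat, Int.toNat_of_nonneg h⟩ hk
    · convert D.hasSum τ using 1
      funext k
      simp [HahnSeries.ofPowerSeries_apply_coeff]
  have h := congrArg (fun s : LaurentSeries ℂ => s.coeff n) (hs.unique one_pos (hasExp_zero 1))
  simpa [HahnSeries.ofPowerSeries_apply_coeff] using h

section Hecke

attribute [local instance] HeckeReps.fin

variable (R : HeckeReps M M)

omit [NeZero M] in
theorem tendsto_pullF (D : PerData M ch a c) (m : Mat) (h : 0 < m.det) :
    ∃ L, Tendsto (pullF m h D.G) atImInfty (𝓝 L) := by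
  obtain ⟨γ, A, Dd, B, hA, hD, e⟩ := exists_upper_nat m h
  obtain ⟨L, hL⟩ := D.lim γ
  refine ⟨L, ?_⟩
  rw [pullF_SL_mul (det_upper_pos hA hD B) _ γ e]
  refine hL.comp ?_
  refine tendsto_comap_iff.mpr ?_
  have him : ∀ τ : ℍ, (mSmul !![(A : ℤ), B; 0, (Dd : ℤ)] (det_upper_pos hA hD B) τ).im
      = (A : ℝ) / Dd * τ.im := by
    intro τ
    have hcoe : ((mSmul !![(A : ℤ), B; 0, (Dd : ℤ)] (det_upper_pos hA hD B) τ : ℍ) : ℂ)
        = ((A : ℂ) * τ + B) / Dd := by
      rw [mSmul, coe_smul_of_det_pos (mGL_pos _ _)]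
      simp [UpperHalfPlane.num, UpperHalfPlane.denom, coe_mGL]
    have := congrArg Complex.im hcoe
    rw [Complex.div_natCast_im] at this
    simp at this
    rw [this]; ring
  rw [show UpperHalfPlane.im ∘ mSmul !![(A : ℤ), B; 0, (Dd : ℤ)] (det_upper_pos hA hD B)
    = fun τ : ℍ => (A : ℝ) / Dd * τ.im from funext him]
  exact tendsto_comap.const_mul_atTop (div_pos (by exact_mod_cast hA) (by exact_mod_cast hD))

/-- The image under the operator of `R`, given its expansion and character. -/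
def hecke (D : PerData M ch a c) {a' : ℕ → ℂ}
    (ha : ∀ τ : ℍ, HasSum (fun n => a' n * 𝕢 1 (τ : ℂ) ^ n)
      ((∑ i, D.f ∣[(2 : ℤ)] mGL (R.β i) (R.det_pos i)) τ))
    (hchr : ∀ σ : SL(2, ℤ), σ ∈ Gamma0 M →
      (∑ i, D.f ∣[(2 : ℤ)] mGL (R.β i) (R.det_pos i)) ∣[(2 : ℤ)] σ
        = ch (σ 1 1) • ∑ i, D.f ∣[(2 : ℤ)] mGL (R.β i) (R.det_pos i)) :
    PerData M ch a' (R.homT ℂ c) where
  f := ∑ i, D.f ∣[(2 : ℤ)] mGL (R.β i) (R.det_pos i)
  G := ∑ i, pullF (R.β i) (R.det_pos i) D.G
  hasSum := ha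
  prim τ := by
    have h := HasDerivAt.sum (u := Finset.univ) fun i _ =>
      isPrimitive_pullF D.prim (R.β i) (R.det_pos i) τ
    rw [Finset.sum_apply]
    refine h.congr_of_eventuallyEq (Eventually.of_forall fun z => ?_)
    simp [Function.comp_apply, Finset.sum_apply]
  lim δ := by
    choose L hL using fun i => D.tendsto_pullF (R.β i * (δ : Mat)) (det_mul_SL_pos (R.det_pos i) δ)
    refine ⟨∑ i, L i, ?_⟩
    rw [map_sum]
    have h := tendsto_finsetSum (Finset.univ : Finset R.ι) fun i _ => hL i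
    refine h.congr fun τ => ?_
    rw [Finset.sum_apply]
    exact Finset.sum_congr rfl fun i _ => by rw [act_pullF]
  per γ τ := by
    rw [R.homT_apply, Finset.sum_apply, Finset.sum_apply,
      ← Equiv.sum_comp (R.piEquiv γ) (fun i => pullF (R.β i) (R.det_pos i) D.G τ),
      ← Finset.sum_add_distrib]
    refine Finset.sum_congr rfl fun i _ => ?_
    rw [← act_apply (γ : SL(2, ℤ)) (pullF (R.β i) (R.det_pos i) D.G) τ, R.act_pull, pullF_apply,
      act_apply, D.per]
    rfl
  chr := hchr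

end Hecke

end PerData

end FLTAgent.GammaH

end
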