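import Fermat.Agent.GammaH.Conj
import Fermat.Agent.FFBasic.FunctionField

/-!
# The function field of `X₁(M)`: degree over `ℚ̄(j)`, generators, Galois stability

`[FF M : ℚ̄(j)]` is the index of `± Γ₁(M)` (`finrank_baseJ`), a single torsion function generates
the field over `ℚ̄(j)`, `FF M` is a function field over `ℚ̄`, and it is stable under the Galois
action on coefficients (`coeffMap_mem_FF`).
-/

set_option autoImplicit false

noncomputable section

open UpperHalfPlane Filter CongruenceSubgroup ModularCurve Polynomial IntermediateField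
open scoped Manifold MatrixGroups Topology

namespace FLTAgent.GammaH

open FLTAgent.LevelM FLTAgent.HeckeJacobian

local notation "Qbar" => AlgebraicClosure ℚ
local notation "GalQ" => AlgebraicClosure ℚ ≃ₐ[ℚ] AlgebraicClosure ℚ

variable {M : ℕ} [NeZero M]

/-! ## The generator -/

variable (M) in
/-- The row `(0, 1)`. -/
def v01 : Fin 2 → ZMod M := ![0, 1]

omit [NeZero M] in
theorem vact_v01 (γ : SL(2, ℤ)) :
    vact (v01 M) γ = ![((γ 1 0 : ℤ) : ZMod M), ((γ 1 1 : ℤ) : ZMod M)] := by
  ext i
  fin_cases i <;> simp [v01, vact, redMat, Matrix.vecMul, dotProduct, Fin.sum_univ_two]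

omit [NeZero M] in
theorem mem_gammaPM_iff (γ : SL(2, ℤ)) :
    γ ∈ gammaPM M ↔ vact (v01 M) γ = v01 M ∨ vact (v01 M) γ = -v01 M := by
  have hdet : ((γ 0 0 : ℤ) : ZMod M) * (γ 1 1 : ℤ) - (γ 0 1 : ℤ) * (γ 1 0 : ℤ) = 1 := by
    have := γ.2
    rw [Matrix.det_fin_two] at this
    exact_mod_cast congrArg (Int.cast : ℤ → ZMod M) this
  rw [vact_v01]
  simp only [v01]
  constructor
  · rintro (h | h)
    · obtain ⟨-, hd, hc⟩ := (Gamma1_mem M γ).mp h
      left
      rw [hd, hc]
    · obtain ⟨-, hd, hc⟩ := (Gamma1_mem M (-γ)).mp h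
      right
      simp only [Matrix.SpecialLinearGroup.coe_neg, Matrix.neg_apply, Int.cast_neg,
        neg_eq_iff_eq_neg, neg_zero] at hd hc
      rw [hd, hc]
      ext i; fin_cases i <;> simp
  · rintro (h | h)
    · have hc : ((γ 1 0 : ℤ) : ZMod M) = 0 := congrFun h 0
      have hd : ((γ 1 1 : ℤ) : ZMod M) = 1 := congrFun h 1
      rw [hd, hc] at hdet
      exact Or.inl ((Gamma1_mem M γ).mpr ⟨by linear_combination hdet, hd, hc⟩)
    · have hc : ((γ 1 0 : ℤ) : ZMod M) = 0 := by simpa using congrFun h 0
      have hd : ((γ 1 1 : ℤ) : ZMod M) = -1 := by simpa using congrFun h 1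
      rw [hd, hc] at hdet
      refine Or.inr ((Gamma1_mem M (-γ)).mpr ⟨?_, ?_, ?_⟩) <;>
        simp only [Matrix.SpecialLinearGroup.coe_neg, Matrix.neg_apply, Int.cast_neg]
      · linear_combination hdet
      · rw [hd, neg_neg]
      · rw [hc, neg_zero]

variable [hM : Fact (1 < M)]

variable (M) in
/-- The generator `wFun (0,1)`. -/
def wGen : modFun M := wMod (one_ne_zero : (1 : ZMod M) ≠ 0)

theorem coe_wGen : (wGen M : ℍ → ℂ) = wFun (v01 M) := rfl

omit [NeZero M] in
theorem v01_ne_zero : v01 M ≠ 0 := fun h => one_ne_zero (congrFun h 1)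

theorem conjC_wGen_injective : Function.Injective fun q : Cos M => conjC q (wGen M) := by
  intro a b
  induction a using QuotientGroup.induction_on with
  | H g =>
    induction b using QuotientGroup.induction_on with
    | H k =>
      intro h
      have h' := congrArg cuspVal h
      simp only [cuspVal_conjC, coe_wGen, act_wFun] at h'
      have hne : ∀ γ, vact (v01 M) γ ≠ 0 := vact_ne_zero v01_ne_zero
      have h2 : vact (v01 M) g⁻¹ = vact (v01 M) k⁻¹ ∨ vact (v01 M) g⁻¹ = -vact (v01 M) k⁻¹ := by
        by_contra hc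
        exact wFun_ne (hne _) (hne _) (fun e => hc (Or.inl e)) (fun e => hc (Or.inr e)) h'
      refine QuotientGroup.eq.mpr ((mem_gammaPM_iff _).mpr ?_)
      rcases h2 with h2 | h2
      · left
        rw [vact_mul, h2, ← vact_mul, inv_mul_cancel, vact_one]
      · right
        rw [vact_mul, h2, vact_neg, ← vact_mul, inv_mul_cancel, vact_one]

/-! ## Transcendence of `j`, conjugate embeddings -/

omit hM in
theorem coe_jF : (jF M : LaurentSeries Qbar) = jqModC Qbar := ser_eq hasExp_jFun

omit hM in
theorem transcendental_jF : Transcendental Qbar (jF M) := fun h => by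
  have h' := h.algHom (FF M).val
  rw [IntermediateField.coe_val, coe_jF] at h'
  exact ModularFF.transcendental_jqModC Qbar h'

omit hM in
theorem toFF_jEval (P : Qbar[X]) : toFF (jEval M P) = Polynomial.aeval (jF M) P :=
  (Polynomial.aeval_algHom_apply toFF (jMod M) P).symm

instance instAlgebraModFunFF : Algebra (modFun M) (FF M) :=
    (toFF : modFun M →ₐ[Qbar] FF M).toAlgebra

omit [NeZero M] hM in
theorem algebraMap_modFunFF (f : modFun M) : algebraMap (modFun M) (FF M) f = toFF f := rfl

instance instIsFractionRingFF : IsFractionRing (modFun M) (FF M) :=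
  haveI : FaithfulSMul (modFun M) (FF M) :=
    (faithfulSMul_iff_algebraMap_injective _ _).mpr toFF_injective
  IsFractionRing.of_field _ _ fun x => by
    obtain ⟨f, g, -, h⟩ := exists_eq_div x
    exact ⟨f, g, h⟩

/-- Meromorphic functions of level `M`. -/
abbrev MeroM (M : ℕ) := FractionRing (cuspRing M)

/-- The conjugate embeddings of the field. -/
def conjFF (q : Cos M) : FF M →+* MeroM M :=
  IsFractionRing.lift (A := modFun M) (g := (algebraMap (cuspRing M) (MeroM M)).comp (conjC q))
    ((IsFractionRing.injective (cuspRing M) (MeroM M)).comp (conjC_injective q))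

omit hM [NeZero M] in
theorem conjFF_toFF (q : Cos M) (f : modFun M) :
    conjFF q (toFF f) = algebraMap (cuspRing M) (MeroM M) (conjC q f) := by
  rw [conjFF, ← algebraMap_modFunFF, IsFractionRing.lift_algebraMap]; rfl

omit hM in
theorem conjFF_aeval_jF (q q' : Cos M) (r : Qbar[X]) :
    conjFF q (Polynomial.aeval (jF M) r) = conjFF q' (Polynomial.aeval (jF M) r) := by
  rw [← toFF_jEval, conjFF_toFF, conjFF_toFF]
  congr 1
  refine cuspVal_injective ?_
  induction q using QuotientGroup.induction_on with
  | H g =>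
    induction q' using QuotientGroup.induction_on with
    | H k =>
      funext τ
      simp only [cuspVal_conjC, act_apply, jEval_apply, ModularFF.jFun_smul]

/-- The subfield `ℚ̄(j)`. -/
abbrev baseJ (M : ℕ) [NeZero M] : IntermediateField Qbar (FF M) := Qbar⟮jF M⟯

omit hM in
theorem conjFF_base (q q' : Cos M) (k : baseJ M) : conjFF q (k : FF M) = conjFF q' k := by
  obtain ⟨r, s, hk⟩ := (mem_adjoin_simple_iff (F := Qbar) (k : FF M)).mp k.2
  rw [hk, map_div₀, map_div₀, conjFF_aeval_jF q q', conjFF_aeval_jF q q']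

omit hM in
theorem isIntegral_base_toFF (f : modFun M) : IsIntegral (baseJ M) (toFF f) ∧
    (minpoly (baseJ M) (toFF f)).natDegree ≤ (gammaPM M).index := by
  obtain ⟨Q, hQ, hdeg, hev⟩ := exists_monic_relation f
  let φ : Qbar[X] →+* baseJ M :=
    (Polynomial.aeval (⟨jF M, mem_adjoin_simple_self Qbar _⟩ : baseJ M)).toRingHom
  have hφ : (algebraMap (baseJ M) (FF M)).comp φ =
      ((toFF : modFun M →ₐ[Qbar] FF M) : modFun M →+* FF M).comp
        (jEval M : Qbar[X] →+* modFun M) := by
    refine RingHom.ext fun P => ?_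
    show (baseJ M).val (Polynomial.aeval _ P) = toFF (jEval M P)
    rw [← Polynomial.aeval_algHom_apply, toFF_jEval]
    rfl
  have h0 : Polynomial.aeval (toFF f) (Q.map φ) = 0 := by
    rw [Polynomial.aeval_def, Polynomial.eval₂_map, hφ]
    refine (Polynomial.hom_eval₂ Q _ ((toFF : modFun M →ₐ[Qbar] FF M) : modFun M →+* FF M)
      f).symm.trans ?_
    rw [hev, map_zero]
  refine ⟨⟨_, hQ.map φ, by rwa [← Polynomial.aeval_def]⟩, ?_⟩
  rw [← hdeg, ← hQ.natDegree_map φ]
  exact Polynomial.natDegree_le_of_dvd (minpoly.dvd _ _ h0) (hQ.map φ).ne_zero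

theorem index_le_natDegree_minpoly :
    (gammaPM M).index ≤ (minpoly (baseJ M) (toFF (wGen M))).natDegree := by
  classical
  set q₀ : Cos M := ((1 : SL(2, ℤ)) : Cos M)
  let φ : baseJ M →+* MeroM M := (conjFF q₀).comp (algebraMap (baseJ M) (FF M))
  set m := minpoly (baseJ M) (toFF (wGen M))
  have hm : m ≠ 0 := minpoly.ne_zero (isIntegral_base_toFF _).1
  let r : Cos M → MeroM M := fun q => conjFF q (toFF (wGen M))
  have hr : Function.Injective r := fun a b h => by
    simp only [r, conjFF_toFF] at h
    exact conjC_wGen_injective (IsFractionRing.injective (cuspRing M) (MeroM M) h)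
  have hsub : Finset.univ.image r ⊆ (m.map φ).roots.toFinset := by
    intro y hy
    obtain ⟨q, -, rfl⟩ := Finset.mem_image.mp hy
    rw [Multiset.mem_toFinset, Polynomial.mem_roots
      ((Polynomial.map_ne_zero_iff φ.injective).mpr hm),
      Polynomial.IsRoot, Polynomial.eval_map]
    have hφ : φ = (conjFF q).comp (algebraMap (baseJ M) (FF M)) :=
      RingHom.ext fun k => conjFF_base q₀ q k
    rw [hφ]
    refine (Polynomial.hom_eval₂ m (algebraMap (baseJ M) (FF M)) (conjFF q)
      (toFF (wGen M))).symm.trans ?_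
    rw [← Polynomial.aeval_def, minpoly.aeval, map_zero]
  have hcard := Finset.card_le_card hsub
  rw [Finset.card_image_of_injective _ hr, Finset.card_univ] at hcard
  calc (gammaPM M).index = Fintype.card (Cos M) := by
        rw [Subgroup.index, Nat.card_eq_fintype_card]
    _ ≤ Multiset.card (m.map φ).roots := hcard.trans (Multiset.toFinset_card_le _)
    _ ≤ (m.map φ).natDegree := Polynomial.card_roots' _
    _ = m.natDegree := Polynomial.natDegree_map _

theorem natDegree_minpoly_wGen :
    (minpoly (baseJ M) (toFF (wGen M))).natDegree = (gammaPM M).index :=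
  le_antisymm (isIntegral_base_toFF _).2 index_le_natDegree_minpoly

/-! ## Generation by `j` and the generator: Lagrange interpolation -/

theorem toFF_mem_adjoin_wGen (f : modFun M) : toFF f ∈ (baseJ M)⟮toFF (wGen M)⟯ := by
  classical
  obtain ⟨Q, hQ, hdeg, hev⟩ := exists_monic_relation (wGen M)
  set n := (gammaPM M).index with hn
  set q₀ : Cos M := ((1 : SL(2, ℤ)) : Cos M)
  let Jc : Qbar[X] →+* cuspRing M := (conjC q₀).comp (jEval M : Qbar[X] →+* modFun M)
  have hJ : ∀ q, (conjC q).comp (jEval M : Qbar[X] →+* modFun M) = Jc := fun q => by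
    refine RingHom.ext fun P => cuspVal_injective ?_
    induction q using QuotientGroup.induction_on with
    | H g =>
      funext τ
      show cuspVal (conjC (g : Cos M) (jEval M P)) τ =
        cuspVal (conjC ((1 : SL(2, ℤ)) : Cos M) (jEval M P)) τ
      simp only [cuspVal_conjC, act_apply, jEval_apply, ModularFF.jFun_smul]
  have hroot : ∀ q : Cos M, (Q.map Jc).IsRoot (conjC q (wGen M)) := fun q => by
    rw [Polynomial.IsRoot, Polynomial.eval_map, ← hJ q]
    refine (Polynomial.hom_eval₂ Q _ (conjC q) (wGen M)).symm.trans ?_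
    rw [hev, map_zero]
  set w := wGen M with hw
  have hcardC : Fintype.card (Cos M) = n := by rw [hn, Subgroup.index, Nat.card_eq_fintype_card]
  have hCmon : (charC w).Monic := Polynomial.monic_prod_of_monic _ _ fun q _ => monic_X_sub_C _
  have hCdeg : (charC w).natDegree = n := by
    rw [← hcardC]
    exact (Polynomial.natDegree_finsetProd_X_sub_C_eq_card _ _).trans Finset.card_univ
  have hn0 : 0 < n := hcardC ▸ Fintype.card_pos_iff.mpr ⟨q₀⟩
  have hQdeg : (Q.map Jc).natDegree = n := by rw [hQ.natDegree_map, hdeg]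
  have hQC : Q.map Jc = charC w := by
    refine sub_eq_zero.mp (Polynomial.eq_zero_of_natDegree_lt_card_of_eval_eq_zero _
      conjC_wGen_injective (fun q => ?_) ?_)
    · rw [Polynomial.eval_sub, (hroot q), charC, Polynomial.eval_prod,
        Finset.prod_eq_zero (Finset.mem_univ q) (by simp [hw]), sub_zero]
    · rw [hcardC, ← hQdeg]
      have hlt : (Q.map Jc - charC w).degree < (Q.map Jc).degree :=
        Polynomial.degree_sub_lt_left
          ((Polynomial.degree_eq_natDegree (hQ.map Jc).ne_zero).trans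
            ((congrArg Nat.cast (hQdeg.trans hCdeg.symm)).trans
              (Polynomial.degree_eq_natDegree hCmon.ne_zero).symm))
          (hQ.map Jc).ne_zero ((hQ.map Jc).leadingCoeff.trans hCmon.leadingCoeff.symm)
      rcases eq_or_ne (Q.map Jc - charC w) 0 with h0 | h0
      · rw [h0, Polynomial.natDegree_zero, hQdeg]; exact hn0
      · exact Polynomial.natDegree_lt_natDegree h0 hlt
  let D : cuspRing M := ∏ q ∈ Finset.univ.erase q₀, (conjC q₀ w - conjC q w)
  have hD0 : D ≠ 0 := Finset.prod_ne_zero_iff.mpr fun q hq =>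
    sub_ne_zero.mpr fun h => Finset.ne_of_mem_erase hq (conjC_wGen_injective h).symm
  have hCder : (charC w).derivative.eval (conjC q₀ w) = D := by
    rw [charC, Polynomial.derivative_prod_finset, Polynomial.eval_finsetSum,
      Finset.sum_eq_single q₀]
    · simp [D, Polynomial.eval_prod, Polynomial.derivative_sub]
    · intro q _ hq
      rw [Polynomial.eval_mul, Polynomial.eval_prod,
        Finset.prod_eq_zero (Finset.mem_erase.mpr ⟨hq.symm, Finset.mem_univ q₀⟩) (by simp),
        zero_mul]
    · exact fun h => absurd (Finset.mem_univ _) h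
  set d : modFun M := Q.derivative.eval₂ (jEval M : Qbar[X] →+* modFun M) w with hd
  have hdD : conjC q₀ d = D := by
    rw [hd, Polynomial.hom_eval₂, hJ, ← Polynomial.eval_map,
      ← Polynomial.derivative_map, hQC, hCder]
  have hd0 : d ≠ 0 := fun h => hD0 (by rw [← hdD, h, map_zero])
  let R : (cuspRing M)[X] :=
    ∑ q : Cos M, C (conjC q f) * ∏ r ∈ Finset.univ.erase q, (X - C (conjC r w))
  have hRinv : ∀ g, R.map (actC g) = R := fun g => by
    simp only [R, Polynomial.map_sum, Polynomial.map_mul, Polynomial.map_C, Polynomial.map_prod,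
      Polynomial.map_sub, Polynomial.map_X, actC_conjC]
    refine Fintype.sum_equiv (MulAction.toPerm g⁻¹) _ _ fun q => ?_
    congr 1
    refine Finset.prod_bij (fun r _ => g⁻¹ • r)
      (fun r hr => Finset.mem_erase.mpr
        ⟨fun h => (Finset.ne_of_mem_erase hr) (MulAction.injective g⁻¹ h), Finset.mem_univ _⟩)
      (fun _ _ _ _ h => MulAction.injective g⁻¹ h)
      (fun r hr => ⟨g • r, Finset.mem_erase.mpr ⟨fun h => (Finset.ne_of_mem_erase hr) (by
        rw [← h]; simp), Finset.mem_univ _⟩, by simp⟩)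
      fun r _ => rfl
  have hRdeg : R.natDegree < n := by
    refine lt_of_le_of_lt (Polynomial.natDegree_sum_le _ _) ?_
    refine (Finset.fold_max_lt _).mpr ⟨hn0,
      fun q _ => lt_of_le_of_lt (Polynomial.natDegree_C_mul_le _ _) ?_⟩
    rw [Polynomial.natDegree_finsetProd_X_sub_C_eq_card, Finset.card_erase_of_mem
      (Finset.mem_univ _),
      Finset.card_univ, hcardC]
    omega
  have hReval : R.eval (conjC q₀ w) = conjC q₀ (f * d) := by
    rw [map_mul, hdD]
    simp only [R, Polynomial.eval_finsetSum, Polynomial.eval_mul, Polynomial.eval_C,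
      Polynomial.eval_prod,
      Polynomial.eval_sub, Polynomial.eval_X]
    rw [Finset.sum_eq_single q₀]
    · intro q _ hq
      rw [Finset.prod_eq_zero (Finset.mem_erase.mpr ⟨hq.symm, Finset.mem_univ q₀⟩) (sub_self _),
        mul_zero]
    · exact fun h => absurd (Finset.mem_univ _) h
  choose p hp using fun b => exists_poly_of_invariant (R.coeff b) fun g => by
    rw [← Polynomial.coeff_map, hRinv]
  obtain ⟨P, hP⟩ := descend_poly (n := n) (fun b => w ^ b) (f * d) p fun τ => by
    let ev : cuspRing M →+* ℂ :=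
      ((Pi.evalRingHom (fun _ : ℍ => ℂ) τ).comp Hol.val.toRingHom).comp (cuspRing M).subtype
    have h0 := congrArg ev hReval
    rw [Polynomial.eval_eq_sum_range' hRdeg, map_sum] at h0
    have hev : ∀ u : modFun M, ev (conjC q₀ u) = (u : ℍ → ℂ) τ := fun u => congrFun (conjC_one u) τ
    simp only [map_mul (ev), map_pow (ev), hev] at h0
    rw [← h0]
    refine Finset.sum_congr rfl fun b _ => ?_
    rw [← hp b τ, SubmonoidClass.coe_pow, Pi.pow_apply]
    rfl
  have hmem : ∀ T : Qbar[X], toFF (jEval M T) ∈ (baseJ M)⟮toFF w⟯ := fun T => by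
    rw [toFF_jEval]
    have hj : Polynomial.aeval (jF M) T ∈ baseJ M :=
      IntermediateField.algebra_adjoin_le_adjoin Qbar _
        (Polynomial.aeval_mem_adjoin_singleton Qbar _)
    exact IntermediateField.algebraMap_mem _ (⟨_, hj⟩ : baseJ M)
  have hfd : toFF f * toFF d ∈ (baseJ M)⟮toFF w⟯ := by
    rw [← map_mul, hP, map_sum]
    refine sum_mem fun b _ => ?_
    rw [map_mul, map_pow]
    exact mul_mem (hmem _) (pow_mem (mem_adjoin_simple_self _ _) _)
  have hdmem : toFF d ∈ (baseJ M)⟮toFF w⟯ := by
    rw [hd, Polynomial.eval₂_eq_sum_range, map_sum]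
    refine sum_mem fun b _ => ?_
    rw [map_mul, map_pow]
    exact mul_mem (hmem _) (pow_mem (mem_adjoin_simple_self _ _) _)
  have hd' : toFF d ≠ 0 := toFF_ne_zero hd0
  rw [← mul_div_cancel_right₀ (toFF f) hd']
  exact div_mem hfd hdmem

theorem adjoin_wGen_eq_top : (baseJ M)⟮toFF (wGen M)⟯ = ⊤ := by
  refine eq_top_iff.mpr fun x _ => ?_
  obtain ⟨f, g, -, rfl⟩ := exists_eq_div x
  exact div_mem (toFF_mem_adjoin_wGen f) (toFF_mem_adjoin_wGen g)

instance instFiniteDimensionalFF : FiniteDimensional (baseJ M) (FF M) := by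
  have h := IntermediateField.adjoin.finiteDimensional (isIntegral_base_toFF (wGen M)).1
  rw [adjoin_wGen_eq_top] at h
  exact Module.Finite.equiv IntermediateField.topEquiv.toLinearEquiv

/-- `[F : ℚ̄(j)] = [SL(2,ℤ) : ±Γ₁(M)]`. -/
theorem finrank_baseJ : Module.finrank (baseJ M) (FF M) = (gammaPM M).index := by
  rw [← natDegree_minpoly_wGen, ← IntermediateField.adjoin.finrank
    (isIntegral_base_toFF (wGen M)).1,
    adjoin_wGen_eq_top, IntermediateField.finrank_top']

instance instIsFunctionFieldFF : FFBasic.IsFunctionField Qbar (FF M) :=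
  ⟨⟨jF M, transcendental_jF, inferInstance⟩⟩

/-- The field is stable under the Galois action on coefficients. -/
theorem coeffMap_mem_FF (σ : GalQ) {x : LaurentSeries Qbar} (hx : x ∈ FF M) :
    coeffMap (σ : Qbar →+* Qbar) x ∈ FF M := by
  have hgen : (⟨x, hx⟩ : FF M) ∈ IntermediateField.adjoin Qbar
      ({jF M} ∪ {toFF (wGen M)} : Set (FF M)) := by
    rw [← adjoin_adjoin_left, IntermediateField.mem_restrictScalars, adjoin_wGen_eq_top]
    trivial
  have key : ∀ y : FF M, y ∈ IntermediateField.adjoin Qbar ({jF M} ∪ {toFF (wGen M)} : Set (FF M)) →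
      coeffMap (σ : Qbar →+* Qbar) (y : LaurentSeries Qbar) ∈ FF M := by
    intro y hy
    induction hy using IntermediateField.adjoin_induction with
    | mem z hz =>
      rcases hz with rfl | rfl
      · rw [coe_jF, coeffMap_jqModC, ← coe_jF (M := M)]
        exact (jF M).2
      · obtain ⟨t', ht', h⟩ := coeffMap_ser_wMod σ (one_ne_zero : (1 : ZMod M) ≠ 0)
        rw [coe_toFF, wGen, h]
        exact ser_mem _
    | algebraMap c =>
      rw [show ((algebraMap Qbar (FF M) c : FF M) : LaurentSeries Qbar) =
        algebraMap Qbar (LaurentSeries Qbar) c from rfl, coeffMap_algebraMap]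
      exact IntermediateField.algebraMap_mem _ _
    | add y z _ _ hy hz => rw [AddMemClass.coe_add, map_add]; exact add_mem hy hz
    | inv y _ hy => rw [IntermediateField.coe_inv, map_inv₀]; exact inv_mem hy
    | mul y z _ _ hy hz => rw [MulMemClass.coe_mul, map_mul]; exact mul_mem hy hz
  exact key _ hgen

end FLTAgent.GammaH

end
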