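import Fermat.Agent.GammaH.HasRed

/-!
# The congruence relation on `V_n(M)` at a prime not dividing `nM`

For a place `A` over `p ∤ nM`, inertia acts trivially on `V_n(M)` (`galKum_inertia`) and a
Frobenius element `σ` satisfies `σ² + p⟨p⟩ = T_p σ` (`galKum_frobenius`).
-/

set_option autoImplicit false
set_option maxSynthPendingDepth 3

noncomputable section

open UpperHalfPlane CongruenceSubgroup ModularCurve
open scoped MatrixGroups

namespace FLTAgent.GammaH

open FLTAgent.LevelM

local notation "Qbar" => AlgebraicClosure ℚ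
local notation "GalQ" => AlgebraicClosure ℚ ≃ₐ[ℚ] AlgebraicClosure ℚ

variable {A : ValuationSubring (AlgebraicClosure ℚ)} {M : ℕ} [NeZero M] [Fact (1 < M)]
  {p : ℕ} [Fact p.Prime]

local notation "κ" => IsLocalRing.ResidueField A

theorem coe_units_map_galHom (σ : GalQ) (h : (FF M)ˣ) :
    (((Units.map ((galHom (M := M) σ : FF M →+* FF M) : FF M →* FF M) h : (FF M)ˣ) : FF M) :
      LaurentSeries Qbar) = coeffMap (σ : Qbar →+* Qbar) ((h : FF M) : LaurentSeries Qbar) := rfl

/-- Inertia acts trivially on `V_n(M)`. -/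
theorem galKum_inertia (hA : A.LiesOverPrime p) (hpM : ¬ p ∣ M) {n : ℕ} (hn : ¬ p ∣ n) {σ : GalQ}
    (hσ : σ ∈ A.inertiaSubgroupIn ℚ) (x : Kum M n) : galKum n σ x = x := by
  obtain ⟨h, rfl⟩ := kumMk_surjective x
  obtain ⟨hd, hres⟩ := IgusaCover.residue_decompA_of_inertia A hσ
  obtain ⟨r, hr⟩ := exists_hasRed hA hpM (Units.ne_zero (h : (FF M)ˣ))
  rw [galKum_kumMk]
  refine congrArg Additive.ofMul (QuotientGroup.eq_iff_div_mem.mpr ?_)
  refine mem_powGroup_of_hasRed hA hpM hn _ (a := (1 : κ)) one_ne_zero ?_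
  have h1 : HasRed (coeffMap (σ : Qbar →+* Qbar) (((h : (FF M)ˣ) : FF M) : LaurentSeries Qbar))
      r := (hr.map (gA := IgusaCover.decompA A hd) (ρ := RingHom.id κ)
        (fun a => IgusaCover.coe_decompA A hd a) hres).of_eq (coeffMap_id r)
  have h2 := (h1.mul hr.inv).of_eq (r₂ := HahnSeries.C (1 : κ))
    (by rw [mul_inv_cancel₀ hr.1, map_one])
  simp only [Subgroup.coe_div, Units.val_div_eq_div_val, IntermediateField.coe_div]
  rw [div_eq_mul_inv, coe_units_map_galHom]
  exact h2

/-- The congruence relation `σ² + p⟨p⟩ = T_p σ` at a Frobenius element. -/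
theorem galKum_frobenius (hA : A.LiesOverPrime p) (hp : p.Prime) (hpM : ¬ p ∣ M) {n : ℕ}
    [NeZero n] (hsurj : Function.Surjective (kummer M n)) (hn : ¬ p ∣ n) {σ : GalQ}
    (hσ : A.IsFrobeniusAt σ p) (x : Kum M n) :
    galKum n σ (galKum n σ x)
        + p • (dRep _ (sigmaT_mem (M := M) hp hpM)).kumT hsurj x
      = (tRep p hp hpM).kumT hsurj (galKum n σ x) := by
  have : NeZero p := ⟨hp.ne_zero⟩
  have : CharP κ p := IgusaCover.charP_resK A hp hA
  obtain ⟨h, rfl⟩ := kumMk_surjective x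
  obtain ⟨hd, hres⟩ := IgusaCover.residue_decompA_of_frobenius A hσ
  set z : FF M := ((h : (FF M)ˣ) : FF M) with hz
  have hz0 : z ≠ 0 := Units.ne_zero _
  set S := diaFF _ (sigmaT_mem (M := M) hp hpM) with hS
  obtain ⟨r, hr⟩ := exists_hasRed hA hpM hz0
  obtain ⟨r', hr'⟩ := exists_hasRed hA hpM (x := S z) ((map_ne_zero S).mpr hz0)
  have hfrob : ∀ {w : LaurentSeries Qbar} {s : LaurentSeries κ}, HasRed w s →
      HasRed (coeffMap (σ : Qbar →+* Qbar) w) (coeffMap (frobenius κ p) s) := fun hw =>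
    hw.map (gA := IgusaCover.decompA A hd) (fun a => IgusaCover.coe_decompA A hd a)
      fun a => by rw [hres a, frobenius_def]
  have hζ : IsPrimitiveRoot (zetaQ p) p := zetaQ_isPrimitiveRoot
  have hmem : zetaQ p ∈ A :=
    Density.mem_of_isIntegral A (hζ.isIntegral hp.pos)
  set ζA : A := ⟨zetaQ p, hmem⟩ with hζA
  have hζAp : ζA ^ p = 1 := Subtype.ext (by simpa [hζA] using hζ.pow_eq_one)
  let ζu : Aˣ := Units.ofPowEqOne ζA p hζAp hp.ne_zero
  have hζres : IsLocalRing.residue A (ζu : A) = 1 := by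
    refine IgusaCover.eq_one_of_pow_char p ?_
    rw [← map_pow]
    show IsLocalRing.residue A (ζA ^ p) = 1
    rw [hζAp, map_one]
  -- the reduction of `T_p (σ z)` in the parameter `q ^ (1/p)`
  have hT : HasRed (qExpand Qbar p ((tRep p hp hpM).normFF (galHom σ z) : LaurentSeries Qbar))
      (coeffMap (frobenius κ p) r ^ p * qExpand κ (p * p) (coeffMap (frobenius κ p) r')) := by
    rw [qExpand_normFF]
    refine HasRed.mul ?_ ?_
    · have := HasRed.prod (A := A) (Finset.univ : Finset (Fin p))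
        (f := fun b => zTw p b ((galHom σ z : FF M) : LaurentSeries Qbar))
        (g := fun _ => coeffMap (frobenius κ p) r) fun b _ =>
          (hfrob hr).twist (ζu ^ (b : ℕ))
            (by rw [Units.val_pow_eq_pow_val, map_pow, hζres, one_pow])
            _ rfl
      simpa using this
    · rw [← galHom_diaFF, coe_galHom]
      exact (hfrob hr').expand (p * p)
  have hy := (((hfrob (hfrob hr)).mul (hr'.pow p)).expand p).mul hT.inv
  set a : divGroup M n := ⟨_, galHom_mem_divGroup σ ⟨_, galHom_mem_divGroup σ h⟩⟩ with ha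
  set b : divGroup M n := ⟨_, (dRep _ (sigmaT_mem (M := M) hp hpM)).norm_mem_divGroup hsurj h⟩
    with hb
  set c : divGroup M n :=
    ⟨_, (tRep p hp hpM).norm_mem_divGroup hsurj ⟨_, galHom_mem_divGroup σ h⟩⟩ with hc
  show kumMk a + p • kumMk b = kumMk c
  refine congrArg Additive.ofMul (?_ :
    (QuotientGroup.mk a : _ ⧸ powGroup M n) * QuotientGroup.mk b ^ p
    = QuotientGroup.mk c)
  rw [← QuotientGroup.mk_pow, ← QuotientGroup.mk_mul]
  refine QuotientGroup.eq_iff_div_mem.mpr ?_
  set y : divGroup M n := a * b ^ p / c with hydef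
  have hcoe : (((y : (FF M)ˣ) : FF M) : LaurentSeries Qbar)
      = coeffMap (σ : Qbar →+* Qbar) (coeffMap (σ : Qbar →+* Qbar) (z : LaurentSeries Qbar))
          * (S z : LaurentSeries Qbar) ^ p
        * ((tRep p hp hpM).normFF (galHom σ z) : LaurentSeries Qbar)⁻¹ := by
    have hbv : ((b : (FF M)ˣ) : FF M) = S z := dRep_normFF _ _ _
    simp only [hydef, Subgroup.coe_mul, SubmonoidClass.coe_pow, InvMemClass.coe_inv,
      Units.val_inv_eq_inv_val, Units.val_mul, Units.val_pow_eq_pow_val, IntermediateField.coe_inv,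
      IntermediateField.coe_mul, hbv, div_eq_mul_inv]
    rfl
  obtain ⟨R', hR'⟩ := exists_hasRed hA hpM (Units.ne_zero (y : (FF M)ˣ))
  have hy' : HasRed (qExpand Qbar p (((y : (FF M)ˣ) : FF M) : LaurentSeries Qbar))
      (HahnSeries.C (1 : κ)) := by
    rw [hcoe, map_mul, map_inv₀]
    refine hy.of_eq ?_
    rw [map_one, ← qExpand_qExpand, ← IgusaCover.pow_eq_qExpand p r',
      IgusaCover.pow_eq_qExpand p (coeffMap (frobenius κ p) r), ← map_mul,
      mul_inv_cancel₀]
    exact ((hfrob (hfrob hr)).mul (hr'.pow p)).expand p |>.1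
  obtain ⟨e, he, hee⟩ := hy'.unique (hR'.expand p)
  refine mem_powGroup_of_hasRed hA hpM hn y he (hR'.of_eq (qExpand_injective (R := κ) p ?_))
  rw [hee, map_one, mul_one, HahnSeries.C_apply, qExpand_single, mul_zero]

end FLTAgent.GammaH

end
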