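import Fermat.Agent.GammaH.HeckeKummer
import Fermat.Prelude.Def_AlgebraicCurve_BaseChangeGalois

/-!
# The Galois action on `V_n(M)` and its commutation with the Hecke operators

`galKum` is the action of `Gal(ℚ̄/ℚ)` on `V_n(M)` through the coefficients of `q`-series. It
commutes with `T_p` and `⟨d⟩`, which is read off from the expansion of the norm `T_p`.
-/

set_option autoImplicit false

noncomputable section

open UpperHalfPlane Filter CongruenceSubgroup ModularCurve AlgebraicCurve
open scoped Manifold MatrixGroups Topology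

namespace FLTAgent.GammaH

open FLTAgent.LevelM FLTAgent.HeckeJacobian

local notation "Qbar" => AlgebraicClosure ℚ
local notation "GalQ" => AlgebraicClosure ℚ ≃ₐ[ℚ] AlgebraicClosure ℚ
local notation "Mat" => Matrix (Fin 2) (Fin 2) ℤ

section TwistHom

variable {K : Type*} [Field K]

/-- `∑ sₖ qᵏ ↦ ∑ sₖ aᵏ qᵏ`. -/
def twistHom (a : K) (ha : a ≠ 0) : LaurentSeries K →+* LaurentSeries K where
  toFun s := ⟨fun k => s.coeff k * a ^ k, s.isPWO_support'.mono fun k hk h0 =>
    hk (by simp only; rw [h0, zero_mul])⟩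
  map_zero' := by ext k; simp
  map_add' s t := by ext k; simp [add_mul]
  map_one' := by
    ext k
    rcases eq_or_ne k 0 with rfl | hk
    · simp
    · simp [HahnSeries.coeff_one, hk]
  map_mul' s t := by
    ext k
    simp only [HahnSeries.coeff_mul, Finset.sum_mul]
    refine Finset.sum_congr ?_ fun x hx => ?_
    · ext x
      simp [ha, zpow_ne_zero]
    · have h := (Finset.mem_antidiagonal.mp hx).2.2
      rw [← h, zpow_add₀ ha]
      ring

@[simp] theorem twistHom_coeff (a : K) (ha : a ≠ 0) (s : LaurentSeries K) (k : ℤ) :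
    (twistHom a ha s).coeff k = s.coeff k * a ^ k := rfl

end TwistHom

theorem liftC_twistHom (a : Qbar) (ha : a ≠ 0) (s : LaurentSeries Qbar) :
    liftC (twistHom a ha s) = twist (iotaC a) (liftC s) := by
  ext k
  simp [map_zpow₀]

theorem coeffMap_twistHom (σ : Qbar →+* Qbar) (a : Qbar) (ha : a ≠ 0) (s : LaurentSeries Qbar) :
    coeffMap σ (twistHom a ha s) = twistHom (σ a) ((map_ne_zero σ).mpr ha) (coeffMap σ s) := by
  ext k
  simp [coeffMap_coeff, map_zpow₀]

variable {M : ℕ} [NeZero M] [Fact (1 < M)]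

/-! ## The diamond operators on the field -/

theorem diamond_injective (σ : SL(2, ℤ)) (hσ : σ ∈ Gamma0 M) :
    Function.Injective (diamond σ hσ) := fun f g h => by
  have h' := congrArg (act σ⁻¹) (congrArg Subtype.val h)
  simp only [coe_diamond, act_inv] at h'
  exact Subtype.ext h'

/-- The diamond operator on the field. -/
def diaFF (σ : SL(2, ℤ)) (hσ : σ ∈ Gamma0 M) : FF M →+* FF M :=
  IsFractionRing.lift (A := modFun M) (K := FF M)
    (g := (toFF : modFun M →ₐ[Qbar] FF M).toRingHom.comp (diamond σ hσ))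
    (toFF_injective.comp (diamond_injective σ hσ))

theorem diaFF_toFF (σ : SL(2, ℤ)) (hσ : σ ∈ Gamma0 M) (f : modFun M) :
    diaFF σ hσ (toFF f) = toFF (diamond σ hσ f) := by
  rw [← algebraMap_modFunFF, diaFF, IsFractionRing.lift_algebraMap]
  rfl

theorem diaFF_algebraMap (σ : SL(2, ℤ)) (hσ : σ ∈ Gamma0 M) (c : Qbar) :
    diaFF σ hσ (algebraMap Qbar (FF M) c) = algebraMap Qbar (FF M) c := by
  have h : algebraMap Qbar (FF M) c = toFF (constHom c) := ((toFF (M := M)).commutes c).symm
  rw [h, diaFF_toFF]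
  have h2 : diamond σ hσ (constHom c) = constHom c := Subtype.ext (funext fun _ => rfl)
  rw [h2]

theorem diaFF_jF (σ : SL(2, ℤ)) (hσ : σ ∈ Gamma0 M) : diaFF σ hσ (jF M) = jF M := by
  have h : diamond σ hσ (jMod M) = jMod M :=
    Subtype.ext (funext fun τ => ModularFF.jFun_smul σ τ)
  show diaFF σ hσ (toFF (jMod M)) = toFF (jMod M)
  rw [diaFF_toFF, h]

omit [Fact (1 < M)] in
theorem unit_apply_one_one {σ : SL(2, ℤ)} (hσ : σ ∈ Gamma0 M) :
    IsUnit ((σ 1 1 : ℤ) : ZMod M) := by
  have h := congrArg (fun z : ℤ => (z : ZMod M)) (σ.det_coe ▸ (Matrix.det_fin_two (σ : Mat)).symm)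
  simp [Gamma0_mem.mp hσ] at h
  exact IsUnit.of_mul_eq_one _ (by rw [mul_comm]; exact h)

theorem diamond_wMod (σ : SL(2, ℤ)) (hσ : σ ∈ Gamma0 M) {t : ZMod M} (ht : t ≠ 0) :
    diamond σ hσ (wMod ht) = wMod (t := ((σ 1 1 : ℤ) : ZMod M) * t)
      (fun h => ht ((unit_apply_one_one hσ).mul_right_eq_zero.mp h)) := by
  refine Subtype.ext ?_
  show act σ (wFun ![0, t]) = wFun ![0, ((σ 1 1 : ℤ) : ZMod M) * t]
  rw [act_wFun]
  congr 1
  ext i
  fin_cases i <;> simp [vact, redMat, Gamma0_mem.mp hσ, Matrix.vecMul, dotProduct,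
    Fin.sum_univ_two, mul_comm]

/-! ## The Galois action -/

omit [Fact (1 < M)] in
theorem coeffMap_ser_wMod' (g : GalQ) {t : ZMod M} (ht : t ≠ 0) :
    coeffMap (g : Qbar →+* Qbar) (ser (wMod ht)) = ser (wMod (t := (cycExp M g : ZMod M) * t)
      (fun h => ht ((ZMod.unitOfCoprime (cycExp M g)
        (coprime_cycExp g)).isUnit.mul_right_eq_zero.mp h))) := by
  refine qExpand_injective M ?_
  rw [← coeffMap_qExpand, qExpand_ser_wMod, qExpand_ser_wMod, coeffMap_wSerQ]
  congr 1

/-- `GalQ` acts on the coefficients of `q`-series. -/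
def galHom (g : GalQ) : FF M →+* FF M where
  toFun x := ⟨coeffMap (g : Qbar →+* Qbar) x, coeffMap_mem_FF g x.2⟩
  map_one' := Subtype.ext (by simp)
  map_mul' x y := Subtype.ext (by simp)
  map_zero' := Subtype.ext (by simp)
  map_add' x y := Subtype.ext (by simp)

@[simp] theorem coe_galHom (g : GalQ) (x : FF M) :
    ((galHom g x : FF M) : LaurentSeries Qbar) = coeffMap (g : Qbar →+* Qbar) x := rfl

theorem galHom_mul (g h : GalQ) (x : FF M) : galHom (g * h) x = galHom g (galHom h x) := by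
  refine Subtype.ext ?_
  rw [coe_galHom, coe_galHom, coe_galHom, coeffMap_coeffMap]
  rfl

theorem galHom_one (x : FF M) : galHom 1 x = x := by
  refine Subtype.ext ?_
  rw [coe_galHom, show ((1 : GalQ) : Qbar →+* Qbar) = RingHom.id Qbar from RingHom.ext fun _ => rfl,
    coeffMap_id]

theorem galHom_algebraMap (g : GalQ) (c : Qbar) :
    galHom g (algebraMap Qbar (FF M) c) = algebraMap Qbar (FF M) (g c) := by
  refine Subtype.ext ?_
  rw [coe_galHom]
  exact coeffMap_algebraMap _ c

/-- The semilinear automorphism of the field. -/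
def galAut (g : GalQ) : SemilinearAut Qbar (FF M) :=
  ⟨({ galHom g with
      invFun := galHom g⁻¹
      left_inv := fun x => by
        show galHom g⁻¹ (galHom g x) = x
        rw [← galHom_mul, inv_mul_cancel, galHom_one]
      right_inv := fun x => by
        show galHom g (galHom g⁻¹ x) = x
        rw [← galHom_mul, mul_inv_cancel, galHom_one] }, (g : Qbar ≃+* Qbar)),
    galHom_algebraMap g⟩

theorem galHom_mem_divGroup {n : ℕ} (g : GalQ) (h : divGroup M n) :
    Units.map ((galHom (M := M) g : FF M →+* FF M) : FF M →* FF M) (h : (FF M)ˣ) ∈ divGroup M n :=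
      fun v => by
  have e := SemilinearAut.ord_smul (g := galAut (M := M) g) (v := (galAut (M := M) g)⁻¹ • v)
    ((h : (FF M)ˣ) : FF M)
  rw [smul_inv_smul] at e
  show (n : ℤ) ∣ v.ord (galHom g ((h : (FF M)ˣ) : FF M))
  rw [show v.ord (galHom g ((h : (FF M)ˣ) : FF M)) = _ from e]
  exact h.2 _

/-- The action on `V_n`. -/
def galKum (n : ℕ) (g : GalQ) : Kum M n →+ Kum M n :=
  MonoidHom.toAdditive (QuotientGroup.map (powGroup M n) (powGroup M n)
    (((Units.map ((galHom (M := M) g : FF M →+* FF M) : FF M →* FF M)).comp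
      (divGroup M n).subtype).codRestrict _
      (galHom_mem_divGroup g))
    (by
      rintro ⟨h, hh⟩ ⟨y, hy⟩
      exact ⟨Units.map ((galHom (M := M) g : FF M →+* FF M) : FF M →* FF M) y, by
        show Units.map _ y ^ n = Units.map _ h
        rw [← map_pow]; exact congrArg _ hy⟩))

theorem galKum_kumMk {n : ℕ} (g : GalQ) (h : divGroup M n) :
    galKum n g (kumMk h) = kumMk ⟨_, galHom_mem_divGroup g h⟩ := rfl

theorem galKum_mul {n : ℕ} (g h : GalQ) (x : Kum M n) :
    galKum n (g * h) x = galKum n g (galKum n h x) := by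
  obtain ⟨u, rfl⟩ := kumMk_surjective x
  rw [galKum_kumMk, galKum_kumMk, galKum_kumMk]
  exact congrArg _ (Subtype.ext (Units.ext (galHom_mul g h _)))

theorem galKum_one {n : ℕ} (x : Kum M n) : galKum n 1 x = x := by
  obtain ⟨u, rfl⟩ := kumMk_surjective x
  rw [galKum_kumMk]
  exact congrArg _ (Subtype.ext (Units.ext (galHom_one _)))

/-! ## Commutation -/

theorem galHom_diaFF (g : GalQ) (σ : SL(2, ℤ)) (hσ : σ ∈ Gamma0 M) (x : FF M) :
    galHom g (diaFF σ hσ x) = diaFF σ hσ (galHom g x) := by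
  have hx : x ∈ IntermediateField.adjoin Qbar ({jF M} ∪ {toFF (wGen M)} : Set (FF M)) := by
    rw [← IntermediateField.adjoin_adjoin_left, IntermediateField.mem_restrictScalars,
      adjoin_wGen_eq_top]
    trivial
  induction hx using IntermediateField.adjoin_induction with
  | mem z hz =>
    have hj : galHom g (jF M) = jF M := Subtype.ext (by rw [coe_galHom, coe_jF, coeffMap_jqModC])
    rcases hz with rfl | rfl
    · rw [diaFF_jF, hj, diaFF_jF]
    · have hg : ∀ {t : ZMod M} (ht : t ≠ 0), galHom g (toFF (wMod ht)) =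
        toFF (wMod (t := (cycExp M g : ZMod M) * t)
          (fun h => ht ((ZMod.unitOfCoprime (cycExp M g)
            (coprime_cycExp g)).isUnit.mul_right_eq_zero.mp h))) :=
        fun ht => Subtype.ext (coeffMap_ser_wMod' g ht)
      rw [wGen, diaFF_toFF, diamond_wMod, hg, hg, diaFF_toFF, diamond_wMod]
      simp only [mul_left_comm]
  | algebraMap c => rw [diaFF_algebraMap, galHom_algebraMap, diaFF_algebraMap]
  | add y z _ _ hy hz => simp only [map_add, hy, hz]
  | inv y _ hy => simp only [map_inv₀, hy]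
  | mul y z _ _ hy hz => simp only [map_mul, hy, hz]

/-- Twist of a series by the `b`-th power of the root of unity `exp (2πi/N)`. -/
abbrev zTw (N : ℕ) [NeZero N] (b : ℕ) : LaurentSeries Qbar →+* LaurentSeries Qbar :=
  twistHom (zetaQ N ^ b) (pow_ne_zero b (zetaQ_isPrimitiveRoot.ne_zero (NeZero.ne N)))

variable {p : ℕ} [NeZero p] (hp : p.Prime) (hpM : ¬ p ∣ M)

/-- The element of `Γ₀(M)` in `T_p`. -/
abbrev sigmaT : SL(2, ℤ) := sigmaP M p ((hp.coprime_iff_not_dvd).mpr hpM)

omit [Fact (1 < M)] [NeZero p] [NeZero M] in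
theorem sigmaT_mem : sigmaT hp hpM ∈ Gamma0 M := sigmaP_mem p _

theorem qExpand_ser_tRep (f : modFun M) :
    qExpand Qbar p (ser ((tRep p hp hpM).prodMF f)) = (∏ b : Fin p, zTw p b (ser f)) *
      qExpand Qbar (p * p) (ser (diamond _ (sigmaT_mem hp hpM) f)) := by
  refine liftC_injective ?_
  refine (liftC_qExpand p _).trans
    ((HasExp.qExpand' (hasExp_ser ((tRep p hp hpM).prodMF f)) p (mul_one p)).unique
      (NeZero.pos p) ?_)
  rw [map_mul, map_prod, HeckeReps.coe_prodMF, HeckeReps.prodF_apply]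
  erw [Fintype.prod_option]
  rw [mul_comm]
  refine HasExp.mul ?_ ?_
  · refine hasExp_finset_prod _ fun b _ => ?_
    have h := hasExp_pull_upper one_pos (hasExp_ser f) 1 p (NeZero.pos p) ((b : ℕ) : ℤ)
      (det_upper_pos one_pos (NeZero.pos p) _)
    rw [qExpand_one_apply] at h
    rw [liftC_twistHom, map_pow, iotaC_zetaQ]
    convert h using 1
    · rw [mul_one]
    · rfl
    · rw [mul_one, zpow_natCast]
  · have : NeZero (p * p) := ⟨mul_ne_zero (NeZero.ne p) (NeZero.ne p)⟩
    have h := hasExp_pull_upper one_pos (hasExp_ser (diamond _ (sigmaT_mem hp hpM) f)) p 1 one_pos 0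
      (det_upper_pos (NeZero.pos p) one_pos _)
    rw [coe_diamond, zpow_zero] at h
    have h' : HasExp (1 * 1) (pullF ((tRep p hp hpM).β none)
      ((tRep p hp hpM).det_pos none) (f : ℍ → ℂ))
        (qExpand ℂ p (liftC (ser (diamond _ (sigmaT_mem hp hpM) f)))) := by
      erw [pullF_SL_mul (det_upper_pos (NeZero.pos p) one_pos 0) _ (sigmaT hp hpM) rfl]
      convert h using 1
      congr 1
      ext k
      simp
    rw [liftC_qExpand, ← qExpand_qExpand]
    exact HasExp.qExpand' h' p (by ring)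

theorem qExpand_normFF (x : FF M) :
    qExpand Qbar p ((tRep p hp hpM).normFF x : LaurentSeries Qbar)
      = (∏ b : Fin p, zTw p b (x : LaurentSeries Qbar)) *
        qExpand Qbar (p * p) (diaFF _ (sigmaT_mem hp hpM) x : LaurentSeries Qbar) := by
  obtain ⟨f, g, hg, rfl⟩ := exists_eq_div x
  rw [show (tRep p hp hpM).normFF (toFF f / toFF g) = (tRep p hp hpM).normFun _ from rfl,
    (tRep p hp hpM).normFun_eq hg rfl, map_div₀, diaFF_toFF, diaFF_toFF]
  simp only [IntermediateField.coe_div, coe_toFF, map_div₀, qExpand_ser_tRep,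
    Finset.prod_div_distrib, div_mul_div_comm]

theorem galHom_normFF (g : GalQ) (x : FF M) :
    galHom g ((tRep p hp hpM).normFF x) = (tRep p hp hpM).normFF (galHom g x) := by
  classical
  refine Subtype.ext (qExpand_injective p ?_)
  rw [qExpand_normFF, coe_galHom, ← coeffMap_qExpand, qExpand_normFF, map_mul, map_prod,
    coe_galHom, coeffMap_qExpand, ← coe_galHom, galHom_diaFF]
  congr 1
  have hkp : (cycExp p g).Coprime p := coprime_cycExp g
  let u := ZMod.unitOfCoprime _ hkp
  let e : Fin p ≃ Fin p := (ZMod.finEquiv p).toEquiv.trans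
    ((Units.mulLeft u).trans (ZMod.finEquiv p).toEquiv.symm)
  refine Fintype.prod_equiv e _ _ fun b => ?_
  rw [coeffMap_twistHom]
  congr 1
  · congr 1
    refine (map_pow (g : Qbar →+* Qbar) _ _).trans ?_
    show (g (zetaQ p)) ^ (b : ℕ) = _
    rw [apply_zetaQ, ← pow_mul, pow_eq_pow_mod (_ * _) zetaQ_isPrimitiveRoot.pow_eq_one,
      pow_eq_pow_mod (e b : ℕ) zetaQ_isPrimitiveRoot.pow_eq_one]
    congr 1
    rw [← ZMod.natCast_eq_natCast_iff']
    have hf : ∀ i : Fin p, ((i : ℕ) : ZMod p) = ZMod.finEquiv p i := fun i => by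
      obtain ⟨q, rfl⟩ := Nat.exists_eq_succ_of_ne_zero (NeZero.ne p)
      show ((i : ℕ) : ZMod (q + 1)) = (i : Fin (q + 1))
      exact Fin.cast_val_eq_self i
    push_cast
    rw [hf, hf, show e b = (ZMod.finEquiv p).symm ((u : ZMod p) * ZMod.finEquiv p b) from rfl,
      RingEquiv.apply_symm_apply]
    rfl

variable {n : ℕ} [NeZero n]

theorem galKum_kumT_tRep (hsurj : Function.Surjective (kummer M n)) (g : GalQ) (x : Kum M n) :
    galKum n g ((tRep p hp hpM).kumT hsurj x) = (tRep p hp hpM).kumT hsurj (galKum n g x) := by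
  obtain ⟨u, rfl⟩ := kumMk_surjective x
  exact congrArg kumMk (Subtype.ext (Units.ext (galHom_normFF hp hpM g _)))

omit [NeZero p] in
theorem dRep_normFF (σ : SL(2, ℤ)) (hσ : σ ∈ Gamma0 M) (x : FF M) :
    (dRep σ hσ).normFF x = diaFF σ hσ x := by
  have key : ∀ f : modFun M, (dRep σ hσ).prodMF f = diamond σ hσ f := fun f => Subtype.ext (by
    rw [HeckeReps.coe_prodMF, HeckeReps.prodF_apply]
    let _ : Fintype (dRep σ hσ).ι := (dRep σ hσ).fin
    refine (Finset.prod_eq_single (f := fun i => pullF ((dRep σ hσ).β i) _ (f : ℍ → ℂ)) ()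
      (fun b _ hb => absurd (Subsingleton.elim (α := Unit) b ()) hb)
      (fun h => absurd (Finset.mem_univ (α := (dRep σ hσ).ι) ()) h)).trans ?_
    funext τ
    exact congrArg (f : ℍ → ℂ) (mSmul_SL σ _ τ))
  obtain ⟨f, g, hg, rfl⟩ := exists_eq_div x
  show (dRep σ hσ).normFun _ = _
  rw [(dRep σ hσ).normFun_eq hg rfl, key, key, map_div₀, diaFF_toFF, diaFF_toFF]

theorem galKum_kumT_dRep (hsurj : Function.Surjective (kummer M n)) (σ : SL(2, ℤ))
    (hσ : σ ∈ Gamma0 M) (g : GalQ) (x : Kum M n) :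
    galKum n g ((dRep σ hσ).kumT hsurj x) = (dRep σ hσ).kumT hsurj (galKum n g x) := by
  obtain ⟨u, rfl⟩ := kumMk_surjective x
  refine congrArg kumMk (Subtype.ext (Units.ext ?_))
  show galHom g ((dRep σ hσ).normFF _) = (dRep σ hσ).normFF (galHom g _)
  rw [dRep_normFF, dRep_normFF, galHom_diaFF]

end FLTAgent.GammaH

end
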