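import Fermat.Agent.GammaH.Units
import Fermat.Agent.FFDifferential.Canonical

/-!
# A lower bound for the genus of `X₁(M)`

Counting the zeros and poles of `j` and `j - 1728` gives `12 (g - 1) ≥ μ - 6 c_∞`, where `μ`
is the index of `± Γ₁(M)` and `c_∞` the number of cusps (`index_le_genus`).
-/

set_option autoImplicit false

noncomputable section

open UpperHalfPlane Filter CongruenceSubgroup ModularCurve AlgebraicCurve MulAction
open scoped Manifold MatrixGroups Topology IntermediateField

namespace FLTAgent.GammaH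

open FLTAgent.LevelM FLTAgent.FFBasic FLTAgent.FFDifferential

local notation "Qbar" => AlgebraicClosure ℚ

variable {M : ℕ} [NeZero M] [Fact (1 < M)]

omit [Fact (1 < M)] in
theorem order_serAt_mul_gammaPM {γ h : SL(2, ℤ)} (hh : h ∈ gammaPM M) (k : ℤ) (f : modFun M)
    (hf : f ≠ 0) : (serAt (h * γ * ModularGroup.T ^ k) f).order = (serAt γ f).order := by
  have h1 : serAt (h * γ * ModularGroup.T ^ k) f =
      twist (Complex.exp (2 * Real.pi * Complex.I * k / M)) (serAt γ f) := by
    refine (hasExp_serAt _ f).unique (NeZero.pos M) ?_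
    rw [act_mul, act_mul, modFun_act_pm f hh]
    exact (hasExp_serAt γ f).act_T k
  have hne := serAt_ne_zero γ hf
  have hne' := serAt_ne_zero (h * γ * ModularGroup.T ^ k) hf
  rw [h1] at hne' ⊢
  refine le_antisymm (HahnSeries.order_le_of_coeff_ne_zero ?_)
    (HahnSeries.order_le_of_coeff_ne_zero ?_)
  · rw [twist_coeff]
    exact mul_ne_zero (HahnSeries.coeff_order_eq_zero.not.mpr hne)
      (zpow_ne_zero _ (Complex.exp_ne_zero _))
  · intro h0
    refine HahnSeries.coeff_order_eq_zero.not.mpr hne' ?_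
    rw [twist_coeff, h0, zero_mul]

/-- The cusps of `± Γ₁(M)`. -/
abbrev CuspOrb (M : ℕ) : Type :=
  orbitRel.Quotient (Subgroup.zpowers ModularGroup.T) (SL(2, ℤ) ⧸ gammaPM M)

theorem card_le_cuspOrb (S : Finset (Place Qbar (FF M))) (hS : ∀ v ∈ S, v.ord (jF M) < 0) :
    S.card ≤ Nat.card (CuspOrb M) := by
  classical
  choose γ hγ using fun v : S => exists_cuspPlace_eq v.1 (hS v.1 v.2)
  have : Finite (CuspOrb M) := Quotient.finite _
  let φ : S → CuspOrb M := fun v => Quotient.mk'' (((γ v)⁻¹ : SL(2, ℤ)) : SL(2, ℤ) ⧸ gammaPM M)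
  have hφ : Function.Injective φ := by
    intro a b hab
    obtain ⟨⟨t, k, rfl⟩, ht⟩ := MulAction.orbitRel_apply.mp (Quotient.eq''.mp hab)
    have hmem : ((γ a)⁻¹)⁻¹ * (ModularGroup.T ^ k * (γ b)⁻¹) ∈ gammaPM M :=
      QuotientGroup.eq.mp ht.symm
    rw [inv_inv] at hmem
    set h := γ a * (ModularGroup.T ^ k * (γ b)⁻¹) with hh
    have hb : γ a = h * γ b * ModularGroup.T ^ (-k) := by
      rw [hh, zpow_neg]; group
    refine Subtype.ext ?_
    rw [← hγ a, ← hγ b]
    refine cuspPlace_eq_of fun f hf => ?_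
    rw [hb, order_serAt_mul_gammaPM hmem _ f hf]
  have := Nat.card_le_card_of_injective φ hφ
  simpa [Nat.card_eq_fintype_card (α := S)] using this

theorem sum_ord_sub_const (c : Qbar) :
    ∑ v ∈ (finite_setOf_ord_pos (K := Qbar) (jF M - algebraMap Qbar (FF M) c)).toFinset,
      v.ord (jF M - algebraMap Qbar (FF M) c) = ((gammaPM M).index : ℤ) := by
  set x := jF M - algebraMap Qbar (FF M) c with hx
  have hT : Transcendental Qbar x := fun h => transcendental_jF (M := M) <| by
    simpa [hx] using h.add (isAlgebraic_algebraMap c)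
  have hadj : Qbar⟮x⟯ = Qbar⟮jF M⟯ := by
    refine le_antisymm (IntermediateField.adjoin_simple_le_iff.mpr
      (sub_mem (IntermediateField.mem_adjoin_simple_self _ _)
        (IntermediateField.algebraMap_mem _ c)))
      (IntermediateField.adjoin_simple_le_iff.mpr ?_)
    rw [show jF M = x + algebraMap Qbar (FF M) c by rw [hx]; ring]
    exact add_mem (IntermediateField.mem_adjoin_simple_self _ _)
      (IntermediateField.algebraMap_mem _ c)
  have h := sum_ord_mul_deg_zeros hT
  rw [hadj] at h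
  rw [← finrank_baseJ (M := M)]
  refine Eq.trans (Finset.sum_congr rfl fun v _ => ?_) h
  rw [place_deg_eq_one, Nat.cast_one, mul_one]

theorem sum_ord_poles :
    ∑ v ∈ (finite_setOf_ord_pos (K := Qbar) (jF M)⁻¹).toFinset, v.ord (jF M) =
      -((gammaPM M).index : ℤ) := by
  have h := sum_ord_mul_deg_zeros (transcendental_inv (transcendental_jF (M := M)))
  rw [adjoin_simple_inv] at h
  rw [← finrank_baseJ (M := M), ← neg_eq_iff_eq_neg, ← Finset.sum_neg_distrib]
  refine Eq.trans (Finset.sum_congr rfl fun v _ => ?_) h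
  rw [place_deg_eq_one, Nat.cast_one, mul_one, v.ord_inv]

omit [Fact (1 < M)] in
theorem jF_mem_of_pos {v : Place Qbar (FF M)} {c : Qbar}
    (hv : 0 < v.ord (jF M - algebraMap Qbar (FF M) c)) : jF M ∈ v.toValuationSubring := by
  have h := add_mem (mem_of_ord_nonneg v hv.le) (v.algebraMap_mem' c)
  rwa [sub_add_cancel] at h

variable (h5 : 5 ≤ M)
include h5

omit [Fact (1 < M)] in
theorem three_dvd_ord {v : Place Qbar (FF M)} (hv : 0 < v.ord (jF M - algebraMap Qbar (FF M) 0)) :
    3 ∣ v.ord (jF M - algebraMap Qbar (FF M) 0) := by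
  obtain ⟨u, u', a, -, hu, ha, -⟩ := exists_unit_and_roots h5
  have hu0 := ord_toFF_of_mul_eq_one v (jF_mem_of_pos hv) hu
  rw [map_zero, sub_zero] at hv ⊢
  have h := congrArg (fun f => v.ord (toFF f)) ha
  have hune : toFF u ≠ 0 := left_ne_zero_of_mul_eq_one (by rw [← map_mul, hu, map_one])
  simp only [map_pow, map_mul, ord_pow] at h
  rw [show toFF (jMod M) = jF M from rfl,
    v.ord_mul hune (pow_ne_zero 2 (show jF M ≠ 0 from fun h0 => by simp [h0] at hv)), hu0,
    ord_pow, zero_add] at h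
  change _ = (2 : ℤ) * v.ord (jF M) at h
  push_cast at h
  omega

omit [Fact (1 < M)] in
theorem two_dvd_ord {v : Place Qbar (FF M)}
    (hv : 0 < v.ord (jF M - algebraMap Qbar (FF M) 1728)) :
    2 ∣ v.ord (jF M - algebraMap Qbar (FF M) 1728) := by
  obtain ⟨u, u', -, b, hu, -, hb⟩ := exists_unit_and_roots h5
  have hu0 := ord_toFF_of_mul_eq_one v (jF_mem_of_pos hv) hu
  have h := congrArg (fun f => v.ord (toFF f)) hb
  have hune : toFF u ≠ 0 := left_ne_zero_of_mul_eq_one (by rw [← map_mul, hu, map_one])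
  simp only [map_pow, map_mul, map_sub, ord_pow, ← algebraMap_modFun, AlgHom.commutes] at h
  rw [v.ord_mul hune (fun h0 => by rw [show toFF (jMod M) = jF M from rfl] at h0; simp [h0] at hv),
    hu0, zero_add] at h
  change _ = v.ord (jF M - algebraMap Qbar (FF M) 1728) at h
  push_cast at h
  omega

/-- `12 (g - 1) ≥ μ - 6 c_∞`. -/
theorem index_le_genus :
    ((gammaPM M).index : ℤ) + 12 ≤
      12 * (genusFF Qbar (FF M) : ℤ) + 6 * (Nat.card (CuspOrb M) : ℤ) := by
  classical
  have hx := transcendental_jF (M := M)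
  let P := fun c : Qbar =>
    (finite_setOf_ord_pos (K := Qbar) (jF M - algebraMap Qbar (FF M) c)).toFinset
  let Pi' := (finite_setOf_ord_pos (K := Qbar) (jF M)⁻¹).toFinset
  set D := fun w : Place Qbar (FF M) => w.ordDifferential (KaehlerDifferential.D Qbar (FF M) (jF M))
  have memP : ∀ c v, v ∈ P c ↔ 0 < v.ord (jF M - algebraMap Qbar (FF M) c) := fun c v => by simp [P]
  have memPi : ∀ v, v ∈ Pi' ↔ v.ord (jF M) < 0 := fun v => by simp [Pi', Place.ord_inv]
  have hDP : ∀ c v, v ∈ P c → D v = v.ord (jF M - algebraMap Qbar (FF M) c) - 1 := fun c v hv =>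
    ordDifferential_dx_of_pos v ((memP c v).mp hv)
  have hDi : ∀ v, v ∈ Pi' → D v = v.ord (jF M) - 1 := fun v hv =>
    ordDifferential_dx_of_neg v ((memPi v).mp hv)
  have hDnn : ∀ v, v ∉ Pi' → 0 ≤ D v := fun v hv => by
    have hmem : jF M ∈ v.toValuationSubring :=
      mem_of_ord_nonneg v (not_lt.mp fun h => hv ((memPi v).mpr h))
    obtain ⟨c, hc⟩ := exists_sub_mem_filt_one v hmem
    have hne : jF M - algebraMap Qbar (FF M) c ≠ 0 := fun h0 =>
      hx (sub_eq_zero.mp h0 ▸ isAlgebraic_algebraMap c)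
    have hpos := le_ord_of_mem_filt hc hne
    rw [hDP c v ((memP c v).mpr (by omega))]
    omega
  have hdis01 : Disjoint (P 0) (P 1728) := Finset.disjoint_left.mpr fun v h0 h1 => by
    rw [memP] at h0 h1
    have hne : (algebraMap Qbar (FF M) 1728 : FF M) ≠ 0 := by simp
    have := le_ord_add v (f := jF M - algebraMap Qbar (FF M) 0)
      (g := -(jF M - algebraMap Qbar (FF M) 1728)) (by simp)
    rw [ord_neg, show jF M - algebraMap Qbar (FF M) 0 + -(jF M - algebraMap Qbar (FF M) 1728) =
      algebraMap Qbar (FF M) 1728 by rw [map_zero]; ring, ord_algebraMap] at this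
    omega
  have hdis : Disjoint (P 0 ∪ P 1728) Pi' := Finset.disjoint_left.mpr fun v h hi => by
    rw [memPi] at hi
    rcases Finset.mem_union.mp h with h | h <;>
    · have hm := jF_mem_of_pos ((memP _ v).mp h)
      have := ord_nonneg_of_mem v hm
      omega
  let S := (P 0 ∪ P 1728 ∪ Pi') ∪ (dxDivisor hx).support
  have hRH := two_mul_genusFF_sub_two hx S fun w hw => by
    by_contra h
    exact hw (Finset.mem_union_right _
      (Finsupp.mem_support_iff.mpr (by rw [dxDivisor_apply]; exact h)))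
  change _ = ∑ w ∈ S, D w at hRH
  have hsub : ∑ w ∈ P 0 ∪ P 1728 ∪ Pi', D w ≤ ∑ w ∈ S, D w :=
    Finset.sum_le_sum_of_subset_of_nonneg Finset.subset_union_left fun w _ hw =>
      hDnn w fun h => hw (Finset.mem_union_right _ h)
  rw [Finset.sum_union hdis, Finset.sum_union hdis01] at hsub
  have h0 : (2 : ℤ) * (gammaPM M).index ≤ 3 * ∑ w ∈ P 0, D w := by
    rw [← sum_ord_sub_const (M := M) 0, Finset.mul_sum, Finset.mul_sum]
    refine Finset.sum_le_sum fun v hv => ?_
    rw [hDP 0 v hv]
    have h3 := three_dvd_ord h5 ((memP 0 v).mp hv)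
    have := (memP 0 v).mp hv
    omega
  have h1 : ((gammaPM M).index : ℤ) ≤ 2 * ∑ w ∈ P 1728, D w := by
    rw [← sum_ord_sub_const (M := M) 1728, Finset.mul_sum]
    refine Finset.sum_le_sum fun v hv => ?_
    rw [hDP 1728 v hv]
    have h2 := two_dvd_ord h5 ((memP 1728 v).mp hv)
    have := (memP 1728 v).mp hv
    omega
  have h2 : -((gammaPM M).index : ℤ) - Nat.card (CuspOrb M) ≤ ∑ w ∈ Pi', D w := by
    rw [Finset.sum_congr rfl hDi, Finset.sum_sub_distrib, sum_ord_poles]
    have := card_le_cuspOrb Pi' fun v hv => (memPi v).mp hv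
    simp only [Finset.sum_const, nsmul_eq_mul, mul_one]
    omega
  omega

end FLTAgent.GammaH

end
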