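import Fermat.Agent.GammaH.Reduction
import Fermat.Agent.GammaH.Galois
import Fermat.Agent.IgusaCover.Congruence

/-!
# Reduction of series up to constants

`HasRed z r` says that `z` is a constant times a ratio of integral series with reduction `r`.
It is multiplicative and stable under substitutions and twists; at a place prime to `n M` an
element of `divGroup M n` with constant reduction is an `n`-th power (`mem_powGroup_of_hasRed`).
-/

set_option autoImplicit false

noncomputable section

open UpperHalfPlane CongruenceSubgroup ModularCurve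
open scoped MatrixGroups

namespace FLTAgent.GammaH

open FLTAgent.LevelM

local notation "Qbar" => AlgebraicClosure ℚ

variable {A : ValuationSubring (AlgebraicClosure ℚ)}

local notation "κ" => IsLocalRing.ResidueField A
local notation "inc" => coeffMap (ValuationSubring.subtype A)
local notation "rdc" => coeffMap (IsLocalRing.residue A)

/-- `z` is a constant times a ratio of integral series, whose reduction is `r`. -/
def HasRed (z : LaurentSeries Qbar) (r : LaurentSeries κ) : Prop :=
  r ≠ 0 ∧ ∃ (c : Qbar) (s t : LaurentSeries A), c ≠ 0 ∧ rdc t ≠ 0 ∧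
    z * inc t = HahnSeries.C c * inc s ∧ rdc s = r * rdc t

namespace HasRed

variable {z w : LaurentSeries Qbar} {r r' : LaurentSeries (IsLocalRing.ResidueField A)}

theorem one : HasRed (A := A) 1 1 :=
  ⟨one_ne_zero, 1, 1, 1, one_ne_zero, by rw [map_one]; exact one_ne_zero, by simp, by simp⟩

theorem of_eq (hz : HasRed z r) {r₂ : LaurentSeries κ} (h : r = r₂) : HasRed z r₂ := h ▸ hz

theorem mul (hz : HasRed z r) (hw : HasRed w r') : HasRed (z * w) (r * r') := by
  obtain ⟨hr, c, s, t, hc, ht, e, e'⟩ := hz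
  obtain ⟨hr', d, u, v, hd, hv, f, f'⟩ := hw
  refine ⟨mul_ne_zero hr hr', c * d, s * u, t * v, mul_ne_zero hc hd, ?_, ?_, ?_⟩
  · rw [map_mul]; exact mul_ne_zero ht hv
  · rw [map_mul inc t v, map_mul inc s u, map_mul, mul_mul_mul_comm, e, f, mul_mul_mul_comm]
  · rw [map_mul rdc s u, map_mul rdc t v, e', f', mul_mul_mul_comm]

theorem pow (hz : HasRed z r) (m : ℕ) : HasRed (z ^ m) (r ^ m) := by
  induction m with
  | zero => rw [pow_zero, pow_zero]; exact one
  | succ m ih => rw [pow_succ, pow_succ]; exact ih.mul hz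

theorem prod {ι : Type*} (S : Finset ι) {f : ι → LaurentSeries Qbar} {g : ι → LaurentSeries κ}
    (h : ∀ i ∈ S, HasRed (f i) (g i)) : HasRed (∏ i ∈ S, f i) (∏ i ∈ S, g i) := by
  induction S using Finset.cons_induction with
  | empty => simpa using one
  | cons a S ha ih =>
    rw [Finset.prod_cons, Finset.prod_cons]
    exact (h a (Finset.mem_cons_self a S)).mul (ih fun i hi => h i (Finset.mem_cons_of_mem hi))

theorem ne_zero (hz : HasRed z r) : z ≠ 0 := by
  obtain ⟨hr, c, s, t, hc, ht, e, e'⟩ := hz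
  intro h0
  rw [h0, zero_mul, eq_comm, mul_eq_zero] at e
  rcases e with e | e
  · exact hc (HahnSeries.C_injective (e.trans (map_zero _).symm))
  · rw [GoodReduction.inc_injective A (e.trans (map_zero _).symm), map_zero, eq_comm] at e'
    exact mul_ne_zero hr ht e'

theorem inv (hz : HasRed z r) : HasRed z⁻¹ r⁻¹ := by
  have hz0 := hz.ne_zero
  obtain ⟨hr, c, s, t, hc, ht, e, e'⟩ := hz
  refine ⟨inv_ne_zero hr, c⁻¹, t, s, inv_ne_zero hc, by rw [e']; exact mul_ne_zero hr ht, ?_, ?_⟩
  · have h1 : inc s = HahnSeries.C c⁻¹ * (z * inc t) := by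
      rw [e, ← mul_assoc, ← map_mul, inv_mul_cancel₀ hc, map_one, one_mul]
    rw [h1, mul_left_comm, inv_mul_cancel_left₀ hz0]
  · rw [e', inv_mul_cancel_left₀ hr]

/-- The reduction is unique up to a constant. -/
theorem unique (hz : HasRed z r) (hz' : HasRed z r') :
    ∃ b : κ, b ≠ 0 ∧ r' = HahnSeries.C b * r := by
  obtain ⟨hr, c, s, t, hc, ht, e, e'⟩ := hz
  obtain ⟨hr', c', s', t', hc', ht', f, f'⟩ := hz'
  obtain ⟨b, hb, hbe⟩ := red_proportional (q := c / c') (s := s * t') (t := s' * t)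
    (by rw [map_mul, e']; exact mul_ne_zero (mul_ne_zero hr ht) ht')
    (by rw [map_mul, f']; exact mul_ne_zero (mul_ne_zero hr' ht') ht) (by
      refine mul_left_cancel₀ (show (HahnSeries.C c' : LaurentSeries Qbar) ≠ 0 from fun h0 =>
        hc' (HahnSeries.C_injective (h0.trans (map_zero _).symm))) ?_
      rw [map_mul inc s' t, map_mul inc s t', ← mul_assoc, ← f, mul_right_comm, e,
        ← mul_assoc (HahnSeries.C c'), ← map_mul, mul_div_cancel₀ _ hc']
      ring)
  refine ⟨b, hb, mul_right_cancel₀ (mul_ne_zero ht' ht) ?_⟩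
  rw [map_mul rdc s' t, map_mul rdc s t', e', f'] at hbe
  linear_combination hbe

/-- Application of ring endomorphisms compatible with reduction. -/
theorem map (hz : HasRed z r) {g : Qbar →+* Qbar} {gA : A →+* A}
    (hg : ∀ a : A, ((gA a : A) : Qbar) = g a) {ρ : κ →+* κ}
    (hρ : ∀ a : A, IsLocalRing.residue A (gA a) = ρ (IsLocalRing.residue A a)) :
    HasRed (coeffMap g z) (coeffMap ρ r) := by
  obtain ⟨hr, c, s, t, hc, ht, e, e'⟩ := hz
  have h1 : ∀ y : LaurentSeries A, inc (coeffMap gA y) = coeffMap g (inc y) := fun y => by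
    rw [coeffMap_coeffMap, coeffMap_coeffMap]
    exact coeffMap_congr (RingHom.ext hg) y
  have h2 : ∀ y : LaurentSeries A, rdc (coeffMap gA y) = coeffMap ρ (rdc y) := fun y => by
    rw [coeffMap_coeffMap, coeffMap_coeffMap]
    exact coeffMap_congr (RingHom.ext hρ) y
  have hinj := CongruenceRel.coeffMap_injective (f := ρ) ρ.injective
  refine ⟨fun h0 => hr (hinj (h0.trans (map_zero _).symm)), g c, coeffMap gA s, coeffMap gA t,
    fun h0 => hc (g.injective (h0.trans (map_zero g).symm)), ?_, ?_, ?_⟩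
  · rw [h2]
    exact fun h0 => ht (hinj (h0.trans (map_zero _).symm))
  · rw [h1, h1, ← coeffMap_C g, ← map_mul, ← map_mul, e]
  · rw [h2, h2, ← map_mul, e']

theorem expand (hz : HasRed z r) (d : ℕ) [NeZero d] :
    HasRed (qExpand Qbar d z) (qExpand κ d r) := by
  obtain ⟨hr, c, s, t, hc, ht, e, e'⟩ := hz
  have hC : ∀ x : Qbar, qExpand Qbar d (HahnSeries.C x) = HahnSeries.C x := fun x => by
    rw [HahnSeries.C_apply, qExpand_single, mul_zero]
  refine ⟨fun h0 => hr (qExpand_injective d (h0.trans (map_zero _).symm)), c, qExpand A d s,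
    qExpand A d t, hc, ?_, ?_, ?_⟩
  · rw [coeffMap_qExpand]
    exact fun h0 => ht (qExpand_injective d (h0.trans (map_zero _).symm))
  · rw [coeffMap_qExpand, coeffMap_qExpand, ← map_mul, e, map_mul, hC]
  · rw [coeffMap_qExpand, coeffMap_qExpand, e', map_mul]

/-- Twisting by a unit with trivial reduction. -/
theorem twist (hz : HasRed z r) (ζ : Aˣ) (hζ : IsLocalRing.residue A (ζ : A) = 1) {a : Qbar}
    (ha : a ≠ 0) (haζ : a = ((ζ : A) : Qbar)) : HasRed (twistHom a ha z) r := by
  obtain ⟨hr, c, s, t, hc, ht, e, e'⟩ := hz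
  let tw : LaurentSeries A → LaurentSeries A := fun y =>
    ⟨fun k => y.coeff k * ((ζ ^ k : Aˣ) : A), y.isPWO_support'.mono fun k hk h0 =>
      hk (by simp only; rw [h0, zero_mul])⟩
  have h1 : ∀ y, inc (tw y) = twistHom a ha (inc y) := fun y => by
    ext k
    have hk : (((ζ ^ k : Aˣ) : A) : Qbar) = a ^ k := by
      rw [haζ]
      exact (congrArg Units.val (map_zpow (Units.map (A.subtype : A →* Qbar)) ζ k)).trans
        (Units.val_zpow_eq_zpow_val _ k)
    rw [twistHom_coeff, coeffMap_coeff, coeffMap_coeff]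
    show A.subtype (y.coeff k * ((ζ ^ k : Aˣ) : A)) = _
    rw [map_mul]
    exact congrArg (A.subtype (y.coeff k) * ·) hk
  have h2 : ∀ y, rdc (tw y) = rdc y := fun y => by
    have hu : Units.map (IsLocalRing.residue A : A →* κ) ζ = 1 := Units.ext hζ
    ext k
    rw [coeffMap_coeff, coeffMap_coeff]
    show IsLocalRing.residue A (y.coeff k * ((ζ ^ k : Aˣ) : A)) = _
    rw [map_mul]
    have hk := congrArg Units.val (map_zpow (Units.map (IsLocalRing.residue A : A →* κ)) ζ k)
    rw [hu, one_zpow] at hk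
    rw [show IsLocalRing.residue A ((ζ ^ k : Aˣ) : A) = 1 from hk, mul_one]
  have hC : twistHom a ha (HahnSeries.C c) = HahnSeries.C c := by
    ext k
    rcases eq_or_ne k 0 with rfl | hk <;> simp [*]
  exact ⟨hr, c, tw s, tw t, hc, by rw [h2]; exact ht,
    by rw [h1, h1, ← map_mul, e, map_mul, hC], by rw [h2, h2, e']⟩

end HasRed

section Interface

variable {M : ℕ} [NeZero M] [Fact (1 < M)] {p : ℕ} [Fact p.Prime]

theorem exists_hasRed (hA : A.LiesOverPrime p) (hpM : ¬ p ∣ M) {x : FF M} (hx : x ≠ 0) :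
    ∃ r : LaurentSeries κ, HasRed (x : LaurentSeries Qbar) r := by
  obtain ⟨f, g, hg, rfl⟩ := exists_eq_div x
  have hf : f ≠ 0 := fun h => hx (by rw [h, map_zero, zero_div])
  obtain ⟨c, s, hc, hs, e⟩ := exists_normalized hA hpM hf
  obtain ⟨d, u, hd, hu, e'⟩ := exists_normalized hA hpM hg
  have hfr : HasRed (ser f) (rdc s) :=
    ⟨hs, c, s, 1, hc, by rw [map_one]; exact one_ne_zero,
      by rw [map_one inc, mul_one, e], by rw [map_one rdc, mul_one]⟩
  have hgr : HasRed (ser g) (rdc u) :=
    ⟨hu, d, u, 1, hd, by rw [map_one]; exact one_ne_zero,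
      by rw [map_one inc, mul_one, e'], by rw [map_one rdc, mul_one]⟩
  refine ⟨rdc s * (rdc u)⁻¹, ?_⟩
  rw [IntermediateField.coe_div, coe_toFF, coe_toFF, div_eq_mul_inv]
  exact hfr.mul hgr.inv

theorem mem_powGroup_of_hasRed (hA : A.LiesOverPrime p) (hpM : ¬ p ∣ M) {n : ℕ} (hn : ¬ p ∣ n)
    (h : divGroup M n) {a : κ} (ha : a ≠ 0)
    (hr : HasRed (((h : (FF M)ˣ) : FF M) : LaurentSeries Qbar) (HahnSeries.C a)) :
    h ∈ powGroup M n := by
  obtain ⟨-, c, s, t, -, ht, e, e'⟩ := hr
  have : CharP κ p := IgusaCover.charP_resK A Fact.out hA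
  exact mem_powGroup_of_reduction hA hpM (fun h0 => hn ((CharP.cast_eq_zero_iff κ p n).mp h0)) h e
    ht ha e'

end Interface

end FLTAgent.GammaH

end
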