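import Fermat.Agent.GammaH.Galois

/-!
# Commutation of the Hecke and diamond operators

`T_p` commutes with `T_q` and with the diamond operators, on norms of functions and hence on
`V_n(M)` (`kumT_tRep_comm`, `kumT_tRep_dRep`, `kumT_dRep_comm`).
-/

set_option autoImplicit false

noncomputable section

open UpperHalfPlane CongruenceSubgroup ModularCurve
open scoped MatrixGroups

namespace FLTAgent.GammaH

open FLTAgent.LevelM

local notation "Qbar" => AlgebraicClosure ℚ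
local notation "Mat" => Matrix (Fin 2) (Fin 2) ℤ

attribute [local instance] HeckeReps.fin

variable {M : ℕ} [NeZero M]

omit [NeZero M] in
/-- Every matrix of determinant `p` which is `(1 *; 0 *)` modulo `M` has a representative. -/
theorem tRep_exists {p : ℕ} (hp : p.Prime) (hpM : ¬ p ∣ M) {m : Mat} (hdet : m.det = p)
    (hc : ((m 1 0 : ℤ) : ZMod M) = 0) (ha : ((m 0 0 : ℤ) : ZMod M) = 1) :
    ∃ (j : (tRep p hp hpM).ι) (g : Gamma1 M),
      m = ((g : SL(2, ℤ)) : Mat) * (tRep p hp hpM).β j := by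
  rcases exists_decomp hp hdet hc ha with ⟨b, g, e⟩ | ⟨-, γ, hγ, hu, e⟩
  · exact ⟨some b, g, e⟩
  · set σ := sigmaP M p ((hp.coprime_iff_not_dvd).mpr hpM)
    refine ⟨none, ⟨γ * σ⁻¹, mul_inv_mem_Gamma1 (sigmaP_mem p _) hγ
      (by rw [sigmaP_apply]; exact hu)⟩, ?_⟩
    show m = ((γ * σ⁻¹ : SL(2, ℤ)) : Mat) * ((σ : Mat) * !![(p : ℤ), 0; 0, 1])
    rw [e, ← Matrix.mul_assoc, ← Matrix.SpecialLinearGroup.coe_mul, inv_mul_cancel_right]

omit [NeZero M] in
theorem tRep_beta_spec {p : ℕ} (hp : p.Prime) (hpM : ¬ p ∣ M) (i : (tRep p hp hpM).ι) :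
    ((tRep p hp hpM).β i).det = p ∧ ((((tRep p hp hpM).β i) 1 0 : ℤ) : ZMod M) = 0 ∧
      ((((tRep p hp hpM).β i) 0 0 : ℤ) : ZMod M) = 1 := by
  rcases i with - | b
  · set σ := sigmaP M p ((hp.coprime_iff_not_dvd).mpr hpM)
    have hσ0 : ((σ 1 0 : ℤ) : ZMod M) = 0 := Gamma0_mem.mp (sigmaP_mem p _)
    have h := congrArg (fun z : ℤ => (z : ZMod M)) (σ.det_coe ▸ (Matrix.det_fin_two (σ : Mat)).symm)
    have hσ : ((σ 0 0 : ℤ) : ZMod M) * (p : ZMod M) = 1 := by
      simpa [hσ0, σ, sigmaP_apply] using h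
    show ((σ : Mat) * !![(p : ℤ), 0; 0, 1]).det = p ∧ _
    refine ⟨by simp [Matrix.det_fin_two_of], ?_, ?_⟩
    · show ((((σ : Mat) * !![(p : ℤ), 0; 0, 1]) 1 0 : ℤ) : ZMod M) = 0
      simp [Matrix.mul_apply, Fin.sum_univ_two, hσ0]
    · show ((((σ : Mat) * !![(p : ℤ), 0; 0, 1]) 0 0 : ℤ) : ZMod M) = 1
      simpa [Matrix.mul_apply, Fin.sum_univ_two] using hσ
  · exact ⟨by simp [tRep, Matrix.det_fin_two_of], by simp [tRep], by simp [tRep]⟩

omit [NeZero M] in
theorem tRep_exists_perm {p : ℕ} (hp : p.Prime) (hpM : ¬ p ∣ M) {σ : SL(2, ℤ)}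
    (hσ : σ ∈ Gamma0 M) :
    ∃ (e : Equiv.Perm (tRep p hp hpM).ι) (g : (tRep p hp hpM).ι → Gamma1 M),
      ∀ i, (tRep p hp hpM).β i * (σ : Mat)
        = ((σ * (g i : SL(2, ℤ)) : SL(2, ℤ)) : Mat) * (tRep p hp hpM).β (e i) := by
  set R := tRep p hp hpM
  have hσ0 : ((σ 1 0 : ℤ) : ZMod M) = 0 := Gamma0_mem.mp hσ
  have hdet := congrArg (fun z : ℤ => (z : ZMod M))
    (σ.det_coe ▸ (Matrix.det_fin_two (σ : Mat)).symm)
  simp [hσ0] at hdet
  have hex : ∀ i, ∃ (j : R.ι) (g : Gamma1 M),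
      R.β i * (σ : Mat) = ((σ * (g : SL(2, ℤ)) : SL(2, ℤ)) : Mat) * R.β j := fun i => by
    obtain ⟨h1, h2, h3⟩ := tRep_beta_spec hp hpM i
    obtain ⟨j, g, e⟩ := tRep_exists hp hpM (m := ((σ⁻¹ : SL(2, ℤ)) : Mat) * R.β i * (σ : Mat))
      (by rw [Matrix.det_mul, Matrix.det_mul, (σ⁻¹).det_coe, σ.det_coe, one_mul, mul_one]; exact h1)
      (by
        rw [Matrix.SpecialLinearGroup.coe_inv, Matrix.adjugate_fin_two]
        simp [Matrix.mul_apply, Matrix.vecMul, dotProduct, Fin.sum_univ_two, R, hσ0, h2])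
      (by
        rw [Matrix.SpecialLinearGroup.coe_inv, Matrix.adjugate_fin_two]
        simp [Matrix.mul_apply, Matrix.vecMul, dotProduct, Fin.sum_univ_two, R, hσ0, h2, h3]
        linear_combination hdet)
    refine ⟨j, g, ?_⟩
    rw [Matrix.SpecialLinearGroup.coe_mul, Matrix.mul_assoc, ← e, ← Matrix.mul_assoc,
      ← Matrix.mul_assoc, ← Matrix.SpecialLinearGroup.coe_mul, mul_inv_cancel,
      Matrix.SpecialLinearGroup.coe_one, Matrix.one_mul]
  choose e g he using hex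
  have hinj : Function.Injective e := fun i i' h => by
    refine R.sep i i' ⟨σ * ((g i : SL(2, ℤ)) * (g i' : SL(2, ℤ))⁻¹) * σ⁻¹,
      conj_mem_Gamma1 hσ (mul_mem (g i).2 (inv_mem (g i').2))⟩ ?_
    have h1 : R.β i = R.β i * (σ : Mat) * ((σ⁻¹ : SL(2, ℤ)) : Mat) := by
      rw [Matrix.mul_assoc, ← Matrix.SpecialLinearGroup.coe_mul, mul_inv_cancel,
        Matrix.SpecialLinearGroup.coe_one, Matrix.mul_one]
    have h2 : R.β (e i') = (((σ * (g i' : SL(2, ℤ)))⁻¹ : SL(2, ℤ)) : Mat) *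
      (R.β i' * (σ : Mat)) := by
      rw [he i', ← Matrix.mul_assoc, ← Matrix.SpecialLinearGroup.coe_mul, inv_mul_cancel,
        Matrix.SpecialLinearGroup.coe_one, Matrix.one_mul]
    show R.β i = ((σ * ((g i : SL(2, ℤ)) * (g i' : SL(2, ℤ))⁻¹) * σ⁻¹ : SL(2, ℤ)) : Mat) * R.β i'
    rw [h1, he i, h, h2, ← Matrix.mul_assoc, ← Matrix.SpecialLinearGroup.coe_mul, Matrix.mul_assoc,
      Matrix.mul_assoc, ← Matrix.SpecialLinearGroup.coe_mul, mul_inv_cancel,
      Matrix.SpecialLinearGroup.coe_one, Matrix.mul_one]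
    congr 2
    simp only [mul_inv_rev, mul_assoc]
  exact ⟨Equiv.ofBijective e ⟨hinj, Finite.injective_iff_surjective.mp hinj⟩, g, he⟩

variable [Fact (1 < M)]

theorem prodMF_diamond {p : ℕ} (hp : p.Prime) (hpM : ¬ p ∣ M) (σ : SL(2, ℤ)) (hσ : σ ∈ Gamma0 M)
    (f : modFun M) :
    (tRep p hp hpM).prodMF (diamond σ hσ f) = diamond σ hσ ((tRep p hp hpM).prodMF f) := by
  set R := tRep p hp hpM
  obtain ⟨e, g, he⟩ := tRep_exists_perm hp hpM hσ
  refine Subtype.ext ?_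
  rw [coe_diamond, R.coe_prodMF, R.coe_prodMF, R.prodF_apply, R.prodF_apply, map_prod,
    ← Equiv.prod_comp e (fun i => pullF (R.β i) (R.det_pos i) (diamond σ hσ f : ℍ → ℂ))]
  refine Finset.prod_congr rfl fun i _ => ?_
  rw [act_pullF, pullF_SL_mul (R.det_pos (e i)) _ (σ * (g i : SL(2, ℤ))) (he i), act_mul,
    ← coe_diamond σ hσ f, modFun_act _ (g i).2]

theorem normFF_diaFF {p : ℕ} (hp : p.Prime) (hpM : ¬ p ∣ M) (σ : SL(2, ℤ)) (hσ : σ ∈ Gamma0 M)
    (x : FF M) :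
    (tRep p hp hpM).normFF (diaFF σ hσ x) = diaFF σ hσ ((tRep p hp hpM).normFF x) := by
  obtain ⟨f, g, hg, rfl⟩ := exists_eq_div x
  show (tRep p hp hpM).normFun _ = diaFF σ hσ ((tRep p hp hpM).normFun _)
  rw [(tRep p hp hpM).normFun_eq hg rfl,
    (tRep p hp hpM).normFun_eq (f := diamond σ hσ f) (g := diamond σ hσ g)
      (fun h => hg (diamond_injective σ hσ (h.trans (map_zero (diamond σ hσ)).symm)))
      (by rw [map_div₀, diaFF_toFF, diaFF_toFF]),
    map_div₀, diaFF_toFF, diaFF_toFF, prodMF_diamond, prodMF_diamond]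

theorem diaFF_comm (σ τ : SL(2, ℤ)) (hσ : σ ∈ Gamma0 M) (hτ : τ ∈ Gamma0 M) (x : FF M) :
    diaFF σ hσ (diaFF τ hτ x) = diaFF τ hτ (diaFF σ hσ x) := by
  have hx : x ∈ IntermediateField.adjoin Qbar ({jF M} ∪ {toFF (wGen M)} : Set (FF M)) := by
    rw [← IntermediateField.adjoin_adjoin_left, IntermediateField.mem_restrictScalars,
      adjoin_wGen_eq_top]
    trivial
  induction hx using IntermediateField.adjoin_induction with
  | mem z hz =>
    rcases hz with rfl | rfl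
    · rw [diaFF_jF, diaFF_jF, diaFF_jF]
    · rw [wGen, diaFF_toFF, diaFF_toFF, diamond_wMod, diamond_wMod, diaFF_toFF, diaFF_toFF,
        diamond_wMod, diamond_wMod]
      simp only [mul_left_comm]
  | algebraMap c => simp only [diaFF_algebraMap]
  | add y z _ _ hy hz => simp only [map_add, hy, hz]
  | inv y _ hy => simp only [map_inv₀, hy]
  | mul y z _ _ hy hz => simp only [map_mul, hy, hz]

/-! ## `T_p T_q = T_q T_p` through series -/

/-- Twist by a unit. -/
def twU (ζ : Qbarˣ) : LaurentSeries Qbar →+* LaurentSeries Qbar :=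
  twistHom (ζ : Qbar) ζ.ne_zero

theorem twU_comm (ζ ξ : Qbarˣ) (s : LaurentSeries Qbar) : twU ζ (twU ξ s) = twU ξ (twU ζ s) := by
  ext k; simp [twU, mul_right_comm]

theorem qExpand_twU (d : ℕ) [NeZero d] (ζ : Qbarˣ) (s : LaurentSeries Qbar) :
    qExpand Qbar d (twU (ζ ^ d) s) = twU ζ (qExpand Qbar d s) := by
  ext k
  by_cases hk : (d : ℤ) ∣ k
  · obtain ⟨i, rfl⟩ := hk
    simp only [twU, twistHom_coeff, qExpand_coeff_mul, Units.val_pow_eq_pow_val]
    rw [zpow_mul, zpow_natCast]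
  · simp [twU, qExpand_coeff_of_not_dvd d s hk, qExpand_coeff_of_not_dvd d _ hk]

local instance {n : ℕ} [NeZero n] : Fintype (rootsOfUnity n Qbar) := Fintype.ofFinite _

/-- The product of the twists by all `n`-th roots of unity. -/
def muProd (n : ℕ) [NeZero n] : LaurentSeries Qbar →* LaurentSeries Qbar where
  toFun s := ∏ ζ : rootsOfUnity n Qbar, twU (ζ : Qbarˣ) s
  map_one' := by simp
  map_mul' a b := by simp [Finset.prod_mul_distrib]

theorem muProd_apply (n : ℕ) [NeZero n] (s : LaurentSeries Qbar) :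
    muProd n s = ∏ ζ : rootsOfUnity n Qbar, twU (ζ : Qbarˣ) s := rfl

theorem muProd_comm (m n : ℕ) [NeZero m] [NeZero n] (s : LaurentSeries Qbar) :
    muProd m (muProd n s) = muProd n (muProd m s) := by
  simp only [muProd_apply, map_prod]
  rw [Finset.prod_comm]
  simp only [twU_comm]

theorem qExpand_muProd (d n : ℕ) [NeZero d] [NeZero n] (h : d.Coprime n) (s : LaurentSeries Qbar) :
    qExpand Qbar d (muProd n s) = muProd n (qExpand Qbar d s) := by
  have hc : (Nat.card (rootsOfUnity n Qbar)).Coprime d := by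
    rw [zetaQ_isPrimitiveRoot.card_rootsOfUnity (n := n)]
    exact h.symm
  simp only [muProd_apply, map_prod]
  rw [← Equiv.prod_comp (powCoprime hc) (fun ζ => qExpand Qbar d (twU (ζ : Qbarˣ) s))]
  refine Finset.prod_congr rfl fun ζ _ => ?_
  rw [powCoprime_apply, SubmonoidClass.coe_pow, qExpand_twU]

variable {p q : ℕ} [NeZero p] [NeZero q] (hp : p.Prime) (hpM : ¬ p ∣ M) (hq : q.Prime)
  (hqM : ¬ q ∣ M)

theorem qExpand_normFF_mu (x : FF M) :
    qExpand Qbar p ((tRep p hp hpM).normFF x : LaurentSeries Qbar)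
      = muProd p (x : LaurentSeries Qbar) *
        qExpand Qbar (p * p) (diaFF _ (sigmaT_mem hp hpM) x : LaurentSeries Qbar) := by
  rw [qExpand_normFF, muProd_apply]
  congr 1
  have hζ : IsPrimitiveRoot (zetaQ p) p := zetaQ_isPrimitiveRoot
  let z : Qbarˣ := Units.mk0 (zetaQ p) (hζ.ne_zero (NeZero.ne p))
  have hz : z ∈ rootsOfUnity p Qbar := by
    rw [mem_rootsOfUnity]
    exact Units.ext (by simpa [z] using hζ.pow_eq_one)
  refine Fintype.prod_bijective (fun b : Fin p => (⟨z, hz⟩ : rootsOfUnity p Qbar) ^ (b : ℕ))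
    ((Fintype.bijective_iff_injective_and_card _).mpr ⟨fun a b hab => ?_, ?_⟩) _ _ fun b => ?_
  · refine Fin.ext (hζ.pow_inj a.2 b.2 ?_)
    simpa [z] using congrArg (fun u : rootsOfUnity p Qbar => (((u : Qbarˣ)) : Qbar)) hab
  · rw [Fintype.card_fin, ← Nat.card_eq_fintype_card, hζ.card_rootsOfUnity]
  · ext k
    simp [twU, z]

theorem normFF_comm (x : FF M) :
    (tRep p hp hpM).normFF ((tRep q hq hqM).normFF x)
      = (tRep q hq hqM).normFF ((tRep p hp hpM).normFF x) := by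
  by_cases hpq : p = q
  · subst hpq; rfl
  have hc : p.Coprime q := (Nat.coprime_primes hp hq).mpr hpq
  have : NeZero (q * p) := ⟨mul_ne_zero (NeZero.ne q) (NeZero.ne p)⟩
  refine Subtype.ext (qExpand_injective (q * p) ?_)
  set Sp := diaFF _ (sigmaT_mem (M := M) hp hpM) with hSp
  set Sq := diaFF _ (sigmaT_mem (M := M) hq hqM) with hSq
  have key : ∀ (a b : ℕ) [NeZero a] [NeZero b] (ha : a.Prime) (haM : ¬ a ∣ M) (hb : b.Prime)
      (hbM : ¬ b ∣ M) (hab : b.Coprime a) [NeZero (b * a)],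
      qExpand Qbar (b * a) ((tRep a ha haM).normFF ((tRep b hb hbM).normFF x) :
        LaurentSeries Qbar) =
        muProd a (muProd b (x : LaurentSeries Qbar)) *
          qExpand Qbar (b * b) (muProd a (diaFF _ (sigmaT_mem hb hbM) x : LaurentSeries Qbar)) *
          (qExpand Qbar (a * a) (muProd b (diaFF _ (sigmaT_mem ha haM) x : LaurentSeries Qbar)) *
            qExpand Qbar (a * a) (qExpand Qbar (b * b)
              (diaFF _ (sigmaT_mem hb hbM) (diaFF _ (sigmaT_mem ha haM) x) :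
                LaurentSeries Qbar))) := by
    intro a b _ _ ha haM hb hbM hab _
    have hbb : (b * b).Coprime a := Nat.Coprime.mul_left hab hab
    rw [← qExpand_qExpand, qExpand_normFF_mu, map_mul, qExpand_muProd b a hab, qExpand_normFF_mu,
      map_mul, ← qExpand_muProd (b * b) a hbb, ← normFF_diaFF]
    congr 1
    rw [← map_mul, ← qExpand_normFF_mu hb hbM, qExpand_qExpand, qExpand_qExpand]
    exact qExpand_congr (mul_comm _ _) _
  have : NeZero (p * q) := ⟨mul_ne_zero (NeZero.ne p) (NeZero.ne q)⟩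
  rw [key p q hp hpM hq hqM hc.symm,
    qExpand_congr (mul_comm q p), key q p hq hqM hp hpM hc, muProd_comm q p, ← hSp, ← hSq,
    diaFF_comm]
  rw [show ∀ s : LaurentSeries Qbar, qExpand Qbar (q * q) (qExpand Qbar (p * p) s)
    = qExpand Qbar (p * p) (qExpand Qbar (q * q) s) from fun s => by
      rw [qExpand_qExpand, qExpand_qExpand]; exact qExpand_congr (mul_comm _ _) s]
  ring

variable {n : ℕ} [NeZero n] (hsurj : Function.Surjective (kummer M n))

theorem kumT_tRep_comm (x : Kum M n) :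
    (tRep p hp hpM).kumT hsurj ((tRep q hq hqM).kumT hsurj x)
      = (tRep q hq hqM).kumT hsurj ((tRep p hp hpM).kumT hsurj x) := by
  obtain ⟨u, rfl⟩ := kumMk_surjective x
  exact congrArg kumMk (Subtype.ext (Units.ext (normFF_comm hp hpM hq hqM _)))

omit [NeZero p] [NeZero q] in
theorem kumT_tRep_dRep (σ : SL(2, ℤ)) (hσ : σ ∈ Gamma0 M) (x : Kum M n) :
    (tRep p hp hpM).kumT hsurj ((dRep σ hσ).kumT hsurj x)
      = (dRep σ hσ).kumT hsurj ((tRep p hp hpM).kumT hsurj x) := by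
  obtain ⟨u, rfl⟩ := kumMk_surjective x
  refine congrArg kumMk (Subtype.ext (Units.ext ?_))
  show (tRep p hp hpM).normFF ((dRep σ hσ).normFF _) = (dRep σ hσ).normFF ((tRep p hp hpM).normFF _)
  rw [dRep_normFF, dRep_normFF, normFF_diaFF]

omit [NeZero p] [NeZero q] in
theorem kumT_dRep_comm (σ τ : SL(2, ℤ)) (hσ : σ ∈ Gamma0 M) (hτ : τ ∈ Gamma0 M) (x : Kum M n) :
    (dRep σ hσ).kumT hsurj ((dRep τ hτ).kumT hsurj x)
      = (dRep τ hτ).kumT hsurj ((dRep σ hσ).kumT hsurj x) := by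
  obtain ⟨u, rfl⟩ := kumMk_surjective x
  refine congrArg kumMk (Subtype.ext (Units.ext ?_))
  show (dRep σ hσ).normFF ((dRep τ hτ).normFF _) = (dRep τ hτ).normFF ((dRep σ hσ).normFF _)
  rw [dRep_normFF, dRep_normFF, dRep_normFF, dRep_normFF, diaFF_comm]

end FLTAgent.GammaH

end
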