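import Fermat.Agent.GammaH.EigenData
import Fermat.Agent.GammaH.HeckeCommute
import Fermat.Prelude.Def_FLTPrelim_Modularity

/-!
# Expansions of `T_p f` and `⟨d⟩ f` and the period data of a cusp form

The expansion of the image of a form with nebentype under `T_p` is the classical one, giving the
period data `tData` and `dData`; a cusp form on `Γ₁(M)` with nebentype gives period data
(`exists_perData`).
-/

set_option autoImplicit false

noncomputable section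

open UpperHalfPlane Filter CongruenceSubgroup ModularCurve
open scoped Manifold MatrixGroups Topology ModularForm

namespace FLTAgent.GammaH

open FLTAgent.LevelM FLTAgent.HeckeJacobian FLTAgent.Periods

local notation "Mat" => Matrix (Fin 2) (Fin 2) ℤ
local notation "𝕢" => Function.Periodic.qParam

attribute [local instance] HeckeReps.fin

theorem slash_mGL_apply (f : ℍ → ℂ) (m : Mat) (h : 0 < m.det) (τ : ℍ) :
    (f ∣[(2 : ℤ)] mGL m h) τ
      = f (mSmul m h τ) * ((m.det : ℂ) / ((m 1 0 : ℂ) * τ + m 1 1) ^ 2) := by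
  have hdet := mGL_pos m h
  have hσ : ∀ z : ℂ, UpperHalfPlane.σ (mGL m h) z = z := fun z => by
    simp only [UpperHalfPlane.σ, hdet, if_true]
    rfl
  have hd : ((mGL m h).det.val : ℝ) = ((m.det : ℤ) : ℝ) := by
    rw [Matrix.GeneralLinearGroup.val_det_apply, coe_mGL,
      show ((↑) : ℤ → ℝ) = Int.castRingHom ℝ from rfl, ← RingHom.mapMatrix_apply,
      ← RingHom.map_det, eq_intCast]
  rw [ModularForm.slash_apply, hσ, abs_of_pos hdet, hd]
  simp [mSmul, UpperHalfPlane.denom, coe_mGL, zpow_neg, div_eq_mul_inv, mul_assoc]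

theorem smul_slash_mGL (z : ℂ) (f : ℍ → ℂ) (m : Mat) (h : 0 < m.det) :
    (z • f) ∣[(2 : ℤ)] mGL m h = z • (f ∣[(2 : ℤ)] mGL m h) := by
  funext τ
  rw [slash_mGL_apply, Pi.smul_apply, Pi.smul_apply, slash_mGL_apply, smul_eq_mul, smul_eq_mul,
    mul_assoc]

variable {M : ℕ} [NeZero M]

/-- A Dirichlet character as a function on `ℤ`. -/
def chiZ (χ : DirichletCharacter ℂ M) : ℤ → ℂ := fun x => χ (x : ZMod M)

namespace PerData

variable {χ : DirichletCharacter ℂ M} {a : ℕ → ℂ} {c : Additive (Gamma1 M) →+ ℂ}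

omit [NeZero M] in
theorem slash_gamma1 (D : PerData M (chiZ χ) a c) (g : Gamma1 M) :
    D.f ∣[(2 : ℤ)] (g : SL(2, ℤ)) = D.f := by
  obtain ⟨-, h11, -⟩ := (Gamma1_mem M (g : SL(2, ℤ))).mp g.2
  rw [D.chr _ (Gamma1_in_Gamma0 M g.2), chiZ, h11, map_one, one_smul]

omit [NeZero M] in
theorem hasSum_average (D : PerData M (chiZ χ) a c) {p : ℕ} [NeZero p] (τ : ℍ)
    (h : ∀ b : Fin p, 0 < (!![1, ((b : ℕ) : ℤ); 0, (p : ℤ)] : Mat).det) :
    HasSum (fun m => a (p * m) * 𝕢 1 (τ : ℂ) ^ m)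
      (∑ b : Fin p, (D.f ∣[(2 : ℤ)] mGL !![1, ((b : ℕ) : ℤ); 0, (p : ℤ)] (h b)) τ) := by
  have hp0 : (p : ℂ) ≠ 0 := Nat.cast_ne_zero.mpr (NeZero.ne p)
  set z : ℂ := Complex.exp (2 * Real.pi * Complex.I * τ / p)
  set ζ : ℂ := Complex.exp (2 * Real.pi * Complex.I / p)
  have hζ : IsPrimitiveRoot ζ p := Complex.isPrimitiveRoot_exp p (NeZero.ne p)
  have hzp : z ^ p = 𝕢 1 (τ : ℂ) := by
    rw [← Complex.exp_nat_mul, Function.Periodic.qParam]
    congr 1
    push_cast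
    field_simp
  have hq : ∀ b : Fin p,
      𝕢 1 ((mSmul !![1, ((b : ℕ) : ℤ); 0, (p : ℤ)] (h b) τ : ℍ) : ℂ) = z * ζ ^ (b : ℕ) := by
    intro b
    rw [mSmul, coe_smul_of_det_pos (mGL_pos _ _), ← Complex.exp_nat_mul, ← Complex.exp_add,
      Function.Periodic.qParam]
    congr 1
    simp [UpperHalfPlane.num, UpperHalfPlane.denom, coe_mGL]
    field_simp
  have h1 : ∀ b : Fin p, HasSum (fun n => a n * (z * ζ ^ (b : ℕ)) ^ n * (p : ℂ)⁻¹)
      ((D.f ∣[(2 : ℤ)] mGL !![1, ((b : ℕ) : ℤ); 0, (p : ℤ)] (h b)) τ) := by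
    intro b
    have := (D.hasSum (mSmul _ (h b) τ)).mul_right ((p : ℂ)⁻¹)
    rw [hq] at this
    rw [slash_mGL_apply]
    refine (congrArg (HasSum _) ?_).mpr this
    simp [Matrix.det_fin_two_of]
    field_simp
    simp
  have h2 := hasSum_sum (s := (Finset.univ : Finset (Fin p))) fun b _ => h1 b
  have h3 : (fun n => ∑ b : Fin p, a n * (z * ζ ^ (b : ℕ)) ^ n * (p : ℂ)⁻¹)
      = fun n => if p ∣ n then a n * z ^ n else 0 := by
    funext n
    have e : ∀ b : ℕ, a n * (z * ζ ^ b) ^ n * (p : ℂ)⁻¹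
        = a n * z ^ n * (p : ℂ)⁻¹ * (ζ ^ n) ^ b := fun b => by
      rw [mul_pow, ← pow_mul, ← pow_mul, mul_comm b n]; ring
    simp only [e, ← Finset.mul_sum]
    rw [Fin.sum_univ_eq_sum_range (fun b => (ζ ^ n) ^ b) p]
    split_ifs with hn
    · rw [(hζ.pow_eq_one_iff_dvd n).mpr hn]
      simp [hp0]
    · rw [geom_sum_eq (fun h1 => hn ((hζ.pow_eq_one_iff_dvd n).mp h1)), ← pow_mul, mul_comm n p,
        pow_mul, hζ.pow_eq_one, one_pow, sub_self, zero_div, mul_zero]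
  rw [h3] at h2
  have hinj : Function.Injective (fun m : ℕ => p * m) := mul_right_injective₀ (NeZero.ne p)
  have h4 := (hinj.hasSum_iff (f := fun n => if p ∣ n then a n * z ^ n else 0) ?_).mpr h2
  · convert h4 using 1
    funext m
    simp [pow_mul, hzp]
  · intro n hn
    rw [if_neg]
    rintro ⟨m, rfl⟩
    exact hn ⟨m, rfl⟩

omit [NeZero M] in
theorem hasSum_diag (D : PerData M (chiZ χ) a c) {p : ℕ} [NeZero p] (τ : ℍ)
    (h : 0 < (!![(p : ℤ), 0; 0, 1] : Mat).det) :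
    HasSum (fun m => (p : ℂ) * (if p ∣ m then a (m / p) else 0) * 𝕢 1 (τ : ℂ) ^ m)
      ((D.f ∣[(2 : ℤ)] mGL !![(p : ℤ), 0; 0, 1] h) τ) := by
  have h1 := (D.hasSum (mSmul _ h τ)).mul_right (p : ℂ)
  have hq : 𝕢 1 ((mSmul !![(p : ℤ), 0; 0, 1] h τ : ℍ) : ℂ) = 𝕢 1 (τ : ℂ) ^ p := by
    rw [mSmul, coe_smul_of_det_pos (mGL_pos _ _), Function.Periodic.qParam,
      Function.Periodic.qParam, ← Complex.exp_nat_mul]
    congr 1
    simp [UpperHalfPlane.num, UpperHalfPlane.denom, coe_mGL]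
    ring
  rw [hq] at h1
  rw [slash_mGL_apply]
  have hinj : Function.Injective (fun m : ℕ => p * m) := mul_right_injective₀ (NeZero.ne p)
  refine (hinj.hasSum_iff ?_).mp ?_
  · intro n hn
    rw [if_neg, mul_zero, zero_mul]
    rintro ⟨m, rfl⟩
    exact hn ⟨m, rfl⟩
  · convert h1 using 1
    · rfl
    · funext m
      simp only [Function.comp_apply, if_pos (dvd_mul_right p m),
        Nat.mul_div_cancel_left _ (NeZero.pos p), ← pow_mul]
      ring
    · simp [Matrix.det_fin_two_of]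

omit [NeZero M] in
theorem slash_tRep_none (D : PerData M (chiZ χ) a c) {p : ℕ} (hp : p.Prime) (hpM : ¬ p ∣ M)
    (h : 0 < (!![(p : ℤ), 0; 0, 1] : Mat).det) :
    D.f ∣[(2 : ℤ)] mGL ((tRep p hp hpM).β none) ((tRep p hp hpM).det_pos none)
      = χ (p : ZMod M) • (D.f ∣[(2 : ℤ)] mGL !![(p : ℤ), 0; 0, 1] h) := by
  refine (slash_mGL_mul (det_SL (sigmaP M p ((hp.coprime_iff_not_dvd).mpr hpM))) h _
    rfl D.f).trans ?_
  rw [slash_SL_eq, D.chr _ (sigmaP_mem p _), smul_slash_mGL, chiZ, sigmaP_apply]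

omit [NeZero M] in
theorem hasSum_tRep (D : PerData M (chiZ χ) a c) {p : ℕ} [NeZero p] (hp : p.Prime)
    (hpM : ¬ p ∣ M) (τ : ℍ) :
    HasSum (fun n => (a (p * n) + (p : ℂ) * χ (p : ZMod M) * (if p ∣ n then a (n / p) else 0))
        * 𝕢 1 (τ : ℂ) ^ n)
      ((∑ i, D.f ∣[(2 : ℤ)] mGL ((tRep p hp hpM).β i) ((tRep p hp hpM).det_pos i)) τ) := by
  rw [Finset.sum_apply]
  erw [Fintype.sum_option]
  rw [D.slash_tRep_none hp hpM (by simp [Matrix.det_fin_two_of, hp.pos]),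
    Pi.smul_apply, smul_eq_mul,
    add_comm]
  have h := (D.hasSum_average (p := p) τ fun b => by simp [Matrix.det_fin_two_of, hp.pos]).add
    ((D.hasSum_diag (p := p) τ (by simp [Matrix.det_fin_two_of, hp.pos])).mul_left (χ (p : ZMod M)))
  convert h using 1
  · funext n; ring
  · rfl

omit [NeZero M] in
theorem chr_tRep (D : PerData M (chiZ χ) a c) {p : ℕ} (hp : p.Prime) (hpM : ¬ p ∣ M)
    {σ : SL(2, ℤ)} (hσ : σ ∈ Gamma0 M) :
    (∑ i, D.f ∣[(2 : ℤ)] mGL ((tRep p hp hpM).β i) ((tRep p hp hpM).det_pos i)) ∣[(2 : ℤ)] σ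
      = chiZ χ (σ 1 1) •
        ∑ i, D.f ∣[(2 : ℤ)] mGL ((tRep p hp hpM).β i) ((tRep p hp hpM).det_pos i) := by
  set R := tRep p hp hpM
  obtain ⟨e, g, he⟩ := tRep_exists_perm hp hpM hσ
  rw [← slash_SL_eq, SlashAction.sum_slash, Finset.smul_sum,
    ← Equiv.sum_comp e (fun i => chiZ χ (σ 1 1) • (D.f ∣[(2 : ℤ)] mGL (R.β i) (R.det_pos i)))]
  refine Finset.sum_congr rfl fun i _ => ?_
  have hpos := det_mul_SL_pos (R.det_pos i) σ
  rw [← slash_mGL_mul (R.det_pos i) (det_SL σ) hpos rfl,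
    slash_mGL_mul (det_SL (σ * (g i : SL(2, ℤ)))) (R.det_pos (e i)) hpos (he i), slash_SL_eq,
    SlashAction.slash_mul, D.chr σ hσ, ModularForm.SL_smul_slash, D.slash_gamma1, smul_slash_mGL]

/-- The image under `T_p`. -/
def tData (D : PerData M (chiZ χ) a c) {p : ℕ} [NeZero p] (hp : p.Prime) (hpM : ¬ p ∣ M) :
    PerData M (chiZ χ)
      (fun n => a (p * n) + (p : ℂ) * χ (p : ZMod M) * (if p ∣ n then a (n / p) else 0))
      ((tRep p hp hpM).homT ℂ c) :=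
  D.hecke _ (D.hasSum_tRep hp hpM) fun _ hσ => D.chr_tRep hp hpM hσ

/-- The image under `⟨d⟩`. -/
def dData (D : PerData M (chiZ χ) a c) (σ : SL(2, ℤ)) (hσ : σ ∈ Gamma0 M) :
    PerData M (chiZ χ) (chiZ χ (σ 1 1) • a) ((dRep σ hσ).homT ℂ c) :=
  have key : (∑ i, D.f ∣[(2 : ℤ)] mGL ((dRep σ hσ).β i) ((dRep σ hσ).det_pos i))
      = chiZ χ (σ 1 1) • D.f := by
    refine (Finset.sum_eq_single (ι := (dRep σ hσ).ι) ()
      (fun b _ hb => absurd (Subsingleton.elim (α := Unit) b ()) hb)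
      (fun h => absurd (Finset.mem_univ (α := (dRep σ hσ).ι) ()) h)).trans ?_
    exact (slash_SL_eq D.f σ).trans (D.chr σ hσ)
  D.hecke _ (a' := chiZ χ (σ 1 1) • a) (fun τ => by
    rw [key]
    simpa [mul_assoc] using (D.hasSum τ).mul_left (chiZ χ (σ 1 1)))
    fun τ hτ => by
      rw [key, ModularForm.SL_smul_slash, D.chr τ hτ, smul_comm]

end PerData

/-- A cusp form on `Γ₁(M)` with nebentype gives period data. -/
theorem exists_perData (χ : DirichletCharacter ℂ M) (F : CuspForm (Gamma1 M) 2)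
    (hchar : ∀ γ : SL(2, ℤ), γ ∈ Gamma0 M →
      (F : ℍ → ℂ) ∣[(2 : ℤ)] γ = χ ((γ 1 1 : ℤ) : ZMod M) • (F : ℍ → ℂ)) :
    ∃ c, Nonempty (PerData M (chiZ χ) (ModularFormClass.qCoeff F) c) := by
  have hper1 : Function.Periodic ((F : ℍ → ℂ) ∘ ofComplex) 1 := by
    simpa using SlashInvariantFormClass.periodic_comp_ofComplex F
      (show (1 : ℝ) ∈ (Gamma1 M : Subgroup (GL (Fin 2) ℝ)).strictPeriods by simp)
  have hbdd : IsBoundedAtImInfty (F : ℍ → ℂ) := by
    have : Fact (IsCusp OnePoint.infty (Gamma1 M : Subgroup (GL (Fin 2) ℝ))) :=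
      ⟨(Gamma1 M : Subgroup (GL (Fin 2) ℝ)).isCusp_of_mem_strictPeriods one_pos (by simp)⟩
    exact ModularFormClass.bdd_at_infty F
  have hsum : ∀ τ : ℍ, HasSum (fun n => ModularFormClass.qCoeff F n * 𝕢 1 (τ : ℂ) ^ n) (F τ) := by
    intro τ
    simpa [ModularFormClass.qCoeff] using
      hasSum_qExpansion one_pos (by simpa using hper1) (CuspFormClass.holo F) hbdd τ
  obtain ⟨W, hW, hperδ⟩ := Subgroup.IsArithmetic.exists_nat_mem_strictPeriods_conj
    (↑(Gamma1 M) : Subgroup (GL (Fin 2) ℝ))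
  have key : ∀ δ : SL(2, ℤ), ∃ G : ℍ → ℂ,
      IsPrimitive G ((F : ℍ → ℂ) ∣[(2 : ℤ)] δ) ∧ Tendsto G atImInfty (𝓝 0) := fun δ => by
    have hc : IsCusp ((δ : GL (Fin 2) ℝ) • OnePoint.infty)
        (↑(Gamma1 M) : Subgroup (GL (Fin 2) ℝ)) :=
      (Subgroup.IsArithmetic.isCusp_iff_isCusp_SL2Z _).mpr (isCusp_SL2Z_iff'.mpr ⟨δ, rfl⟩)
    refine exists_isPrimitive_tendsto_zero (h := (W : ℝ)) (Nat.cast_pos.mpr hW) ?_
      (MDifferentiable.slash (CuspFormClass.holo F) 2 _)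
      (CuspFormClass.zero_at_cusps F hc _ rfl)
    have h1 := hperδ δ⁻¹
    rw [map_inv] at h1
    have h2 := SlashInvariantFormClass.periodic_comp_ofComplex
      (CuspForm.translate F (δ : GL (Fin 2) ℝ)) h1
    rwa [CuspForm.coe_translate] at h2
  obtain ⟨G, hG, -⟩ := key 1
  rw [SlashAction.slash_one] at hG
  have hinv : ∀ γ : Gamma1 M, ∃ z : ℂ, ∀ τ : ℍ, G ((γ : SL(2, ℤ)) • τ) = G τ + z := fun γ => by
    have h1 := hG.comp_smul (γ : SL(2, ℤ))
    rw [show (F : ℍ → ℂ) ∣[(2 : ℤ)] (γ : SL(2, ℤ)) = F from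
      SlashInvariantFormClass.slash_action_eq F _ (Subgroup.mem_map_of_mem _ γ.2)] at h1
    exact h1.exists_eq_add hG
  choose z hz using hinv
  refine ⟨AddMonoidHom.mk' (fun γ => z (Additive.toMul γ)) fun γ δ => ?_, ⟨
    { f := F, G := G, hasSum := hsum, prim := hG, lim := fun δ => ?_, per := fun γ τ => hz γ τ
      chr := hchar }⟩⟩
  · have h := hz (Additive.toMul (γ + δ)) UpperHalfPlane.I
    rw [toMul_add, Subgroup.coe_mul, mul_smul, hz, hz, add_assoc] at h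
    rw [toMul_add]
    linear_combination -(add_left_cancel h)
  · obtain ⟨H, hH, hH0⟩ := key δ
    obtain ⟨e, he⟩ := (hG.comp_smul δ).exists_eq_add hH
    exact ⟨0 + e, (hH0.add_const e).congr fun w => (he w).symm⟩

end FLTAgent.GammaH

end
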