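import Fermat.Agent.GammaH.Base
import Mathlib.RingTheory.PowerSeries.Derivative
import Mathlib.RingTheory.Polynomial.Basic
import Mathlib.Topology.Connected.TotallyDisconnected

/-!
# Roots of functions with an expansion at `i∞`

A holomorphic `n`-th root of a function with a Laurent expansion in `q_h` is `q_h ^ (e / n)`
times an analytic unit near `i∞`; this determines its multiplier under translations
(`root_multiplier`), and roots of algebraic series are algebraic (`exists_liftC_root`).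
-/

set_option autoImplicit false

noncomputable section

open UpperHalfPlane Filter CongruenceSubgroup ModularCurve
open scoped Manifold MatrixGroups Topology

namespace FLTAgent.GammaH

open FLTAgent.LevelM FLTAgent.HeckeJacobian

local notation "Qbar" => AlgebraicClosure ℚ
local notation "𝕢" => Function.Periodic.qParam

/-- The exponential `q_h ^ (e / n)`. -/
def rootExp (n h : ℕ) (e : ℤ) (z : ℂ) : ℂ :=
  Complex.exp (2 * Real.pi * Complex.I * e * z / (h * n))

theorem rootExp_pow {n : ℕ} (hn : n ≠ 0) (h : ℕ) (e : ℤ) (z : ℂ) :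
    rootExp n h e z ^ n = 𝕢 (h : ℝ) z ^ e := by
  rw [rootExp, ← Complex.exp_nat_mul, Function.Periodic.qParam, ← Complex.exp_int_mul]
  congr 1
  rcases eq_or_ne h 0 with rfl | hh
  · simp
  · have : (h : ℂ) ≠ 0 := Nat.cast_ne_zero.mpr hh
    have : (n : ℂ) ≠ 0 := Nat.cast_ne_zero.mpr hn
    push_cast
    field_simp

theorem rootExp_mul {n : ℕ} (hn : n ≠ 0) (h : ℕ) (m : ℤ) (z : ℂ) :
    rootExp n h (n * m) z = 𝕢 (h : ℝ) z ^ m := by
  rw [rootExp, Function.Periodic.qParam, ← Complex.exp_int_mul]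
  congr 1
  rcases eq_or_ne h 0 with rfl | hh
  · simp
  · have : (h : ℂ) ≠ 0 := Nat.cast_ne_zero.mpr hh
    have : (n : ℂ) ≠ 0 := Nat.cast_ne_zero.mpr hn
    push_cast
    field_simp

theorem rootExp_add (n h : ℕ) (e : ℤ) (z w : ℂ) :
    rootExp n h e (z + w) = rootExp n h e z * rootExp n h e w := by
  rw [rootExp, rootExp, rootExp, ← Complex.exp_add]
  congr 1
  ring

theorem continuous_rootExp (n h : ℕ) (e : ℤ) : Continuous (rootExp n h e) := by
  unfold rootExp
  fun_prop

theorem continuous_qParam' (h : ℕ) : Continuous (𝕢 (h : ℝ)) := by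
  unfold Function.Periodic.qParam
  fun_prop

theorem rootExp_ne_zero (n h : ℕ) (e : ℤ) (z : ℂ) : rootExp n h e z ≠ 0 := Complex.exp_ne_zero _

/-- Near `i∞` a holomorphic `n`-th root of a function with a Laurent expansion in `q_h` is
`q_h ^ (e / n)` times a nonvanishing analytic function of `q_h`, `e` being the order. -/
theorem exists_root_form {n h : ℕ} (hn : n ≠ 0) (hh : 0 < h) {G : Hol} {s : LaurentSeries ℂ}
    (hs : HasExp h ((G ^ n : Hol) : ℍ → ℂ) s) (hs0 : s ≠ 0) :
    ∃ V : ℂ → ℂ, AnalyticAt ℂ V 0 ∧ V 0 ≠ 0 ∧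
      ∀ᶠ τ : ℍ in atImInfty, (G : ℍ → ℂ) τ = rootExp n h s.order τ * V (𝕢 (h : ℝ) τ) := by
  obtain ⟨U, hU, hU0, hUeq⟩ :=
    hs.exists_analyticAt hh (m := s.order) fun k hk => HahnSeries.coeff_eq_zero_of_lt_order hk
  have hU0' : U 0 ≠ 0 := hU0 ▸ HahnSeries.coeff_order_eq_zero.not.mpr hs0
  obtain ⟨r₁, hr₁, hUan⟩ := hU.exists_ball_analyticOnNhd
  obtain ⟨r₂, hr₂, hUne⟩ := Metric.eventually_nhds_iff.mp (hU.continuousAt.eventually_ne hU0')
  set r := min r₁ r₂
  have hr : 0 < r := lt_min hr₁ hr₂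
  have hne : ∀ z ∈ Metric.ball (0 : ℂ) r, U z ≠ 0 := fun z hz =>
    hUne ((Metric.mem_ball.mp hz).trans_le (min_le_right _ _))
  obtain ⟨V, hVan, hV⟩ := exists_root_ball_of_ne_zero hn
    (hUan.mono (Metric.ball_subset_ball (min_le_left _ _))) hne
  have hVne : ∀ z ∈ Metric.ball (0 : ℂ) r, V z ≠ 0 := fun z hz h0 =>
    hne z hz (by rw [← hV z hz, h0, zero_pow hn])
  obtain ⟨A, hA⟩ := (atImInfty_mem _).mp
    ((hUeq.and (eventually_qParam_mem hh (Metric.ball_mem_nhds (0 : ℂ) hr))).and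
      (eventually_of_mem (atImInfty_mem _ |>.mpr ⟨1, fun τ hτ => hτ⟩) fun τ (hτ : 1 ≤ τ.im) => hτ))
  set S : Set ℂ := {z : ℂ | max A 1 < z.im}
  have hSpos : ∀ z ∈ S, 0 < z.im := fun z hz =>
    zero_lt_one.trans_le (le_max_right A 1) |>.trans hz
  have hSA : ∀ z (hz : z ∈ S), ((G ^ n : Hol) : ℍ → ℂ) ⟨z, hSpos z hz⟩
        = 𝕢 (h : ℝ) z ^ s.order * U (𝕢 (h : ℝ) z) ∧ 𝕢 (h : ℝ) z ∈ Metric.ball (0 : ℂ) r :=
    fun z hz => (hA ⟨z, hSpos z hz⟩ ((le_max_left A 1).trans hz.le)).1
  let R : ℂ → ℂ := fun z =>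
    ((G : ℍ → ℂ) ∘ ofComplex) z / (rootExp n h s.order z * V (𝕢 (h : ℝ) z))
  have hden : ∀ z ∈ S, rootExp n h s.order z * V (𝕢 (h : ℝ) z) ≠ 0 := fun z hz =>
    mul_ne_zero (rootExp_ne_zero n h _ _) (hVne _ (hSA z hz).2)
  have hRpow : Set.MapsTo R S {ζ : ℂ | ζ ^ n = 1} := fun z hz => by
    obtain ⟨h1, h2⟩ := hSA z hz
    show R z ^ n = 1
    simp only [R, Function.comp_apply, ofComplex_apply_of_im_pos (hSpos z hz)]
    rw [div_pow, mul_pow, rootExp_pow hn, hV _ h2,
      show (G : ℍ → ℂ) ⟨z, hSpos z hz⟩ ^ n = ((G ^ n : Hol) : ℍ → ℂ) ⟨z, hSpos z hz⟩ from rfl, h1,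
      div_self (mul_ne_zero (zpow_ne_zero _ (show 𝕢 (h : ℝ) z ≠ 0 from Complex.exp_ne_zero _))
        (hne _ h2))]
  have hfinR : {ζ : ℂ | ζ ^ n = 1}.Finite :=
    (Polynomial.nthRootsFinset n (1 : ℂ)).finite_toSet.subset fun ζ hζ => by
      simpa [Polynomial.mem_nthRootsFinset (Nat.pos_of_ne_zero hn)] using hζ
  have hRcont : ContinuousOn R S := fun z hz => by
    refine ContinuousAt.continuousWithinAt
      (ContinuousAt.div ?_ (ContinuousAt.mul ?_ ?_) (hden z hz))
    · exact (Hol.analyticOnNhd G z (hSpos z hz)).continuousAt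
    · exact (continuous_rootExp n h s.order).continuousAt
    · exact ContinuousAt.comp (g := V) (hVan _ (hSA z hz).2).continuousAt
        (continuous_qParam' h).continuousAt
  set z₀ : ℂ := ((max A 1 + 1 : ℝ) : ℂ) * Complex.I
  have hz₀ : z₀ ∈ S := by simp [S, z₀]; linarith [le_max_left A 1]
  refine ⟨fun q => R z₀ * V q, analyticAt_const.mul (hVan 0 (Metric.mem_ball_self hr)),
    mul_ne_zero (fun h0 => ?_) (hVne 0 (Metric.mem_ball_self hr)), ?_⟩
  · have := hRpow hz₀
    rw [Set.mem_ofPred_eq, h0, zero_pow hn] at this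
    exact zero_ne_one this
  refine eventually_of_mem ((atImInfty_mem _).mpr ⟨max A 1 + 1, fun τ hτ => hτ⟩) fun τ hτ => ?_
  have hτS : (τ : ℂ) ∈ S := lt_of_lt_of_le (lt_add_one (max A 1))
    (show max A 1 + 1 ≤ (τ : ℂ).im from hτ)
  have heq : R z₀ = R τ := (convex_halfSpace_im_gt _).isPreconnected.constant_of_mapsTo
    hfinR.isDiscrete hRcont hRpow hz₀ hτS
  rw [heq]
  simp only [R, Function.comp_apply, ofComplex_apply]
  field_simp [hden τ hτS, (mul_ne_zero_iff.mp (hden τ hτS)).2, rootExp_ne_zero]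

/-- The multiplier of a root under a translation is read off from the order. -/
theorem root_multiplier {n h : ℕ} (hh : 0 < h) {G : ℍ → ℂ} {V : ℂ → ℂ} {e : ℤ}
    (hV : ContinuousAt V 0) (hV0 : V 0 ≠ 0)
    (hG : ∀ᶠ τ : ℍ in atImInfty, G τ = rootExp n h e τ * V (𝕢 (h : ℝ) τ)) {k : ℤ} {c : ℂ}
    (hc : ∀ τ : ℍ, G ((k : ℝ) +ᵥ τ) = c * G τ) : c = rootExp n h e k := by
  have hshift : Tendsto (fun τ : ℍ => (k : ℝ) +ᵥ τ) atImInfty atImInfty := by
    rw [atImInfty, tendsto_comap_iff]
    refine tendsto_comap.congr fun τ => ?_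
    simp
  have hq := qParam_tendsto_atImInfty (h := (h : ℝ)) (by exact_mod_cast hh)
  have hq0 : Tendsto (fun τ : ℍ => 𝕢 (h : ℝ) (τ : ℂ)) atImInfty (𝓝 0) :=
    tendsto_nhds.mpr fun U hU h0 => eventually_qParam_mem hh (hU.mem_nhds h0)
  have h1 : Tendsto (fun τ : ℍ => c * V (𝕢 (h : ℝ) (τ : ℂ))) atImInfty (𝓝 (c * V 0)) :=
    (hV.tendsto.comp hq0).const_mul c
  have h2 : Tendsto (fun τ : ℍ => rootExp n h e k * V (𝕢 (h : ℝ) (((k : ℝ) +ᵥ τ : ℍ) : ℂ)))
      atImInfty (𝓝 (rootExp n h e k * V 0)) :=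
    (hV.tendsto.comp (hq0.comp hshift)).const_mul _
  have h3 : ∀ᶠ τ : ℍ in atImInfty, c * V (𝕢 (h : ℝ) (τ : ℂ))
      = rootExp n h e k * V (𝕢 (h : ℝ) (((k : ℝ) +ᵥ τ : ℍ) : ℂ)) := by
    filter_upwards [hG, hshift.eventually hG] with τ e1 e2
    have e3 := hc τ
    rw [e1, e2, show ((((k : ℝ) +ᵥ τ : ℍ)) : ℂ) = (k : ℂ) + τ by simp, rootExp_add] at e3
    refine mul_left_cancel₀ (rootExp_ne_zero n h e τ) ?_
    rw [show ((((k : ℝ) +ᵥ τ : ℍ)) : ℂ) = (k : ℂ) + τ by simp]
    linear_combination -e3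
  exact mul_right_cancel₀ hV0 (tendsto_nhds_unique h1 (h2.congr' (h3.mono fun _ h => h.symm)))

/-- A root with order divisible by `n` has a Laurent expansion. -/
theorem exists_hasExp_root {n h : ℕ} (hn : n ≠ 0) (hh : 0 < h) {G : ℍ → ℂ} {V : ℂ → ℂ} {m : ℤ}
    (hV : AnalyticAt ℂ V 0)
    (hG : ∀ᶠ τ : ℍ in atImInfty, G τ = rootExp n h (n * m) τ * V (𝕢 (h : ℝ) τ)) :
    ∃ u, HasExp h G u := by
  obtain ⟨u, hu, -⟩ := exists_hasExp_of_analyticAt (f := G) hh hV m
    (hG.mono fun τ hτ => by rw [hτ, rootExp_mul hn])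
  exact ⟨u, hu⟩

section Algebraic

open PowerSeries

variable {K L : Type*} [Field K] [Field L] [CharZero L] [IsAlgClosed K] (f : K →+* L)

/-- A power series with nonzero constant term having an `n`-th power over an algebraically closed
subfield lies over that subfield. -/
theorem coeff_mem_range_of_pow {n : ℕ} (hn : n ≠ 0) {P : L⟦X⟧}
    (h0 : PowerSeries.coeff 0 P ≠ 0)
    (hP : ∀ i, PowerSeries.coeff i (P ^ n) ∈ f.range) : ∀ i, PowerSeries.coeff i P ∈ f.range := by
  classical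
  have hT0 : PowerSeries.coeff 0 (P ^ n) = PowerSeries.coeff 0 P ^ n := by
    simp only [coeff_zero_eq_constantCoeff, map_pow]
  have hfield : ∀ {x}, x ∈ f.range → x ∈ f.fieldRange := fun {x} hx => hx
  have hkey : ∀ k, PowerSeries.coeff k (P * derivative L (P ^ n))
      = PowerSeries.coeff k ((n : L⟦X⟧) * (P ^ n * derivative L P)) := fun k => by
    congr 1
    rw [Derivation.leibniz_pow, nsmul_eq_mul, smul_eq_mul,
      show P ^ n = P ^ (n - 1) * P by rw [← pow_succ, Nat.sub_add_cancel (Nat.pos_of_ne_zero hn)]]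
    ring
  intro i
  induction i using Nat.strong_induction_on with
  | _ i ih =>
    rcases i with - | k
    · obtain ⟨a, ha⟩ := hP 0
      rw [hT0] at ha
      obtain ⟨b, hb⟩ := IsAlgClosed.exists_pow_nat_eq a (Nat.pos_of_ne_zero hn)
      have hroot : f b ≠ 0 := fun hb0 => h0 (by
        have : PowerSeries.coeff 0 P ^ n = 0 := by rw [← ha, ← hb, map_pow, hb0, zero_pow hn]
        exact eq_zero_of_pow_eq_zero this)
      set x := PowerSeries.coeff 0 P / f b with hx
      have hx1 : x ^ n = 1 := by rw [hx, div_pow, ← map_pow f, hb, ha, div_self (pow_ne_zero _ h0)]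
      have : NeZero n := ⟨hn⟩
      obtain ⟨ω, hω⟩ := IsAlgClosed.exists_root (Polynomial.cyclotomic n K)
        (by
          rw [Polynomial.degree_cyclotomic]
          exact_mod_cast (Nat.totient_pos.mpr (Nat.pos_of_ne_zero hn)).ne')
      have : CharZero K := f.charZero
      have hω' : IsPrimitiveRoot ω n := Polynomial.isRoot_cyclotomic_iff.mp hω
      obtain ⟨j, -, hj⟩ := (hω'.map_of_injective f.injective).eq_pow_of_pow_eq_one hx1
      exact ⟨ω ^ j * b, by rw [map_mul, map_pow, hj, hx, div_mul_cancel₀ _ hroot]⟩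
    · have hk := hkey k
      rw [PowerSeries.coeff_mul, ← map_natCast (PowerSeries.C (R := L)), PowerSeries.coeff_C_mul,
        PowerSeries.coeff_mul] at hk
      have hmem : (0, k) ∈ Finset.HasAntidiagonal.antidiagonal k := by simp
      rw [← Finset.add_sum_erase _ _ hmem] at hk
      rw [← Finset.add_sum_erase _ (fun p : ℕ × ℕ =>
        PowerSeries.coeff p.1 (P ^ n) * PowerSeries.coeff p.2 (derivative L P)) hmem, mul_add] at hk
      simp only [coeff_derivative] at hk
      have hA : PowerSeries.coeff 0 P * (PowerSeries.coeff (k + 1) (P ^ n) * ((k : L) + 1))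
          + ∑ p ∈ (Finset.HasAntidiagonal.antidiagonal k).erase (0, k), PowerSeries.coeff p.1 P *
            (PowerSeries.coeff (p.2 + 1) (P ^ n) * ((p.2 : L) + 1)) ∈ f.range := by
        refine add_mem (mul_mem (ih 0 (Nat.succ_pos k)) (mul_mem (hP _)
          (add_mem (natCast_mem _ _) (one_mem _)))) (sum_mem fun p hp => ?_)
        refine mul_mem (ih p.1 ?_) (mul_mem (hP _) (add_mem (natCast_mem _ _) (one_mem _)))
        have := Finset.HasAntidiagonal.mem_antidiagonal.mp (Finset.mem_of_mem_erase hp)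
        omega
      have hB : (n : L) * ∑ p ∈ (Finset.HasAntidiagonal.antidiagonal k).erase (0, k),
        PowerSeries.coeff p.1 (P ^ n) *
            (PowerSeries.coeff (p.2 + 1) P * ((p.2 : L) + 1)) ∈ f.range := by
        refine mul_mem (natCast_mem _ _) (sum_mem fun p hp => ?_)
        refine mul_mem (hP _) (mul_mem (ih _ ?_) (add_mem (natCast_mem _ _) (one_mem _)))
        have h1 := Finset.HasAntidiagonal.mem_antidiagonal.mp (Finset.mem_of_mem_erase hp)
        have h2 : p ≠ (0, k) := Finset.ne_of_mem_erase hp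
        rcases p with ⟨a, b⟩
        rcases a with - | a
        · exact absurd (show ((0 : ℕ), b) = (0, k) from Prod.ext rfl (by simpa using h1)) h2
        · simp only at h1 ⊢; omega
      have hC : (n : L) * (PowerSeries.coeff 0 (P ^ n) *
        (PowerSeries.coeff (k + 1) P * ((k : L) + 1)))
          ∈ f.range := by
        have := sub_mem hA hB
        convert this using 1
        linear_combination -hk
      have hne : (n : L) * PowerSeries.coeff 0 (P ^ n) * ((k : L) + 1) ≠ 0 :=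
        mul_ne_zero (mul_ne_zero (Nat.cast_ne_zero.mpr hn) (hT0 ▸ pow_ne_zero n h0))
          (by exact_mod_cast Nat.succ_ne_zero k)
      suffices PowerSeries.coeff (k + 1) P ∈ f.fieldRange from this
      have hdiv : _ ∈ f.fieldRange := div_mem (hfield hC)
        (mul_mem (mul_mem (natCast_mem _ n) (hfield (hP 0)))
          (add_mem (natCast_mem _ k) (one_mem _)))
      convert hdiv using 1
      rw [eq_div_iff hne]
      ring

end Algebraic

/-- An `n`-th root of an algebraic series is algebraic. -/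
theorem exists_liftC_root {n : ℕ} (hn : n ≠ 0) {u : LaurentSeries ℂ} {t : LaurentSeries Qbar}
    (h : u ^ n = liftC t) : ∃ u', liftC u' = u := by
  rcases eq_or_ne u 0 with rfl | hu
  · exact ⟨0, map_zero _⟩
  set P := u.powerSeriesPart
  have hu' : (HahnSeries.single u.order 1 : LaurentSeries ℂ) * (P : LaurentSeries ℂ) = u :=
    LaurentSeries.single_order_mul_powerSeriesPart u
  have hP0 : PowerSeries.coeff 0 P ≠ 0 := by
    rw [LaurentSeries.powerSeriesPart_coeff, Nat.cast_zero, add_zero]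
    exact HahnSeries.coeff_order_eq_zero.not.mpr hu
  have hpow : u ^ n = HahnSeries.single (n • u.order) 1 * ((P ^ n : PowerSeries ℂ) :
    LaurentSeries ℂ) := by
    rw [← hu', mul_pow, HahnSeries.single_pow, one_pow, map_pow, hu']
  refine exists_liftC_eq fun i => ?_
  have hall := coeff_mem_range_of_pow (iotaC : Qbar →+* ℂ) hn hP0 fun j => ?_
  · rcases lt_or_ge i u.order with hlt | hge
    · exact ⟨0, by rw [map_zero, HahnSeries.coeff_eq_zero_of_lt_order hlt]⟩
    · obtain ⟨c, hc⟩ := hall (i - u.order).toNat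
      refine ⟨c, hc.trans ?_⟩
      rw [LaurentSeries.powerSeriesPart_coeff, Int.toNat_of_nonneg (by omega), add_sub_cancel]
  · refine ⟨t.coeff (n • u.order + j), ?_⟩
    have := congrArg (fun w : LaurentSeries ℂ => w.coeff (n • u.order + j)) (h.symm.trans hpow)
    simp only [HahnSeries.coeff_single_mul, add_sub_cancel_left, one_mul,
      LaurentSeries.coeff_coe_powerSeries, liftC_coeff] at this
    exact this

end FLTAgent.GammaH

end
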