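import Fermat.Agent.GammaH.Units
import Fermat.Agent.GammaH.Roots
import Fermat.Agent.Periods.Primitive
import Fermat.Prelude.Thm_ModularCurve_coeffMap_qExpand
import Mathlib.Analysis.SpecialFunctions.Complex.CircleAddChar

/-!
# The Kummer map `V_n(M) → Hom_par(Γ₁(M), ℤ/n)`

`V_n(M)` (`Kum M n`) is the group of functions with all orders divisible by `n`, modulo `n`-th
powers. A holomorphic `n`-th root is transformed by a parabolic character of `Γ₁(M)`; this defines
the injective map `kummer` (`kummer_injective`).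
-/

set_option autoImplicit false

noncomputable section

open UpperHalfPlane Filter CongruenceSubgroup ModularCurve AlgebraicCurve
open scoped Manifold MatrixGroups Topology

namespace FLTAgent.GammaH

open FLTAgent.LevelM FLTAgent.HeckeJacobian

local notation "Qbar" => AlgebraicClosure ℚ
local notation "𝕢" => Function.Periodic.qParam

/-- Parabolic homomorphisms `Γ₁(M) → ℤ/n`. -/
abbrev ParHom (M n : ℕ) : Type :=
  ↥(ModularCurve.Period.parabolicHoms (ZMod n) (Gamma1 M) (ZMod n))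

variable {M : ℕ} [NeZero M] [Fact (1 < M)] {n : ℕ}

omit [NeZero M] [Fact (1 < M)] in
theorem toHol_coe (f : modFun M) : ((toHol f : Hol) : ℍ → ℂ) = (f : ℍ → ℂ) := rfl

/-- `G` is transformed by `Γ₁(M)` through the character `c`. -/
def KumRel (M n : ℕ) [NeZero n] (G : Hol) (c : Additive (Gamma1 M) →+ ZMod n) : Prop :=
  ∀ γ : Gamma1 M, act (γ : SL(2, ℤ)) (G : ℍ → ℂ)
    = fun τ => ZMod.stdAddChar (c (Additive.ofMul γ)) * (G : ℍ → ℂ) τ

theorem exists_stdAddChar_eq [NeZero n] {z : ℂ} (hz : z ^ n = 1) :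
    ∃ a : ZMod n, ZMod.stdAddChar a = z := by
  obtain ⟨i, -, hi⟩ :=
    (Complex.isPrimitiveRoot_exp n (NeZero.ne n)).eq_pow_of_pow_eq_one hz
  refine ⟨((i : ℤ) : ZMod n), ?_⟩
  rw [ZMod.stdAddChar_coe, ← hi, ← Complex.exp_nat_mul]
  congr 1
  push_cast
  ring

/-- Two `n`-th roots of the same function differ by a root of unity. -/
theorem exists_mul_of_pow_eq [NeZero n] {G G' : Hol} (_hG : G ≠ 0) (h : G' ^ n = G ^ n) :
    ∃ a : ZMod n, (G' : ℍ → ℂ) = fun τ => ZMod.stdAddChar a * (G : ℍ → ℂ) τ := by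
  classical
  have hζ := Complex.isPrimitiveRoot_exp n (NeZero.ne n)
  have hζ' := hζ.map_of_injective (f := algebraMap ℂ Hol) (algebraMap ℂ Hol).injective
  have h0 := hζ'.pow_sub_pow_eq_prod_sub_mul G' G (NeZero.pos n)
  rw [h, sub_self, eq_comm, Finset.prod_eq_zero_iff] at h0
  obtain ⟨μ, hμ, hμ0⟩ := h0
  rw [Polynomial.mem_nthRootsFinset (NeZero.pos n)] at hμ
  obtain ⟨i, -, hi⟩ := hζ'.eq_pow_of_pow_eq_one hμ
  obtain ⟨a, ha⟩ := exists_stdAddChar_eq (n := n)
    (z := Complex.exp (2 * Real.pi * Complex.I / n) ^ i)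
    (by rw [← pow_mul, mul_comm i n, pow_mul, hζ.pow_eq_one, one_pow])
  refine ⟨a, ?_⟩
  rw [sub_eq_zero.mp hμ0, ← hi, ← map_pow, ha]
  rfl

theorem stdAddChar_mul_cancel [NeZero n] {G : Hol} (hG : G ≠ 0) {a b : ZMod n}
    (h : (fun τ => ZMod.stdAddChar a * (G : ℍ → ℂ) τ)
      = fun τ => ZMod.stdAddChar b * (G : ℍ → ℂ) τ) : a = b := by
  obtain ⟨τ, hτ⟩ : ∃ τ, (G : ℍ → ℂ) τ ≠ 0 := by
    by_contra! h0
    exact hG (Subtype.ext (funext h0))
  exact ZMod.injective_stdAddChar (mul_right_cancel₀ hτ (congrFun h τ))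

omit [NeZero M] [Fact (1 < M)] in
theorem KumRel.unique [NeZero n] {G : Hol} (hG : G ≠ 0) {c c' : Additive (Gamma1 M) →+ ZMod n}
    (h : KumRel M n G c) (h' : KumRel M n G c') : c = c' :=
  AddMonoidHom.ext fun γ => by
    rw [← ofMul_toMul γ]
    exact stdAddChar_mul_cancel hG ((h _).symm.trans (h' _))

omit [NeZero M] [Fact (1 < M)] in
theorem exists_kumRel [NeZero n] {G : Hol} (hG : G ≠ 0) {H : modFun M}
    (hH : toHol H = G ^ n) : ∃ c, KumRel M n G c := by
  have hroot : ∀ γ : Gamma1 M, ∃ a : ZMod n, act (γ : SL(2, ℤ)) (G : ℍ → ℂ)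
      = fun τ => ZMod.stdAddChar a * (G : ℍ → ℂ) τ := fun γ => by
    refine exists_mul_of_pow_eq (G' := ⟨_, mdifferentiable_act _ G.2⟩) hG (Subtype.ext ?_)
    show (act (γ : SL(2, ℤ)) (G : ℍ → ℂ)) ^ n = ((G ^ n : Hol) : ℍ → ℂ)
    rw [← map_pow, ← hH, toHol_coe]
    show act (γ : SL(2, ℤ)) ((G : ℍ → ℂ) ^ n) = _
    rw [show (G : ℍ → ℂ) ^ n = ((G ^ n : Hol) : ℍ → ℂ) from rfl, ← hH, toHol_coe]
    exact modFun_act H γ.2
  choose a ha using hroot
  refine ⟨AddMonoidHom.mk' (fun γ => a (Additive.toMul γ)) fun γ δ => ?_, ha⟩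
  refine stdAddChar_mul_cancel hG ?_
  rw [toMul_add, ← ha, Subgroup.coe_mul, act_mul, ha]
  funext τ
  rw [act_apply, ← act_apply (δ.toMul : SL(2, ℤ)) (G : ℍ → ℂ) τ, ha, AddChar.map_add_eq_mul]
  ring

/-- `G` is an `n`-th root of `x g^n`. -/
def IsRootOf (M n : ℕ) [NeZero M] (x : FF M) (g : modFun M) (G : Hol) : Prop :=
  g ≠ 0 ∧ G ≠ 0 ∧ ∃ H : modFun M, toFF H = x * toFF g ^ n ∧ toHol H = G ^ n

omit [NeZero M] [Fact (1 < M)] in
theorem IsRootOf.dvd_ord {x : FF M} {g : modFun M} (hg : g ≠ 0)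
    (hd : ∀ v : Place Qbar (FF M), (n : ℤ) ∣ v.ord x) (hx : x ≠ 0) (v : Place Qbar (FF M)) :
    (n : ℤ) ∣ v.ord (x * toFF g ^ n) := by
  rw [v.ord_mul hx (pow_ne_zero _ (toFF_ne_zero hg)), FFBasic.ord_pow]
  exact (hd v).add (Dvd.intro _ rfl)

theorem exists_isRootOf [NeZero n] {x : FF M} (hx : x ≠ 0)
    (hd : ∀ v : Place Qbar (FF M), (n : ℤ) ∣ v.ord x) : ∃ g G, IsRootOf M n x g G := by
  obtain ⟨f, g, hf, hg, hxfg⟩ := RingOrd.exists_nonzero hx
  set H := f * g ^ (n - 1) with hHdef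
  have hH0 : H ≠ 0 := mul_ne_zero hf (pow_ne_zero _ hg)
  have hHx : toFF H = x * toFF g ^ n := by
    rw [hHdef, map_mul, map_pow, hxfg,
      show n = n - 1 + 1 from (Nat.succ_pred_eq_of_pos (NeZero.pos n)).symm, Nat.add_sub_cancel,
      pow_succ, div_mul_eq_mul_div, ← mul_assoc, mul_div_cancel_right₀ _ (toFF_ne_zero hg)]
  obtain ⟨G, hG⟩ := Hol.exists_root (NeZero.ne n) (toHol H) fun τ => by
    have := IntVal.dvd_of_forall_dvd (ptOrd M τ).toIntVal (toFF_ne_zero hH0)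
      (n := (n : ℤ)) fun v => hHx ▸ IsRootOf.dvd_ord hg hd hx v
    rwa [RingOrd.toIntVal_toFF _ hH0] at this
  refine ⟨g, G, hg, fun h => toHol_ne_zero hH0 ?_, H, hHx, hG.symm⟩
  rw [← hG, h, zero_pow (NeZero.ne n)]

omit [Fact (1 < M)] in
theorem IsRootOf.mul {x y : FF M} {g g' : modFun M} {G G' : Hol}
    (h : IsRootOf M n x g G) (h' : IsRootOf M n y g' G') :
    IsRootOf M n (x * y) (g * g') (G * G') := by
  obtain ⟨hg, hG, H, hHx, hH⟩ := h
  obtain ⟨hg', hG', H', hHy, hH'⟩ := h'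
  exact ⟨mul_ne_zero hg hg', mul_ne_zero hG hG', H * H',
    by rw [map_mul, hHx, hHy, map_mul, mul_pow]; ring, by rw [map_mul, hH, hH', mul_pow]⟩

omit [Fact (1 < M)] in
theorem isRootOf_pow {f g : modFun M} (hf : f ≠ 0) (hg : g ≠ 0) :
    IsRootOf M n ((toFF f / toFF g) ^ n) g (toHol f) :=
  ⟨hg, toHol_ne_zero hf, f ^ n,
    by rw [map_pow, ← mul_pow, div_mul_cancel₀ _ (toFF_ne_zero hg)], map_pow _ _ _⟩

omit [NeZero M] [Fact (1 < M)] in
theorem KumRel.mul [NeZero n] {G G' : Hol} {c c' : Additive (Gamma1 M) →+ ZMod n}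
    (h : KumRel M n G c) (h' : KumRel M n G' c') : KumRel M n (G * G') (c + c') := fun γ => by
  rw [show ((G * G' : Hol) : ℍ → ℂ) = (G : ℍ → ℂ) * G' from rfl, map_mul, h γ, h' γ]
  funext τ
  simp only [Pi.mul_apply, AddMonoidHom.add_apply, AddChar.map_add_eq_mul]
  ring

omit [NeZero M] [Fact (1 < M)] in
theorem kumRel_toHol [NeZero n] (f : modFun M) : KumRel M n (toHol f) 0 := fun γ => by
  rw [toHol_coe, modFun_act f γ.2]
  funext τ
  simp

omit [Fact (1 < M)] in
/-- The character does not depend on the chosen root. -/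
theorem IsRootOf.kumRel_eq [NeZero n] {x : FF M} {g g' : modFun M} {G G' : Hol}
    (h : IsRootOf M n x g G) (h' : IsRootOf M n x g' G')
    {c c' : Additive (Gamma1 M) →+ ZMod n} (hc : KumRel M n G c) (hc' : KumRel M n G' c') :
    c = c' := by
  obtain ⟨hg, hG, H, hHx, hH⟩ := h
  obtain ⟨hg', hG', H', hH'x, hH'⟩ := h'
  have e : H * g' ^ n = H' * g ^ n := toFF_injective (by
    rw [map_mul, map_mul, map_pow, map_pow, hHx, hH'x]; ring)
  have e' : (G * toHol g') ^ n = (G' * toHol g) ^ n := by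
    rw [mul_pow, mul_pow, ← hH, ← hH', ← map_pow, ← map_pow, ← map_mul, ← map_mul, e]
  have hne : G' * toHol g ≠ 0 := mul_ne_zero hG' (toHol_ne_zero hg)
  obtain ⟨a, ha⟩ := exists_mul_of_pow_eq hne e'
  have h1 : KumRel M n (G * toHol g') c := by simpa using hc.mul (kumRel_toHol g')
  have h2 : KumRel M n (G * toHol g') c' := fun γ => by
    have h3 : KumRel M n (G' * toHol g) c' := by simpa using hc'.mul (kumRel_toHol g)
    funext τ
    rw [act_apply, ha]
    beta_reduce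
    rw [← act_apply (γ : SL(2, ℤ)) (((G' * toHol g : Hol)) : ℍ → ℂ) τ, h3 γ]
    ring
  exact h1.unique (mul_ne_zero hG (toHol_ne_zero hg')) h2

section Cusps

omit [NeZero M] [Fact (1 < M)] in
theorem T_zpow_conj_mem (δ : SL(2, ℤ)) :
    δ * ModularGroup.T ^ (M : ℤ) * δ⁻¹ ∈ Gamma1 M := by
  have hT : ModularGroup.T ^ (M : ℤ) ∈ Gamma M := by
    rw [Gamma_mem, ModularGroup.coe_T_zpow]
    simp
  have h := (Gamma_normal M).conj_mem _ hT δ
  rw [Gamma_mem] at h
  rw [Gamma1_mem]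
  exact ⟨h.1, h.2.2.2, h.2.2.1⟩

variable {δ : SL(2, ℤ)} {k : ℤ}
  (hinv : ∀ f : modFun M, act (ModularGroup.T ^ k) (act δ (f : ℍ → ℂ)) = act δ (f : ℍ → ℂ))

include hinv

omit [Fact (1 < M)] in
theorem dvd_mul_order {f : modFun M} (hf : f ≠ 0) : (M : ℤ) ∣ k * (serAt δ f).order := by
  have hs := hasExp_serAt δ f
  have ht := hs.act_T k
  rw [hinv] at ht
  have h := congrArg (fun u : LaurentSeries ℂ => u.coeff (serAt δ f).order)
    (ht.unique (NeZero.pos M) hs)
  simp only [twist_coeff] at h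
  have h1 := mul_left_cancel₀ (HahnSeries.coeff_order_eq_zero.not.mpr (serAt_ne_zero δ hf))
    (h.trans (mul_one _).symm)
  rw [← zetaM_zpow_eq_one_iff (NeZero.pos M), zetaM_zpow, ← h1, ← Complex.exp_int_mul]
  congr 1
  push_cast
  ring

/-- The order at the cusp `δ ∞` in the parameter of width `M / |k|`. -/
def widthOrd : RingOrd M where
  o f := (k.natAbs : ℤ) * (serAt δ f).order / M
  map_mul f g hf hg := by
    rw [map_mul, HahnSeries.order_mul (serAt_ne_zero δ hf) (serAt_ne_zero δ hg), mul_add,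
      Int.add_ediv_of_dvd_left]
    exact (Int.natAbs_dvd_natAbs.mpr (dvd_mul_order hinv hf)) |> fun h => by
      rw [← Int.natAbs_dvd_natAbs, Int.natAbs_mul, Int.natAbs_natCast, Int.natAbs_natCast]
      rwa [Int.natAbs_mul, Int.natAbs_natCast] at h
  map_add f g _ _ hfg := by
    have h1 : min (serAt δ f).order (serAt δ g).order ≤ (serAt δ (f + g)).order := by
      rw [map_add]
      exact HahnSeries.min_order_le_order_add (by rw [← map_add]; exact serAt_ne_zero δ hfg)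
    have hM : (0 : ℤ) ≤ M := Int.natCast_nonneg _
    rcases le_total (serAt δ f).order (serAt δ g).order with h | h
    · rw [min_eq_left h] at h1
      exact (min_le_left _ _).trans
        (Int.ediv_le_ediv (Int.natCast_pos.mpr (NeZero.pos M))
          (mul_le_mul_of_nonneg_left h1 (Int.natCast_nonneg _)))
    · rw [min_eq_right h] at h1
      exact (min_le_right _ _).trans
        (Int.ediv_le_ediv (Int.natCast_pos.mpr (NeZero.pos M))
          (mul_le_mul_of_nonneg_left h1 (Int.natCast_nonneg _)))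
  map_const c hc := by
    have h : (serAt δ (constHom (M := M) c)).order = 0 := (cuspOrd M δ).map_const c hc
    simp [h]

theorem IsRootOf.rootExp_eq_one [NeZero n] {x : FF M} {g : modFun M} {G : Hol}
    (h : IsRootOf M n x g G) (hx : x ≠ 0) (hd : ∀ v : Place Qbar (FF M), (n : ℤ) ∣ v.ord x) :
    ∀ H : modFun M, toFF H = x * toFF g ^ n → H ≠ 0 →
      rootExp n M (serAt δ H).order k = 1 := by
  intro H hHx hH0
  have hW := IntVal.dvd_of_forall_dvd (widthOrd hinv).toIntVal (toFF_ne_zero hH0)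
    (n := (n : ℤ)) fun v => hHx ▸ IsRootOf.dvd_ord h.1 hd hx v
  rw [RingOrd.toIntVal_toFF _ hH0] at hW
  have h1 : (M : ℤ) * n ∣ (k.natAbs : ℤ) * (serAt δ H).order := by
    obtain ⟨t, ht⟩ := hW
    refine ⟨t, ?_⟩
    have hdvd : (M : ℤ) ∣ (k.natAbs : ℤ) * (serAt δ H).order := by
      rw [← Int.natAbs_dvd_natAbs, Int.natAbs_mul, Int.natAbs_natCast, Int.natAbs_natCast]
      have := Int.natAbs_dvd_natAbs.mpr (dvd_mul_order hinv hH0)
      rwa [Int.natAbs_mul, Int.natAbs_natCast] at this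
    rw [← Int.mul_ediv_cancel' hdvd, show ((k.natAbs : ℤ) * (serAt δ H).order / M) = n * t from ht,
      mul_assoc]
  have h2 : (M : ℤ) * n ∣ k * (serAt δ H).order := by
    rw [← Int.natAbs_dvd_natAbs, Int.natAbs_mul, Int.natAbs_mul, Int.natAbs_natCast,
      Int.natAbs_natCast]
    have := Int.natAbs_dvd_natAbs.mpr h1
    rwa [Int.natAbs_mul, Int.natAbs_mul, Int.natAbs_natCast, Int.natAbs_natCast,
      Int.natAbs_natCast] at this
  obtain ⟨t, ht⟩ := h2
  rw [rootExp, Complex.exp_eq_one_iff]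
  refine ⟨t, ?_⟩
  have : (M : ℂ) ≠ 0 := Nat.cast_ne_zero.mpr (NeZero.ne M)
  have : (n : ℂ) ≠ 0 := Nat.cast_ne_zero.mpr (NeZero.ne n)
  have ht' := congrArg (fun z : ℤ => (z : ℂ)) ht
  push_cast at ht'
  field_simp
  linear_combination ht'

end Cusps

theorem IsRootOf.parabolic [NeZero n] {x : FF M} {g : modFun M} {G : Hol}
    (h : IsRootOf M n x g G) (hx : x ≠ 0) (hd : ∀ v : Place Qbar (FF M), (n : ℤ) ∣ v.ord x)
    {c : Additive (Gamma1 M) →+ ZMod n} (hc : KumRel M n G c) :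
    ModularCurve.Period.IsParabolicHom (Gamma1 M) c := by
  intro γ hγ
  obtain ⟨δ, hδ⟩ := Periods.exists_conj_lowerLeft_eq_zero hγ
  obtain ⟨k, hk⟩ := ModularGroup.exists_eq_T_zpow_of_c_eq_zero hδ
  have hmove : ∀ τ : ℍ, δ • (ModularGroup.T ^ k • τ) = (γ : SL(2, ℤ)) • (δ • τ) := fun τ => by
    rw [← hk, ← mul_smul, ← mul_smul]
    congr 1
    group
  have hinv : ∀ f : modFun M,
      act (ModularGroup.T ^ k) (act δ (f : ℍ → ℂ)) = act δ (f : ℍ → ℂ) := fun f => by
    funext τ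
    rw [act_apply, act_apply, hmove]
    exact congrFun (modFun_act f γ.2) (δ • τ)
  obtain ⟨hg, hG, H, hHx, hH⟩ := id h
  have hH0 : H ≠ 0 := fun h0 => pow_ne_zero n hG (by rw [← hH, h0, map_zero])
  set G' : Hol := ⟨act δ (G : ℍ → ℂ), mdifferentiable_act δ G.2⟩
  have hexp : HasExp M ((G' ^ n : Hol) : ℍ → ℂ) (serAt δ H) := by
    show HasExp M ((act δ (G : ℍ → ℂ)) ^ n) _
    rw [← map_pow, show (G : ℍ → ℂ) ^ n = ((G ^ n : Hol) : ℍ → ℂ) from rfl, ← hH, toHol_coe]
    exact hasExp_serAt δ H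
  obtain ⟨V, hV, hV0, hVeq⟩ :=
    exists_root_form (NeZero.ne n) (NeZero.pos M) hexp (serAt_ne_zero δ hH0)
  have h1 := root_multiplier (c := ZMod.stdAddChar (c (Additive.ofMul γ))) (k := k)
    (NeZero.pos M) hV.continuousAt hV0 hVeq fun τ => by
      show act δ (G : ℍ → ℂ) ((k : ℝ) +ᵥ τ) = _
      rw [← modular_T_zpow_smul, act_apply, hmove, ← act_apply (γ : SL(2, ℤ)) (G : ℍ → ℂ), hc γ]
      rfl
  rw [h.rootExp_eq_one hinv hx hd H hHx hH0] at h1
  exact ZMod.injective_stdAddChar (by rw [h1, AddChar.map_zero_eq_one])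

omit [Fact (1 < M)] in
/-- A root with trivial character comes from the field. -/
theorem IsRootOf.exists_pow_eq [NeZero n] {x : FF M} {g : modFun M} {G : Hol}
    (h : IsRootOf M n x g G) (hc : KumRel M n G 0) : ∃ y : FF M, y ^ n = x := by
  obtain ⟨hg, hG, H, hHx, hH⟩ := h
  have hH0 : H ≠ 0 := fun h0 => pow_ne_zero n hG (by rw [← hH, h0, map_zero])
  have hinv : ∀ γ ∈ Gamma1 M, act γ (G : ℍ → ℂ) = G := fun γ hγ => by
    rw [hc ⟨γ, hγ⟩]
    funext τ
    simp
  have hHpow : ∀ δ, (act δ (G : ℍ → ℂ)) ^ n = act δ (H : ℍ → ℂ) := fun δ => by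
    rw [← map_pow, show (G : ℍ → ℂ) ^ n = ((G ^ n : Hol) : ℍ → ℂ) from rfl, ← hH, toHol_coe]
  have hexpG : ∀ δ, ∃ u, HasExp M (act δ (G : ℍ → ℂ)) u := fun δ => by
    set G' : Hol := ⟨act δ (G : ℍ → ℂ), mdifferentiable_act δ G.2⟩
    have hexp : HasExp M ((G' ^ n : Hol) : ℍ → ℂ) (serAt δ H) := by
      show HasExp M ((act δ (G : ℍ → ℂ)) ^ n) _
      rw [hHpow]
      exact hasExp_serAt δ H
    obtain ⟨V, hV, hV0, hVeq⟩ :=
      exists_root_form (NeZero.ne n) (NeZero.pos M) hexp (serAt_ne_zero δ hH0)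
    have hper : ∀ τ : ℍ, act δ (G : ℍ → ℂ) (((M : ℤ) : ℝ) +ᵥ τ) = 1 * act δ (G : ℍ → ℂ) τ := by
      intro τ
      rw [← modular_T_zpow_smul, one_mul, act_apply, act_apply]
      have := congrFun (hinv _ (T_zpow_conj_mem (M := M) δ)) (δ • τ)
      rw [act_apply, mul_smul, mul_smul, inv_smul_smul] at this
      exact this
    have h1 := root_multiplier (NeZero.pos M) hV.continuousAt hV0 hVeq hper
    rw [rootExp, eq_comm, Complex.exp_eq_one_iff] at h1
    obtain ⟨m, hm⟩ := h1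
    have hord : (serAt δ H).order = (n : ℤ) * m := by
      have hMne : (M : ℂ) ≠ 0 := Nat.cast_ne_zero.mpr (NeZero.ne M)
      have hnne : (n : ℂ) ≠ 0 := Nat.cast_ne_zero.mpr (NeZero.ne n)
      have hpi : (2 : ℂ) * Real.pi * Complex.I ≠ 0 := Complex.two_pi_I_ne_zero
      refine Int.cast_injective (α := ℂ) ?_
      push_cast at hm ⊢
      field_simp at hm
      linear_combination hm
    refine exists_hasExp_root (NeZero.ne n) (NeZero.pos M) (m := m) hV ?_
    rw [← hord]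
    exact hVeq
  have halg : ∃ t : LaurentSeries Qbar, HasExp M (G : ℍ → ℂ) (liftC t) := by
    obtain ⟨u, hu⟩ := hexpG 1
    rw [act_one] at hu
    have hs : HasExp M ((G : ℍ → ℂ) ^ n) (liftC (qExpand Qbar M (ser H))) := by
      have h1 := (hasExp_ser H).qExpand M
      rw [mul_one, ← toHol_coe, hH] at h1
      rw [liftC, ModularCurve.coeffMap_qExpand]
      exact h1
    obtain ⟨u', rfl⟩ := exists_liftC_root (NeZero.ne n) ((hu.pow n).unique (NeZero.pos M) hs)
    exact ⟨u', hu⟩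
  set f : modFun M := ⟨G, mem_modFun_of_width G.2 hinv hexpG halg⟩
  have hf : H = f ^ n := toHol_injective (by rw [hH, map_pow]; rfl)
  refine ⟨toFF f / toFF g, ?_⟩
  rw [div_pow, ← map_pow, ← hf, hHx, mul_div_cancel_right₀ _ (pow_ne_zero _ (toFF_ne_zero hg))]

/-! ## The group `V_n(M)` and the Kummer map -/

variable (M n) in
/-- Functions all of whose orders are divisible by `n`. -/
def divGroup : Subgroup (FF M)ˣ where
  carrier := {h | ∀ v : Place Qbar (FF M), (n : ℤ) ∣ v.ord (h : FF M)}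
  one_mem' v := by simp
  mul_mem' {a b} ha hb v := by
    rw [Units.val_mul, v.ord_mul a.ne_zero b.ne_zero]; exact (ha v).add (hb v)
  inv_mem' {a} ha v := by
    rw [Units.val_inv_eq_inv_val, v.ord_inv]; exact (ha v).neg_right

variable (M n) in
/-- The `n`-th powers among them. -/
def powGroup : Subgroup (divGroup M n) :=
  ((powMonoidHom n : (FF M)ˣ →* (FF M)ˣ).range).subgroupOf (divGroup M n)

variable (M n) in
/-- `V_n(M)`. -/
abbrev Kum : Type := Additive (↥(divGroup M n) ⧸ powGroup M n)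

/-- The class of a function. -/
def kumMk (h : divGroup M n) : Kum M n := Additive.ofMul (QuotientGroup.mk h)

omit [NeZero M] [Fact (1 < M)] in
theorem kumMk_surjective : Function.Surjective (kumMk : divGroup M n → Kum M n) := fun x => by
  obtain ⟨h, hh⟩ := QuotientGroup.mk_surjective (Additive.toMul x)
  exact ⟨h, by rw [kumMk, hh, ofMul_toMul]⟩

variable [NeZero n]

theorem exists_char (h : divGroup M n) : ∃ c : ParHom M n, ∃ g G,
    IsRootOf M n ((h : (FF M)ˣ) : FF M) g G ∧ KumRel M n G c.1 := by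
  obtain ⟨g, G, hgG⟩ := exists_isRootOf (Units.ne_zero _) h.2
  obtain ⟨-, hG, H, -, hH⟩ := id hgG
  obtain ⟨c, hc⟩ := exists_kumRel hG hH
  exact ⟨⟨c, hgG.parabolic (Units.ne_zero _) h.2 hc⟩, g, G, hgG, hc⟩

/-- The character of a function. -/
def kumChar (h : divGroup M n) : ParHom M n := (exists_char h).choose

theorem kumChar_eq {h : divGroup M n} {g : modFun M} {G : Hol}
    {c : Additive (Gamma1 M) →+ ZMod n}
    (hG : IsRootOf M n ((h : (FF M)ˣ) : FF M) g G) (hc : KumRel M n G c) :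
    (kumChar h : Additive (Gamma1 M) →+ ZMod n) = c := by
  obtain ⟨g', G', hG', hc'⟩ := (exists_char h).choose_spec
  exact hG'.kumRel_eq hG hc' hc

variable (M n) in
/-- The Kummer character as a homomorphism. -/
def kumCharHom : divGroup M n →* Multiplicative (ParHom M n) :=
  MonoidHom.mk' (fun h => Multiplicative.ofAdd (kumChar h)) fun a b => by
    obtain ⟨g, G, hG, hc⟩ := (exists_char a).choose_spec
    obtain ⟨g', G', hG', hc'⟩ := (exists_char b).choose_spec
    rw [← ofAdd_add]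
    refine congrArg _ (Subtype.ext ?_)
    rw [Submodule.coe_add]
    exact kumChar_eq (by simpa using hG.mul hG') (hc.mul hc')

theorem kumCharHom_eq_one_iff (h : divGroup M n) :
    kumCharHom M n h = 1 ↔ h ∈ powGroup M n := by
  constructor
  · intro h1
    obtain ⟨g, G, hG, hc⟩ := (exists_char h).choose_spec
    have h0 : (kumChar h : Additive (Gamma1 M) →+ ZMod n) = 0 :=
      congrArg Subtype.val (Multiplicative.ofAdd.injective (h1.trans ofAdd_zero.symm))
    rw [show ((exists_char h).choose : Additive (Gamma1 M) →+ ZMod n) = 0 from h0] at hc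
    obtain ⟨y, hy⟩ := hG.exists_pow_eq hc
    have hy0 : y ≠ 0 := fun h0 => Units.ne_zero (h : (FF M)ˣ)
      (by rw [← hy, h0, zero_pow (NeZero.ne n)])
    exact ⟨Units.mk0 y hy0, Units.ext (by simpa using hy)⟩
  · rintro ⟨y, hy⟩
    obtain ⟨f, g, hf, hg, hyfg⟩ := RingOrd.exists_nonzero (Units.ne_zero y)
    have hroot : IsRootOf M n ((h : (FF M)ˣ) : FF M) g (toHol f) := by
      have e : ((h : (FF M)ˣ) : FF M) = (toFF f / toFF g) ^ n := by
        rw [← hyfg, ← Units.val_pow_eq_pow_val]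
        exact congrArg Units.val hy.symm
      rw [e]
      exact isRootOf_pow hf hg
    show Multiplicative.ofAdd (kumChar h) = 1
    rw [← ofAdd_zero]
    exact congrArg _ (Subtype.ext (kumChar_eq hroot (kumRel_toHol f)))

variable (M n) in
/-- The Kummer map. -/
def kummer : Kum M n →+ ParHom M n :=
  MonoidHom.toAdditiveLeft (QuotientGroup.lift (powGroup M n) (kumCharHom M n)
    fun h hh => (kumCharHom_eq_one_iff h).mpr hh)

@[simp] theorem kummer_kumMk (h : divGroup M n) : kummer M n (kumMk h) = kumChar h := rfl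

theorem kummer_injective : Function.Injective (kummer M n) := by
  rw [injective_iff_map_eq_zero]
  intro x hx
  obtain ⟨h, rfl⟩ := kumMk_surjective x
  rw [kummer_kumMk] at hx
  have h1 : kumCharHom M n h = 1 := congrArg Multiplicative.ofAdd hx
  exact congrArg Additive.ofMul
    ((QuotientGroup.eq_one_iff h).mpr ((kumCharHom_eq_one_iff h).mp h1))

end FLTAgent.GammaH

end
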