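import Fermat.Agent.GammaH.HeckeReps
import Fermat.Agent.GammaH.Kummer

/-!
# Hecke operators `T_p`, `U_q`, `⟨d⟩` on `V_n(M)` and on parabolic homomorphisms

`tRep`, `uRep` and `dRep` are the systems of representatives of the three operators. The norm
along such a system acts on `V_n(M)` (`HeckeReps.kumT`) compatibly with the transfer of parabolic
homomorphisms under the Kummer map (`HeckeReps.kummer_kumT`).
-/

set_option autoImplicit false

noncomputable section

open UpperHalfPlane Filter CongruenceSubgroup ModularCurve AlgebraicCurve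
open scoped Manifold MatrixGroups Topology

namespace FLTAgent.GammaH

open FLTAgent.LevelM FLTAgent.HeckeJacobian

local notation "Qbar" => AlgebraicClosure ℚ
local notation "Mat" => Matrix (Fin 2) (Fin 2) ℤ

/-! ## The operators -/

variable {M : ℕ} [NeZero M]

omit [NeZero M] in
/-- Decomposition of matrices of prime determinant congruent to `(1 *; 0 *)` modulo `M`. -/
theorem exists_decomp {p : ℕ} (hp : p.Prime) {m : Mat} (hdet : m.det = p)
    (hc : ((m 1 0 : ℤ) : ZMod M) = 0) (ha : ((m 0 0 : ℤ) : ZMod M) = 1) :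
    (∃ b : Fin p, ∃ g : Gamma1 M, m = ((g : SL(2, ℤ)) : Mat) * !![1, ((b : ℕ) : ℤ); 0, (p : ℤ)]) ∨
      (¬ p ∣ M ∧ ∃ γ : SL(2, ℤ), γ ∈ Gamma0 M ∧ (p : ZMod M) * ((γ 0 0 : ℤ) : ZMod M) = 1 ∧
        m = (γ : Mat) * !![(p : ℤ), 0; 0, 1]) := by
  obtain ⟨γ, A, B, D, hA, hD, e⟩ := exists_upper m (by rw [hdet]; exact_mod_cast hp.pos)
  have hAD : A * D = p := by
    rw [← hdet, e, Matrix.det_mul, γ.det_coe, one_mul, Matrix.det_fin_two_of, mul_zero, sub_zero]
  have h00 : m 0 0 = γ 0 0 * A := by rw [e]; simp [Matrix.mul_apply, Fin.sum_univ_two]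
  have h10 : m 1 0 = γ 1 0 * A := by rw [e]; simp [Matrix.mul_apply, Fin.sum_univ_two]
  have hA' : A = 1 ∨ A = p := by
    lift A to ℕ using hA.le
    lift D to ℕ using hD.le
    rcases (Nat.dvd_prime hp).mp (Dvd.intro D (by exact_mod_cast hAD)) with h | h
    · exact Or.inl (by exact_mod_cast h)
    · exact Or.inr (by exact_mod_cast h)
  rcases hA' with rfl | rfl
  · rw [one_mul] at hAD
    subst hAD
    left
    rw [mul_one] at h00 h10
    have hγ : γ ∈ Gamma1 M := by
      have hd := congrArg (fun z : ℤ => (z : ZMod M))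
        (γ.det_coe ▸ (Matrix.det_fin_two (γ : Mat)).symm)
      rw [Gamma1_mem, ← h10, ← h00]
      refine ⟨ha, ?_, hc⟩
      simpa [← h00, ← h10, ha, hc] using hd
    have hp0 : (0 : ℤ) < p := by exact_mod_cast hp.pos
    refine ⟨⟨(B % (p : ℤ)).toNat, by
      have := Int.emod_lt_of_pos B hp0
      have := Int.emod_nonneg B hp0.ne'
      omega⟩, ⟨γ * ModularGroup.T ^ (B / (p : ℤ)), mul_mem hγ (zpow_mem
        (by simp [ModularGroup.coe_T, Gamma1_mem]) _)⟩, ?_⟩
    rw [e, Matrix.SpecialLinearGroup.coe_mul, ModularGroup.coe_T_zpow, Matrix.mul_assoc]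
    congr 1
    rw [Int.toNat_of_nonneg (Int.emod_nonneg B hp0.ne')]
    ext i j
    fin_cases i <;> fin_cases j <;> simp [Matrix.mul_apply, Fin.sum_univ_two]
    · linear_combination -(Int.emod_add_mul_ediv B p)
  · have hD1 : D = 1 := by
      have hp0 : (p : ℤ) ≠ 0 := by exact_mod_cast hp.ne_zero
      exact mul_left_cancel₀ hp0 (by rw [hAD, mul_one])
    subst hD1
    right
    have hunit : (p : ZMod M) * ((γ 0 0 : ℤ) : ZMod M) = 1 := by
      rw [← ha, h00]; push_cast; ring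
    refine ⟨fun hdvd => ?_, γ * ModularGroup.T ^ B, ?_, ?_, ?_⟩
    · have : Fact p.Prime := ⟨hp⟩
      have h := congrArg (ZMod.castHom hdvd (ZMod p)) hunit
      rw [map_mul, map_natCast, ZMod.natCast_self, zero_mul, map_one] at h
      exact zero_ne_one h
    · rw [Gamma0_mem, Matrix.SpecialLinearGroup.coe_mul, ModularGroup.coe_T_zpow]
      have h1 : ((γ 1 0 : ℤ) : ZMod M) * (p : ZMod M) = 0 := by
        rw [← hc, h10]; push_cast; ring
      have h2 : ((γ 1 0 : ℤ) : ZMod M) = 0 := by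
        linear_combination (((γ 0 0 : ℤ) : ZMod M)) * h1 - ((γ 1 0 : ℤ) : ZMod M) * hunit
      simp [Matrix.mul_apply, Fin.sum_univ_two, h2]
    · rw [Matrix.SpecialLinearGroup.coe_mul, ModularGroup.coe_T_zpow]
      simpa [Matrix.mul_apply, Fin.sum_univ_two] using hunit
    · rw [e, Matrix.SpecialLinearGroup.coe_mul, ModularGroup.coe_T_zpow, Matrix.mul_assoc]
      congr 1
      ext i j
      fin_cases i <;> fin_cases j <;> simp [Matrix.mul_apply, Fin.sum_univ_two]

omit [NeZero M] in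
theorem exists_sigma (p : ℕ) (h : p.Coprime M) :
    ∃ σ : SL(2, ℤ), σ ∈ Gamma0 M ∧ ((σ 1 1 : ℤ) : ZMod M) = p := by
  have hg : Int.gcd (p : ℤ) (M : ℤ) = 1 := by simpa [Int.gcd_natCast_natCast] using h
  obtain ⟨u, v, huv⟩ := Int.isCoprime_iff_gcd_eq_one.mpr hg
  refine ⟨⟨!![u, -v; (M : ℤ), (p : ℤ)], by rw [Matrix.det_fin_two_of]; linear_combination huv⟩,
    ?_, ?_⟩
  · refine Gamma0_mem.mpr ?_
    show (((M : ℤ)) : ZMod M) = 0
    simp
  · show (((p : ℤ)) : ZMod M) = _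
    simp

variable (M) in
/-- An element of `Γ₀(M)` with lower right entry `≡ p`. -/
def sigmaP (p : ℕ) (h : p.Coprime M) : SL(2, ℤ) := (exists_sigma (M := M) p h).choose

omit [NeZero M] in
/-- The chosen lift of `p` lies in `Γ₀(M)`. -/
theorem sigmaP_mem (p : ℕ) (h : p.Coprime M) : sigmaP M p h ∈ Gamma0 M :=
  (exists_sigma (M := M) p h).choose_spec.1

omit [NeZero M] in
theorem sigmaP_apply (p : ℕ) (h : p.Coprime M) : ((sigmaP M p h 1 1 : ℤ) : ZMod M) = p :=
  (exists_sigma (M := M) p h).choose_spec.2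

omit [NeZero M] in
theorem mul_inv_mem_Gamma1 {σ γ : SL(2, ℤ)} (hσ : σ ∈ Gamma0 M) (hγ : γ ∈ Gamma0 M)
    (h : ((σ 1 1 : ℤ) : ZMod M) * ((γ 0 0 : ℤ) : ZMod M) = 1) : γ * σ⁻¹ ∈ Gamma1 M := by
  rw [Gamma0_mem] at hσ hγ
  rw [Gamma1_mem, Matrix.SpecialLinearGroup.coe_mul, Matrix.SpecialLinearGroup.coe_inv,
    Matrix.adjugate_fin_two]
  have dσ := congrArg (fun z : ℤ => (z : ZMod M)) (σ.det_coe ▸ (Matrix.det_fin_two (σ : Mat)).symm)
  have dγ := congrArg (fun z : ℤ => (z : ZMod M)) (γ.det_coe ▸ (Matrix.det_fin_two (γ : Mat)).symm)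
  simp [hσ, hγ] at dσ dγ
  refine ⟨?_, ?_, ?_⟩ <;> simp [Matrix.mul_apply, Fin.sum_univ_two, hσ, hγ]
  · linear_combination h
  · linear_combination ((γ 1 1 : ℤ) : ZMod M) * ((σ 0 0 : ℤ) : ZMod M) * (-h)
      + ((γ 0 0 : ℤ) : ZMod M) * ((γ 1 1 : ℤ) : ZMod M) * dσ + dγ

omit [NeZero M] in
theorem beta_mul_mem {β : Mat} (hc : ((β 1 0 : ℤ) : ZMod M) = 0)
    (ha : ((β 0 0 : ℤ) : ZMod M) = 1) (γ : Gamma1 M) :
    (((β * ((γ : SL(2, ℤ)) : Mat)) 1 0 : ℤ) : ZMod M) = 0 ∧
      (((β * ((γ : SL(2, ℤ)) : Mat)) 0 0 : ℤ) : ZMod M) = 1 := by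
  obtain ⟨h1, h2, h3⟩ := (Gamma1_mem M (γ : SL(2, ℤ))).mp γ.2
  constructor <;> simp [Matrix.mul_apply, Fin.sum_univ_two, hc, ha, h1, h3]

omit [NeZero M] in
theorem sep_upper {p : ℕ} (_hp : p.Prime) {b b' : Fin p} (g : Gamma1 M)
    (h : (!![1, ((b : ℕ) : ℤ); 0, (p : ℤ)] : Mat)
      = ((g : SL(2, ℤ)) : Mat) * !![1, ((b' : ℕ) : ℤ); 0, (p : ℤ)]) : b = b' := by
  have h00 := congrFun (congrFun h 0) 0
  have h01 := congrFun (congrFun h 0) 1
  simp [Matrix.mul_apply, Fin.sum_univ_two] at h00 h01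
  rw [← h00, one_mul] at h01
  have hb := b.2
  have hb' := b'.2
  refine Fin.ext ?_
  have hz : (p : ℤ) ∣ ((b : ℕ) : ℤ) - ((b' : ℕ) : ℤ) :=
    ⟨((g : SL(2, ℤ)) : Mat) 0 1, by linear_combination h01⟩
  have := Int.eq_zero_of_abs_lt_dvd hz (by rw [abs_lt]; omega)
  omega

/-- `T_p` for `p ∤ M`. -/
def tRep (p : ℕ) (hp : p.Prime) (hpM : ¬ p ∣ M) : HeckeReps M M where
  ι := Option (Fin p)
  fin := inferInstance
  β i := match i with
    | some b => !![1, ((b : ℕ) : ℤ); 0, (p : ℤ)]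
    | none => (sigmaP M p ((hp.coprime_iff_not_dvd).mpr hpM) : Mat) * !![(p : ℤ), 0; 0, 1]
  det_pos i := by
    cases i <;> simp [Matrix.det_fin_two_of, hp.pos]
  exists_rep γ i := by
    set hc := (hp.coprime_iff_not_dvd).mpr hpM
    set σ := sigmaP M p hc
    have hσ0 : ((σ 1 0 : ℤ) : ZMod M) = 0 := Gamma0_mem.mp (sigmaP_mem p hc)
    have hσ : ((σ 0 0 : ℤ) : ZMod M) * (p : ZMod M) = 1 := by
      have h := congrArg (fun z : ℤ => (z : ZMod M))
        (σ.det_coe ▸ (Matrix.det_fin_two (σ : Mat)).symm)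
      simpa [hσ0, σ, sigmaP_apply] using h
    have hβ : ∀ β : Mat, β.det = p → ((β 1 0 : ℤ) : ZMod M) = 0 → ((β 0 0 : ℤ) : ZMod M) = 1 →
        ∃ j : Option (Fin p), ∃ g : Gamma1 M, β * ((γ : SL(2, ℤ)) : Mat) = ((g : SL(2, ℤ)) : Mat) *
          (match j with
            | some b => !![1, ((b : ℕ) : ℤ); 0, (p : ℤ)]
            | none => (σ : Mat) * !![(p : ℤ), 0; 0, 1]) := by
      intro β hd h10 h00
      obtain ⟨hc', ha'⟩ := beta_mul_mem h10 h00 γ
      rcases exists_decomp hp (by rw [Matrix.det_mul, hd, (γ : SL(2, ℤ)).det_coe, mul_one]) hc' ha'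
        with ⟨b, g, e⟩ | ⟨-, γ', hγ', hu, e⟩
      · exact ⟨some b, g, e⟩
      · refine ⟨none, ⟨γ' * σ⁻¹, mul_inv_mem_Gamma1 (sigmaP_mem p hc) hγ'
          (by rw [sigmaP_apply]; exact hu)⟩, ?_⟩
        rw [e, ← Matrix.mul_assoc, ← Matrix.SpecialLinearGroup.coe_mul, inv_mul_cancel_right]
    cases i with
    | some b => exact hβ _ (by simp [Matrix.det_fin_two_of]) (by simp) (by simp)
    | none =>
      refine hβ _ (by simp [Matrix.det_fin_two_of]) ?_ ?_
      · simp [Matrix.mul_apply, Fin.sum_univ_two, hσ0]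
      · simpa [Matrix.mul_apply, Fin.sum_univ_two] using hσ
  sep i j g h := by
    have key : ∀ (b : Fin p) (X : Mat), X.det = 1 →
        (!![1, ((b : ℕ) : ℤ); 0, (p : ℤ)] : Mat) ≠ X * !![(p : ℤ), 0; 0, 1] := fun b X _ e => by
      have h00 := congrFun (congrFun e 0) 0
      simp [Matrix.mul_apply, Fin.sum_univ_two] at h00
      have h1 := Int.eq_one_of_dvd_one (Int.natCast_nonneg p)
        ⟨X 0 0, by linear_combination h00⟩
      exact hp.one_lt.ne' (by exact_mod_cast h1)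
    cases i with
    | some b =>
      cases j with
      | some b' => exact congrArg some (sep_upper hp g h)
      | none =>
        simp only [← Matrix.mul_assoc, ← Matrix.SpecialLinearGroup.coe_mul] at h
        exact absurd h (key b _ (Matrix.SpecialLinearGroup.det_coe _))
    | none =>
      cases j with
      | some b' =>
        have h' := congrArg ((((g⁻¹ : Gamma1 M) : SL(2, ℤ)) : Mat) * ·) h
        simp only [← Matrix.mul_assoc, ← Matrix.SpecialLinearGroup.coe_mul, ← Subgroup.coe_mul,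
          inv_mul_cancel, OneMemClass.coe_one, Matrix.SpecialLinearGroup.coe_one,
            Matrix.one_mul] at h'
        exact absurd h'.symm (key b' _ (Matrix.SpecialLinearGroup.det_coe _))
      | none => rfl
  alg i := by
    cases i with
    | some b => exact ⟨1, one_mem _, 1, p, ((b : ℕ) : ℤ), one_pos, hp.pos, by simp⟩
    | none => exact ⟨_, sigmaP_mem p _, p, 1, 0, hp.pos, one_pos, rfl⟩

/-- `U_q` for `q ∣ M`. -/
def uRep (q : ℕ) (hq : q.Prime) (hqM : q ∣ M) : HeckeReps M M where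
  ι := Fin q
  fin := inferInstance
  β b := !![1, ((b : ℕ) : ℤ); 0, (q : ℤ)]
  det_pos b := by simp [Matrix.det_fin_two_of, hq.pos]
  exists_rep γ b := by
    obtain ⟨hc', ha'⟩ := beta_mul_mem (M := M) (β := !![1, ((b : ℕ) : ℤ); 0, (q : ℤ)])
      (by simp) (by simp) γ
    rcases exists_decomp hq (by rw [Matrix.det_mul, (γ : SL(2, ℤ)).det_coe, mul_one]
                                simp [Matrix.det_fin_two_of]) hc' ha' with h | ⟨h, -⟩
    · exact h
    · exact absurd hqM h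
  sep b b' g h := sep_upper hq g h
  alg b := ⟨1, one_mem _, 1, q, ((b : ℕ) : ℤ), one_pos, hq.pos, by simp⟩

/-- `⟨d⟩`, given by an element of `Γ₀(M)`. -/
def dRep (σ : SL(2, ℤ)) (hσ : σ ∈ Gamma0 M) : HeckeReps M M where
  ι := Unit
  fin := inferInstance
  β _ := (σ : Mat)
  det_pos _ := det_SL σ
  exists_rep γ _ := ⟨(), ⟨σ * γ * σ⁻¹, conj_mem_Gamma1 hσ γ.2⟩, by
    show _ = ((σ * (γ : SL(2, ℤ)) * σ⁻¹ : SL(2, ℤ)) : Mat) * (σ : Mat)
    rw [← Matrix.SpecialLinearGroup.coe_mul, ← Matrix.SpecialLinearGroup.coe_mul,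
      inv_mul_cancel_right]⟩
  sep _ _ _ _ := rfl
  alg _ := ⟨σ, hσ, 1, 1, 0, one_pos, one_pos, by
    rw [show (!![((1 : ℕ) : ℤ), 0; 0, ((1 : ℕ) : ℤ)] : Mat) = 1 by
      ext i j; fin_cases i <;> fin_cases j <;> simp, Matrix.mul_one]⟩

theorem stdAddChar_sum {n : ℕ} [NeZero n] {ι : Type*} (s : Finset ι) (f : ι → ZMod n) :
    ZMod.stdAddChar (∑ i ∈ s, f i) = ∏ i ∈ s, ZMod.stdAddChar (f i) := by
  induction s using Finset.cons_induction with
  | empty => simp [AddChar.map_zero_eq_one]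
  | cons a s ha ih => rw [Finset.sum_cons, Finset.prod_cons, AddChar.map_add_eq_mul, ih]

/-! ## Norms on the function field -/

variable [Fact (1 < M)] {M' : ℕ} [NeZero M'] (R : HeckeReps M' M)

attribute [local instance] HeckeReps.fin

theorem pullF_eq_zero {m : Mat} (h : 0 < m.det) {f : ℍ → ℂ} (hf : pullF m h f = 0) : f = 0 := by
  funext τ
  have := congrFun hf ((mGL m h)⁻¹ • τ)
  simpa [mSmul] using this

omit [Fact (1 < M)] [NeZero M] [NeZero M'] in
theorem HeckeReps.prodF_ne_zero {f : Hol} (hf : f ≠ 0) :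
    (⟨R.prodF (f : ℍ → ℂ), R.mdiff_prodF f.2⟩ : Hol) ≠ 0 := by
  have h : (⟨R.prodF (f : ℍ → ℂ), R.mdiff_prodF f.2⟩ : Hol)
      = ∏ i, (⟨pullF (R.β i) (R.det_pos i) (f : ℍ → ℂ), mdiff_pullF _ _ f.2⟩ : Hol) := by
    refine Subtype.ext ?_
    rw [SubmonoidClass.coe_finsetProd]
    rfl
  rw [h, Finset.prod_ne_zero_iff]
  intro i _ h0
  exact hf (Subtype.ext (pullF_eq_zero _ (congrArg Subtype.val h0)))

theorem HeckeReps.prodMF_ne_zero {f : modFun M} (hf : f ≠ 0) : R.prodMF f ≠ 0 := fun h0 => by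
  have h1 : (R.prodMF f : ℍ → ℂ) = 0 := by rw [h0]; rfl
  exact R.prodF_ne_zero (toHol_ne_zero hf) (Subtype.ext h1)

variable [Fact (1 < M')]

/-- The norm as a map of fields. -/
def HeckeReps.normFun (x : FF M) : FF M' :=
  toFF (R.prodMF (exists_eq_div x).choose) / toFF (R.prodMF (exists_eq_div x).choose_spec.choose)

omit [Fact (1 < M')] in
theorem HeckeReps.normFun_eq {x : FF M} {f g : modFun M} (hg : g ≠ 0)
    (h : x = toFF f / toFF g) : R.normFun x = toFF (R.prodMF f) / toFF (R.prodMF g) := by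
  obtain ⟨hg', h'⟩ := (exists_eq_div x).choose_spec.choose_spec
  set f' := (exists_eq_div x).choose
  set g' := (exists_eq_div x).choose_spec.choose
  have heq : f' * g = f * g' := by
    refine toFF_injective ?_
    rw [map_mul, map_mul]
    exact (div_eq_div_iff (toFF_ne_zero hg') (toFF_ne_zero hg)).mp (h'.symm.trans h)
  show toFF (R.prodMF f') / toFF (R.prodMF g') = _
  rw [div_eq_div_iff (toFF_ne_zero (R.prodMF_ne_zero hg')) (toFF_ne_zero (R.prodMF_ne_zero hg)),
    ← map_mul, ← map_mul, ← map_mul, ← map_mul, heq]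

/-- The norm as a homomorphism of monoids. -/
def HeckeReps.normFF : FF M →* FF M' where
  toFun := R.normFun
  map_one' := by
    rw [R.normFun_eq (f := 1) (g := 1) one_ne_zero (by simp), map_one, map_one, div_one]
  map_mul' x y := by
    obtain ⟨f, g, hg, hx⟩ := exists_eq_div x
    obtain ⟨f', g', hg', hy⟩ := exists_eq_div y
    rw [R.normFun_eq hg hx, R.normFun_eq hg' hy,
      R.normFun_eq (f := f * f') (g := g * g') (mul_ne_zero hg hg')
        (by rw [map_mul, map_mul, hx, hy, div_mul_div_comm]),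
      map_mul, map_mul, map_mul, map_mul, div_mul_div_comm]

omit [Fact (1 < M')] in
theorem HeckeReps.normFF_toFF (f : modFun M) : R.normFF (toFF f) = toFF (R.prodMF f) := by
  show R.normFun _ = _
  rw [R.normFun_eq (f := f) one_ne_zero (by rw [map_one, div_one]), map_one, map_one, div_one]

variable {n : ℕ} [NeZero n]

omit [NeZero n] [Fact (1 < M')] in
theorem HeckeReps.isRootOf {x : FF M} {g : modFun M} {G : Hol} (h : IsRootOf M n x g G) :
    IsRootOf M' n (R.normFF x) (R.prodMF g) ⟨R.prodF (G : ℍ → ℂ), R.mdiff_prodF G.2⟩ := by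
  obtain ⟨hg, hG, H, hHx, hH⟩ := h
  refine ⟨R.prodMF_ne_zero hg, R.prodF_ne_zero hG, R.prodMF H, ?_, ?_⟩
  · rw [← R.normFF_toFF, ← R.normFF_toFF, hHx, map_mul, map_pow]
  · refine Subtype.ext ?_
    rw [toHol_coe, R.coe_prodMF, ← toHol_coe H, hH]
    exact map_pow R.prodF _ n

omit [Fact (1 < M)] [Fact (1 < M')] [NeZero M] [NeZero M'] in
theorem HeckeReps.kumRel {G : Hol} {c : Additive (Gamma1 M) →+ ZMod n} (h : KumRel M n G c) :
    KumRel M' n ⟨R.prodF (G : ℍ → ℂ), R.mdiff_prodF G.2⟩ (R.homT (ZMod n) c) := fun γ => by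
  rw [R.act_prodF h γ]
  funext τ
  rw [R.homT_apply, stdAddChar_sum]

/-- The transfer on parabolic homomorphisms. -/
def HeckeReps.parT : ParHom M n →+ ParHom M' n where
  toFun c := ⟨R.homT (ZMod n) c.1, R.homT_parabolic c.2⟩
  map_zero' := Subtype.ext (map_zero _)
  map_add' _ _ := Subtype.ext (map_add _ _ _)

theorem HeckeReps.norm_mem_divGroup (hsurj : Function.Surjective (kummer M' n)) (h : divGroup M n) :
    Units.map R.normFF (h : (FF M)ˣ) ∈ divGroup M' n := by
  obtain ⟨g, G, hG, hc⟩ := (exists_char h).choose_spec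
  have hG' := R.isRootOf hG
  have hc' := R.kumRel hc
  obtain ⟨x, hx⟩ := hsurj (R.parT (kumChar h))
  obtain ⟨v, rfl⟩ := kumMk_surjective x
  rw [kummer_kumMk] at hx
  obtain ⟨g₂, G₂, hG₂, hc₂⟩ := (exists_char v⁻¹).choose_spec
  have hinv : (kumChar v⁻¹ : Additive (Gamma1 M') →+ ZMod n) =
    -(R.homT (ZMod n) (kumChar h).1) := by
    have := congrArg Multiplicative.toAdd (map_inv (kumCharHom M' n) v)
    rw [show (kumChar v⁻¹) = -kumChar v from this, hx]
    rfl
  have hzero : KumRel M' n (⟨R.prodF (G : ℍ → ℂ), R.mdiff_prodF G.2⟩ * G₂) 0 := by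
    have h0 := hc'.mul hc₂
    rw [show (exists_char h).choose.1 = (kumChar h).1 from rfl,
      show (exists_char v⁻¹).choose.1 = (kumChar v⁻¹).1 from rfl, hinv, add_neg_cancel] at h0
    exact h0
  obtain ⟨y, hy⟩ := (hG'.mul hG₂).exists_pow_eq hzero
  have hy0 : y ≠ 0 := fun h0 => by
    rw [h0, zero_pow (NeZero.ne n)] at hy
    rcases mul_eq_zero.mp hy.symm with h1 | h1
    · exact Units.ne_zero (Units.map R.normFF (h : (FF M)ˣ)) h1
    · exact Units.ne_zero _ h1
  have hval : Units.map R.normFF (h : (FF M)ˣ) = Units.mk0 y hy0 ^ n * (v : (FF M')ˣ) := by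
    refine Units.ext ?_
    rw [Units.val_mul, Units.val_pow_eq_pow_val, Units.val_mk0, hy, InvMemClass.coe_inv,
      Units.val_inv_eq_inv_val, Units.coe_map, inv_mul_cancel_right₀ (Units.ne_zero _)]
  rw [hval]
  exact mul_mem (fun w => ⟨w.ord y, by
    rw [Units.val_pow_eq_pow_val, Units.val_mk0, FFBasic.ord_pow]⟩) v.2

/-- The norm on `V_n`, given surjectivity of the Kummer map at the target level. -/
def HeckeReps.kumT (hsurj : Function.Surjective (kummer M' n)) : Kum M n →+ Kum M' n :=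
  MonoidHom.toAdditive (QuotientGroup.map (powGroup M n) (powGroup M' n)
    (((Units.map R.normFF).comp (divGroup M n).subtype).codRestrict _
      (R.norm_mem_divGroup hsurj))
    (by
      rintro ⟨h, hh⟩ ⟨y, hy⟩
      exact ⟨Units.map R.normFF y, by
        show Units.map R.normFF y ^ n = Units.map R.normFF h
        rw [← map_pow]; exact congrArg _ hy⟩))

/-- The Kummer map commutes with the Hecke operator on classes and on homomorphisms. -/
theorem HeckeReps.kummer_kumT (hsurj : Function.Surjective (kummer M' n)) (x : Kum M n) :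
    kummer M' n (R.kumT hsurj x) = R.parT (kummer M n x) := by
  obtain ⟨h, rfl⟩ := kumMk_surjective x
  obtain ⟨g, G, hG, hc⟩ := (exists_char h).choose_spec
  exact Subtype.ext (kumChar_eq (h := ⟨_, R.norm_mem_divGroup hsurj h⟩) (R.isRootOf hG)
    (R.kumRel hc))

end FLTAgent.GammaH

end
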