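import Fermat.Agent.GammaH.Pull
import Fermat.Prelude.Def_ModularCurve_PeriodMap

/-!
# Coset representatives, transfer of homomorphisms, and norms of modular functions

`HeckeReps M' M` is a system of representatives of a double coset. It transfers homomorphisms
`Γ₁(M) → A` to level `M'` preserving parabolicity (`homT_parabolic`), and `prodMF` is the norm
`f ↦ ∏ f ∘ βᵢ` on modular functions.
-/

set_option autoImplicit false

noncomputable section

open UpperHalfPlane Filter CongruenceSubgroup ModularCurve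
open scoped Manifold MatrixGroups Topology

namespace FLTAgent.GammaH

open FLTAgent.LevelM FLTAgent.HeckeJacobian

local notation "Qbar" => AlgebraicClosure ℚ
local notation "Mat" => Matrix (Fin 2) (Fin 2) ℤ

/-- Representatives of a double coset `Γ₁(M) \ Δ` stable under right multiplication by `Γ₁(M')`. -/
structure HeckeReps (M' M : ℕ) where
  ι : Type
  fin : Fintype ι
  β : ι → Mat
  det_pos : ∀ i, 0 < (β i).det
  exists_rep : ∀ (γ : Gamma1 M') (i : ι),
    ∃ j : ι, ∃ g : Gamma1 M, β i * ((γ : SL(2, ℤ)) : Mat) = ((g : SL(2, ℤ)) : Mat) * β j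
  sep : ∀ (i j : ι) (g : Gamma1 M), β i = ((g : SL(2, ℤ)) : Mat) * β j → i = j
  alg : ∀ i, ∃ σ ∈ Gamma0 M, ∃ (A D : ℕ) (B : ℤ), 0 < A ∧ 0 < D ∧
    β i = (σ : Mat) * !![(A : ℤ), B; 0, (D : ℤ)]

namespace HeckeReps

variable {M' M : ℕ} (R : HeckeReps M' M)

attribute [local instance] HeckeReps.fin

/-- The permutation of the representatives. -/
def pi (γ : Gamma1 M') (i : R.ι) : R.ι := (R.exists_rep γ i).choose

/-- The element of `Γ₁(M)`. -/
def elt (γ : Gamma1 M') (i : R.ι) : Gamma1 M := (R.exists_rep γ i).choose_spec.choose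

theorem rel (γ : Gamma1 M') (i : R.ι) :
    R.β i * ((γ : SL(2, ℤ)) : Mat) = ((R.elt γ i : SL(2, ℤ)) : Mat) * R.β (R.pi γ i) :=
  (R.exists_rep γ i).choose_spec.choose_spec

theorem mul_right_cancel_beta {j : R.ι} {X Y : Mat} (h : X * R.β j = Y * R.β j) : X = Y := by
  have h' := congrArg (· * (R.β j).adjugate) h
  simp only [Matrix.mul_assoc, Matrix.mul_adjugate, Matrix.mul_smul, Matrix.mul_one] at h'
  exact smul_right_injective _ (R.det_pos j).ne' h'

theorem eq_of_rel {γ : Gamma1 M'} {i j : R.ι} {g : Gamma1 M}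
    (h : R.β i * ((γ : SL(2, ℤ)) : Mat) = ((g : SL(2, ℤ)) : Mat) * R.β j) :
    R.pi γ i = j ∧ R.elt γ i = g := by
  have e := (R.rel γ i).symm.trans h
  have hj : R.pi γ i = j := R.sep _ _ ((R.elt γ i)⁻¹ * g) (by
    have h2 := congrArg (((((R.elt γ i)⁻¹ : Gamma1 M) : SL(2, ℤ)) : Mat) * ·) e
    simp only [← Matrix.mul_assoc, ← Matrix.SpecialLinearGroup.coe_mul, ← Subgroup.coe_mul,
      inv_mul_cancel, OneMemClass.coe_one, Matrix.SpecialLinearGroup.coe_one, Matrix.one_mul] at h2
    exact h2)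
  refine ⟨hj, Subtype.ext (Subtype.ext (R.mul_right_cancel_beta (j := j) ?_))⟩
  rw [hj] at e
  exact e

theorem pi_one (i : R.ι) : R.pi 1 i = i :=
  (R.eq_of_rel (g := 1) (by simp)).1

theorem pi_elt_mul (γ δ : Gamma1 M') (i : R.ι) :
    R.pi (γ * δ) i = R.pi δ (R.pi γ i) ∧
      R.elt (γ * δ) i = R.elt γ i * R.elt δ (R.pi γ i) := by
  refine R.eq_of_rel ?_
  rw [Subgroup.coe_mul, Subgroup.coe_mul, Matrix.SpecialLinearGroup.coe_mul,
    Matrix.SpecialLinearGroup.coe_mul, ← Matrix.mul_assoc, R.rel, Matrix.mul_assoc, R.rel,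
    Matrix.mul_assoc]

/-- The permutation as an equivalence. -/
def piEquiv (γ : Gamma1 M') : Equiv.Perm R.ι where
  toFun := R.pi γ
  invFun := R.pi γ⁻¹
  left_inv i := by rw [← (R.pi_elt_mul γ γ⁻¹ i).1, mul_inv_cancel, pi_one]
  right_inv i := by rw [← (R.pi_elt_mul γ⁻¹ γ i).1, inv_mul_cancel, pi_one]

@[simp] theorem piEquiv_apply (γ : Gamma1 M') (i : R.ι) : R.piEquiv γ i = R.pi γ i := rfl

section Hom

variable (A : Type*) [AddCommGroup A]

/-- The transfer of homomorphisms. -/
def homT : (Additive (Gamma1 M) →+ A) →+ (Additive (Gamma1 M') →+ A) where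
  toFun c := AddMonoidHom.mk'
    (fun γ => ∑ i, c (Additive.ofMul (R.elt (Additive.toMul γ) i))) fun γ δ => by
      simp only [toMul_add, (R.pi_elt_mul _ _ _).2, ofMul_mul, map_add, Finset.sum_add_distrib]
      congr 1
      exact Equiv.sum_comp (R.piEquiv (Additive.toMul γ))
        (fun i => c (Additive.ofMul (R.elt (Additive.toMul δ) i)))
  map_zero' := AddMonoidHom.ext fun γ => by simp
  map_add' c c' := AddMonoidHom.ext fun γ => by simp [Finset.sum_add_distrib]

theorem homT_apply (c : Additive (Gamma1 M) →+ A) (γ : Gamma1 M') :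
    R.homT A c (Additive.ofMul γ) = ∑ i, c (Additive.ofMul (R.elt γ i)) := rfl

variable {A}

theorem homT_comp {B : Type*} [AddCommGroup B] (f : A →+ B) (c : Additive (Gamma1 M) →+ A) :
    R.homT B (f.comp c) = f.comp (R.homT A c) :=
  AddMonoidHom.ext fun _ => (map_sum f _ _).symm

theorem pi_pow (γ : Gamma1 M') (k : ℕ) (i : R.ι) : R.pi (γ ^ k) i = ((R.piEquiv γ) ^ k) i := by
  induction k generalizing i with
  | zero => simp [pi_one]
  | succ k ih =>
    rw [pow_succ γ k, (R.pi_elt_mul _ _ _).1, ih, pow_succ' (R.piEquiv γ) k, Equiv.Perm.mul_apply,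
      piEquiv_apply]

theorem sum_orbit (γ : Gamma1 M') (c : Additive (Gamma1 M) →+ A) (i : R.ι) (k : ℕ) :
    c (Additive.ofMul (R.elt (γ ^ k) i)) =
      ∑ j ∈ Finset.range k, c (Additive.ofMul (R.elt γ (((R.piEquiv γ) ^ j) i))) := by
  induction k with
  | zero =>
    have h := (R.eq_of_rel (γ := (1 : Gamma1 M')) (i := i) (j := i) (g := 1) (by simp)).2
    rw [pow_zero, h, ofMul_one, map_zero, Finset.sum_range_zero]
  | succ k ih =>
    rw [pow_succ γ k, (R.pi_elt_mul _ _ _).2, ofMul_mul, map_add, ih, R.pi_pow,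
      Finset.sum_range_succ]

theorem trace_pow_sq {γ : SL(2, ℤ)} (h : (γ : Mat).trace ^ 2 = 4) (k : ℕ) :
    ((γ ^ k : SL(2, ℤ)) : Mat).trace ^ 2 = 4 := by
  set t := (γ : Mat).trace with ht
  obtain ⟨e, he, he2⟩ : ∃ e : ℤ, t = 2 * e ∧ e * e = 1 := by
    have h4 : (t - 2) * (t + 2) = 0 := by linear_combination h
    rcases mul_eq_zero.mp h4 with h' | h'
    · exact ⟨1, by linear_combination h', by norm_num⟩
    · exact ⟨-1, by linear_combination h', by norm_num⟩
  have hCH : (γ : Mat) * γ = t • (γ : Mat) - 1 := by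
    have hdet := γ.det_coe
    rw [Matrix.det_fin_two] at hdet
    ext i j
    rw [Matrix.sub_apply, Matrix.smul_apply, smul_eq_mul]
    fin_cases i <;> fin_cases j <;>
      simp [ht, Matrix.mul_apply, Fin.sum_univ_two, Matrix.trace_fin_two] <;>
      first | linear_combination -hdet | linear_combination hdet | ring
  have hrec : ∀ k : ℕ, ((γ ^ k : SL(2, ℤ)) : Mat).trace = 2 * e ^ k ∧
      ((γ ^ (k + 1) : SL(2, ℤ)) : Mat).trace = 2 * e ^ (k + 1) := by
    intro k
    induction k with
    | zero => simp [Matrix.trace_fin_two, ← he, ht]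
    | succ k ih =>
      refine ⟨ih.2, ?_⟩
      rw [pow_succ, pow_succ, mul_assoc, Matrix.SpecialLinearGroup.coe_mul,
        Matrix.SpecialLinearGroup.coe_mul, hCH, Matrix.mul_sub, Matrix.mul_smul, Matrix.mul_one,
        Matrix.trace_sub, Matrix.trace_smul, smul_eq_mul, ← Matrix.SpecialLinearGroup.coe_mul,
        ← pow_succ, ih.1, ih.2, he]
      linear_combination (4 * e ^ k - 2 * e ^ k) * he2
  rw [(hrec k).1, mul_pow, ← pow_mul, mul_comm k 2, pow_mul, sq e, he2, one_pow]
  norm_num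

/-- The transfer preserves parabolic homomorphisms. -/
theorem homT_parabolic {c : Additive (Gamma1 M) →+ A}
    (hc : Period.IsParabolicHom (Gamma1 M) c) :
    Period.IsParabolicHom (Gamma1 M') (R.homT A c) := by
  classical
  intro γ hγ
  rw [homT_apply]
  set σ := R.piEquiv γ
  rw [← Finset.sum_fiberwise (Finset.univ : Finset R.ι)
    (fun i => (Quotient.mk'' i : MulAction.orbitRel.Quotient (Subgroup.zpowers σ) R.ι))]
  refine Finset.sum_eq_zero fun q _ => ?_
  induction q using Quotient.inductionOn' with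
  | h x =>
    set m := Function.minimalPeriod (σ • ·) x
    have hmx : (σ ^ m) x = x := MulAction.pow_period_smul σ x
    have hpar : c (Additive.ofMul (R.elt (γ ^ m) x)) = 0 := by
      refine hc _ ?_
      have hr := R.rel (γ ^ m) x
      rw [R.pi_pow, hmx] at hr
      have h2 := congrArg (fun X : Mat => (X * (R.β x).adjugate).trace) hr
      simp only [Matrix.mul_assoc, Matrix.mul_adjugate, Matrix.mul_smul, Matrix.mul_one,
        Matrix.trace_smul] at h2
      rw [Matrix.trace_mul_comm, Matrix.mul_assoc, Matrix.adjugate_mul, Matrix.mul_smul,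
        Matrix.mul_one, Matrix.trace_smul] at h2
      rw [← mul_left_cancel₀ (R.det_pos x).ne' h2, SubmonoidClass.coe_pow]
      exact trace_pow_sq hγ m
    rw [← hpar, R.sum_orbit]
    symm
    refine Finset.sum_nbij (fun j => (σ ^ j) x) ?_ ?_ ?_ (fun j _ => rfl)
    · intro j _
      rw [Finset.mem_filter]
      exact ⟨Finset.mem_univ _, Quotient.sound' ⟨⟨σ ^ j, Subgroup.npow_mem_zpowers σ j⟩, rfl⟩⟩
    · intro a ha b hb hab
      simp only [Finset.coe_range, Set.mem_Iio] at ha hb
      refine Function.iterate_injOn_Iio_minimalPeriod (f := (σ • ·)) (x := x) ha hb ?_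
      show (σ • ·)^[a] x = (σ • ·)^[b] x
      rw [smul_iterate, smul_iterate]
      exact hab
    · intro y hy
      rw [Finset.mem_coe, Finset.mem_filter] at hy
      obtain ⟨⟨_, k, rfl⟩, rfl⟩ := (Quotient.eq''.mp hy.2 :
        y ∈ MulAction.orbit (Subgroup.zpowers σ) x)
      have hpos : 0 < m := Function.IsPeriodicPt.minimalPeriod_pos (orderOf_pos σ) (by
        show (σ • ·)^[orderOf σ] x = x
        rw [smul_iterate, pow_orderOf_eq_one]
        exact one_smul _ x)
      refine ⟨(k % (m : ℤ)).toNat, ?_, ?_⟩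
      · simp only [Finset.coe_range, Set.mem_Iio]
        have := Int.emod_lt_of_pos k (Int.natCast_pos.mpr hpos)
        omega
      · show (σ ^ (k % (m : ℤ)).toNat) • x = σ ^ k • x
        rw [← zpow_natCast, Int.toNat_of_nonneg (Int.emod_nonneg _ (by omega))]
        exact MulAction.zpow_smul_mod_minimalPeriod σ x k

end Hom

/-! ## The product over the representatives -/

theorem act_pull (γ : Gamma1 M') (i : R.ι) (f : ℍ → ℂ) :
    act (γ : SL(2, ℤ)) (pullF (R.β i) (R.det_pos i) f)
      = pullF (R.β (R.pi γ i)) (R.det_pos _) (act (R.elt γ i : SL(2, ℤ)) f) := by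
  rw [act_pullF, pullF_SL_mul (R.det_pos _) _ _ (R.rel γ i)]

/-- The product of `f ∘ βᵢ`. -/
def prodF : (ℍ → ℂ) →* (ℍ → ℂ) where
  toFun f := ∏ i, pullF (R.β i) (R.det_pos i) f
  map_one' := by simp
  map_mul' a b := by simp [Finset.prod_mul_distrib]

theorem prodF_apply (f : ℍ → ℂ) : R.prodF f = ∏ i, pullF (R.β i) (R.det_pos i) f := rfl

theorem act_prodF {f : ℍ → ℂ} {χ : Gamma1 M → ℂ}
    (hf : ∀ g : Gamma1 M, act (g : SL(2, ℤ)) f = fun τ => χ g * f τ) (γ : Gamma1 M') :
    act (γ : SL(2, ℤ)) (R.prodF f) = fun τ => (∏ i, χ (R.elt γ i)) * R.prodF f τ := by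
  funext τ
  rw [prodF_apply, map_prod, Finset.prod_apply, Finset.prod_apply,
    ← Equiv.prod_comp (R.piEquiv γ) (fun i => pullF (R.β i) (R.det_pos i) f τ),
    ← Finset.prod_mul_distrib]
  refine Finset.prod_congr rfl fun i _ => ?_
  rw [R.act_pull, hf]
  rfl

theorem mdiff_prodF {f : ℍ → ℂ} (hf : MDiff f) : MDiff (R.prodF f) := by
  rw [prodF_apply]
  exact Finset.prod_induction _ (fun g : ℍ → ℂ => MDiff g) (fun _ _ ha hb => ha.mul hb)
    mdifferentiable_const fun i _ => mdiff_pullF _ _ hf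

variable [NeZero M'] [NeZero M] [Fact (1 < M)]

theorem prodF_mem (f : modFun M) : R.prodF (f : ℍ → ℂ) ∈ modFun M' := by
  refine mem_modFun_of_someExp (R.mdiff_prodF (modFun_mdiff f)) (fun γ hγ => ?_) (fun δ => ?_) ?_
  · have h := R.act_prodF (f := (f : ℍ → ℂ)) (χ := fun _ => 1)
      (fun g => by rw [modFun_act f g.2]; funext τ; simp) ⟨γ, hγ⟩
    simpa using h
  · rw [prodF_apply, map_prod]
    exact someExp_prod _ fun i _ => someExp_act_pullF f _ _ δ
  · rw [prodF_apply]
    refine someAlgExp_prod _ fun i _ => ?_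
    obtain ⟨σ, hσ, A, D, B, hA, hD, e⟩ := R.alg i
    have : NeZero A := ⟨hA.ne'⟩
    have : NeZero (D * M) := ⟨mul_ne_zero hD.ne' (NeZero.ne M)⟩
    obtain ⟨t, ht⟩ := someAlgExp_act_gamma0 f hσ
    rw [pullF_SL_mul (det_upper_pos hA hD B) _ σ e]
    refine ⟨D * M, Nat.mul_pos hD (NeZero.pos M), ?_⟩
    let tw : LaurentSeries Qbar :=
      ⟨fun k => t.coeff k * (zetaQ (D * M) ^ B) ^ k, t.isPWO_support'.mono fun k hk h0 =>
        hk (by simp only; rw [h0, zero_mul])⟩
    refine ⟨qExpand Qbar A tw, ?_⟩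
    rw [liftC_qExpand, show liftC tw = twist (zetaM (D * M) ^ B) (liftC t) by
      ext k; simp [tw, map_zpow₀]]
    exact hasExp_pull_upper (NeZero.pos M) ht A D hD B _

/-- The norm on modular functions. -/
def prodMF : modFun M →* modFun M' where
  toFun f := ⟨R.prodF f, R.prodF_mem f⟩
  map_one' := Subtype.ext (map_one R.prodF)
  map_mul' a b := Subtype.ext (map_mul R.prodF (a : ℍ → ℂ) b)

/-- The product over representatives as a function on the upper half plane. -/
@[simp] theorem coe_prodMF (f : modFun M) : (R.prodMF f : ℍ → ℂ) = R.prodF f := rfl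

end HeckeReps

end FLTAgent.GammaH

end
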