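import Fermat.Agent.GammaH.Places
import Fermat.Agent.GammaH.Kummer
import Fermat.Agent.GoodReduction.Bridge
import Fermat.Agent.Deuring.Archimedean

/-!
# The level `N` ring over a valuation ring and the field of `X₁(M)`, `M ∣ N`

Invariants of `± Γ₁(M)` in the level `N` ring are modular functions on `Γ₁(M)`; the image of
`± Γ₁(M)` in the finite group has the index of `± Γ₁(M)`; and there are invariants with
independent reductions, as many as this index.
-/

set_option autoImplicit false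

noncomputable section

open UpperHalfPlane Filter CongruenceSubgroup ModularCurve Polynomial
open scoped Manifold MatrixGroups Topology

namespace FLTAgent.GoodReduction.Model

variable {A : Type*} [CommRing A] {C : Type*} [CommRing C] [Algebra A C]
variable {Γ : Type*} [Group Γ] [MulSemiringAction Γ C] [Finite Γ]
variable {k : Type*} [Field k] {K : Type*} [Field K] [Algebra k K]
variable {θ : A →+* k} {φ : C →+* K} {j : C}

/-- The field of ratios of images of `H`-invariant elements. -/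
def ratioField (hm : Model Γ θ φ j) (H : Subgroup Γ) : IntermediateField k K where
  carrier := {z | InRatio φ H z}
  one_mem' := ⟨1, 1, fun _ _ => smul_one _, fun _ _ => smul_one _, by simp, by simp⟩
  zero_mem' := ⟨0, 1, fun _ _ => smul_zero _, fun _ _ => smul_one _, by simp, by simp⟩
  algebraMap_mem' c := by
    obtain ⟨a, b, hb, hab⟩ := hm.exists_ratio c
    refine ⟨algebraMap A C a, algebraMap A C b, fun g _ => hm.smul_algebraMap g a,
      fun g _ => hm.smul_algebraMap g b, ?_, ?_⟩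
    · rw [hm.map_algebraMap]
      exact fun h => hb ((map_eq_zero _).mp h)
    · rw [hm.map_algebraMap, hm.map_algebraMap, ← map_mul, hab]
  mul_mem' := by
    rintro x y ⟨f, g, hf, hg, hg0, h⟩ ⟨f', g', hf', hg', hg0', h'⟩
    refine ⟨f * f', g * g', fun a ha => by rw [smul_mul', hf a ha, hf' a ha],
      fun a ha => by rw [smul_mul', hg a ha, hg' a ha],
      by rw [map_mul]; exact mul_ne_zero hg0 hg0', ?_⟩
    rw [map_mul, map_mul, ← h, ← h']
    ring
  add_mem' := by
    rintro x y ⟨f, g, hf, hg, hg0, h⟩ ⟨f', g', hf', hg', hg0', h'⟩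
    refine ⟨f * g' + f' * g, g * g',
      fun a ha => by rw [smul_add, smul_mul', smul_mul', hf a ha, hg' a ha, hf' a ha, hg a ha],
      fun a ha => by rw [smul_mul', hg a ha, hg' a ha],
      by rw [map_mul]; exact mul_ne_zero hg0 hg0', ?_⟩
    rw [map_add, map_mul, map_mul, map_mul, ← h, ← h']
    ring
  inv_mem' := by
    rintro x ⟨f, g, hf, hg, hg0, h⟩
    by_cases hx : x = 0
    · exact ⟨0, 1, fun _ _ => smul_zero _, fun _ _ => smul_one _, by simp, by simp [hx]⟩
    · refine ⟨g, f, hg, hf, by rw [← h]; exact mul_ne_zero hx hg0, ?_⟩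
      rw [← h, ← mul_assoc, inv_mul_cancel₀ hx, one_mul]

omit [Finite Γ] in
theorem mem_ratioField (hm : Model Γ θ φ j) (H : Subgroup Γ) (z : K) :
    z ∈ hm.ratioField H ↔ InRatio φ H z := Iff.rfl

/-- As many invariant elements with independent images over `k[φ j]` as the index. -/
theorem exists_invariant_independent (hm : Model Γ θ φ j) (H : Subgroup Γ) :
    ∃ f : Fin H.index → C, (∀ i, ∀ h ∈ H, h • f i = f i) ∧
      ∀ P : Fin H.index → k[X], ∑ i, Polynomial.aeval (φ j) (P i) * φ (f i) = 0 →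
        ∀ i, P i = 0 := by
  classical
  let X := IntermediateField.adjoin k {φ j}
  have hle : X ≤ hm.ratioField H := IntermediateField.adjoin_simple_le_iff.mpr
    ⟨j, 1, fun h _ => hm.smul_j h, fun _ _ => smul_one _, by simp, by simp⟩
  let E := IntermediateField.extendScalars hle
  have hdim : Module.finrank X E = H.index := by
    rw [← hm.relfinrank_eq_index H (hm.ratioField H) (hm.mem_ratioField H),
      IntermediateField.relfinrank_eq_finrank_of_le hle]
  have hpos : 0 < H.index := Nat.pos_of_ne_zero Subgroup.index_ne_zero_of_finite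
  have : FiniteDimensional X E := Module.finite_of_finrank_pos (hdim ▸ hpos)
  let e := Module.finBasisOfFinrankEq X E hdim
  have he : ∀ i, InRatio φ H ((e i : E) : K) := fun i => (e i).2
  choose f g hf hg hg0 hfg using he
  refine ⟨fun i => f i * ∏ l ∈ Finset.univ.erase i, g l, fun i a ha => ?_, fun P hP i => ?_⟩
  · rw [smul_mul', hf i a ha, Finset.smul_prod']
    exact congrArg _ (Finset.prod_congr rfl fun l _ => hg l a ha)
  · have hG : ∀ i, φ (f i * ∏ l ∈ Finset.univ.erase i, g l) =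
        ((e i : E) : K) * φ (∏ l, g l) := fun i => by
      rw [map_mul, ← hfg i, mul_assoc, ← map_mul, Finset.mul_prod_erase _ g (Finset.mem_univ i)]
    have hG0 : φ (∏ l, g l) ≠ 0 := by
      rw [map_prod]
      exact Finset.prod_ne_zero_iff.mpr fun l _ => hg0 l
    simp only [hG, ← mul_assoc, ← Finset.sum_mul] at hP
    have hP' := (mul_eq_zero.mp hP).resolve_right hG0
    have hli := Fintype.linearIndependent_iff.mp e.linearIndependent
      (fun i => (⟨Polynomial.aeval (φ j) (P i), IntermediateField.algebra_adjoin_le_adjoin k _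
        (Polynomial.aeval_mem_adjoin_singleton _ _)⟩ : X)) (Subtype.ext ?_) i
    · exact transcendental_iff.mp hm.transcendental _ (congrArg Subtype.val hli)
    · rw [AddSubmonoidClass.coe_finsetSum]
      exact hP'

end FLTAgent.GoodReduction.Model

namespace FLTAgent.GammaH

open FLTAgent.LevelM FLTAgent.GoodReduction FLTAgent.HeckeJacobian

local notation "Qbar" => AlgebraicClosure ℚ

/-- The hypotheses of good reduction at level `N`, a multiple of `M`. -/
structure GoodSetup (A : ValuationSubring Qbar) (M N K : ℕ) : Prop where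
  dvd_M : M ∣ N
  dvd_K : K ∣ N
  small : SmallLevel K
  three_le : 3 ≤ N
  unit : IsUnit (N : A)
  rank_one : ∀ π : A, π ∈ IsLocalRing.maximalIdeal A → ∀ a : A, a ≠ 0 → ∃ n : ℕ, a ∣ π ^ n
  exists_maximal_ne_zero : ∃ π : A, π ∈ IsLocalRing.maximalIdeal A ∧ π ≠ 0

/-- A setup exists at every place not dividing `M`. -/
theorem exists_goodSetup {A : ValuationSubring Qbar} {M p : ℕ} [Fact p.Prime]
    (hA : A.LiesOverPrime p) (hM : 1 < M) (hp : ¬ p ∣ M) :
    ∃ N K : ℕ, GoodSetup A M N K := by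
  obtain ⟨K, hK, hpK⟩ : ∃ K, SmallLevel K ∧ ¬ p ∣ K := by
    rcases eq_or_ne p 2 with rfl | hp2
    · exact ⟨3, Or.inr rfl, by norm_num⟩
    · refine ⟨2, Or.inl rfl, fun h => hp2 ?_⟩
      exact (Nat.prime_dvd_prime_iff_eq Fact.out Nat.prime_two).mp h
  have hK2 : 2 ≤ K := by rcases hK with rfl | rfl <;> norm_num
  refine ⟨M * K, K, dvd_mul_right M K, dvd_mul_left K M, hK, by nlinarith, ?_, ?_, ?_⟩
  · have : ¬ (p : ℤ) ∣ ((M * K : ℕ) : ℤ) := by
      rw [Int.natCast_dvd_natCast, (Fact.out : p.Prime).dvd_mul]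
      tauto
    simpa using Deuring.isUnit_intCast_of_not_dvd hA this
  · exact fun π hπ a ha =>
      Deuring.exists_dvd_pow hA π a ((IsLocalRing.residue_eq_zero_iff π).mpr hπ) ha
  · obtain ⟨t, ht, htπ⟩ := Deuring.exists_residue_eq_zero hA
    exact ⟨t, (IsLocalRing.residue_eq_zero_iff t).mp htπ, ht⟩

variable {A : ValuationSubring Qbar} {M N K : ℕ}

local notation "ιC" => ((iotaC : Qbar →ₐ[ℚ] ℂ) : Qbar →+* ℂ)

theorem GoodSetup.goodRing [NeZero N] (S : GoodSetup A M N K) : GoodRing N (coeffRing A ιC) :=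
  goodRing_coeffRing A _ N (NeZero.pos N) S.unit

theorem liftC_subtype (y : LaurentSeries A) :
    liftC (coeffMap A.subtype y) = coeffMap (coeffHom A ιC) y := coeffMap_coeffMap _ _ _

variable (A M N) in
/-- The image of `± Γ₁(M)` in the finite group of level `N`. -/
def gammaH : Subgroup (LevelGroup A ιC N) :=
  (gammaPM M).map (levelAutHom A ιC N).rangeRestrict

theorem act_of_mem_gammaH {f : LevelRing A ιC N} (hf : ∀ g ∈ gammaH A M N, g • f = f)
    {γ : SL(2, ℤ)} (hγ : γ ∈ gammaPM M) : act γ (f : ℍ → ℂ) = f := by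
  have h := hf _ (Subgroup.mem_map.mpr ⟨γ⁻¹, inv_mem hγ, rfl⟩)
  rw [levelGroup_smul_eq_self_iff, inv_inv] at h
  exact h

theorem act_T_zpow_M [NeZero M] [Fact (1 < M)] {f : LevelRing A ιC N}
    (hf : ∀ g ∈ gammaH A M N, g • f = f) (γ : SL(2, ℤ)) :
    act (ModularGroup.T ^ (M : ℤ)) (act γ (f : ℍ → ℂ)) = act γ (f : ℍ → ℂ) := by
  have h := congrArg (act γ) (act_of_mem_gammaH hf (gamma1_le_gammaPM M (T_zpow_conj_mem γ)))
  rwa [← act_mul, mul_assoc, inv_mul_cancel, mul_one, act_mul] at h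

/-- An invariant element of the level `N` ring as a modular function on `Γ₁(M)`. -/
theorem exists_modFun [NeZero M] [Fact (1 < M)] [NeZero N] (S : GoodSetup A M N K)
    {f : LevelRing A ιC N} (hf : ∀ g ∈ gammaH A M N, g • f = f) :
    ∃ (F : modFun M) (y : LaurentSeries A), (F : ℍ → ℂ) = f ∧
      coeffMap A.subtype y = ser F ∧ qExpand A N y = levelExp A ιC N f := by
  obtain ⟨d, hd⟩ := S.dvd_M
  have : NeZero d := ⟨fun h => NeZero.ne N (by rw [hd, h, mul_zero])⟩
  have hd' : d * M = N := by rw [hd, mul_comm]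
  have hexp : ∀ γ, ∃ s, HasExp M (act γ (f : ℍ → ℂ)) s := fun γ => by
    obtain ⟨s, hs, -⟩ := intExp_iff.mp (f.2.2.2 γ)
    have hs' : HasExp (d * M) (act γ (f : ℍ → ℂ)) s := by rw [hd']; exact hs
    obtain ⟨t, ht, -⟩ := hs'.exists_descend (NeZero.pos M) (act_T_zpow_M hf γ)
    exact ⟨t, ht⟩
  have hinv : ∀ γ ∈ Gamma1 M, act γ (f : ℍ → ℂ) = f := fun γ hγ =>
    act_of_mem_gammaH hf (gamma1_le_gammaPM M hγ)
  have halg : ∃ t : LaurentSeries Qbar, HasExp M (f : ℍ → ℂ) (liftC t) := by
    have hs : HasExp (d * M) (f : ℍ → ℂ) (coeffMap (coeffHom A ιC) (levelExp A ιC N f)) := by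
      rw [hd']; exact hasExp_levelExp f
    have hper := act_T_zpow_M hf 1
    rw [act_one] at hper
    obtain ⟨u, hu, huc⟩ := hs.exists_descend (NeZero.pos M) hper
    obtain ⟨u', rfl⟩ := exists_liftC_eq (s := u) fun n =>
      ⟨((levelExp A ιC N f).coeff ((d : ℤ) * n) : A), by rw [huc, coeffMap_coeff]; rfl⟩
    exact ⟨u', hu⟩
  set F : modFun M := ⟨f, mem_modFun_of_width f.2.1 hinv hexp halg⟩
  have h1 := (hasExp_ser F).qExpand N
  rw [mul_one, liftC, ← ModularCurve.coeffMap_qExpand] at h1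
  have h2 : qExpand Qbar N (ser F) = coeffMap A.subtype (levelExp A ιC N f) := by
    refine liftC_injective ?_
    rw [liftC_subtype]
    exact h1.unique (NeZero.pos N) (hasExp_levelExp f)
  have hco : ∀ n, (ser F).coeff n ∈ A := fun n => by
    rw [← qExpand_coeff_mul N (ser F), h2, coeffMap_coeff]
    exact Subtype.prop _
  let y : LaurentSeries A :=
    ⟨fun n => ⟨(ser F).coeff n, hco n⟩,
      (ser F).isPWO_support.mono fun n hn h0 => hn (Subtype.ext h0)⟩
  have hy : coeffMap A.subtype y = ser F := by ext n; rfl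
  refine ⟨F, y, rfl, hy, GoodReduction.inc_injective A ?_⟩
  rw [ModularCurve.coeffMap_qExpand, hy, h2]

/-- Elements acting trivially on the level `N` ring are `± 1` modulo `N`. -/
theorem isTrivMod_of_act [NeZero N] [NeZero K] (S : GoodSetup A M N K) {γ : SL(2, ℤ)}
    (h : ∀ f : LevelRing A ιC N, act γ (f : ℍ → ℂ) = f) : IsTrivMod N γ := by
  have hKK : ∀ δ : SL(2, ℤ), (K : ℤ) ∣ (δ * γ * δ⁻¹) 1 0 := fun δ => by
    have hfix : act (δ * γ * δ⁻¹) (ModularFF.jAt K) = ModularFF.jAt K := by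
      have h' := congrArg (act δ⁻¹) (h ⟨act δ (ModularFF.jAt K), act_mem_modularRing
        (fun g hg => (CongruenceSubgroup.Gamma_normal N).conj_mem g hg δ)
          (jAt_mem S.dvd_K S.goodRing)⟩)
      simp only [← act_mul] at h'
      rwa [mul_inv_cancel, act_one] at h'
    have h0 := ModularFF.mem_Gamma0_of_jAt_smul_eq (N := K) (γ := δ * γ * δ⁻¹)
      fun τ => congrFun hfix τ
    rwa [CongruenceSubgroup.Gamma0_mem, ZMod.intCast_zmod_eq_zero_iff_dvd] at h0
  -- `γ` is scalar modulo `K`, hence `± 1` there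
  have h10 : (K : ℤ) ∣ γ 1 0 := by simpa using hKK 1
  have hS := hKK ModularGroup.S
  have hT := hKK ModularGroup.T
  simp only [Matrix.SpecialLinearGroup.coe_mul, Matrix.SpecialLinearGroup.coe_inv,
    ModularGroup.coe_S, ModularGroup.coe_T, Matrix.adjugate_fin_two,
    Matrix.mul_apply, Fin.sum_univ_two] at hS hT
  simp at hS hT
  have h01 : (K : ℤ) ∣ γ 0 1 := hS
  obtain ⟨γ', hγ', hact⟩ : ∃ γ' : SL(2, ℤ), γ' ∈ Gamma K ∧ (γ' = γ ∨ γ' = -γ) := by
    have hdet : γ 0 0 * γ 1 1 - γ 0 1 * γ 1 0 = 1 := by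
      have := γ.det_coe
      rwa [Matrix.det_fin_two] at this
    have hprod : (K : ℤ) ∣ γ 0 0 * γ 1 1 - 1 := by
      rw [show γ 0 0 * γ 1 1 - 1 = γ 0 1 * γ 1 0 by linarith]
      exact h10.mul_left _
    have key : ∀ a : ZMod K, ∀ b : ZMod K, a * b = 1 → (a = 1 ∧ b = 1) ∨ (a = -1 ∧ b = -1) := by
      rcases S.small with rfl | rfl <;> decide
    have h1 : ((γ 0 0 : ℤ) : ZMod K) * ((γ 1 1 : ℤ) : ZMod K) = 1 := by
      have e := (ZMod.intCast_zmod_eq_zero_iff_dvd _ K).mpr hprod
      push_cast at e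
      exact sub_eq_zero.mp e
    have e10 := (ZMod.intCast_zmod_eq_zero_iff_dvd _ K).mpr h10
    have e01 := (ZMod.intCast_zmod_eq_zero_iff_dvd _ K).mpr h01
    rcases key _ _ h1 with ⟨ha, hb⟩ | ⟨ha, hb⟩
    · exact ⟨γ, CongruenceSubgroup.Gamma_mem.mpr ⟨ha, e01, e10, hb⟩, Or.inl rfl⟩
    · refine ⟨-γ, CongruenceSubgroup.Gamma_mem.mpr ?_, Or.inr rfl⟩
      simp [ha, hb, e01, e10]
  have hfix : ∀ f : LevelRing A ιC N, act γ' (f : ℍ → ℂ) = f := fun f => by
    rcases hact with rfl | rfl
    · exact h f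
    · rw [act_neg]; exact h f
  have htriv : IsTrivMod N γ' := by
    by_contra hne
    obtain ⟨n, x, y, hx, hy, hid⟩ :=
      exists_galois_identity S.small S.dvd_K S.goodRing
    have h0 := (hid γ' hγ').2 hne
    have h1 := (hid 1 (one_mem _)).1 (Or.inl redMat_one)
    simp only [hfix ⟨y _, hy _⟩] at h0
    simp only [act_one] at h1
    exact one_ne_zero (h1.symm.trans h0)
  rcases hact with rfl | rfl
  · exact htriv
  · rcases htriv with e | e <;> rw [redMat_neg] at e
    · exact Or.inr (neg_eq_iff_eq_neg.mp e)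
    · exact Or.inl (neg_injective e)

theorem index_gammaH [NeZero M] [NeZero N] [NeZero K] (S : GoodSetup A M N K) :
    (gammaH A M N).index = (gammaPM M).index := by
  refine Subgroup.index_map_eq _ (MonoidHom.rangeRestrict_surjective _) fun γ hγ => ?_
  rw [MonoidHom.ker_rangeRestrict, MonoidHom.mem_ker] at hγ
  have htriv : IsTrivMod N γ⁻¹ := isTrivMod_of_act S fun f => by
    have := congrArg (fun σ : RingAut (LevelRing A ιC N) => ((σ f : LevelRing A ιC N) : ℍ → ℂ)) hγ
    exact this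
  rw [← inv_mem_iff]
  have hle : ∀ δ : SL(2, ℤ), δ ∈ Gamma N → δ ∈ Gamma1 M := fun δ hδ => by
    have h := CongruenceSubgroup.Gamma_mem.mp hδ
    have hc : ∀ z : ℤ, ∀ w : ℤ, ((z : ZMod N) = (w : ZMod N)) → (z : ZMod M) = (w : ZMod M) :=
      fun z w e => by
        rw [ZMod.intCast_eq_intCast_iff_dvd_sub] at e ⊢
        exact (Int.natCast_dvd_natCast.mpr S.dvd_M).trans e
    refine (Gamma1_mem M δ).mpr ⟨?_, ?_, ?_⟩
    · simpa using hc _ 1 (by simpa using h.1)
    · simpa using hc _ 1 (by simpa using h.2.2.2)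
    · simpa using hc _ 0 (by simpa using h.2.2.1)
  rcases htriv with e | e
  · exact Or.inl (hle _ ((mem_Gamma_iff_redMat _).mpr e))
  · exact Or.inr (hle _ ((mem_Gamma_iff_redMat _).mpr (by rw [redMat_neg, e, neg_neg])))

end FLTAgent.GammaH

end
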