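import Fermat.Agent.GammaH.Galois
import Fermat.Agent.Density.Inertia
import Fermat.Agent.GaloisAttach.Cyclotomic

/-!
# A finite level for the Galois action on `V_n(M)`

`cycM` is the cyclotomic character modulo `M`. When `V_n(M)` is finite, a finite Galois
extension of `ℚ` controls it and the `M`-th roots of unity (`exists_level`).
-/

set_option autoImplicit false

noncomputable section

open UpperHalfPlane CongruenceSubgroup ModularCurve
open scoped MatrixGroups

namespace FLTAgent.GammaH

open FLTAgent.LevelM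

local notation "Qbar" => AlgebraicClosure ℚ
local notation "GalQ" => AlgebraicClosure ℚ ≃ₐ[ℚ] AlgebraicClosure ℚ

variable {M : ℕ} [NeZero M]

theorem natCast_eq_of_zetaQ_pow_eq {a b : ℕ} (h : zetaQ M ^ a = zetaQ M ^ b) :
    (a : ZMod M) = b := by
  have hζ : IsPrimitiveRoot (zetaQ M) M := zetaQ_isPrimitiveRoot
  rw [pow_eq_pow_mod a hζ.pow_eq_one, pow_eq_pow_mod b hζ.pow_eq_one] at h
  rw [ZMod.natCast_eq_natCast_iff']
  exact hζ.pow_inj (Nat.mod_lt _ (NeZero.pos M)) (Nat.mod_lt _ (NeZero.pos M)) h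

theorem cycExp_eq_of_apply {g : GalQ} {e : ℕ} (h : g (zetaQ M) = zetaQ M ^ e) :
    (cycExp M g : ZMod M) = e :=
  natCast_eq_of_zetaQ_pow_eq ((apply_zetaQ g).symm.trans h)

variable (M) in
/-- The cyclotomic character modulo `M`. -/
def cycM : GalQ →* ZMod M where
  toFun g := (cycExp M g : ZMod M)
  map_one' := by
    rw [cycExp_eq_of_apply (e := 1) (by simp), Nat.cast_one]
  map_mul' g h := by
    rw [← Nat.cast_mul]
    refine cycExp_eq_of_apply ?_
    rw [AlgEquiv.mul_apply, apply_zetaQ, map_pow, apply_zetaQ, ← pow_mul]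

theorem cycM_apply (g : GalQ) : cycM M g = (cycExp M g : ZMod M) := rfl

theorem cycM_frobenius {A : ValuationSubring Qbar} {σ : GalQ} {p : ℕ} (hp : p.Prime)
    (hA : A.LiesOverPrime p) (hpM : ¬ p ∣ M) (hσ : A.IsFrobeniusAt σ p) : cycM M σ = p :=
  cycExp_eq_of_apply
    (Density.isFrobeniusAt_apply_of_pow_eq_one hp hA hσ hpM zetaQ_isPrimitiveRoot.pow_eq_one)

theorem cycM_inertia {A : ValuationSubring Qbar} {σ : GalQ} {p : ℕ} (hp : p.Prime)
    (hA : A.LiesOverPrime p) (hpM : ¬ p ∣ M) (hσ : σ ∈ A.inertiaSubgroupIn ℚ) : cycM M σ = 1 := by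
  have h := GaloisAttach.inertia_apply_rootOfUnity hp hA hσ hpM
    (zetaQ_isPrimitiveRoot (M := M)).pow_eq_one
  rw [cycM_apply, cycExp_eq_of_apply (e := 1) (by rw [pow_one]; exact h), Nat.cast_one]

theorem cycM_complexConjugation : cycM M complexConjugation = -1 := by
  rw [cycM_apply, cycExp_eq_of_apply (e := M - 1) ?_, Nat.cast_sub (NeZero.pos M),
    ZMod.natCast_self,
    Nat.cast_one, zero_sub]
  apply complexEmbedding.toRingHom.injective
  change complexEmbedding (complexConjugation (zetaQ M)) = complexEmbedding (zetaQ M ^ (M - 1))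
  rw [complexEmbedding_complexConjugation, map_pow]
  have h1 : complexEmbedding (zetaQ M) ^ M = 1 := by
    rw [← map_pow, zetaQ_isPrimitiveRoot.pow_eq_one, map_one]
  have hnorm : ‖complexEmbedding (zetaQ M)‖ = 1 :=
    Complex.norm_eq_one_of_pow_eq_one h1 (NeZero.ne M)
  rw [← Complex.inv_eq_conj hnorm]
  refine inv_eq_of_mul_eq_one_right ?_
  rw [← pow_succ', Nat.sub_add_cancel (NeZero.pos M), h1]

variable [Fact (1 < M)]

/-- Each element of the field is fixed by an open subgroup. -/
theorem exists_fixField (z : FF M) :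
    ∃ L : IntermediateField ℚ Qbar, FiniteDimensional ℚ L ∧
      ∀ g : GalQ, (∀ y ∈ L, g y = y) → galHom g z = z := by
  have hx : z ∈ IntermediateField.adjoin Qbar ({jF M} ∪ {toFF (wGen M)} : Set (FF M)) := by
    rw [← IntermediateField.adjoin_adjoin_left, IntermediateField.mem_restrictScalars,
      adjoin_wGen_eq_top]
    trivial
  induction hx using IntermediateField.adjoin_induction with
  | mem x hx =>
    refine ⟨IntermediateField.adjoin ℚ {zetaQ M},
      IntermediateField.adjoin.finiteDimensional (Algebra.IsIntegral.isIntegral _), fun g hg => ?_⟩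
    rcases hx with rfl | rfl
    · exact Subtype.ext (by rw [coe_galHom, coe_jF, coeffMap_jqModC])
    · have hz := hg _ (IntermediateField.mem_adjoin_simple_self ℚ (zetaQ M))
      have h1 : (cycExp M g : ZMod M) = 1 := by
        rw [cycExp_eq_of_apply (e := 1) (by rw [pow_one]; exact hz), Nat.cast_one]
      refine Subtype.ext ((coeffMap_ser_wMod' g (one_ne_zero : (1 : ZMod M) ≠ 0)).trans ?_)
      rw [wGen, coe_toFF]
      congr 1
      exact Subtype.ext (by simp [h1, wMod])
  | algebraMap c =>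
    refine ⟨IntermediateField.adjoin ℚ {c},
      IntermediateField.adjoin.finiteDimensional (Algebra.IsIntegral.isIntegral _), fun g hg => ?_⟩
    rw [galHom_algebraMap, hg _ (IntermediateField.mem_adjoin_simple_self ℚ c)]
  | add a b _ _ ha hb =>
    obtain ⟨L, hL, hLa⟩ := ha
    obtain ⟨K, hK, hKb⟩ := hb
    refine ⟨L ⊔ K, IntermediateField.finiteDimensional_sup L K, fun g hg => ?_⟩
    rw [map_add, hLa g fun y hy => hg y ((le_sup_left : L ≤ L ⊔ K) hy),
      hKb g fun y hy => hg y ((le_sup_right : K ≤ L ⊔ K) hy)]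
  | inv a _ ha =>
    obtain ⟨L, hL, hLa⟩ := ha
    exact ⟨L, hL, fun g hg => by rw [map_inv₀, hLa g hg]⟩
  | mul a b _ _ ha hb =>
    obtain ⟨L, hL, hLa⟩ := ha
    obtain ⟨K, hK, hKb⟩ := hb
    refine ⟨L ⊔ K, IntermediateField.finiteDimensional_sup L K, fun g hg => ?_⟩
    rw [map_mul, hLa g fun y hy => hg y ((le_sup_left : L ≤ L ⊔ K) hy),
      hKb g fun y hy => hg y ((le_sup_right : K ≤ L ⊔ K) hy)]

/-- A finite Galois extension controlling `V_n(M)` and the `M`-th roots of unity. -/
theorem exists_level (n : ℕ) [Finite (Kum M n)] :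
    ∃ L : IntermediateField ℚ Qbar, FiniteDimensional ℚ L ∧ IsGalois ℚ L ∧
      ∀ g : GalQ, (∀ y ∈ L, g y = y) → cycM M g = 1 ∧ ∀ x : Kum M n, galKum n g x = x := by
  have hfix : ∀ x : Kum M n, ∃ L : IntermediateField ℚ Qbar, FiniteDimensional ℚ L ∧
      ∀ g : GalQ, (∀ y ∈ L, g y = y) → galKum n g x = x := fun x => by
    obtain ⟨h, rfl⟩ := kumMk_surjective x
    obtain ⟨L, hL, hLh⟩ := exists_fixField ((h : (FF M)ˣ) : FF M)
    exact ⟨L, hL, fun g hg => by
      rw [galKum_kumMk]
      exact congrArg kumMk (Subtype.ext (Units.ext (hLh g hg)))⟩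
  choose L hLfd hL using hfix
  have hfd1 : FiniteDimensional ℚ (IntermediateField.adjoin ℚ {zetaQ M}) :=
    IntermediateField.adjoin.finiteDimensional (Algebra.IsIntegral.isIntegral _)
  let L₀ : IntermediateField ℚ Qbar :=
    (⨆ x : Kum M n, L x) ⊔ IntermediateField.adjoin ℚ {zetaQ M}
  have : ∀ x, FiniteDimensional ℚ (L x) := hLfd
  have : FiniteDimensional ℚ L₀ := by
    have := IntermediateField.finiteDimensional_iSup_of_finite (t := L)
    exact IntermediateField.finiteDimensional_sup _ _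
  have : Normal ℚ (IntermediateField.normalClosure ℚ L₀ Qbar) := normalClosure.normal ℚ L₀ Qbar
  refine ⟨IntermediateField.normalClosure ℚ L₀ Qbar, inferInstance, IsGalois.mk,
    fun g hg => ⟨?_, fun x => hL x g fun y hy => ?_⟩⟩
  · rw [cycM_apply, cycExp_eq_of_apply (e := 1) ?_, Nat.cast_one]
    rw [pow_one]
    exact hg _ (IntermediateField.le_normalClosure L₀
      (le_sup_right (a := ⨆ x : Kum M n, L x) (IntermediateField.mem_adjoin_simple_self ℚ _)))
  · exact hg y (IntermediateField.le_normalClosure L₀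
      (le_sup_left (a := ⨆ x : Kum M n, L x) (le_iSup L x hy)))

theorem diaFF_neg_one (hσ : (-1 : SL(2, ℤ)) ∈ Gamma0 M) (x : FF M) : diaFF (-1) hσ x = x := by
  have h : ∀ f : modFun M, diamond (-1) hσ f = f := fun f =>
    Subtype.ext (by rw [coe_diamond, act_neg_one])
  obtain ⟨f, g, -, rfl⟩ := exists_eq_div x
  rw [map_div₀, diaFF_toFF, diaFF_toFF, h, h]

end FLTAgent.GammaH

end
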