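import Fermat.Agent.GammaH.Genus
import Fermat.Agent.GammaH.Kummer
import Fermat.Agent.Periods.ParabolicBound

/-!
# `#Hom_par(Γ₁(M), ℤ/ℓᵏ) ≤ ℓ^(2gk)` for every prime `ℓ` and `M ≥ 5`

Without elliptic points the Euler characteristic bound holds over any field; extending parabolic
homomorphisms to `± Γ₁(M)` bounds their dimension by `2 g`, and induction on `k` gives the
bound for prime powers (`natCard_parHom_le`).
-/

set_option autoImplicit false

noncomputable section

open CongruenceSubgroup MulAction AlgebraicCurve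
open scoped MatrixGroups

namespace FLTAgent.GammaH

open ModularGroup (S T)
open FLTAgent.Periods

local notation "Qbar" => AlgebraicClosure ℚ

section Free

variable {K : Type*} [Field K] {Γ : Subgroup SL(2, ℤ)} [Γ.FiniteIndex] (hneg : -1 ∈ Γ)
  (hS : ∀ x : SL(2, ℤ) ⧸ Γ, S • x ≠ x) (hU : ∀ x : SL(2, ℤ) ⧸ Γ, (S * T) • x ≠ x)

include hneg hS hU

theorem finrank_ker_ellipticMap_free :
    Module.finrank K (LinearMap.ker (ellipticMap K Γ))
      + Nat.card (orbitRel.Quotient (Subgroup.zpowers S) (SL(2, ℤ) ⧸ Γ))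
      + Nat.card (orbitRel.Quotient (Subgroup.zpowers (S * T)) (SL(2, ℤ) ⧸ Γ))
      ≤ 2 * Nat.card (SL(2, ℤ) ⧸ Γ) := by
  classical
  set Q2 := orbitRel.Quotient (Subgroup.zpowers S) (SL(2, ℤ) ⧸ Γ) with hQ2
  set Q3 := orbitRel.Quotient (Subgroup.zpowers (S * T)) (SL(2, ℤ) ⧸ Γ) with hQ3
  have := Fintype.ofFinite (SL(2, ℤ) ⧸ Γ)
  have : Finite Q2 := Quotient.finite _
  have : Finite Q3 := Quotient.finite _
  let _ := Fintype.ofFinite Q2
  let _ := Fintype.ofFinite Q3
  set ι : (Q2 → K) × (Q3 → K) →ₗ[K] CosetPairs K Γ :=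
    LinearMap.prodMap (LinearMap.funLeft K K Quotient.mk'') (LinearMap.funLeft K K Quotient.mk'')
    with hι
  have hinj : Function.Injective ι :=
    Function.Injective.prodMap
      (LinearMap.funLeft_injective_of_surjective K K _ Quotient.mk''_surjective)
      (LinearMap.funLeft_injective_of_surjective K K _ Quotient.mk''_surjective)
  have hSS : ∀ x : SL(2, ℤ) ⧸ Γ, S • S • x = x := S_smul_S_smul hneg
  have hUU : ∀ x : SL(2, ℤ) ⧸ Γ, (S * T) • (S * T) • (S * T) • x = x :=
    ST_smul_ST_smul_ST_smul hneg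
  have hout2 : ∀ x, (Quotient.mk'' x : Q2).out = x ∨ (Quotient.mk'' x : Q2).out = S • x := by
    intro x
    obtain ⟨⟨_, k, rfl⟩, hk⟩ := orbitRel_apply.mp
      (Quotient.mk_out (s := orbitRel (Subgroup.zpowers S) (SL(2, ℤ) ⧸ Γ)) x)
    rw [← show S ^ k • x = (Quotient.mk'' x : Q2).out from hk]
    clear hk
    induction k using Int.induction_on with
    | zero => simp
    | succ i ih =>
      rw [add_comm, zpow_add, zpow_one, mul_smul]
      rcases ih with h | h <;> rw [h]
      · exact Or.inr rfl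
      · exact Or.inl (hSS x)
    | pred i ih =>
      rw [sub_eq_add_neg, add_comm, zpow_add, zpow_neg_one, mul_smul, inv_smul_eq_iff,
        inv_smul_eq_iff]
      rcases ih with h | h <;> rw [h]
      · exact Or.inr (hSS x).symm
      · exact Or.inl rfl
  have hout3 : ∀ x, (Quotient.mk'' x : Q3).out = x ∨ (Quotient.mk'' x : Q3).out = (S * T) • x ∨
      (Quotient.mk'' x : Q3).out = (S * T) • (S * T) • x := by
    intro x
    obtain ⟨⟨_, k, rfl⟩, hk⟩ := orbitRel_apply.mp
      (Quotient.mk_out (s := orbitRel (Subgroup.zpowers (S * T)) (SL(2, ℤ) ⧸ Γ)) x)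
    rw [← show (S * T) ^ k • x = (Quotient.mk'' x : Q3).out from hk]
    clear hk
    induction k using Int.induction_on with
    | zero => simp
    | succ i ih =>
      rw [add_comm, zpow_add, zpow_one, mul_smul]
      rcases ih with h | h | h <;> rw [h]
      · exact Or.inr (Or.inl rfl)
      · exact Or.inr (Or.inr rfl)
      · exact Or.inl (hUU x)
    | pred i ih =>
      rw [sub_eq_add_neg, add_comm, zpow_add, zpow_neg_one, mul_smul, inv_smul_eq_iff,
        inv_smul_eq_iff, inv_smul_eq_iff]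
      rcases ih with h | h | h <;> rw [h]
      · exact Or.inr (Or.inr (hUU x).symm)
      · exact Or.inl rfl
      · exact Or.inr (Or.inl rfl)
  have hrange : LinearMap.range ι ≤ LinearMap.range (ellipticMap K Γ) := by
    rintro _ ⟨⟨u, v⟩, rfl⟩
    refine ⟨((fun x => if (Quotient.mk'' x : Q2).out = x then u (Quotient.mk'' x) else 0),
      (fun x => if (Quotient.mk'' x : Q3).out = x then v (Quotient.mk'' x) else 0)),
      Prod.ext (funext fun x => ?_) (funext fun x => ?_)⟩
    · have e1 : (Quotient.mk'' (S • x) : Q2) = Quotient.mk'' x :=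
        Quotient.sound' ⟨⟨S, Subgroup.mem_zpowers S⟩, rfl⟩
      show (if (Quotient.mk'' x : Q2).out = x then u (Quotient.mk'' x) else 0)
        + (if (Quotient.mk'' (S • x) : Q2).out = S • x then u (Quotient.mk'' (S • x)) else 0)
          = u (Quotient.mk'' x)
      rw [e1]
      have hd := (hS x).symm
      rcases hout2 x with h | h <;> simp [h, hd, hd.symm]
    · have e1 : ∀ y, (Quotient.mk'' ((S * T) • y) : Q3) = Quotient.mk'' y := fun y =>
        Quotient.sound' ⟨⟨S * T, Subgroup.mem_zpowers _⟩, rfl⟩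
      show (if (Quotient.mk'' x : Q3).out = x then v (Quotient.mk'' x) else 0)
        + (if (Quotient.mk'' ((S * T) • x) : Q3).out = (S * T) • x
            then v (Quotient.mk'' ((S * T) • x)) else 0)
        + (if (Quotient.mk'' ((S * T) • (S * T) • x) : Q3).out = (S * T) • (S * T) • x
            then v (Quotient.mk'' ((S * T) • (S * T) • x)) else 0)
          = v (Quotient.mk'' x)
      simp only [e1]
      have d1 := hU x
      have d2 := hU ((S * T) • x)
      have d3 : (S * T) • (S * T) • x ≠ x := fun h => d1 (by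
        conv_lhs => rw [← h]
        exact hUU x)
      rcases hout3 x with h | h | h <;>
        simp [h, d1, d1.symm, d2, d2.symm, d3, d3.symm]
  have h := Submodule.finrank_mono hrange
  rw [LinearMap.finrank_range_of_inj hinj, Module.finrank_prod, Module.finrank_fintype_fun_eq_card,
    Module.finrank_fintype_fun_eq_card] at h
  have hrn := LinearMap.finrank_range_add_finrank_ker (ellipticMap K Γ)
  rw [Module.finrank_prod, Module.finrank_fintype_fun_eq_card] at hrn
  simp only [Nat.card_eq_fintype_card]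
  omega

/-- The bound in the absence of elliptic points, over any field. -/
theorem finrank_parabolicHoms_le_free :
    6 * Module.finrank K (ModularCurve.Period.parabolicHoms K Γ K)
      + 6 * Nat.card (orbitRel.Quotient (Subgroup.zpowers T) (SL(2, ℤ) ⧸ Γ))
      ≤ Γ.index + 12 := by
  have := finrank_parabolicHoms_le_of_ker hneg (finrank_ker_ellipticMap_free (K := K) hneg hS hU)
  omega

end Free

variable {M : ℕ}

theorem trace_eq_two_of_mem_Gamma1 {γ : SL(2, ℤ)} (h : γ ∈ Gamma1 M) :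
    (((γ : Matrix (Fin 2) (Fin 2) ℤ).trace : ℤ) : ZMod M) = 2 := by
  rw [Gamma1_mem] at h
  rw [Matrix.trace_fin_two, Int.cast_add, h.1, h.2.1]
  norm_num

theorem smul_ne_of_trace (g : SL(2, ℤ))
    (h1 : (((g : Matrix (Fin 2) (Fin 2) ℤ).trace : ℤ) : ZMod M) ≠ 2)
    (h2 : (((g : Matrix (Fin 2) (Fin 2) ℤ).trace : ℤ) : ZMod M) ≠ -2)
    (x : SL(2, ℤ) ⧸ gammaPM M) : g • x ≠ x := by
  induction x using QuotientGroup.induction_on with
  | H a =>
    intro h
    rw [MulAction.Quotient.smul_coe, QuotientGroup.eq, smul_eq_mul] at h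
    have ht : (((g * a)⁻¹ * a : SL(2, ℤ)) : Matrix (Fin 2) (Fin 2) ℤ).trace
        = (g : Matrix (Fin 2) (Fin 2) ℤ).trace := by
      rw [mul_inv_rev, Matrix.SpecialLinearGroup.coe_mul, Matrix.SpecialLinearGroup.coe_mul,
        Matrix.trace_mul_comm, ← mul_assoc, ← Matrix.SpecialLinearGroup.coe_mul, mul_inv_cancel,
        Matrix.SpecialLinearGroup.coe_one, one_mul, Matrix.SpecialLinearGroup.coe_inv,
        Matrix.adjugate_fin_two, Matrix.trace_fin_two_of, Matrix.trace_fin_two]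
      ring
    rcases h with h | h
    · exact h1 (ht ▸ trace_eq_two_of_mem_Gamma1 h)
    · refine h2 ?_
      have h3 := trace_eq_two_of_mem_Gamma1 h
      rw [Matrix.SpecialLinearGroup.coe_neg, Matrix.trace_neg, ht, Int.cast_neg] at h3
      rw [← h3, neg_neg]

theorem S_smul_ne (h4 : 4 ≤ M) (x : SL(2, ℤ) ⧸ gammaPM M) : S • x ≠ x := by
  have hne : ∀ a : ℕ, 0 < a → a < M → (a : ZMod M) ≠ 0 := fun a ha hlt h =>
    absurd (Nat.le_of_dvd ha ((ZMod.natCast_eq_zero_iff _ _).mp h)) (not_le.mpr hlt)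
  have h2 : (2 : ZMod M) ≠ 0 := by simpa using hne 2 (by norm_num) (by omega)
  refine smul_ne_of_trace S ?_ ?_ x <;>
    simp [ModularGroup.coe_S, Matrix.trace_fin_two]
  · exact fun h => h2 h.symm
  · exact fun h => h2 h

theorem ST_smul_ne (h4 : 4 ≤ M) (x : SL(2, ℤ) ⧸ gammaPM M) : (S * T) • x ≠ x := by
  have hne : ∀ a : ℕ, 0 < a → a < M → (a : ZMod M) ≠ 0 := fun a ha hlt h =>
    absurd (Nat.le_of_dvd ha ((ZMod.natCast_eq_zero_iff _ _).mp h)) (not_le.mpr hlt)
  have h1 : (1 : ZMod M) ≠ 0 := by simpa using hne 1 (by norm_num) (by omega)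
  have h3 : (3 : ZMod M) ≠ 0 := by simpa using hne 3 (by norm_num) (by omega)
  refine smul_ne_of_trace (S * T) ?_ ?_ x <;>
    simp [ModularGroup.coe_S, ModularGroup.coe_T, Matrix.trace_fin_two]
  · exact fun h => h1 (by linear_combination -h)
  · exact fun h => h3 (by linear_combination h)

theorem not_neg_one_mem_Gamma1 (h3 : 3 ≤ M) : (-1 : SL(2, ℤ)) ∉ Gamma1 M := by
  intro h
  rw [Gamma1_mem] at h
  have h2 : ((2 : ℕ) : ZMod M) = 0 := by
    have := h.1
    simp at this
    push_cast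
    linear_combination -this
  exact absurd (Nat.le_of_dvd two_pos ((ZMod.natCast_eq_zero_iff _ _).mp h2)) (by omega)

/-- The retraction `± Γ₁(M) → Γ₁(M)`. -/
def pmHom (h3 : 3 ≤ M) : gammaPM M →* Gamma1 M := by
  classical
  have huniq : ∀ {a : SL(2, ℤ)}, a ∈ Gamma1 M → -a ∈ Gamma1 M → False := fun {a} ha ha' =>
    not_neg_one_mem_Gamma1 h3 (by simpa using mul_mem ha' (inv_mem ha))
  refine MonoidHom.mk' (fun γ => if h : (γ : SL(2, ℤ)) ∈ Gamma1 M then ⟨γ, h⟩
    else ⟨-γ, γ.2.resolve_left h⟩) fun a b => ?_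
  by_cases ha : (a : SL(2, ℤ)) ∈ Gamma1 M <;> by_cases hb : (b : SL(2, ℤ)) ∈ Gamma1 M
  · have hab : ((a * b : gammaPM M) : SL(2, ℤ)) ∈ Gamma1 M := mul_mem ha hb
    simp only [dif_pos ha, dif_pos hb, dif_pos hab]
    rfl
  · have hb' := b.2.resolve_left hb
    have h' : -((a * b : gammaPM M) : SL(2, ℤ)) ∈ Gamma1 M := by simpa using mul_mem ha hb'
    simp only [dif_pos ha, dif_neg hb, dif_neg (fun h => huniq h h')]
    exact Subtype.ext (by simp)
  · have ha' := a.2.resolve_left ha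
    have h' : -((a * b : gammaPM M) : SL(2, ℤ)) ∈ Gamma1 M := by simpa using mul_mem ha' hb
    simp only [dif_neg ha, dif_pos hb, dif_neg (fun h => huniq h h')]
    exact Subtype.ext (by simp)
  · have hab : ((a * b : gammaPM M) : SL(2, ℤ)) ∈ Gamma1 M := by
      simpa using mul_mem (a.2.resolve_left ha) (b.2.resolve_left hb)
    simp only [dif_neg ha, dif_neg hb, dif_pos hab]
    exact Subtype.ext (by simp)

open scoped Classical in
theorem pmHom_incl (h3 : 3 ≤ M) (γ : Gamma1 M) :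
    pmHom h3 ⟨γ, gamma1_le_gammaPM M γ.2⟩ = γ := by
  show dite _ _ _ = _
  rw [dif_pos γ.2]

open scoped Classical in
theorem pmHom_sign (h3 : 3 ≤ M) (γ : gammaPM M) :
    (pmHom h3 γ : SL(2, ℤ)) = γ ∨ (pmHom h3 γ : SL(2, ℤ)) = -γ := by
  by_cases h : (γ : SL(2, ℤ)) ∈ Gamma1 M
  · exact Or.inl (congrArg Subtype.val (dif_pos h))
  · exact Or.inr (congrArg Subtype.val (dif_neg h))

/-- Extension of parabolic homomorphisms to `± Γ₁(M)`. -/
def extendPM (K : Type*) [Field K] (h3 : 3 ≤ M) :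
    ModularCurve.Period.parabolicHoms K (Gamma1 M) K →ₗ[K]
      ModularCurve.Period.parabolicHoms K (gammaPM M) K where
  toFun φ := ⟨φ.1.comp (MonoidHom.toAdditive (pmHom h3)), fun γ hγ => by
    refine φ.2 (pmHom h3 γ) ?_
    rcases pmHom_sign h3 γ with h | h <;>
      rw [h] <;>
      simp [Matrix.SpecialLinearGroup.coe_neg, Matrix.trace_neg, hγ]⟩
  map_add' _ _ := rfl
  map_smul' _ _ := rfl

theorem extendPM_injective (K : Type*) [Field K] (h3 : 3 ≤ M) :
    Function.Injective (extendPM (M := M) K h3) := fun φ ψ h => by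
  refine Subtype.ext (AddMonoidHom.ext fun γ => ?_)
  have := DFunLike.congr_fun (congrArg Subtype.val h)
    (Additive.ofMul (⟨(Additive.toMul γ : Gamma1 M), gamma1_le_gammaPM M (Additive.toMul γ).2⟩ :
      gammaPM M))
  change φ.1 (Additive.ofMul (pmHom h3 _)) = ψ.1 (Additive.ofMul (pmHom h3 _)) at this
  simp only [toMul_ofMul, pmHom_incl, ofMul_toMul] at this
  exact this

variable [NeZero M]

theorem finite_parHom_field (K : Type*) [Field K] (h3 : 3 ≤ M) :
    Module.Finite K (ModularCurve.Period.parabolicHoms K (Gamma1 M) K) :=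
  have := finite_parabolicHoms (K := K) (Γ := gammaPM M) (neg_one_mem_gammaPM M)
  Module.Finite.of_injective _ (extendPM_injective K h3)

variable [Fact (1 < M)] (h5 : 5 ≤ M)
include h5

theorem finrank_parHom_le (K : Type*) [Field K] :
    Module.finrank K (ModularCurve.Period.parabolicHoms K (Gamma1 M) K)
      ≤ 2 * genusFF Qbar (FF M) := by
  have := finite_parabolicHoms (K := K) (Γ := gammaPM M) (neg_one_mem_gammaPM M)
  have h1 := LinearMap.finrank_le_finrank_of_injective (extendPM_injective (M := M) K (by omega))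
  have h2 := finrank_parabolicHoms_le_free (K := K) (Γ := gammaPM M) (neg_one_mem_gammaPM M)
    (S_smul_ne (by omega)) (ST_smul_ne (by omega))
  have h3 := index_le_genus h5
  simp only [CuspOrb] at h3
  omega

theorem natCard_parHom_prime_le (ℓ : ℕ) [hℓ : Fact ℓ.Prime] :
    Finite (ParHom M ℓ) ∧ Nat.card (ParHom M ℓ) ≤ ℓ ^ (2 * genusFF Qbar (FF M)) := by
  have := finite_parHom_field (M := M) (ZMod ℓ) (by omega)
  have hfin : Finite (ParHom M ℓ) := Module.finite_of_finite (ZMod ℓ)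
  refine ⟨hfin, ?_⟩
  rw [Module.natCard_eq_pow_finrank (K := ZMod ℓ), Nat.card_zmod]
  exact Nat.pow_le_pow_right hℓ.out.pos (finrank_parHom_le h5 (ZMod ℓ))

omit [Fact (1 < M)] h5 in
/-- Change of coefficients. -/
def pushHom {n m : ℕ} (f : ZMod n →+ ZMod m) : ParHom M n →+ ParHom M m where
  toFun φ := ⟨f.comp φ.1, fun γ hγ => by
    show f (φ.1 _) = 0
    rw [φ.2 γ hγ, map_zero]⟩
  map_zero' := Subtype.ext (AddMonoidHom.comp_zero f)
  map_add' φ ψ := Subtype.ext (AddMonoidHom.comp_add _ _ _)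

/-- `#Hom_par(Γ₁(M), ℤ/ℓᵏ) ≤ ℓ^(2gk)`. -/
theorem natCard_parHom_le (ℓ : ℕ) [hℓ : Fact ℓ.Prime] : ∀ k : ℕ,
    Finite (ParHom M (ℓ ^ k)) ∧ Nat.card (ParHom M (ℓ ^ k)) ≤ ℓ ^ (2 * genusFF Qbar (FF M) * k)
  | 0 => by
    rw [pow_zero]
    have : Subsingleton (ParHom M 1) :=
      ⟨fun a b => Subtype.ext (AddMonoidHom.ext fun _ => Subsingleton.elim _ _)⟩
    exact ⟨inferInstance, by rw [Nat.card_unique]; exact Nat.one_le_pow _ _ hℓ.out.pos⟩
  | k + 1 => by
    obtain ⟨hfin, hcard⟩ := natCard_parHom_le ℓ k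
    obtain ⟨hfin1, hcard1⟩ := natCard_parHom_prime_le h5 ℓ
    set r : ZMod (ℓ ^ (k + 1)) →+ ZMod (ℓ ^ k) :=
      (ZMod.castHom (pow_dvd_pow ℓ k.le_succ) (ZMod (ℓ ^ k))).toAddMonoidHom with hr
    let ι : ZMod ℓ →+ ZMod (ℓ ^ (k + 1)) :=
      ZMod.lift ℓ ⟨zmultiplesHom _ ((ℓ : ZMod (ℓ ^ (k + 1))) ^ k), by
        rw [zmultiplesHom_apply, natCast_zsmul, nsmul_eq_mul, ← pow_succ', ← Nat.cast_pow,
          ZMod.natCast_self]⟩
    have hιapp : ∀ z : ℤ, ι (z : ZMod ℓ) = z • ((ℓ : ZMod (ℓ ^ (k + 1))) ^ k) := fun z =>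
      ZMod.lift_coe ℓ _ z
    have hι : Function.Injective ι := by
      rw [injective_iff_map_eq_zero]
      intro a ha
      obtain ⟨z, rfl⟩ := ZMod.intCast_surjective a
      rw [hιapp, zsmul_eq_mul, ← Nat.cast_pow, ← Int.cast_natCast, ← Int.cast_mul,
        ZMod.intCast_zmod_eq_zero_iff_dvd] at ha
      rw [ZMod.intCast_zmod_eq_zero_iff_dvd]
      push_cast at ha
      rw [pow_succ', mul_dvd_mul_iff_right (pow_ne_zero k (by exact_mod_cast hℓ.out.ne_zero))] at ha
      exact ha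
    have hker : ∀ a, r a = 0 → ∃ b, ι b = a := by
      intro a ha
      obtain ⟨z, rfl⟩ := ZMod.intCast_surjective a
      rw [hr, RingHom.toAddMonoidHom_eq_coe, AddMonoidHom.coe_coe, map_intCast,
        ZMod.intCast_zmod_eq_zero_iff_dvd] at ha
      obtain ⟨w, rfl⟩ := ha
      exact ⟨(w : ZMod ℓ), by rw [hιapp, zsmul_eq_mul]; push_cast; ring⟩
    set R := pushHom (M := M) r
    have hle : Nat.card R.ker ≤ Nat.card (ParHom M ℓ) ∧ Finite R.ker := by
      have hfac : ∀ φ : R.ker, ∃ ψ : ParHom M ℓ, pushHom ι ψ = φ.1 := by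
        rintro ⟨φ, hφ⟩
        have hv : ∀ γ, r (φ.1 γ) = 0 := fun γ => DFunLike.congr_fun (congrArg Subtype.val hφ) γ
        choose ψ hψ using fun γ => hker _ (hv γ)
        refine ⟨⟨AddMonoidHom.mk' ψ fun a b => hι (by rw [map_add, hψ, hψ, hψ, map_add]),
          fun γ hγ => hι ?_⟩, Subtype.ext (AddMonoidHom.ext hψ)⟩
        rw [AddMonoidHom.mk'_apply, hψ, φ.2 γ hγ, map_zero]
      choose ψ hψ using hfac
      have hinj : Function.Injective ψ := fun a b h => Subtype.ext (by rw [← hψ a, ← hψ b, h])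
      exact ⟨Nat.card_le_card_of_injective ψ hinj, Finite.of_injective ψ hinj⟩
    have hq : Nat.card (ParHom M (ℓ ^ (k + 1)) ⧸ R.ker) ≤ Nat.card (ParHom M (ℓ ^ k)) ∧
        Finite (ParHom M (ℓ ^ (k + 1)) ⧸ R.ker) :=
      ⟨Nat.card_le_card_of_injective _ (QuotientAddGroup.kerLift_injective R),
        Finite.of_injective _ (QuotientAddGroup.kerLift_injective R)⟩
    have := hle.2
    have := hq.2
    refine ⟨Finite.of_equiv _ (AddSubgroup.addGroupEquivQuotientProdAddSubgroup
      (s := R.ker)).symm, ?_⟩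
    rw [AddSubgroup.card_eq_card_quotient_mul_card_addSubgroup R.ker, mul_add, mul_one]
    exact (Nat.mul_le_mul (hq.1.trans hcard) (hle.1.trans hcard1)).trans_eq (pow_add ℓ _ _).symm

end FLTAgent.GammaH

end
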