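import Fermat.Agent.GammaH.Orders
import Fermat.Agent.FFBasic.Degree
import Fermat.Agent.FFDifferential.Criterion

/-!
# Places of the field of `X₁(M)` over `∞` come from cusps

Modular functions are regular where `j` is, bounded poles at the cusps bound the pole at a place
over `∞`, and hence every place where `j` has a pole is some `cuspPlace γ`
(`exists_cuspPlace_eq`).
-/

set_option autoImplicit false

noncomputable section

open UpperHalfPlane Filter CongruenceSubgroup ModularCurve AlgebraicCurve Polynomial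
open scoped Manifold MatrixGroups Topology

namespace FLTAgent.GammaH

open FLTAgent.LevelM FLTAgent.HeckeJacobian FLTAgent.FFBasic FLTAgent.FFDifferential

local notation "Qbar" => AlgebraicClosure ℚ

variable {M : ℕ} [NeZero M]

/-- A modular function is regular at every place where `j` is. -/
theorem toFF_mem_of_jF_mem (v : Place Qbar (FF M)) (hv : jF M ∈ v.toValuationSubring)
    (f : modFun M) : toFF f ∈ v.toValuationSubring := by
  obtain ⟨Q, hQ, -, hev⟩ := exists_monic_relation f
  let φ : Qbar[X] →+* v.toValuationSubring :=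
    (Polynomial.aeval (⟨jF M, hv⟩ : v.toValuationSubring)).toRingHom
  have hint : IsIntegral v.toValuationSubring (toFF f) := by
    refine ⟨Q.map φ, hQ.map φ, ?_⟩
    rw [Polynomial.eval₂_map, show (algebraMap v.toValuationSubring (FF M)).comp φ =
      ((toFF : modFun M →ₐ[Qbar] FF M) : modFun M →+* FF M).comp (jEval M : Qbar[X] →+* modFun M)
      from RingHom.ext fun P => by
        show (algebraMap v.toValuationSubring (FF M)) (Polynomial.aeval _ P) = toFF (jEval M P)
        rw [← Polynomial.aeval_algebraMap_apply, toFF_jEval]; rfl]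
    refine (Polynomial.hom_eval₂ Q _ ((toFF : modFun M →ₐ[Qbar] FF M) : modFun M →+* FF M)
      f).symm.trans ?_
    rw [hev, map_zero]
  obtain ⟨y, hy⟩ := (IsIntegrallyClosed.isIntegral_iff (K := FF M)).mp hint
  exact hy ▸ y.2

/-- The order of a unit of the ring of modular functions vanishes where `j` is regular. -/
theorem ord_toFF_of_mul_eq_one (v : Place Qbar (FF M)) (hv : jF M ∈ v.toValuationSubring)
    {f g : modFun M} (h : f * g = 1) : v.ord (toFF f) = 0 := by
  have h1 : toFF f * toFF g = 1 := by rw [← map_mul, h, map_one]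
  have hf : toFF f ≠ 0 := left_ne_zero_of_mul_eq_one h1
  have hg : toFF g ≠ 0 := right_ne_zero_of_mul_eq_one h1
  have h2 := v.ord_mul hf hg
  rw [h1, v.ord_one] at h2
  have := (mem_iff_ord_nonneg v hf).mp (toFF_mem_of_jF_mem v hv f)
  have := (mem_iff_ord_nonneg v hg).mp (toFF_mem_of_jF_mem v hv g)
  omega

theorem aeval_mem_filt (v : Place Qbar (FF M)) (hv : v.ord (jF M) < 0) (P : Qbar[X]) {k : ℕ}
    (hk : P.natDegree ≤ k) : Polynomial.aeval (jF M) P ∈ filt v (k * v.ord (jF M)) := by
  rw [Polynomial.aeval_eq_sum_range]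
  refine Submodule.sum_mem _ fun i hi => Submodule.smul_mem _ _ (mem_filt_of_le ?_)
  rw [ord_pow]
  have : (i : ℤ) ≤ k := by
    exact_mod_cast (Nat.lt_succ_iff.mp (Finset.mem_range.mp hi)).trans hk
  nlinarith

/-! ## Pole bounds -/

variable (M) in
/-- All translates have poles of order at most `k M` in `q^(1/M)`. -/
def PoleBdd (k : ℕ) (u : cuspRing M) : Prop :=
  ∀ γ, ∃ s, HasExp M (act γ (cuspVal u)) s ∧ ∀ n < -((k * M : ℕ) : ℤ), s.coeff n = 0

omit [NeZero M] in
theorem PoleBdd.mono {k k' : ℕ} {u : cuspRing M} (h : PoleBdd M k u) (hk : k ≤ k') :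
    PoleBdd M k' u := fun γ => by
  obtain ⟨s, hs, h0⟩ := h γ
  refine ⟨s, hs, fun n hn => h0 n (lt_of_lt_of_le hn ?_)⟩
  have : k * M ≤ k' * M := Nat.mul_le_mul_right M hk
  omega

omit [NeZero M] in
theorem PoleBdd.sub {k : ℕ} {u v : cuspRing M} (hu : PoleBdd M k u) (hv : PoleBdd M k v) :
    PoleBdd M k (u - v) := fun γ => by
  obtain ⟨s, hs, h0⟩ := hu γ
  obtain ⟨t, ht, h1⟩ := hv γ
  refine ⟨s - t, ?_, fun n hn => by rw [HahnSeries.coeff_sub, h0 n hn, h1 n hn, sub_zero]⟩
  rw [show cuspVal (u - v) = cuspVal u - cuspVal v from rfl, map_sub]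
  exact hs.sub ht

omit [NeZero M] in
theorem PoleBdd.mul {k k' : ℕ} {u v : cuspRing M} (hu : PoleBdd M k u) (hv : PoleBdd M k' v) :
    PoleBdd M (k + k') (u * v) := fun γ => by
  obtain ⟨s, hs, h0⟩ := hu γ
  obtain ⟨t, ht, h1⟩ := hv γ
  refine ⟨s * t, ?_, fun n hn => coeff_mul_below h0 h1 ?_⟩
  · rw [show cuspVal (u * v) = cuspVal u * cuspVal v from rfl, map_mul]
    exact hs.mul ht
  · have : (k + k') * M = k * M + k' * M := add_mul _ _ _
    omega

omit [NeZero M] in
theorem poleBdd_zero (k : ℕ) : PoleBdd M k 0 := fun γ =>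
  ⟨0, by rw [show cuspVal (0 : cuspRing M) = 0 from rfl, map_zero]; exact hasExp_zero M,
    fun n _ => HahnSeries.coeff_zero⟩

omit [NeZero M] in
theorem poleBdd_one (k : ℕ) : PoleBdd M k 1 := fun γ =>
  ⟨1, by rw [show cuspVal (1 : cuspRing M) = 1 from rfl, map_one]; exact hasExp_one M,
    fun n hn => by rw [HahnSeries.coeff_one, if_neg (by omega)]⟩

omit [NeZero M] in
theorem poleBdd_coeff_prod {ι : Type*} (S : Finset ι) (u : ι → cuspRing M) {m : ℕ}
    (h : ∀ i ∈ S, PoleBdd M m (u i)) (b : ℕ) :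
    PoleBdd M ((S.card - b) * m) ((∏ i ∈ S, (X - C (u i))).coeff b) := by
  induction S using Finset.cons_induction generalizing b with
  | empty =>
    rw [Finset.prod_empty, Polynomial.coeff_one]
    split
    · exact poleBdd_one _
    · exact poleBdd_zero _
  | cons a S ha ih =>
    have hS : ∀ i ∈ S, PoleBdd M m (u i) := fun i hi => h i (Finset.mem_cons_of_mem hi)
    have hdeg : (∏ i ∈ S, (X - C (u i))).natDegree = S.card :=
      Polynomial.natDegree_finsetProd_X_sub_C_eq_card _ _
    rw [Finset.prod_cons, sub_mul, Polynomial.coeff_sub, Finset.card_cons]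
    refine PoleBdd.sub ?_ ?_
    · rcases b with - | b
      · rw [Polynomial.coeff_X_mul_zero]; exact poleBdd_zero _
      · rw [Polynomial.coeff_X_mul]
        exact (ih hS b).mono (by rw [Nat.add_sub_add_right])
    · rw [Polynomial.coeff_C_mul]
      rcases le_or_gt b S.card with hb | hb
      · refine ((h a (Finset.mem_cons_self a S)).mul (ih hS b)).mono ?_
        rw [Nat.sub_add_comm hb, add_mul, one_mul, add_comm]
      · rw [Polynomial.coeff_eq_zero_of_natDegree_lt (hdeg ▸ hb), mul_zero]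
        exact poleBdd_zero _

/-- A polynomial in `j` with bounded poles has bounded degree. -/
theorem natDegree_le_of_poleBdd {u : cuspRing M} {P : ℂ[X]} {k : ℕ}
    (h : ∀ τ, cuspVal u τ = P.eval (ModularFF.jFun τ)) (hu : PoleBdd M k u) :
    P.natDegree ≤ k := by
  by_contra hlt
  push Not at hlt
  obtain ⟨s, hs, h0⟩ := hu 1
  rw [act_one] at hs
  have hj : HasExp 1 ModularFF.jFun (jqModC ℂ) := by
    have := hasExp_jFun
    rwa [liftC, coeffMap_jqModC] at this
  have hP : HasExp 1 (cuspVal u) (Polynomial.aeval (jqModC ℂ) P) := by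
    rw [Polynomial.aeval_eq_sum_range]
    have := hasExp_finset_sum (Finset.range (P.natDegree + 1))
      (F := fun i => fun τ => P.coeff i * (ModularFF.jFun ^ i) τ)
      (fun i _ => (hj.pow i).const_mul (P.coeff i))
    have h' : HasExp 1 (cuspVal u)
        (∑ i ∈ Finset.range (P.natDegree + 1), HahnSeries.C (P.coeff i) * jqModC ℂ ^ i) := by
      refine this.congr (Eventually.of_forall fun τ => ?_)
      rw [h τ, Polynomial.eval_eq_sum_range, Finset.sum_apply]
      rfl
    convert h' using 1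
    refine Finset.sum_congr rfl fun i _ => ?_
    rw [Algebra.smul_def, algebraMap_laurentSeries_eq_single, ← HahnSeries.C_apply]
  have hq := hP.qExpand M
  rw [mul_one] at hq
  have heq := hs.unique (NeZero.pos M) hq
  have hne : P ≠ 0 := fun h => by simp [h] at hlt
  have hlead := ModularFF.coeff_aeval_jqModC ℂ P
  have hc : s.coeff ((M : ℤ) * -(P.natDegree : ℤ)) = P.leadingCoeff := by
    rw [heq, qExpand_coeff_mul, hlead]
  rw [h0 _ (by
    have : (k : ℤ) < P.natDegree := by exact_mod_cast hlt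
    have hM : (0 : ℤ) < M := by exact_mod_cast NeZero.pos M
    push_cast
    nlinarith)] at hc
  exact Polynomial.leadingCoeff_ne_zero.mpr hne hc.symm

theorem poleBdd_conjC {f : modFun M} {m : ℕ}
    (h : ∀ γ, -((m * M : ℕ) : ℤ) ≤ (serAt γ f).order) (q : Cos M) :
    PoleBdd M m (conjC q f) := by
  induction q using QuotientGroup.induction_on with
  | H g =>
    intro γ
    refine ⟨serAt (g⁻¹ * γ) f, ?_, fun n hn =>
      HahnSeries.coeff_eq_zero_of_lt_order (lt_of_lt_of_le hn (h _))⟩
    rw [cuspVal_conjC, ← act_mul]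
    exact hasExp_serAt _ f

theorem exists_monic_relation_bdd (f : modFun M) {m : ℕ}
    (h : ∀ γ, -((m * M : ℕ) : ℤ) ≤ (serAt γ f).order) :
    ∃ P : ℕ → Qbar[X], (∀ b, (P b).natDegree ≤ ((gammaPM M).index - b) * m) ∧
      f ^ (gammaPM M).index = ∑ b ∈ Finset.range (gammaPM M).index, jEval M (P b) * f ^ b := by
  classical
  set n := (gammaPM M).index with hn
  have hcard : Fintype.card (Cos M) = n := by
    rw [hn, Subgroup.index, Nat.card_eq_fintype_card]
  have hdeg : (charC f).natDegree = n := by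
    rw [charC, Polynomial.natDegree_finsetProd_X_sub_C_eq_card, Finset.card_univ, hcard]
  have hmon : (charC f).Monic := Polynomial.monic_prod_of_monic _ _ fun q _ => monic_X_sub_C _
  choose p hp using fun b => exists_poly_of_invariant ((charC f).coeff b) fun g => by
    rw [← Polynomial.coeff_map, charC_map_actC]
  have hpdeg : ∀ b, (p b).natDegree ≤ (n - b) * m := fun b => by
    refine natDegree_le_of_poleBdd (hp b) ?_
    have := poleBdd_coeff_prod (Finset.univ : Finset (Cos M)) (fun q => conjC q f)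
      (fun q _ => poleBdd_conjC h q) b
    rwa [Finset.card_univ, hcard] at this
  let s : Finset (ℕ × ℕ) :=
    (Finset.range (n * m + 1) ×ˢ Finset.range n).filter fun ab => ab.1 ≤ (n - ab.2) * m
  obtain ⟨d, hd⟩ := descend_combination s (fun ab => jMod M ^ ab.1 * f ^ ab.2) (f ^ n)
    (fun ab => -(p ab.2).coeff ab.1) fun τ => by
      let ev : cuspRing M →+* ℂ :=
        ((Pi.evalRingHom (fun _ : ℍ => ℂ) τ).comp Hol.val.toRingHom).comp (cuspRing M).subtype
      have h0 := congrArg ev (eval_charC f)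
      rw [map_zero, Polynomial.eval, Polynomial.eval₂_eq_sum_range, hdeg,
        Finset.sum_range_succ, map_add, map_sum] at h0
      have hev : ev (conjC ((1 : SL(2, ℤ)) : Cos M) f) = (f : ℍ → ℂ) τ :=
        congrFun (conjC_one f) τ
      have hlead : (charC f).coeff n = 1 := by rw [← hdeg]; exact hmon.coeff_natDegree
      simp only [RingHom.id_apply, _root_.map_mul, _root_.map_pow, hev, hlead,
        map_one, one_mul] at h0
      rw [SubmonoidClass.coe_pow, Pi.pow_apply, eq_neg_of_add_eq_zero_right h0, Finset.sum_filter,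
        Finset.sum_product_right, ← Finset.sum_neg_distrib]
      refine Finset.sum_congr rfl fun b hb => ?_
      rw [show ev ((charC f).coeff b) = cuspVal ((charC f).coeff b) τ from rfl, hp b τ,
        Polynomial.eval_eq_sum_range' (n := n * m + 1)
          (Nat.lt_succ_of_le ((hpdeg b).trans (Nat.mul_le_mul_right m (Nat.sub_le n b)))),
        Finset.sum_mul, ← Finset.sum_neg_distrib]
      refine Finset.sum_congr rfl fun a _ => ?_
      split_ifs with hab
      · simp [mul_assoc]
      · rw [Polynomial.coeff_eq_zero_of_natDegree_lt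
          (lt_of_le_of_lt (hpdeg b) (not_le.mp hab))]
        ring
  refine ⟨fun b => ∑ a ∈ Finset.range ((n - b) * m + 1), Polynomial.monomial a (d (a, b)),
    fun b => (Polynomial.natDegree_sum_le _ _).trans ((Finset.fold_max_le _).mpr
      ⟨Nat.zero_le _, fun a ha => (Polynomial.natDegree_monomial_le _).trans
        (Nat.lt_succ_iff.mp (Finset.mem_range.mp ha))⟩), ?_⟩
  rw [hd, Finset.sum_filter, Finset.sum_product_right]
  refine Finset.sum_congr rfl fun b _ => ?_
  rw [_root_.map_sum, Finset.sum_mul, ← Finset.sum_filter]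
  refine Finset.sum_congr ?_ fun a _ => ?_
  · ext a
    simp only [Finset.mem_filter, Finset.mem_range, Nat.lt_succ_iff]
    constructor
    · exact fun h => h.2
    · intro h
      exact ⟨h.trans (Nat.mul_le_mul_right m (Nat.sub_le n b)), h⟩
  · simp [jEval, algebraMap_modFun, mul_assoc]

/-- Bounded poles at the cusps bound the pole at a place over `∞`. -/
theorem le_ord_toFF_of_cusps (v : Place Qbar (FF M)) (hv : v.ord (jF M) < 0) {f : modFun M}
    (hf : f ≠ 0) {m : ℕ} (h : ∀ γ, -((m * M : ℕ) : ℤ) ≤ (serAt γ f).order) :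
    (m : ℤ) * v.ord (jF M) ≤ v.ord (toFF f) := by
  by_contra hlt
  push Not at hlt
  obtain ⟨P, hP, heq⟩ := exists_monic_relation_bdd f h
  set n := (gammaPM M).index
  have hmem : toFF (f ^ n) ∈ filt v ((n : ℤ) * v.ord (toFF f) + 1) := by
    rw [heq, _root_.map_sum]
    refine Submodule.sum_mem _ fun b hb => ?_
    rw [_root_.map_mul, toFF_jEval, _root_.map_pow]
    refine filt_antitone v ?_ (mul_mem_filt (aeval_mem_filt v hv (P b) (hP b))
      (mem_filt_of_le (v := v) (n := (b : ℤ) * v.ord (toFF f)) (by rw [ord_pow])))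
    have hbn : b < n := Finset.mem_range.mp hb
    have hz : ((n - b : ℕ) : ℤ) = (n : ℤ) - b := by omega
    have : (1 : ℤ) ≤ (n : ℤ) - b := by omega
    push_cast [hz]
    nlinarith
  have h1 := le_ord_of_mem_filt hmem (toFF_ne_zero (pow_ne_zero n hf))
  rw [_root_.map_pow, ord_pow] at h1
  omega

theorem exists_poly_multiple {g : modFun M} (hg : g ≠ 0) :
    ∃ (d : Qbar[X]) (h : modFun M), d ≠ 0 ∧ jEval M d = g * h := by
  obtain ⟨Q, hQ, -, hev⟩ := exists_monic_relation g
  obtain ⟨Q', hfac, hndvd⟩ := Polynomial.exists_eq_pow_rootMultiplicity_mul_and_not_dvd Q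
    hQ.ne_zero 0
  rw [map_zero, sub_zero] at hfac hndvd
  have h0 : Q'.eval₂ (jEval M : Qbar[X] →+* modFun M) g = 0 := by
    rw [hfac, Polynomial.eval₂_mul, Polynomial.eval₂_X_pow] at hev
    exact (mul_eq_zero.mp hev).resolve_left (pow_ne_zero _ hg)
  refine ⟨Q'.coeff 0, -Q'.divX.eval₂ (jEval M : Qbar[X] →+* modFun M) g,
    fun h => hndvd (Polynomial.X_dvd_iff.mpr h), ?_⟩
  rw [← Polynomial.X_mul_divX_add Q', Polynomial.eval₂_add, Polynomial.eval₂_mul,
    Polynomial.eval₂_X, Polynomial.eval₂_C] at h0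
  rw [mul_neg, eq_neg_iff_add_eq_zero, add_comm]
  exact h0

theorem serAt_jMod (γ : SL(2, ℤ)) : serAt γ (jMod M) = qExpand ℂ M (jqModC ℂ) := by
  refine (hasExp_serAt γ _).unique (NeZero.pos M) ?_
  have h := hasExp_jFun.qExpand M
  rw [mul_one, liftC, coeffMap_jqModC] at h
  convert h using 1
  exact funext fun τ => ModularFF.jFun_smul γ τ

theorem order_serAt_jMod (γ : SL(2, ℤ)) : (serAt γ (jMod M)).order = -(M : ℤ) := by
  have hne : serAt γ (jMod M) ≠ 0 := serAt_ne_zero γ fun h => by
    have h' : toFF (jMod M) = 0 := by rw [h, map_zero]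
    exact (transcendental_jF (M := M)) (by rw [jF, h']; exact isAlgebraic_zero)
  refine le_antisymm (HahnSeries.order_le_of_coeff_ne_zero ?_) (le_of_not_gt fun hlt => ?_)
  · rw [serAt_jMod, show -(M : ℤ) = (M : ℤ) * -1 by ring, qExpand_coeff_mul,
      coeff_jqModC_neg_one]
    exact one_ne_zero
  · refine HahnSeries.coeff_order_eq_zero.not.mpr hne ?_
    set o := (serAt γ (jMod M)).order
    rw [serAt_jMod]
    by_cases hd : (M : ℤ) ∣ o
    · obtain ⟨c, hc⟩ := hd
      rw [hc, qExpand_coeff_mul]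
      refine coeff_jqModC_below ?_
      by_contra hc'
      have : (0 : ℤ) ≤ M := Int.natCast_nonneg M
      nlinarith
    · exact qExpand_coeff_of_not_dvd M _ hd

theorem cuspOrd_jF (γ : SL(2, ℤ)) : (cuspOrd M γ).toIntVal.w (jF M) = -(M : ℤ) := by
  rw [jF, RingOrd.toIntVal_toFF _ fun h => (transcendental_jF (M := M))
    (by rw [jF, h, map_zero]; exact isAlgebraic_zero)]
  exact order_serAt_jMod γ

variable [Fact (1 < M)]

theorem exists_cusp_place (γ : SL(2, ℤ)) : ∃ (v : Place Qbar (FF M)) (e : ℕ), 0 < e ∧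
    ∀ f, f ≠ 0 → (cuspOrd M γ).toIntVal.w f = e * v.ord f :=
  (cuspOrd M γ).toIntVal.exists_place ⟨jF M, fun h => transcendental_jF (h ▸ isAlgebraic_zero),
    by rw [cuspOrd_jF]; exact neg_ne_zero.mpr (by exact_mod_cast NeZero.ne M)⟩

/-- The place at the cusp `γ ∞`. -/
def cuspPlace (γ : SL(2, ℤ)) : Place Qbar (FF M) := (exists_cusp_place (M := M) γ).choose

theorem cuspPlace_spec (γ : SL(2, ℤ)) : ∃ e : ℕ, 0 < e ∧
    ∀ f, f ≠ 0 → (cuspOrd M γ).toIntVal.w f = e * (cuspPlace (M := M) γ).ord f :=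
  (exists_cusp_place (M := M) γ).choose_spec

theorem cuspPlace_eq_of {γ δ : SL(2, ℤ)}
    (h : ∀ f : modFun M, f ≠ 0 → (serAt γ f).order = (serAt δ f).order) :
    cuspPlace (M := M) γ = cuspPlace δ := by
  obtain ⟨e, he, hγ⟩ := cuspPlace_spec (M := M) γ
  obtain ⟨e', he', hδ⟩ := cuspPlace_spec (M := M) δ
  refine place_ext_ord fun x hx => ?_
  rcases eq_or_ne x 0 with rfl | hx0
  · simp
  obtain ⟨f, g, hf, hg, hxe⟩ := RingOrd.exists_nonzero hx0
  have h1 : (cuspOrd M γ).toIntVal.w x = (cuspOrd M δ).toIntVal.w x := by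
    show (cuspOrd M γ).wFF x = (cuspOrd M δ).wFF x
    rw [RingOrd.wFF_eq _ hf hg hxe, RingOrd.wFF_eq _ hf hg hxe]
    show (serAt γ f).order - (serAt γ g).order = _
    rw [h f hf, h g hg]
    rfl
  rw [hγ x hx0, hδ x hx0] at h1
  by_contra hneg
  push Not at hneg
  have : (e' : ℤ) * (cuspPlace (M := M) δ).ord x < 0 := mul_neg_of_pos_of_neg (by omega) hneg
  have : 0 ≤ (e : ℤ) * (cuspPlace (M := M) γ).ord x := mul_nonneg (by omega) hx
  omega

theorem finite_range_cuspPlace : (Set.range (cuspPlace (M := M))).Finite := by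
  refine (finite_setOf_ord_ne_zero (jF M)).subset ?_
  rintro _ ⟨γ, rfl⟩
  obtain ⟨e, he, hγ⟩ := cuspPlace_spec (M := M) γ
  have h := hγ (jF M) fun h => transcendental_jF (h ▸ isAlgebraic_zero)
  rw [cuspOrd_jF] at h
  show _ ≠ 0
  intro h0
  rw [h0, mul_zero] at h
  have := NeZero.pos M
  omega

/-- Every place over `∞` is the place of a cusp. -/
theorem exists_cuspPlace_eq (v : Place Qbar (FF M)) (hv : v.ord (jF M) < 0) :
    ∃ γ, cuspPlace (M := M) γ = v := by
  classical
  by_contra hne
  push Not at hne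
  obtain ⟨t, ht0, ht⟩ := exists_ord_eq v (-1)
  let S := finite_range_cuspPlace (M := M).toFinset
  obtain ⟨z, hz⟩ := exists_approx (insert v S) (fun w => if w = v then t else 0) (fun _ => 0)
  have hzv : v.ord z = -1 := by
    have := hz v (Finset.mem_insert_self _ _)
    rw [if_pos rfl] at this
    rcases eq_or_ne (z - t) 0 with h | h
    · rw [sub_eq_zero.mp h, ht]
    · have h' := ord_add_eq_left v ht0 (g := z - t) (mem_filt_of_le (by
        rw [ht]; have := le_ord_of_mem_filt this h; omega))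
      rw [add_sub_cancel] at h'
      rw [h'.2, ht]
  have hz0 : z ≠ 0 := fun h => by simp [h] at hzv
  have hzS : ∀ γ, 0 ≤ (cuspOrd M γ).toIntVal.w z := fun γ => by
    have hmem : cuspPlace (M := M) γ ∈ S := (Set.Finite.mem_toFinset _).mpr ⟨γ, rfl⟩
    have := hz _ (Finset.mem_insert_of_mem hmem)
    rw [if_neg (hne γ), sub_zero] at this
    obtain ⟨e, -, he⟩ := cuspPlace_spec (M := M) γ
    rw [he z hz0]
    exact mul_nonneg (by omega) (le_ord_of_mem_filt this hz0)
  obtain ⟨f, g, hf, hg, hzfg⟩ := RingOrd.exists_nonzero hz0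
  obtain ⟨d, h, hd, hdgh⟩ := exists_poly_multiple hg
  have hD : jEval M d ≠ 0 := fun h0 =>
    transcendental_jF (M := M) ⟨d, hd, by rw [← toFF_jEval, h0, map_zero]⟩
  have hh : h ≠ 0 := fun h0 => hD (by rw [hdgh, h0, mul_zero])
  have hzd : z = toFF (f * h) / toFF (jEval M d) := by
    rw [hdgh, _root_.map_mul, _root_.map_mul, mul_div_mul_right _ _ (toFF_ne_zero hh), hzfg]
  have hordD : ∀ γ, -((d.natDegree * M : ℕ) : ℤ) ≤ (serAt γ (jEval M d)).order := by
    intro γ
    refine le_of_not_gt fun hlt => HahnSeries.coeff_order_eq_zero.not.mpr (serAt_ne_zero γ hD) ?_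
    set o := (serAt γ (jEval M d)).order
    rw [jEval, Polynomial.aeval_eq_sum_range, _root_.map_sum, HahnSeries.coeff_sum]
    refine Finset.sum_eq_zero fun i hi => ?_
    rw [Algebra.smul_def, algebraMap_modFun, _root_.map_mul, _root_.map_pow,
      show serAt γ (constHom (M := M) (d.coeff i)) = HahnSeries.C (iotaC (d.coeff i)) from
        (hasExp_serAt γ _).unique (NeZero.pos M) (hasExp_C M _),
      HahnSeries.C_mul_eq_smul, HahnSeries.coeff_smul,
      (coeff_pow_below (fun n (hn : n < -(M : ℤ)) =>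
        HahnSeries.coeff_eq_zero_of_lt_order (by rwa [order_serAt_jMod])) i).1 o (by
          have hi' : i ≤ d.natDegree := Nat.lt_succ_iff.mp (Finset.mem_range.mp hi)
          have : (i * M : ℕ) ≤ d.natDegree * M := Nat.mul_le_mul_right M hi'
          push_cast at hlt this ⊢
          nlinarith), smul_zero]
  have hfh : ∀ γ, -((d.natDegree * M : ℕ) : ℤ) ≤ (serAt γ (f * h)).order := fun γ => by
    have h1 := hzS γ
    have h2 : (cuspOrd M γ).toIntVal.w z = (serAt γ (f * h)).order - (serAt γ (jEval M d)).order :=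
      RingOrd.wFF_eq _ (mul_ne_zero hf hh) hD hzd
    have := hordD γ
    omega
  have h3 := le_ord_toFF_of_cusps v hv (mul_ne_zero hf hh) hfh
  have h4 : v.ord (toFF (jEval M d)) = (d.natDegree : ℤ) * v.ord (jF M) := by
    rw [toFF_jEval]
    exact (ord_aeval_of_neg v hv hd).2
  rw [hzd, div_eq_mul_inv, v.ord_mul (toFF_ne_zero (mul_ne_zero hf hh))
    (inv_ne_zero (toFF_ne_zero hD)), v.ord_inv, h4] at hzv
  omega

end FLTAgent.GammaH

end
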