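import Fermat.Agent.GammaH.Units

/-!
# Pull-back of modular functions along integral matrices and diamond operators

`pullF m` is composition with `τ ↦ m τ`; an invariant function with expansions in roots of `q`
at all cusps is a modular function (`mem_modFun_of_someExp`), and `diamond σ` is the operator of
`σ ∈ Γ₀(M)` on `modFun M`.
-/

set_option autoImplicit false

noncomputable section

open UpperHalfPlane Filter CongruenceSubgroup ModularCurve
open scoped Manifold MatrixGroups Topology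

namespace FLTAgent.GammaH

open FLTAgent.LevelM FLTAgent.HeckeJacobian

local notation "Qbar" => AlgebraicClosure ℚ
local notation "𝕢" => Function.Periodic.qParam
local notation "Mat" => Matrix (Fin 2) (Fin 2) ℤ

/-! ## Integral matrices of positive determinant -/

/-- An integral matrix of positive determinant as an element of `GL(2, ℝ)`. -/
def mGL (m : Mat) (h : 0 < m.det) : GL (Fin 2) ℝ :=
  Matrix.GeneralLinearGroup.mkOfDetNeZero (m.map ((↑) : ℤ → ℝ)) (by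
    rw [show ((↑) : ℤ → ℝ) = Int.castRingHom ℝ from rfl, ← RingHom.mapMatrix_apply,
      ← RingHom.map_det, eq_intCast]
    exact_mod_cast h.ne')

@[simp] theorem coe_mGL (m : Mat) (h : 0 < m.det) :
    (mGL m h : Matrix (Fin 2) (Fin 2) ℝ) = m.map ((↑) : ℤ → ℝ) := rfl

theorem mGL_pos (m : Mat) (h : 0 < m.det) : 0 < (mGL m h).det.val := by
  rw [Matrix.GeneralLinearGroup.val_det_apply, coe_mGL,
    show ((↑) : ℤ → ℝ) = Int.castRingHom ℝ from rfl, ← RingHom.mapMatrix_apply,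
      ← RingHom.map_det, eq_intCast]
  exact_mod_cast h

theorem coe_SL_GL (γ : SL(2, ℤ)) :
    (((γ : GL (Fin 2) ℝ)) : Matrix (Fin 2) (Fin 2) ℝ) = (γ : Mat).map ((↑) : ℤ → ℝ) := by
  ext i j
  simp

theorem map_mul_cast (m m' : Mat) :
    (m * m').map ((↑) : ℤ → ℝ) = m.map ((↑) : ℤ → ℝ) * m'.map ((↑) : ℤ → ℝ) :=
  (m.map_mul (f := Int.castRingHom ℝ) (M := m'))

/-- `τ ↦ m τ`. -/
def mSmul (m : Mat) (h : 0 < m.det) (τ : ℍ) : ℍ := mGL m h • τ

theorem mSmul_mul {m m' r : Mat} (h : 0 < m.det) (h' : 0 < m'.det) (hr : 0 < r.det)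
    (e : r = m * m') (τ : ℍ) : mSmul r hr τ = mSmul m h (mSmul m' h' τ) := by
  rw [mSmul, mSmul, mSmul, ← mul_smul]
  congr 1
  refine Units.ext ?_
  rw [Units.val_mul, coe_mGL, coe_mGL, coe_mGL, e, map_mul_cast]

theorem mSmul_SL (γ : SL(2, ℤ)) (h : 0 < (γ : Mat).det) (τ : ℍ) :
    mSmul (γ : Mat) h τ = γ • τ := by
  show mGL (γ : Mat) h • τ = (γ : GL (Fin 2) ℝ) • τ
  congr 1
  exact Units.ext (by rw [coe_mGL, coe_SL_GL])

theorem det_SL (γ : SL(2, ℤ)) : 0 < (γ : Mat).det := by rw [γ.det_coe]; exact one_pos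

/-- Composition with `τ ↦ m τ`. -/
def pullF (m : Mat) (h : 0 < m.det) : (ℍ → ℂ) →+* (ℍ → ℂ) where
  toFun f := fun τ => f (mSmul m h τ)
  map_one' := rfl
  map_mul' _ _ := rfl
  map_zero' := rfl
  map_add' _ _ := rfl

@[simp] theorem pullF_apply (m : Mat) (h : 0 < m.det) (f : ℍ → ℂ) (τ : ℍ) :
    pullF m h f τ = f (mSmul m h τ) := rfl

theorem mdiff_pullF (m : Mat) (h : 0 < m.det) {f : ℍ → ℂ} (hf : MDiff f) : MDiff (pullF m h f) :=
  hf.comp (mdifferentiable_smul (mGL_pos m h))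

theorem det_mul_SL_pos {m : Mat} (h : 0 < m.det) (δ : SL(2, ℤ)) : 0 < (m * (δ : Mat)).det := by
  rw [Matrix.det_mul, δ.det_coe, mul_one]; exact h

theorem act_pullF (m : Mat) (h : 0 < m.det) (δ : SL(2, ℤ)) (f : ℍ → ℂ) :
    act δ (pullF m h f) = pullF (m * (δ : Mat)) (det_mul_SL_pos h δ) f := by
  funext τ
  rw [act_apply, pullF_apply, pullF_apply, mSmul_mul h (det_SL δ) _ rfl, mSmul_SL]

theorem pullF_SL_mul {m r : Mat} (h : 0 < m.det) (hr : 0 < r.det) (γ : SL(2, ℤ))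
    (e : r = (γ : Mat) * m) (f : ℍ → ℂ) : pullF r hr f = pullF m h (act γ f) := by
  funext τ
  rw [pullF_apply, pullF_apply, act_apply, mSmul_mul (det_SL γ) h hr e, mSmul_SL]

/-- Every integral matrix of positive determinant is `γ (A B; 0 D)`. -/
theorem exists_upper (m : Mat) (h : 0 < m.det) :
    ∃ (γ : SL(2, ℤ)) (A B D : ℤ), 0 < A ∧ 0 < D ∧ m = (γ : Mat) * !![A, B; 0, D] := by
  have hne : m 0 0 ≠ 0 ∨ m 1 0 ≠ 0 := by
    by_contra! h0
    rw [Matrix.det_fin_two, h0.1, h0.2] at h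
    simp at h
  obtain ⟨g, x, y, hg, hcop, hx, hy⟩ :=
    Int.exists_gcd_one' (m := m 0 0) (n := m 1 0) (Int.gcd_pos_iff.mpr hne)
  obtain ⟨u, v, huv⟩ := Int.isCoprime_iff_gcd_eq_one.mpr hcop
  let γ : SL(2, ℤ) := ⟨!![x, -v; y, u], by rw [Matrix.det_fin_two_of]; linear_combination huv⟩
  set B : ℤ := u * m 0 1 + v * m 1 1
  set D : ℤ := -y * m 0 1 + x * m 1 1
  refine ⟨γ, g, B, D, by exact_mod_cast hg, ?_, ?_⟩
  · have : (g : ℤ) * D = m.det := by rw [Matrix.det_fin_two, hx, hy]; ring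
    have hgpos : (0 : ℤ) < g := by exact_mod_cast hg
    exact (mul_pos_iff_of_pos_left hgpos).mp (this ▸ h)
  · ext i j
    fin_cases i <;> fin_cases j <;>
      simp [γ, B, D, Matrix.mul_apply, Fin.sum_univ_two]
    · rw [hx]
    · linear_combination (-(m 0 1)) * huv
    · rw [hy]
    · linear_combination (-(m 1 1)) * huv

/-! ## Expansions -/

/-- An expansion in some root of `q`. -/
def SomeExp (f : ℍ → ℂ) : Prop := ∃ N : ℕ, 0 < N ∧ ∃ s, HasExp N f s

/-- An expansion with algebraic coefficients in some root of `q`. -/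
def SomeAlgExp (f : ℍ → ℂ) : Prop := ∃ N : ℕ, 0 < N ∧ ∃ t, HasExp N f (liftC t)

theorem HasExp.qExpand' {h : ℕ} {f : ℍ → ℂ} {s : LaurentSeries ℂ} (hs : HasExp h f s) (d : ℕ)
    [NeZero d] {h' : ℕ} (e : d * h = h') : HasExp h' f (qExpand ℂ d s) := e ▸ hs.qExpand d

theorem liftC_qExpand (d : ℕ) [NeZero d] (t : LaurentSeries Qbar) :
    liftC (qExpand Qbar d t) = qExpand ℂ d (liftC t) := coeffMap_qExpand _ _ _

theorem SomeExp.mul {f g : ℍ → ℂ} (hf : SomeExp f) (hg : SomeExp g) : SomeExp (f * g) := by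
  obtain ⟨a, ha, s, hs⟩ := hf
  obtain ⟨b, hb, t, ht⟩ := hg
  have : NeZero a := ⟨ha.ne'⟩
  have : NeZero b := ⟨hb.ne'⟩
  exact ⟨b * a, Nat.mul_pos hb ha, _,
    (HasExp.qExpand' hs b rfl).mul (HasExp.qExpand' ht a (mul_comm a b))⟩

theorem SomeAlgExp.mul {f g : ℍ → ℂ} (hf : SomeAlgExp f) (hg : SomeAlgExp g) :
    SomeAlgExp (f * g) := by
  obtain ⟨a, ha, s, hs⟩ := hf
  obtain ⟨b, hb, t, ht⟩ := hg
  have : NeZero a := ⟨ha.ne'⟩
  have : NeZero b := ⟨hb.ne'⟩
  exact ⟨b * a, Nat.mul_pos hb ha, qExpand Qbar b s * qExpand Qbar a t, by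
    rw [map_mul, liftC_qExpand, liftC_qExpand]
    exact (HasExp.qExpand' hs b rfl).mul (HasExp.qExpand' ht a (mul_comm a b))⟩

theorem someExp_one : SomeExp 1 := ⟨1, one_pos, 1, hasExp_one 1⟩

theorem someAlgExp_one : SomeAlgExp 1 := ⟨1, one_pos, 1, by rw [map_one]; exact hasExp_one 1⟩

theorem someExp_prod {ι : Type*} (S : Finset ι) {F : ι → ℍ → ℂ} (H : ∀ i ∈ S, SomeExp (F i)) :
    SomeExp (∏ i ∈ S, F i) :=
  Finset.prod_induction _ SomeExp (fun _ _ => SomeExp.mul) someExp_one H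

theorem someAlgExp_prod {ι : Type*} (S : Finset ι) {F : ι → ℍ → ℂ}
    (H : ∀ i ∈ S, SomeAlgExp (F i)) : SomeAlgExp (∏ i ∈ S, F i) :=
  Finset.prod_induction _ SomeAlgExp (fun _ _ => SomeAlgExp.mul) someAlgExp_one H

variable {M : ℕ} [NeZero M]

/-- Invariant functions with expansions in any roots of `q` are modular functions. -/
theorem mem_modFun_of_someExp {f : ℍ → ℂ} (hd : MDiff f)
    (hinv : ∀ γ ∈ Gamma1 M, act γ f = f) (hexp : ∀ δ, SomeExp (act δ f)) (halg : SomeAlgExp f) :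
    f ∈ modFun M := by
  have hper : ∀ δ : SL(2, ℤ), act (ModularGroup.T ^ (M : ℤ)) (act δ f) = act δ f := fun δ => by
    have hT : δ * ModularGroup.T ^ (M : ℤ) * δ⁻¹ ∈ Gamma1 M := by
      have hT : ModularGroup.T ^ (M : ℤ) ∈ Gamma M := by
        rw [Gamma_mem, ModularGroup.coe_T_zpow]
        simp
      have h := (Gamma_normal M).conj_mem _ hT δ
      rw [Gamma_mem] at h
      rw [Gamma1_mem]
      exact ⟨h.1, h.2.2.2, h.2.2.1⟩
    have := congrArg (act δ) (hinv _ hT)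
    rwa [← act_mul, inv_mul_cancel_right, act_mul] at this
  refine mem_modFun_of_width hd hinv (fun δ => ?_) ?_
  · obtain ⟨N, hN, s, hs⟩ := hexp δ
    have : NeZero N := ⟨hN.ne'⟩
    obtain ⟨t, ht, -⟩ := (HasExp.qExpand' hs M (mul_comm M N)).exists_descend
      (NeZero.pos M) (hper δ)
    exact ⟨t, ht⟩
  · obtain ⟨N, hN, s, hs⟩ := halg
    have : NeZero N := ⟨hN.ne'⟩
    obtain ⟨t, ht, htc⟩ := (HasExp.qExpand' hs M (mul_comm M N)).exists_descend (NeZero.pos M)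
      (by simpa [act_one] using hper 1)
    obtain ⟨t', rfl⟩ := exists_liftC_eq (s := t) fun k => ⟨(qExpand Qbar M s).coeff (N * k), by
      rw [htc k, ← liftC_qExpand, liftC_coeff]⟩
    exact ⟨t', ht⟩

/-- Substitution of an upper triangular matrix into an expansion. -/
theorem hasExp_pull_upper {h : ℕ} (hh : 0 < h) {f : ℍ → ℂ} {s : LaurentSeries ℂ}
    (hs : HasExp h f s) (A D : ℕ) [NeZero A] (hD : 0 < D) (B : ℤ)
    (hdet : 0 < (!![(A : ℤ), B; 0, (D : ℤ)]).det) :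
    HasExp (D * h) (pullF !![(A : ℤ), B; 0, (D : ℤ)] hdet f)
      (qExpand ℂ A (twist (zetaM (D * h) ^ B) s)) := by
  have hcoe : ∀ τ : ℍ, ((mSmul !![(A : ℤ), B; 0, (D : ℤ)] hdet τ : ℍ) : ℂ)
      = ((A : ℂ) * τ + B) / D := fun τ => by
    rw [mSmul, coe_smul_of_det_pos (mGL_pos _ hdet)]
    simp [UpperHalfPlane.num, UpperHalfPlane.denom, coe_mGL]
  have hA : (0 : ℝ) < A := by exact_mod_cast NeZero.pos A
  have hDr : (0 : ℝ) < D := by exact_mod_cast hD
  refine (hs.subst (d := A) (φ := mSmul _ hdet) (h' := D * h) (zetaM (D * h) ^ B) ?_ fun τ => ?_)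
  · refine tendsto_comap_iff.mpr ?_
    have him : ∀ τ : ℍ, (mSmul !![(A : ℤ), B; 0, (D : ℤ)] hdet τ).im = (A : ℝ) / D * τ.im := by
      intro τ
      have := congrArg Complex.im (hcoe τ)
      rw [Complex.div_natCast_im] at this
      simp at this
      rw [this]; ring
    rw [show UpperHalfPlane.im ∘ mSmul !![(A : ℤ), B; 0, (D : ℤ)] hdet
      = fun τ : ℍ => (A : ℝ) / D * τ.im from funext him]
    exact tendsto_comap.const_mul_atTop (div_pos hA hDr)
  · rw [hcoe, zetaM_zpow, Function.Periodic.qParam, Function.Periodic.qParam, ← Complex.exp_nat_mul,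
      ← Complex.exp_add]
    congr 1
    have : (D : ℂ) ≠ 0 := by exact_mod_cast hD.ne'
    have : (h : ℂ) ≠ 0 := by exact_mod_cast hh.ne'
    push_cast
    field_simp
    ring

theorem exists_upper_nat (m : Mat) (h : 0 < m.det) :
    ∃ (γ : SL(2, ℤ)) (A D : ℕ) (B : ℤ), 0 < A ∧ 0 < D ∧
      m = (γ : Mat) * !![(A : ℤ), B; 0, (D : ℤ)] := by
  obtain ⟨γ, A, B, D, hA, hD, e⟩ := exists_upper m h
  lift A to ℕ using hA.le
  lift D to ℕ using hD.le
  exact ⟨γ, A, D, B, by exact_mod_cast hA, by exact_mod_cast hD, e⟩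

theorem det_upper_pos {A D : ℕ} (hA : 0 < A) (hD : 0 < D) (B : ℤ) :
    0 < (!![(A : ℤ), B; 0, (D : ℤ)]).det := by
  rw [Matrix.det_fin_two_of, mul_zero, sub_zero]
  exact mul_pos (by exact_mod_cast hA) (by exact_mod_cast hD)

theorem someExp_act_pullF (f : modFun M) (m : Mat) (h : 0 < m.det) (δ : SL(2, ℤ)) :
    SomeExp (act δ (pullF m h (f : ℍ → ℂ))) := by
  obtain ⟨γ, A, D, B, hA, hD, e⟩ := exists_upper_nat _ (det_mul_SL_pos h δ)
  have : NeZero A := ⟨hA.ne'⟩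
  obtain ⟨s, hs⟩ := modFun_exp f γ
  rw [act_pullF, pullF_SL_mul (det_upper_pos hA hD B) _ γ e]
  exact ⟨D * M, Nat.mul_pos hD (NeZero.pos M), _, hasExp_pull_upper (NeZero.pos M) hs A D hD B _⟩

/-! ## Diamond operators -/

omit [NeZero M] in
theorem conj_mem_Gamma1 {σ γ : SL(2, ℤ)} (hσ : σ ∈ Gamma0 M) (hγ : γ ∈ Gamma1 M) :
    σ * γ * σ⁻¹ ∈ Gamma1 M := by
  rw [Gamma1_mem] at hγ ⊢
  rw [Gamma0_mem] at hσ
  have hdet := σ.det_coe
  rw [Matrix.det_fin_two] at hdet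
  have hdet' := congrArg (fun z : ℤ => (z : ZMod M)) hdet
  push_cast at hdet'
  rw [hσ, mul_zero, sub_zero] at hdet'
  rw [Matrix.SpecialLinearGroup.coe_mul, Matrix.SpecialLinearGroup.coe_mul,
    Matrix.SpecialLinearGroup.coe_inv, Matrix.adjugate_fin_two]
  refine ⟨?_, ?_, ?_⟩ <;>
    simp [Matrix.mul_apply, Fin.sum_univ_two, hγ.1, hγ.2.1, hγ.2.2, hσ] <;>
    linear_combination hdet'

variable [Fact (1 < M)]

theorem someAlgExp_act_gamma0 (f : modFun M) {σ : SL(2, ℤ)} (hσ : σ ∈ Gamma0 M) :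
    ∃ t : LaurentSeries Qbar, HasExp M (act σ (f : ℍ → ℂ)) (liftC t) := by
  let S : Subalgebra Qbar (modFun M) :=
    { carrier := {g | ∃ t, HasExp M (act σ (g : ℍ → ℂ)) (liftC t)}
      mul_mem' := fun {a b} ⟨s, hs⟩ ⟨t, ht⟩ =>
        ⟨s * t, by rw [MulMemClass.coe_mul, map_mul, map_mul]; exact hs.mul ht⟩
      add_mem' := fun {a b} ⟨s, hs⟩ ⟨t, ht⟩ =>
        ⟨s + t, by rw [AddMemClass.coe_add, map_add, map_add]; exact hs.add ht⟩
      algebraMap_mem' := fun c => ⟨HahnSeries.C c, by rw [liftC_C]; exact hasExp_C M _⟩ }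
  have hj : jMod M ∈ S := ⟨qExpand Qbar M (jqModC Qbar), by
    rw [liftC_qExpand, coe_jMod,
      show act σ ModularFF.jFun = ModularFF.jFun from funext fun τ => ModularFF.jFun_smul σ τ]
    exact HasExp.qExpand' hasExp_jFun M (mul_one M)⟩
  have hw : wGen M ∈ S := by
    refine ⟨wSerQ (vact (v01 M) σ), ?_⟩
    rw [coe_wGen, act_wFun]
    refine hasExp_wFun ?_
    rw [vact_v01]
    intro h0
    rw [Gamma0_mem] at hσ
    have h1 := congrFun h0 1
    have hdet := congrArg (fun z : ℤ => (z : ZMod M))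
      (σ.det_coe ▸ (Matrix.det_fin_two (σ : Mat)).symm)
    simp [hσ] at h1 hdet
    simp [h1] at hdet
  have hgen : toFF f ∈ IntermediateField.adjoin Qbar ({jF M} ∪ {toFF (wGen M)} : Set (FF M)) := by
    rw [← IntermediateField.adjoin_adjoin_left, IntermediateField.mem_restrictScalars,
      adjoin_wGen_eq_top]
    trivial
  obtain ⟨a, ha, b, hb, hab⟩ := IntermediateField.mem_adjoin_iff_div.mp hgen
  have hle : Algebra.adjoin Qbar ({jF M} ∪ {toFF (wGen M)} : Set (FF M)) ≤ S.map toFF := by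
    refine Algebra.adjoin_le ?_
    rintro x (rfl | rfl)
    · exact ⟨jMod M, hj, rfl⟩
    · exact ⟨wGen M, hw, rfl⟩
  obtain ⟨A, ⟨tA, hA⟩, rfl⟩ := hle ha
  obtain ⟨B, ⟨tB, hB⟩, rfl⟩ := hle hb
  rcases eq_or_ne B 0 with rfl | hB0
  · have : f = 0 := toFF_injective (by simpa using hab)
    subst this
    exact ⟨0, by simpa using hasExp_zero M⟩
  have hfB : f * B = A := toFF_injective (by
    rw [map_mul, hab]
    exact div_mul_cancel₀ _ (toFF_ne_zero hB0))
  obtain ⟨s, hs⟩ := modFun_exp f σ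
  have h1 : s * liftC tB = liftC tA := (hs.mul hB).unique (NeZero.pos M) (by
    rw [← hfB, MulMemClass.coe_mul, map_mul] at hA; exact hA)
  have htB : liftC tB ≠ 0 := fun h0 => serAt_ne_zero σ hB0
    ((hasExp_serAt σ B).unique (NeZero.pos M) (h0 ▸ hB))
  refine ⟨tA / tB, ?_⟩
  rw [map_div₀, ← h1, mul_div_cancel_right₀ _ htB]
  exact hs

/-- The diamond operator of `σ ∈ Γ₀(M)` on modular functions. -/
def diamond (σ : SL(2, ℤ)) (hσ : σ ∈ Gamma0 M) : modFun M →+* modFun M where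
  toFun f := ⟨act σ (f : ℍ → ℂ), mem_modFun_of_width (mdifferentiable_act σ (modFun_mdiff f))
    (fun γ hγ => by
      rw [← act_mul, show σ * γ = (σ * γ * σ⁻¹) * σ by group, act_mul,
        modFun_act f (conj_mem_Gamma1 hσ hγ)])
    (fun δ => by rw [← act_mul]; exact modFun_exp f _) (someAlgExp_act_gamma0 f hσ)⟩
  map_one' := Subtype.ext (map_one (act σ))
  map_mul' a b := Subtype.ext (map_mul (act σ) (a : ℍ → ℂ) b)
  map_zero' := Subtype.ext (map_zero (act σ))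
  map_add' a b := Subtype.ext (map_add (act σ) (a : ℍ → ℂ) b)

@[simp] theorem coe_diamond (σ : SL(2, ℤ)) (hσ : σ ∈ Gamma0 M) (f : modFun M) :
    (diamond σ hσ f : ℍ → ℂ) = act σ (f : ℍ → ℂ) := rfl

end FLTAgent.GammaH

end
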