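import Fermat.Agent.GammaH.ReductionInjective

/-!
# Normalised series and injectivity of reduction on `V_n(M)`

For a place `A` of `ℚ̄` over a prime `p ∤ M`: every modular function is a constant times a series
with coefficients in `A` and nonzero reduction, and an element of `divGroup M n`, `p ∤ n`, whose
reduction is constant is an `n`-th power.
-/

set_option autoImplicit false

noncomputable section

open UpperHalfPlane CongruenceSubgroup ModularCurve Polynomial AlgebraicCurve
open scoped MatrixGroups IntermediateField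

namespace FLTAgent.GammaH

open FLTAgent.LevelM FLTAgent.GoodReduction FLTAgent.FFBasic

local notation "Qbar" => AlgebraicClosure ℚ

variable {A : ValuationSubring (AlgebraicClosure ℚ)}

local notation "κ" => IsLocalRing.ResidueField A
local notation "inc" => coeffMap (ValuationSubring.subtype A)
local notation "rdc" => coeffMap (IsLocalRing.residue A)

theorem coeffMap_C {R S : Type*} [CommRing R] [CommRing S] (f : R →+* S) (a : R) :
    coeffMap f (HahnSeries.C a) = HahnSeries.C (f a) := by
  rw [HahnSeries.C_apply, coeffMap_single, HahnSeries.C_apply]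

/-- Two series with nonzero reductions which are proportional have proportional reductions. -/
theorem red_proportional {q : Qbar} {s t : LaurentSeries A} (hs : rdc s ≠ 0) (ht : rdc t ≠ 0)
    (h : inc t = HahnSeries.C q * inc s) : ∃ b : κ, b ≠ 0 ∧ rdc t = HahnSeries.C b * rdc s := by
  rcases A.mem_or_inv_mem q with hq | hq
  · have ht' : t = HahnSeries.C (⟨q, hq⟩ : A) * s :=
      GoodReduction.inc_injective A (by rw [map_mul, coeffMap_C, h]; rfl)
    refine ⟨IsLocalRing.residue A ⟨q, hq⟩, fun h0 => ht ?_, ?_⟩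
    · rw [ht', map_mul, coeffMap_C, h0, map_zero, zero_mul]
    · rw [ht', map_mul, coeffMap_C]
  · have hq0 : q ≠ 0 := fun h0 => ht (by
      rw [h0, map_zero, zero_mul] at h
      rw [show t = 0 from GoodReduction.inc_injective A (h.trans (map_zero _).symm), map_zero])
    have hs' : s = HahnSeries.C (⟨q⁻¹, hq⟩ : A) * t :=
      GoodReduction.inc_injective A (by
        rw [map_mul, coeffMap_C, h, ← mul_assoc, ← map_mul,
          show A.subtype ⟨q⁻¹, hq⟩ = q⁻¹ from rfl, inv_mul_cancel₀ hq0, map_one, one_mul])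
    have hb : IsLocalRing.residue A ⟨q⁻¹, hq⟩ ≠ 0 := fun h0 => hs (by
      rw [hs', map_mul, coeffMap_C, h0, map_zero, zero_mul])
    refine ⟨(IsLocalRing.residue A ⟨q⁻¹, hq⟩)⁻¹, inv_ne_zero hb, ?_⟩
    rw [hs', map_mul, coeffMap_C, ← mul_assoc, ← map_mul, inv_mul_cancel₀ hb, map_one, one_mul]

theorem coe_algebraMap_FF {M : ℕ} (c : Qbar) :
    ((algebraMap Qbar (FF M) c : FF M) : LaurentSeries Qbar) = HahnSeries.C c := by
  rw [HahnSeries.C_apply]
  exact algebraMap_laurentSeries_eq_single Qbar c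

variable {M N K : ℕ} [NeZero M] [Fact (1 < M)] [NeZero N] [NeZero K]

/-- Every element is a constant times a ratio of integral elements with nonzero reductions. -/
theorem GoodSetup.exists_frac (S : GoodSetup A M N K) {x : FF M} (hx : x ≠ 0) :
    ∃ (c : Qbar) (s t : intSer A M), c ≠ 0 ∧ redSer s ≠ 0 ∧ redSer t ≠ 0 ∧
      x * (t : FF M) = algebraMap Qbar (FF M) c * s := by
  obtain ⟨e, D, P, he, hD, hP, heq⟩ := (goodModel S).exists_frac hx
  exact ⟨e, (goodModel S).comb P, (goodModel S).ev D, he, (goodModel S).ρ_comb_ne_zero hP,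
    (goodModel S).ρ_ev_ne_zero hD, heq⟩

omit [Fact (1 < M)] in
theorem isIntegral_ser (f : modFun M) :
    IsIntegral (Algebra.adjoin Qbar {jqModC Qbar}) (ser f) := by
  obtain ⟨Q, hQ, -, hev⟩ := exists_monic_relation f
  have hc : ∀ P : Qbar[X], ser (jEval M P) = aeval (jqModC Qbar) P := fun P => by
    rw [← coe_toFF, toFF_jEval, ← coe_jF (M := M)]
    exact (Polynomial.aeval_algHom_apply (FF M).val (jF M) P).symm
  let ψ : Qbar[X] →+* Algebra.adjoin Qbar {jqModC Qbar} :=
    (aeval (R := Qbar) (⟨jqModC Qbar, Algebra.self_mem_adjoin_singleton Qbar _⟩ :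
      Algebra.adjoin Qbar {jqModC Qbar})).toRingHom
  refine ⟨Q.map ψ, hQ.map ψ, ?_⟩
  have h0 := congrArg (ser (M := M)) hev
  rw [Polynomial.hom_eval₂, map_zero] at h0
  rw [Polynomial.eval₂_map]
  refine Eq.trans ?_ h0
  congr 1
  refine RingHom.ext fun P => ?_
  show _ = ser (jEval M P)
  rw [hc]
  exact (Polynomial.aeval_algHom_apply (Algebra.adjoin Qbar {jqModC Qbar}).val _ P).symm

/-- A modular function is a constant times an integral element with nonzero reduction. -/
theorem GoodSetup.exists_normalized (S : GoodSetup A M N K) {f : modFun M} (hf : f ≠ 0) :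
    ∃ (c : Qbar) (z : intSer A M), c ≠ 0 ∧ redSer z ≠ 0 ∧
      toFF f = algebraMap Qbar (FF M) c * z := by
  obtain ⟨ϖ, hϖ, hϖ0⟩ := S.exists_maximal_ne_zero
  have hϖ0' : (ϖ : Qbar) ≠ 0 := fun h => hϖ0 (Subtype.ext h)
  have hj : jqModC Qbar ∈ (coeffMap A.subtype).range := ⟨jqModC A, coeffMap_jqModC A.subtype⟩
  obtain ⟨n, hn⟩ := exists_pow_mul_isIntegral_subring
    (R := (Algebra.adjoin Qbar {jqModC Qbar}).toSubring) (R' := (coeffMap A.subtype).range)
    (u := HahnSeries.C (ϖ : Qbar)) ⟨HahnSeries.C ϖ, coeffMap_C _ _⟩ (fun a ha => by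
      rw [Subalgebra.mem_toSubring] at ha
      induction ha using Algebra.adjoin_induction with
      | mem y hy =>
        rw [Set.mem_singleton_iff] at hy
        exact ⟨0, by rw [pow_zero, one_mul, hy]; exact hj⟩
      | algebraMap c =>
        obtain ⟨m, hm⟩ := exists_pow_mul_mem S.rank_one hϖ c
        refine ⟨m, HahnSeries.C ⟨_, hm⟩, ?_⟩
        rw [coeffMap_C, algebraMap_laurentSeries_eq_single, ← HahnSeries.C_apply, ← map_pow,
          ← map_mul]
        rfl
      | add y z _ _ hy hz =>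
        obtain ⟨m, hm⟩ := hy; obtain ⟨l, hl⟩ := hz
        refine ⟨m + l, ?_⟩
        have hC : HahnSeries.C (ϖ : Qbar) ∈ (coeffMap A.subtype).range :=
          ⟨HahnSeries.C ϖ, coeffMap_C _ _⟩
        rw [mul_add, pow_add]
        refine add_mem ?_ ?_
        · rw [mul_right_comm]; exact mul_mem hm (pow_mem hC l)
        · rw [mul_assoc]; exact mul_mem (pow_mem hC m) hl
      | mul y z _ _ hy hz =>
        obtain ⟨m, hm⟩ := hy; obtain ⟨l, hl⟩ := hz
        exact ⟨m + l, by rw [pow_add, mul_mul_mul_comm]; exact mul_mem hm hl⟩) (isIntegral_ser f)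
  set x : FF M := algebraMap Qbar (FF M) ((ϖ : Qbar) ^ n) * toFF f with hxdef
  have hxser : (x : LaurentSeries Qbar) = HahnSeries.C (ϖ : Qbar) ^ n * ser f := by
    rw [hxdef, IntermediateField.coe_mul, coe_algebraMap_FF, map_pow, coe_toFF]
  have hx0 : x ≠ 0 := mul_ne_zero (by simpa using pow_ne_zero n hϖ0') (toFF_ne_zero hf)
  obtain ⟨e, s, t, he, hs, ht, hst⟩ := S.exists_frac hx0
  have hst' : (x : LaurentSeries Qbar) * inc (intSeries t) =
      HahnSeries.C e * inc (intSeries s) := by
    have h := congrArg (fun w : FF M => (w : LaurentSeries Qbar)) hst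
    simp only [IntermediateField.coe_mul, coe_algebraMap_FF] at h
    rwa [coeffMap_intSeries, coeffMap_intSeries]
  have ht0 : intSeries t ≠ 0 := fun h => ht (Subtype.ext (by rw [coe_redSer, h, map_zero]; rfl))
  have hint : (coeffMap A.subtype).IsIntegralElem (x : LaurentSeries Qbar) :=
    isIntegralElem_of_isIntegral_subring le_rfl (by rw [hxser]; exact hn)
  obtain ⟨y, hy⟩ : ∃ y, inc y = (x : LaurentSeries Qbar) := by
    rcases A.mem_or_inv_mem e with he' | he'
    · refine exists_coeff_of_integral S.rank_one hint ht0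
        (a := HahnSeries.C ⟨e, he'⟩ * intSeries s) ?_
      rw [map_mul, coeffMap_C, mul_comm]
      exact hst'
    · refine exists_coeff_of_integral S.rank_one hint
        (b := HahnSeries.C ⟨e⁻¹, he'⟩ * intSeries t) (a := intSeries s)
        (mul_ne_zero ?_ ht0) ?_
      · rw [HahnSeries.C_apply]
        exact HahnSeries.single_ne_zero fun h => inv_ne_zero he (congrArg Subtype.val h)
      · rw [map_mul, coeffMap_C, mul_assoc, mul_comm (inc (intSeries t)), hst', ← mul_assoc,
          ← map_mul, show A.subtype ⟨e⁻¹, he'⟩ = e⁻¹ from rfl, inv_mul_cancel₀ he, map_one, one_mul]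
  let xs : intSer A M := ⟨x, mem_intSer.mpr ⟨y, hy⟩⟩
  obtain ⟨a, z, -, -, ha, hz, hz0, -, -⟩ :=
    exists_primitive S (s := xs) (fun h => hx0 (congrArg Subtype.val h))
  refine ⟨((ϖ : Qbar) ^ n)⁻¹ * (a : Qbar), z,
    mul_ne_zero (inv_ne_zero (pow_ne_zero n hϖ0')) (fun h => ha (Subtype.ext h)), hz0, ?_⟩
  have h := congrArg Subtype.val hz
  rw [Subring.coe_mul, coe_constInt] at h
  rw [map_mul, mul_assoc, ← h]
  show _ = _ * x
  rw [hxdef, ← mul_assoc, ← map_mul, inv_mul_cancel₀ (pow_ne_zero n hϖ0'), map_one, one_mul]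

/-! ## Interface at a place over a prime not dividing `M` -/

section Interface

omit [NeZero N] [NeZero K]
variable {p : ℕ} [Fact p.Prime]

theorem exists_normalized (hA : A.LiesOverPrime p) (hpM : ¬ p ∣ M) {f : modFun M} (hf : f ≠ 0) :
    ∃ (c : Qbar) (s : LaurentSeries A), c ≠ 0 ∧ rdc s ≠ 0 ∧
      ser f = HahnSeries.C c * inc s := by
  obtain ⟨N, K, S⟩ := exists_goodSetup hA Fact.out hpM
  have : NeZero N := ⟨by have := S.three_le; omega⟩
  have : NeZero K := ⟨S.small.pos.ne'⟩
  obtain ⟨c, z, hc, hz, h⟩ := S.exists_normalized hf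
  refine ⟨c, intSeries z, hc, fun h0 => hz (Subtype.ext h0), ?_⟩
  rw [← coe_toFF, h, IntermediateField.coe_mul, coe_algebraMap_FF, coeffMap_intSeries]

/-- **Injectivity of reduction**, general form: the reduction is a constant times an `n`-th
power of an element of the reduced field. -/
theorem exists_pow_eq_of_reduction_pow (hA : A.LiesOverPrime p) (hpM : ¬ p ∣ M) {n : ℕ}
    (hn : (n : κ) ≠ 0) {x : FF M} (hx : x ≠ 0)
    (hdvd : ∀ v : Place Qbar (FF M), (n : ℤ) ∣ v.ord x) {c : Qbar} {s t : LaurentSeries A}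
    (hst : (x : LaurentSeries Qbar) * inc t = HahnSeries.C c * inc s) (ht : rdc t ≠ 0)
    {a : κ} (ha : a ≠ 0) {u : LaurentSeries κ} (hu : u ∈ redField A M) (hu0 : u ≠ 0)
    (hred : rdc s = HahnSeries.C a * rdc t * u ^ n) : ∃ y : FF M, y ^ n = x := by
  obtain ⟨N, K, S⟩ := exists_goodSetup hA Fact.out hpM
  have : NeZero N := ⟨by have := S.three_le; omega⟩
  have : NeZero K := ⟨S.small.pos.ne'⟩
  obtain ⟨e, s', t', he, hs', ht', hst'⟩ := S.exists_frac hx
  have hs0 : rdc s ≠ 0 := by
    rw [hred]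
    exact mul_ne_zero (mul_ne_zero
      (by rw [HahnSeries.C_apply]; exact HahnSeries.single_ne_zero ha) ht) (pow_ne_zero _ hu0)
  have hs'0 : rdc (intSeries s') ≠ 0 := fun h0 => hs' (Subtype.ext h0)
  have ht'0 : rdc (intSeries t') ≠ 0 := fun h0 => ht' (Subtype.ext h0)
  have h' : (x : LaurentSeries Qbar) * inc (intSeries t') =
      HahnSeries.C e * inc (intSeries s') := by
    have h := congrArg (fun w : FF M => (w : LaurentSeries Qbar)) hst'
    simp only [IntermediateField.coe_mul, coe_algebraMap_FF] at h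
    rwa [coeffMap_intSeries, coeffMap_intSeries]
  obtain ⟨b, hb, hbe⟩ := red_proportional (q := c / e) (s := s * intSeries t')
    (t := intSeries s' * t) (by rw [map_mul]; exact mul_ne_zero hs0 ht'0)
    (by rw [map_mul]; exact mul_ne_zero hs'0 ht) (by
      rw [map_mul, map_mul]
      refine mul_left_cancel₀ (show (HahnSeries.C e : LaurentSeries Qbar) ≠ 0 by
        rw [HahnSeries.C_apply]; exact HahnSeries.single_ne_zero he) ?_
      rw [← mul_assoc, ← h', mul_right_comm, hst, ← mul_assoc (HahnSeries.C e), ← map_mul,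
        mul_div_cancel₀ _ he]
      ring)
  refine S.exists_pow_eq hn hx hdvd ht' hst' hs' (a := b * a) (u := ⟨u, hu⟩) ?_
  refine Subtype.ext (mul_right_cancel₀ ht ?_)
  rw [map_mul, map_mul, hred] at hbe
  rw [IntermediateField.coe_mul, IntermediateField.coe_mul, IntermediateField.coe_pow, coe_redSer,
    coe_redSer, hbe,
    show ((algebraMap κ (redField A M) (b * a) : redField A M) : LaurentSeries κ) =
      HahnSeries.C (b * a) by
        rw [HahnSeries.C_apply]; exact algebraMap_laurentSeries_eq_single κ _, map_mul]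
  ring

omit [Fact (1 < M)] [NeZero M] in
/-- Reductions of series of field elements lie in the reduced field. -/
theorem red_mem_redField {f : FF M} {y : LaurentSeries A}
    (hy : inc y = (f : LaurentSeries Qbar)) : rdc y ∈ redField A M := by
  have h := (redSer (⟨f, mem_intSer.mpr ⟨y, hy⟩⟩ : intSer A M)).2
  rwa [coe_redSer, intSeries_eq (y := y) hy] at h

/-- **Injectivity of reduction.** An element with all orders divisible by `n`, `p ∤ n`, whose
reduction is a nonzero constant, is an `n`-th power. -/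
theorem exists_pow_eq_of_reduction (hA : A.LiesOverPrime p) (hpM : ¬ p ∣ M) {n : ℕ}
    (hn : (n : κ) ≠ 0) {x : FF M} (hx : x ≠ 0)
    (hdvd : ∀ v : Place Qbar (FF M), (n : ℤ) ∣ v.ord x) {c : Qbar} {s t : LaurentSeries A}
    (hst : (x : LaurentSeries Qbar) * inc t = HahnSeries.C c * inc s) (ht : rdc t ≠ 0)
    {a : κ} (ha : a ≠ 0) (hred : rdc s = HahnSeries.C a * rdc t) : ∃ y : FF M, y ^ n = x :=
  exists_pow_eq_of_reduction_pow hA hpM hn hx hdvd hst ht ha (one_mem _) one_ne_zero
    (by rw [one_pow, mul_one]; exact hred)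

/-- **Injectivity of reduction on `V_n(M)`.** -/
theorem mem_powGroup_of_reduction (hA : A.LiesOverPrime p) (hpM : ¬ p ∣ M) {n : ℕ}
    (hn : (n : κ) ≠ 0) (h : divGroup M n) {c : Qbar} {s t : LaurentSeries A}
    (hst : (((h : (FF M)ˣ) : FF M) : LaurentSeries Qbar) * inc t = HahnSeries.C c * inc s)
    (ht : rdc t ≠ 0) {a : κ} (ha : a ≠ 0) (hred : rdc s = HahnSeries.C a * rdc t) :
    h ∈ powGroup M n := by
  obtain ⟨y, hy⟩ := exists_pow_eq_of_reduction hA hpM hn (Units.ne_zero _) h.2 hst ht ha hred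
  have hn0 : n ≠ 0 := by rintro rfl; simp at hn
  have hy0 : y ≠ 0 := fun h0 => Units.ne_zero (h : (FF M)ˣ)
    (by rw [← hy, h0, zero_pow hn0])
  exact ⟨Units.mk0 y hy0, Units.ext (by simpa using hy)⟩

end Interface

end FLTAgent.GammaH

end
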