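import Fermat.Agent.GammaH.ReductionModel
import Fermat.Agent.GammaH.Kummer
import Fermat.Agent.GoodReduction.Charts

/-!
# Reduction is injective on `V_n(M)` at places prime to `n M`

Integral functions are lifted on the two `j`-charts of the reduced model. If the reduction of
`x`, all of whose orders are divisible by `n`, is an `n`-th power up to a constant, then `x` is an
`n`-th power (`GoodSetup.exists_pow_eq`).
-/

set_option autoImplicit false

noncomputable section

open UpperHalfPlane CongruenceSubgroup ModularCurve Polynomial AlgebraicCurve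
open scoped MatrixGroups IntermediateField

namespace FLTAgent.GammaH

attribute [local instance high] SubalgebraClass.toAlgebra HahnSeries.powerSeriesAlgebra

open FLTAgent.LevelM FLTAgent.GoodReduction FLTAgent.FFBasic

local notation "Qbar" => AlgebraicClosure ℚ
local notation "ιC" => ((iotaC : Qbar →ₐ[ℚ] ℂ) : Qbar →+* ℂ)

variable {A : ValuationSubring (AlgebraicClosure ℚ)}

local notation "κ" => IsLocalRing.ResidueField A

variable {M N K : ℕ} [NeZero M] [Fact (1 < M)] [NeZero N] [NeZero K]

omit [Fact (1 < M)] in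
theorem inB_toFF (F : modFun M) : Deuring.InB Qbar (jF M) (toFF F) := fun v hv =>
  ord_nonneg_of_mem v (toFF_mem_of_jF_mem v (mem_of_ord_nonneg v hv) F)

theorem inB_redBasis (S : GoodSetup A M N K) (i : Fin (gammaPM M).index) :
    Deuring.InB Qbar (jF M) (redBasis S i : FF M) := by
  obtain ⟨F, f, hF, -⟩ := exists_modFun_redBasis S i
  rw [hF]
  exact inB_toFF F

theorem qExpandAlgHomC_isIntegral {s w : LaurentSeries κ}
    (h : IsIntegral (Algebra.adjoin κ {s}) w) :
    IsIntegral (Algebra.adjoin κ {qExpandAlgHomC κ N s}) (qExpandAlgHomC κ N w) := by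
  have hmem : ∀ r : Algebra.adjoin κ {s},
      qExpandAlgHomC κ N (r : LaurentSeries κ) ∈ Algebra.adjoin κ {qExpandAlgHomC κ N s} := by
    intro r
    rw [← AlgHom.map_adjoin_singleton]
    exact ⟨(r : LaurentSeries κ), r.2, rfl⟩
  let ψ : Algebra.adjoin κ {s} →+* Algebra.adjoin κ {qExpandAlgHomC κ N s} :=
    ((qExpandAlgHomC κ N).toRingHom.comp (Algebra.adjoin κ {s}).val.toRingHom).codRestrict
      (Algebra.adjoin κ {qExpandAlgHomC κ N s}).toSubring hmem
  exact h.map_of_comp_eq ψ (qExpandAlgHomC κ N).toRingHom (RingHom.ext fun _ => rfl)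

theorem qExpand_coe_mem_ratio (S : GoodSetup A M N K) (w : redField A M) :
    InRatio (redHom (levelExp A ιC N)) (gammaH A M N) (qExpandAlgHomC κ N (w : LaurentSeries κ)) :=
  map_redField_le S ⟨(w : LaurentSeries κ), w.2, rfl⟩

/-- Lifting on the finite chart. -/
theorem exists_lift_fin (S : GoodSetup A M N K) (w : redField A M)
    (hw : Deuring.InB κ (jRed A M) w) :
    ∃ s : intSer A M, Deuring.InB Qbar (jF M) (s : FF M) ∧ redSer s = w := by
  have := isFunctionField_redField S
  have : IsAlgClosed κ := Deuring.isAlgClosed_residueField A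
  have := Fintype.ofFinite (levelSubgroup A ιC N K)
  have : IsDomain (LevelRing A ιC N) := isDomain_levelRing
  have hi := qExpandAlgHomC_isIntegral (N := N)
    (Deuring.Modular.isIntegral_coe_of_isIntegral _ (Deuring.isIntegral_of_inB hw))
  rw [← redHom_levelJ_eq] at hi
  obtain ⟨f, hf, hfw⟩ := (levelData S.small S.dvd_K S.goodRing S.rank_one
    S.exists_maximal_ne_zero).exists_invariant_red_fin
    (cuspData S.small S.dvd_K S.three_le S.goodRing) (gammaH A M N) _ (qExpand_coe_mem_ratio S w) hi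
  obtain ⟨F, s, hsF, -, hs⟩ := exists_intSer S hf
  refine ⟨s, hsF ▸ inB_toFF F, Subtype.ext (qExpand_injective N ?_)⟩
  rw [qExpand_redSer hs, hfw, qExpandAlgHomC_apply]

omit [Fact (1 < M)] in
theorem jqModC_inv_red :
    ∃ s : intSer A M, (s : FF M) = (jF M)⁻¹ ∧ (redSer s : LaurentSeries κ) = (jqModC κ)⁻¹ := by
  obtain ⟨y, hy⟩ := exists_inc_eq_inv_j (L := Qbar) A
  have hmem : (jF M)⁻¹ ∈ intSer A M :=
    mem_intSer.mpr ⟨y, by rw [IntermediateField.coe_inv, coe_jF, hy]⟩
  refine ⟨⟨_, hmem⟩, rfl, ?_⟩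
  have h1 : (⟨_, hmem⟩ : intSer A M) * ⟨jF M, jF_mem_intSer⟩ = 1 :=
    Subtype.ext (inv_mul_cancel₀ fun h => transcendental_jF (M := M) (h ▸ isAlgebraic_zero))
  have h2 := congrArg (fun z => (redSer z : LaurentSeries κ)) h1
  simp only [map_mul, map_one, IntermediateField.coe_mul, OneMemClass.coe_one] at h2
  have e : (redSer (⟨jF M, jF_mem_intSer⟩ : intSer A M) : LaurentSeries κ) = jqModC κ := coe_jRed
  rw [e] at h2
  exact eq_inv_of_mul_eq_one_left h2

omit [Fact (1 < M)] [NeZero K] in
/-- Pole bounds at the cusps of an invariant element. -/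
theorem order_serAt_le (S : GoodSetup A M N K) {n : ℕ} {f : LevelRing A ιC N}
    (hb : PoleBounded (LevelGroup A ιC N) (levelExp A ιC N) N n f) {F : modFun M}
    (hF : (F : ℍ → ℂ) = f) (hF0 : F ≠ 0) (γ : SL(2, ℤ)) :
    -((n * M : ℕ) : ℤ) ≤ (serAt γ F).order := by
  obtain ⟨d, hd⟩ := S.dvd_M
  have : NeZero d := ⟨fun h => NeZero.ne N (by rw [hd, h, mul_zero])⟩
  have h1 := (hasExp_serAt γ F).qExpand d
  have h2 := hasExp_levelExp (gEl A ιC N γ • f)
  rw [coe_gEl_smul, ← hF] at h2
  have hd' : d * M = N := by rw [hd, mul_comm]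
  have h3 : qExpand ℂ d (serAt γ F) =
      coeffMap (coeffHom A ιC) (levelExp A ιC N (gEl A ιC N γ • f)) :=
    h1.unique (Nat.mul_pos (NeZero.pos d) (NeZero.pos M))
      (by rw [hd']; exact h2)
  by_contra hlt
  push Not at hlt
  refine HahnSeries.coeff_order_eq_zero.not.mpr (serAt_ne_zero γ hF0) ?_
  set o := (serAt γ F).order
  rw [← qExpand_coeff_mul d (serAt γ F), h3, coeffMap_coeff, hb _ _ ?_, map_zero]
  have hdpos : (0 : ℤ) < d := by exact_mod_cast NeZero.pos d
  have hlt' : (d : ℤ) * o < (d : ℤ) * -((n * M : ℕ) : ℤ) := mul_lt_mul_of_pos_left hlt hdpos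
  refine lt_of_lt_of_eq hlt' ?_
  rw [← hd']
  push_cast
  ring

/-- Lifting on the chart at infinity. -/
theorem exists_lift_inf (S : GoodSetup A M N K) (w : redField A M)
    (hw : Deuring.InB κ (jRed A M)⁻¹ w) :
    ∃ s : intSer A M, Deuring.InB Qbar (jF M)⁻¹ (s : FF M) ∧ redSer s = w := by
  have := isFunctionField_redField S
  have : IsAlgClosed κ := Deuring.isAlgClosed_residueField A
  have := Fintype.ofFinite (levelSubgroup A ιC N K)
  have : IsDomain (LevelRing A ιC N) := isDomain_levelRing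
  have hi := qExpandAlgHomC_isIntegral (N := N)
    (Deuring.Modular.isIntegral_coe_of_isIntegral _ (Deuring.isIntegral_of_inB hw))
  rw [IntermediateField.coe_inv, map_inv₀, ← redHom_levelJ_eq] at hi
  obtain ⟨n, f, hf, hb, hfw⟩ := (levelData S.small S.dvd_K S.goodRing S.rank_one
    S.exists_maximal_ne_zero).exists_invariant_red_inf
    (cuspData S.small S.dvd_K S.three_le S.goodRing) (gammaH A M N) _ (qExpand_coe_mem_ratio S w) hi
  obtain ⟨F, s, hsF, hFf, hs⟩ := exists_intSer S hf
  obtain ⟨t, htF, htr⟩ := jqModC_inv_red (A := A) (M := M)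
  refine ⟨s * t ^ n, ?_, Subtype.ext (qExpand_injective N ?_)⟩
  · intro v hv
    push_cast
    rw [hsF, htF]
    rw [v.ord_inv] at hv
    have hj : jF M ≠ 0 := fun h => transcendental_jF (M := M) (h ▸ isAlgebraic_zero)
    by_cases hF0 : F = 0
    · simp [hF0]
    rw [v.ord_mul (toFF_ne_zero hF0) (pow_ne_zero _ (inv_ne_zero hj)), FFBasic.ord_pow, v.ord_inv]
    rcases lt_or_eq_of_le (show v.ord (jF M) ≤ 0 by omega) with h | h
    · have := le_ord_toFF_of_cusps v h hF0 (order_serAt_le S hb hFf hF0)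
      rw [mul_neg]
      omega
    · rw [h, neg_zero, mul_zero, add_zero]
      exact ord_nonneg_of_mem v (toFF_mem_of_jF_mem v (mem_of_ord_nonneg v h.ge) F)
  · rw [← qExpandAlgHomC_apply, ← qExpandAlgHomC_apply, hfw, map_mul, map_pow,
      IntermediateField.coe_mul, IntermediateField.coe_pow, map_mul, map_pow, htr,
      redHom_levelJ_eq (M := M), coe_jRed, map_inv₀]
    congr 1
    exact qExpand_redSer hs

/-- The two `j`-charts. -/
def goodAtlas (S : GoodSetup A M N K) [IsAlgClosed κ] [FFBasic.IsFunctionField κ (redField A M)] :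
    (goodModel S).toReduction.Atlas :=
  (goodModel S).atlas (inB_redBasis S) (fun w hw => exists_lift_fin S w hw)
    (fun w hw => exists_lift_inf S w hw)

/-- The reduction of a function with orders divisible by `n` being an `n`-th power up to a
constant forces it to be an `n`-th power. -/
theorem GoodSetup.exists_pow_eq (S : GoodSetup A M N K) {n : ℕ} (hn : (n : κ) ≠ 0) {x : FF M}
    (hx : x ≠ 0) (hdvd : ∀ v : Place Qbar (FF M), (n : ℤ) ∣ v.ord x) {c : Qbar}
    {s t : intSer A M} (ht : redSer t ≠ 0) (hst : x * (t : FF M) = algebraMap Qbar (FF M) c * s)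
    {a : κ} {u : redField A M} (hs0 : redSer s ≠ 0)
    (hred : redSer s = algebraMap κ (redField A M) a * redSer t * u ^ n) :
    ∃ y : FF M, y ^ n = x := by
  have : IsAlgClosed κ := Deuring.isAlgClosed_residueField A
  have := isFunctionField_redField S
  have hn0 : n ≠ 0 := by rintro rfl; simp at hn
  have hc0 : c ≠ 0 := fun h => by
    rw [h, map_zero, zero_mul] at hst
    exact mul_ne_zero hx (fun h0 => ht (by rw [show t = 0 from Subtype.ext h0, map_zero])) hst
  have ha0 : a ≠ 0 := fun h => hs0 (by rw [hred, h, map_zero, zero_mul, zero_mul])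
  have hu0 : u ≠ 0 := fun h => hs0 (by rw [hred, h, zero_pow hn0, mul_zero])
  let Md := goodModel S
  set xc := algebraMap Qbar (FF M) c⁻¹ * x with hxc
  have he : xc * (t : FF M) = (s : FF M) := by
    rw [hxc, mul_assoc, hst, ← mul_assoc, ← map_mul, inv_mul_cancel₀ hc0, map_one, one_mul]
  have hxO : xc ∈ Md.O := Md.mem_O.mpr ⟨t, s, ht, he⟩
  have hres : Md.res ⟨xc, hxO⟩ = algebraMap κ (redField A M) a * u ^ n := by
    rw [Md.res_eq ⟨xc, hxO⟩ (t := t) (s := s) ht he]
    show redSer s / redSer t = _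
    rw [hred, mul_right_comm, mul_div_cancel_right₀ _ ht]
  have hres0 : Md.res ⟨xc, hxO⟩ ≠ 0 := by
    rw [hres]; exact mul_ne_zero (by simpa using ha0) (pow_ne_zero _ hu0)
  have hr := (goodAtlas S).isReductionMap
  set r := (goodAtlas S).placeMap
  set E := divFun (K := Qbar) x with hE
  set D : Divisor Qbar (FF M) := E.mapRange (fun z => z / (n : ℤ)) (Int.zero_ediv _) with hDdef
  have hnD : n • D = E := by
    ext v
    rw [Finsupp.smul_apply, hDdef, Finsupp.mapRange_apply, hE, divFun_apply, nsmul_eq_mul]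
    exact Int.mul_ediv_cancel' (hdvd v)
  have hnD' : n • D ∈ Divisor.principal (K := Qbar) (F := FF M) :=
    ⟨x, hx, fun v => by rw [hnD, hE, divFun_apply]⟩
  have hdeg : Divisor.degree D = 0 := by
    have h := congrArg Divisor.degree hnD
    rw [map_nsmul, hE, degree_divFun, nsmul_eq_mul] at h
    exact (mul_eq_zero.mp h).resolve_left (by exact_mod_cast hn0)
  have hrD : Finsupp.mapDomain r D ∈
      Divisor.principal (K := κ) (F := redField A M) := by
    refine ⟨u, hu0, fun Q => ?_⟩
    have hmap : n • Finsupp.mapDomain r D = Finsupp.mapDomain r E := by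
      rw [← hnD]; exact (map_nsmul (Finsupp.mapDomain.addMonoidHom r) n D).symm
    have hQ : Finsupp.mapDomain r E Q = Q.ord (Md.res ⟨xc, hxO⟩) :=
      hr.2 ⟨xc, hxO⟩ hres0 E (fun v => by
        rw [hE, divFun_apply]
        show v.ord x = v.ord xc
        rw [hxc, ← Algebra.smul_def, FFBasic.ord_smul_const v (inv_ne_zero hc0)]) Q
    rw [hres, ← Algebra.smul_def, FFBasic.ord_smul_const Q ha0, FFBasic.ord_pow, ← hmap,
      Finsupp.smul_apply, nsmul_eq_mul] at hQ
    exact mul_left_cancel₀ (by exact_mod_cast hn0) hQ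
  have hnc : ∃ P P', r P ≠ r P' := by
    obtain ⟨P, hP⟩ := exists_place_ord_neg (K := κ) (transcendental_jRed (A := A) (M := M))
    by_contra! hconst
    have h := hr.2 (Md.toO ⟨jF M, jF_mem_intSer⟩) (by
      show Md.res (Md.toO ⟨jF M, jF_mem_intSer⟩) ≠ 0
      rw [Md.res_toO]
      exact fun h => transcendental_jRed (A := A) (M := M)
        (by rw [show jRed A M = 0 from h]; exact isAlgebraic_zero))
      (divFun (jF M)) (fun _ => rfl) P
    rw [show (goodModel S).toReduction.res (Md.toO ⟨jF M, jF_mem_intSer⟩) = jRed A M from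
      Md.res_toO _] at h
    obtain ⟨P₀⟩ := nonempty_place (K := Qbar) (F := FF M)
    have hmap : Finsupp.mapDomain r (divFun (jF M)) =
        Finsupp.single (r P₀) (Divisor.degree (divFun (K := Qbar) (jF M))) := by
      generalize divFun (K := Qbar) (jF M) = E'
      induction E' using Finsupp.induction with
      | zero => simp
      | single_add Q m E' _ _ ih =>
        rw [Finsupp.mapDomain_add, Finsupp.mapDomain_single, ih, hconst Q P₀, map_add,
          Deuring.degree_single_one, Finsupp.single_add]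
    rw [hmap, degree_divFun, Finsupp.single_zero, Finsupp.zero_apply] at h
    omega
  obtain ⟨g, hg, hgD⟩ := Deuring.Reduction.mem_principal_of_mapDomain_mem_principal hr
    (goodAtlas S).genus_eq (fun P => place_deg_eq_one P) hnc
    (fun b e hb he => S.rank_one b ((IsLocalRing.residue_eq_zero_iff b).mp hb) e he)
    (by
      obtain ⟨t', ht', h0⟩ := S.exists_maximal_ne_zero
      exact ⟨t', h0, (IsLocalRing.residue_eq_zero_iff t').mpr ht'⟩)
    hn hdeg hnD' hrD
  obtain ⟨c', hc'⟩ := Deuring.exists_const_of_forall_ord_nonneg (K := Qbar)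
    (f := x / g ^ n) fun v => by
    rw [div_eq_mul_inv, v.ord_mul hx (inv_ne_zero (pow_ne_zero _ hg)), v.ord_inv, FFBasic.ord_pow,
      ← hgD v]
    have := congrArg (fun e : Divisor Qbar (FF M) => e v) hnD
    simp only [Finsupp.smul_apply, hE, divFun_apply, nsmul_eq_mul] at this
    omega
  obtain ⟨z, hz⟩ := IsAlgClosed.exists_pow_nat_eq c' (Nat.pos_of_ne_zero hn0)
  refine ⟨algebraMap Qbar (FF M) z * g, ?_⟩
  rw [mul_pow, ← map_pow, hz, hc', div_mul_cancel₀ _ (pow_ne_zero _ hg)]

end FLTAgent.GammaH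

end
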