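import Fermat.Agent.GammaH.LevelBridge
import Fermat.Agent.Deuring.Modular

/-!
# The constant reduction of the field of `X₁(M)` at a place prime to `M`

Integral elements are the series with coefficients in `A`; reduction is coefficientwise.
-/

set_option autoImplicit false

noncomputable section

open UpperHalfPlane CongruenceSubgroup ModularCurve Polynomial AlgebraicCurve
open scoped MatrixGroups IntermediateField

namespace FLTAgent.GammaH

attribute [local instance high] SubalgebraClass.toAlgebra HahnSeries.powerSeriesAlgebra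

open FLTAgent.LevelM FLTAgent.GoodReduction FLTAgent.FFBasic

/-! ## Gauss' lemma for Laurent series -/

section Gauss

variable {L : Type*} [Field L] {A : ValuationSubring L}

/-- If `e` divides `D y` and `D` has nonzero reduction then `e` divides `y`. -/
theorem exists_eq_C_mul_of_red_ne_zero
    (hrk : ∀ ϖ : A, ϖ ∈ IsLocalRing.maximalIdeal A → ∀ a : A, a ≠ 0 → ∃ n : ℕ, a ∣ ϖ ^ n)
    (hmax : ∃ ϖ : A, ϖ ∈ IsLocalRing.maximalIdeal A ∧ ϖ ≠ 0)
    {D y w : LaurentSeries A} (hD : coeffMap (IsLocalRing.residue A) D ≠ 0) {e : A} (he : e ≠ 0)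
    (h : D * y = HahnSeries.C e * w) : ∃ z, y = HahnSeries.C e * z ∧ D * z = w := by
  classical
  suffices key : ∃ z, y = HahnSeries.C e * z by
    obtain ⟨z, hz⟩ := key
    have hC : (HahnSeries.C e : LaurentSeries A) ≠ 0 := by
      rw [HahnSeries.C_apply]; exact HahnSeries.single_ne_zero he
    refine ⟨z, hz, mul_left_cancel₀ hC ?_⟩
    rw [← h, hz]; ring
  set k := (coeffMap (IsLocalRing.residue A) D).order with hk
  have hunit : IsUnit (D.coeff k) := by
    rw [← IsLocalRing.residue_ne_zero_iff_isUnit, ← coeffMap_coeff]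
    exact HahnSeries.coeff_order_eq_zero.not.mpr hD
  have hlow : ∀ n < k, D.coeff n ∈ IsLocalRing.maximalIdeal A := fun n hn => by
    rw [← IsLocalRing.residue_eq_zero_iff, ← coeffMap_coeff]
    exact HahnSeries.coeff_eq_zero_of_lt_order hn
  have hk0 : D.coeff k ≠ 0 := hunit.ne_zero
  have hfin : ∀ n ∈ D.support, n < k → n ∈ Finset.Ico D.order k := fun n hn hnk =>
    Finset.mem_Ico.mpr ⟨HahnSeries.order_le_of_coeff_ne_zero hn, hnk⟩
  obtain ⟨a, ha, -, hdiv⟩ := exists_common_divisor (Finset.Ico D.order k) (fun n => D.coeff n)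
    (fun n hn => hlow n (Finset.mem_Ico.mp hn).2) hmax
  choose! b hb using hdiv
  let U : LaurentSeries A :=
    ⟨fun n => if n < k then 0 else D.coeff n,
      D.isPWO_support.mono fun n hn h0 => hn (by simp [h0])⟩
  let V : LaurentSeries A :=
    ⟨fun n => if n ∈ Finset.Ico D.order k then b n else 0,
      ((Finset.Ico D.order k).finite_toSet.subset fun n hn => by
        by_contra hni
        exact hn (if_neg hni)).isPWO⟩
  have hsplit : D = U + HahnSeries.C a * V := by
    refine HahnSeries.ext (funext fun n => ?_)
    rw [HahnSeries.coeff_add, HahnSeries.C_mul_eq_smul, HahnSeries.coeff_smul, smul_eq_mul]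
    show D.coeff n = (if n < k then 0 else D.coeff n) +
      a * (if n ∈ Finset.Ico D.order k then b n else 0)
    by_cases hn : n < k
    · rw [if_pos hn, zero_add]
      by_cases hmem : n ∈ Finset.Ico D.order k
      · rw [if_pos hmem, ← hb n hmem]
      · rw [if_neg hmem, mul_zero]
        by_contra hne
        exact hmem (hfin n hne hn)
    · rw [if_neg hn, if_neg (fun hm => hn (Finset.mem_Ico.mp hm).2), mul_zero, add_zero]
  have hUk : U.coeff k = D.coeff k := if_neg (lt_irrefl k)
  have hUne : U ≠ 0 := fun h0 => hk0 (by rw [← hUk, h0, HahnSeries.coeff_zero])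
  have hUord : U.order = k := by
    refine le_antisymm (HahnSeries.order_le_of_coeff_ne_zero (by rwa [hUk])) ?_
    by_contra hlt
    exact HahnSeries.coeff_order_eq_zero.not.mpr hUne (if_pos (not_le.mp hlt))
  obtain ⟨U', hU'⟩ : ∃ U', U * U' = 1 := isUnit_iff_exists_inv.mp (HahnSeries.isUnit_iff.mpr (by
    rwa [HahnSeries.leadingCoeff_eq, hUord, hUk]))
  obtain ⟨n, c, hc⟩ := hrk a ha e he
  have hpow : ∀ m : ℕ, ∃ z, y = HahnSeries.C e * z + (-(HahnSeries.C a * (V * U'))) ^ m * y := by
    intro m
    induction m with
    | zero => exact ⟨0, by rw [mul_zero, zero_add, pow_zero, one_mul]⟩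
    | succ m ih =>
      obtain ⟨z, hz⟩ := ih
      refine ⟨z + (-(HahnSeries.C a * (V * U'))) ^ m * U' * w, ?_⟩
      have hy : y = HahnSeries.C e * (U' * w) + -(HahnSeries.C a * (V * U')) * y := by
        linear_combination (-y) * hU' + U' * h + (-(U' * y)) * hsplit
      conv_lhs => rw [hz]
      conv_lhs => arg 2; arg 2; rw [hy]
      ring
  obtain ⟨z, hz⟩ := hpow n
  refine ⟨z + HahnSeries.C c * (-(V * U')) ^ n * y, hz.trans ?_⟩
  have he' : (HahnSeries.C a : LaurentSeries A) ^ n = HahnSeries.C e * HahnSeries.C c := by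
    rw [← map_pow, hc, map_mul]
  rw [show -(HahnSeries.C a * (V * U')) = HahnSeries.C a * -(V * U') by ring, mul_pow, he']
  ring

end Gauss

/-! ## Integral elements and the reduced field -/

local notation "Qbar" => AlgebraicClosure ℚ
local notation "ιC" => ((iotaC : Qbar →ₐ[ℚ] ℂ) : Qbar →+* ℂ)

variable (A : ValuationSubring (AlgebraicClosure ℚ))

local notation "κ" => IsLocalRing.ResidueField A

/-- Elements of the field with coefficients in `A`. -/
def intSer (M : ℕ) : Subring (FF M) :=
  (coeffMap A.subtype).range.comap (FF M).val.toRingHom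

variable {A} {M : ℕ}

theorem mem_intSer {f : FF M} :
    f ∈ intSer A M ↔ ∃ y : LaurentSeries A, coeffMap A.subtype y = (f : LaurentSeries Qbar) :=
  Iff.rfl

/-- The series with coefficients in `A`. -/
def intSeries : intSer A M →+* LaurentSeries A where
  toFun s := (mem_intSer.mp s.2).choose
  map_one' := GoodReduction.inc_injective A ((mem_intSer.mp (1 : intSer A M).2).choose_spec.trans
    (map_one _).symm)
  map_mul' a b := GoodReduction.inc_injective A (by
    rw [map_mul, (mem_intSer.mp (a * b).2).choose_spec, (mem_intSer.mp a.2).choose_spec,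
      (mem_intSer.mp b.2).choose_spec]
    rfl)
  map_zero' := GoodReduction.inc_injective A ((mem_intSer.mp (0 : intSer A M).2).choose_spec.trans
    (map_zero _).symm)
  map_add' a b := GoodReduction.inc_injective A (by
    rw [map_add, (mem_intSer.mp (a + b).2).choose_spec, (mem_intSer.mp a.2).choose_spec,
      (mem_intSer.mp b.2).choose_spec]
    rfl)

theorem coeffMap_intSeries (s : intSer A M) :
    coeffMap A.subtype (intSeries s) = ((s : FF M) : LaurentSeries Qbar) :=
  (mem_intSer.mp s.2).choose_spec

theorem intSeries_eq {s : intSer A M} {y : LaurentSeries A}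
    (h : coeffMap A.subtype y = ((s : FF M) : LaurentSeries Qbar)) : intSeries s = y :=
  GoodReduction.inc_injective A ((coeffMap_intSeries s).trans h.symm)

variable (A M) in
/-- The field generated by the reductions of integral elements. -/
def redField : IntermediateField κ (LaurentSeries κ) :=
  IntermediateField.adjoin κ
    (Set.range fun s : intSer A M => coeffMap (IsLocalRing.residue A) (intSeries s))

/-- Reduction of integral elements. -/
def redSer : intSer A M →+* redField A M :=
  ((coeffMap (IsLocalRing.residue A)).comp intSeries).codRestrict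
    (redField A M).toSubfield.toSubring fun s => IntermediateField.subset_adjoin _ _ ⟨s, rfl⟩

theorem coe_redSer (s : intSer A M) :
    (redSer s : LaurentSeries κ) = coeffMap (IsLocalRing.residue A) (intSeries s) := rfl

theorem const_mem_intSer (a : A) : algebraMap Qbar (FF M) a ∈ intSer A M := by
  refine mem_intSer.mpr ⟨HahnSeries.single 0 a, ?_⟩
  rw [coeffMap_single]
  exact (algebraMap_laurentSeries_eq_single Qbar (a : Qbar)).symm

theorem redSer_const (a : A) :
    redSer ⟨algebraMap Qbar (FF M) a, const_mem_intSer a⟩ =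
      algebraMap κ (redField A M) (IsLocalRing.residue A a) := by
  apply Subtype.ext
  rw [coe_redSer, intSeries_eq (y := HahnSeries.single 0 a) (by
    rw [coeffMap_single]; exact (algebraMap_laurentSeries_eq_single Qbar (a : Qbar)).symm),
    coeffMap_single]
  exact (algebraMap_laurentSeries_eq_single κ _).symm

variable [NeZero M]

theorem jF_mem_intSer : jF M ∈ intSer A M :=
  mem_intSer.mpr ⟨jqModC A, by rw [coeffMap_jqModC, coe_jF]⟩

variable (A M) in
/-- `j` on the special fibre. -/
def jRed : redField A M := redSer ⟨jF M, jF_mem_intSer⟩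

theorem coe_jRed : (jRed A M : LaurentSeries κ) = jqModC κ := by
  rw [jRed, coe_redSer, intSeries_eq (y := jqModC A) (by rw [coeffMap_jqModC, coe_jF]),
    coeffMap_jqModC]

theorem transcendental_jRed : Transcendental κ (jRed A M) :=
  Deuring.Modular.transcendental_subtype _
    (by rw [coe_jRed]; exact Deuring.Modular.transcendental_j κ)

/-- Constants as integral elements. -/
def constInt : A →+* intSer A M :=
  ((algebraMap Qbar (FF M)).comp A.subtype).codRestrict (intSer A M) const_mem_intSer

omit [NeZero M] in
theorem coe_constInt (a : A) :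
    ((constInt (M := M) a : intSer A M) : FF M) = algebraMap Qbar (FF M) a := rfl

omit [NeZero M] in
theorem redSer_constInt (a : A) :
    redSer (constInt (M := M) a) = algebraMap κ (redField A M) (IsLocalRing.residue A a) :=
  redSer_const a

omit [NeZero M] in
theorem intSeries_constInt (a : A) : intSeries (constInt (M := M) a) = HahnSeries.C a := by
  refine intSeries_eq ?_
  rw [coe_constInt, HahnSeries.C_apply, coeffMap_single]
  exact (algebraMap_laurentSeries_eq_single Qbar (a : Qbar)).symm

/-- Evaluation of integral polynomials at `j`. -/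
def evInt : A[X] →+* intSer A M := eval₂RingHom constInt ⟨jF M, jF_mem_intSer⟩

theorem coe_evInt (P : A[X]) :
    ((evInt (M := M) P : intSer A M) : FF M) = aeval (jF M) (P.map A.subtype) := by
  show (intSer A M).subtype (eval₂ constInt ⟨jF M, jF_mem_intSer⟩ P) = _
  rw [hom_eval₂, aeval_def, eval₂_map]
  rfl

theorem redSer_evInt (P : A[X]) :
    redSer (evInt P) = aeval (jRed A M) (P.map (IsLocalRing.residue A)) := by
  show redSer (eval₂ constInt ⟨jF M, jF_mem_intSer⟩ P) = _
  rw [hom_eval₂, aeval_def, eval₂_map]
  congr 1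
  exact RingHom.ext fun a => redSer_const a

variable [Fact (1 < M)] {N K : ℕ} [NeZero N] [NeZero K]

omit [NeZero M] [Fact (1 < M)] in
/-- The reduced model of the level `N` ring. -/
theorem GoodSetup.redModel (S : GoodSetup A M N K) :
    GoodReduction.Model (LevelGroup A ιC N) (IsLocalRing.residue A) (redHom (levelExp A ιC N))
      (levelJ A ιC N) := by
  have := Fintype.ofFinite (levelSubgroup A ιC N K)
  have : IsDomain (LevelRing A ιC N) := isDomain_levelRing
  exact (levelData S.small S.dvd_K S.goodRing S.rank_one S.exists_maximal_ne_zero).redModel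
    (cuspData S.small S.dvd_K S.three_le S.goodRing)

omit [Fact (1 < M)] in
theorem redHom_levelJ_eq :
    redHom (levelExp A ιC N) (levelJ A ιC N) = qExpandAlgHomC κ N (jRed A M : LaurentSeries κ) := by
  rw [redHom_levelJ, coe_jRed, qExpandAlgHomC_apply]

omit [NeZero M] [Fact (1 < M)] in
theorem qExpand_redSer {s : intSer A M} {f : LevelRing A ιC N}
    (h : qExpand A N (intSeries s) = levelExp A ιC N f) :
    qExpand κ N (redSer s : LaurentSeries κ) = redHom (levelExp A ιC N) f := by
  rw [redHom_apply, coe_redSer, ← h, ModularCurve.coeffMap_qExpand]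

omit [NeZero K] in
/-- The integral element attached to an invariant element of the level `N` ring. -/
theorem exists_intSer (S : GoodSetup A M N K) {f : LevelRing A ιC N}
    (hf : ∀ g ∈ gammaH A M N, g • f = f) :
    ∃ (F : modFun M) (s : intSer A M), (s : FF M) = toFF F ∧ (F : ℍ → ℂ) = f ∧
      qExpand A N (intSeries s) = levelExp A ιC N f := by
  obtain ⟨F, y, hFf, hy, hyf⟩ := exists_modFun S hf
  refine ⟨F, ⟨toFF F, mem_intSer.mpr ⟨y, hy⟩⟩, rfl, hFf, ?_⟩
  rw [intSeries_eq (y := y) hy]
  exact hyf

/-- As many integral modular functions with independent reductions as the degree. -/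
theorem exists_lifts (S : GoodSetup A M N K) :
    ∃ b : Fin (gammaPM M).index → intSer A M,
      (∀ i, ∃ (F : modFun M) (f : LevelRing A ιC N), (b i : FF M) = toFF F ∧
        (∀ g ∈ gammaH A M N, g • f = f) ∧ qExpand A N (intSeries (b i)) = levelExp A ιC N f) ∧
      ∀ P : Fin (gammaPM M).index → Polynomial κ,
        ∑ i, aeval (jRed A M) (P i) * redSer (b i) = 0 → ∀ i, P i = 0 := by
  obtain ⟨f, hf, hli⟩ := S.redModel.exists_invariant_independent (gammaH A M N)
  choose F s hsF hFf hs using fun i => exists_intSer S (hf i)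
  have e := (index_gammaH S).symm
  refine ⟨fun i => s (Fin.cast e i), fun i => ⟨F _, f _, hsF _, hf _, hs _⟩, fun P hP i => ?_⟩
  have := hli (fun i => P (Fin.cast e.symm i)) ?_ (Fin.cast e i)
  · simpa using this
  · have h0 := congrArg (fun w : redField A M => qExpandAlgHomC κ N (w : LaurentSeries κ)) hP
    simp only [AddSubmonoidClass.coe_finsetSum, map_sum, IntermediateField.coe_mul, map_mul,
      ZeroMemClass.coe_zero, map_zero, qExpandAlgHomC_apply] at h0
    rw [← h0]
    refine Fintype.sum_equiv (finCongr e.symm) _ _ fun i => ?_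
    simp only [finCongr_apply, Fin.cast_cast, Fin.cast_eq_self]
    rw [qExpand_redSer (hs i)]
    congr 1
    rw [redHom_levelJ_eq (M := M), Polynomial.aeval_algHom_apply, qExpandAlgHomC_apply]
    congr 1
    exact (Polynomial.aeval_algHom_apply (redField A M).val (jRed A M) _)

/-- Lifts of independent reductions. -/
def redBasis (S : GoodSetup A M N K) : Fin (gammaPM M).index → intSer A M :=
  (exists_lifts S).choose

theorem li_redBasis (S : GoodSetup A M N K) (P : Fin (gammaPM M).index → Polynomial κ)
    (h : ∑ i, aeval (jRed A M) (P i) * redSer (redBasis S i) = 0) : ∀ i, P i = 0 :=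
  (exists_lifts S).choose_spec.2 P h

theorem exists_modFun_redBasis (S : GoodSetup A M N K) (i : Fin (gammaPM M).index) :
    ∃ (F : modFun M) (f : LevelRing A ιC N), (redBasis S i : FF M) = toFF F ∧
      (∀ g ∈ gammaH A M N, g • f = f) ∧
      qExpand A N (intSeries (redBasis S i)) = levelExp A ιC N f :=
  (exists_lifts S).choose_spec.1 i

theorem liL_redBasis (S : GoodSetup A M N K) (P : Fin (gammaPM M).index → Polynomial Qbar)
    (h : ∑ i, aeval (jF M) (P i) * (redBasis S i : FF M) = 0) : ∀ i, P i = 0 := by
  by_contra! hne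
  obtain ⟨c, P', -, hP', -, i₀, hi₀⟩ := Deuring.exists_normalized (IsLocalRing.residue A) P hne
  refine hi₀ (li_redBasis S (fun i => (P' i).map (IsLocalRing.residue A)) ?_ i₀)
  have hs : ∑ i, evInt (P' i) * redBasis S i = 0 := by
    apply Subtype.ext
    push_cast
    simp only [coe_evInt, hP', map_mul, aeval_C, mul_assoc, ← Finset.mul_sum, h, mul_zero]
  have := congrArg redSer hs
  simpa only [map_sum, map_mul, map_zero, redSer_evInt] using this

/-- The model of the reduction. -/
def goodModel (S : GoodSetup A M N K) : Deuring.Model Qbar κ (FF M) (redField A M) where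
  A := A
  π := IsLocalRing.residue A
  π_surj := IsLocalRing.residue_surjective
  S := intSer A M
  ρ := redSer
  const_mem := const_mem_intSer
  ρ_const := redSer_const
  x := ⟨jF M, jF_mem_intSer⟩
  d := (gammaPM M).index
  b := redBasis S
  transFb := transcendental_jRed
  li := li_redBasis S
  span f := Deuring.Model.span_of_finrank_le _ (liL_redBasis S)
    finrank_baseJ.le f

omit [Fact (1 < M)] [NeZero N] [NeZero K] [NeZero M] in
/-- An element `s` with `s D = a w` for `D` of nonzero reduction is `a` times an integral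
element. -/
theorem exists_intSer_div (S : GoodSetup A M N K) {D w s : intSer A M} {a : A}
    (hD : redSer D ≠ 0) (ha : a ≠ 0) (h : D * s = constInt a * w) :
    ∃ z : intSer A M, s = constInt a * z ∧ D * z = w := by
  have h' := congrArg intSeries h
  rw [map_mul, map_mul, intSeries_constInt] at h'
  obtain ⟨z, hz, -⟩ := exists_eq_C_mul_of_red_ne_zero S.rank_one S.exists_maximal_ne_zero
    (fun h0 => hD (Subtype.ext h0)) ha h'
  have ha' : algebraMap Qbar (FF M) (a : Qbar) ≠ 0 := by simpa using ha
  have hmem : (algebraMap Qbar (FF M) (a : Qbar))⁻¹ * (s : FF M) ∈ intSer A M := by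
    refine mem_intSer.mpr ⟨z, ?_⟩
    rw [IntermediateField.coe_mul, IntermediateField.coe_inv, ← coeffMap_intSeries s, hz, map_mul,
      HahnSeries.C_apply, coeffMap_single,
      show ((algebraMap Qbar (FF M) (a : Qbar) : FF M) : LaurentSeries Qbar) =
        HahnSeries.single 0 (a : Qbar) from algebraMap_laurentSeries_eq_single Qbar _,
      ← mul_assoc, show A.subtype a = (a : Qbar) from rfl,
      inv_mul_cancel₀ (HahnSeries.single_ne_zero (by simpa using ha)), one_mul]
  have hs : s = constInt a * ⟨_, hmem⟩ :=
    Subtype.ext (show (s : FF M) = algebraMap Qbar (FF M) (a : Qbar) * _ by field_simp)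
  refine ⟨⟨_, hmem⟩, hs, ?_⟩
  have hne : constInt (M := M) a ≠ 0 := fun h0 => ha' (congrArg Subtype.val h0)
  refine mul_left_cancel₀ hne ?_
  rw [← h]
  conv_rhs => rw [hs]
  ring

/-- A multiple by a constant of an integral element has a nonzero reduction. -/
theorem exists_primitive (S : GoodSetup A M N K) {s : intSer A M} (hs : s ≠ 0) :
    ∃ (a : A) (z : intSer A M) (D : A[X]) (P : Fin (gammaPM M).index → A[X]), a ≠ 0 ∧
      s = constInt a * z ∧ redSer z ≠ 0 ∧ D.map (IsLocalRing.residue A) ≠ 0 ∧
      evInt D * z = ∑ i, evInt (P i) * redBasis S i := by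
  have hs0 : (s : FF M) ≠ 0 := fun h => hs (Subtype.ext h)
  obtain ⟨e, D, P, he, hD, hP, heq⟩ := (goodModel S).exists_frac hs0
  change A[X] at D
  change Fin (gammaPM M).index → A[X] at P
  set w : intSer A M := ∑ i, evInt (P i) * redBasis S i
  have hw : redSer w ≠ 0 := (goodModel S).ρ_comb_ne_zero hP
  have hDne : redSer (evInt (M := M) D) ≠ 0 := (goodModel S).ρ_ev_ne_zero hD
  have heq' : (s : FF M) * (evInt (M := M) D : FF M) = algebraMap Qbar (FF M) e * (w : FF M) := heq
  have heA : e ∈ A := by
    by_contra hni
    have hinv := (A.mem_or_inv_mem e).resolve_left hni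
    have h1 : constInt ⟨e⁻¹, hinv⟩ * (evInt D * s) = w := Subtype.ext (by
      show algebraMap Qbar (FF M) e⁻¹ * ((evInt (M := M) D : FF M) * (s : FF M)) = (w : FF M)
      rw [mul_comm (evInt (M := M) D : FF M), heq', ← mul_assoc, ← map_mul, inv_mul_cancel₀ he,
        map_one, one_mul])
    have hres : IsLocalRing.residue A ⟨e⁻¹, hinv⟩ = 0 := by
      rw [IsLocalRing.residue_eq_zero_iff, IsLocalRing.mem_maximalIdeal, mem_nonunits_iff]
      rintro ⟨u, hu⟩
      refine hni ?_
      have h2 : (e⁻¹) * ((↑u⁻¹ : A) : Qbar) = 1 := by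
        have h3 := congrArg (fun a : A => (a : Qbar)) (Units.mul_inv u)
        rw [hu] at h3
        exact h3
      rw [← inv_inv e, ← eq_inv_of_mul_eq_one_right h2]
      exact (↑u⁻¹ : A).2
    refine hw ?_
    rw [← h1, map_mul, redSer_constInt, hres,
      map_zero, zero_mul]
  have ha : (⟨e, heA⟩ : A) ≠ 0 := fun h => he (congrArg Subtype.val h)
  have h2 : evInt D * s = constInt (⟨e, heA⟩ : A) * w := by
    apply Subtype.ext
    rw [Subring.coe_mul, Subring.coe_mul, coe_constInt, mul_comm]
    exact heq'
  obtain ⟨z, hz, hzw⟩ := exists_intSer_div S hDne ha h2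
  refine ⟨_, z, D, P, ha, hz, fun h0 => hw ?_, hD, hzw⟩
  rw [← hzw, map_mul, h0, mul_zero]

/-- Reductions of integral elements are ratios of reductions of invariants. -/
theorem map_redField_le (S : GoodSetup A M N K) :
    (redField A M).map (qExpandAlgHomC κ N) ≤ S.redModel.ratioField (gammaH A M N) := by
  set F₀ := S.redModel.ratioField (gammaH A M N)
  rw [redField, IntermediateField.adjoin_map, IntermediateField.adjoin_le_iff]
  rintro _ ⟨_, ⟨s, rfl⟩, rfl⟩
  have hb : ∀ i, qExpandAlgHomC κ N (redSer (redBasis S i) : LaurentSeries κ) ∈ F₀ := fun i => by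
    obtain ⟨F, f, -, hf, hs⟩ := exists_modFun_redBasis S i
    exact ⟨f, 1, hf, fun _ _ => smul_one _, by simp,
      by rw [map_one, mul_one, qExpandAlgHomC_apply, qExpand_redSer hs]⟩
  have hev : ∀ P : A[X], qExpandAlgHomC κ N (redSer (evInt (M := M) P) : LaurentSeries κ) ∈ F₀ := by
    intro P
    rw [redSer_evInt, show ((aeval (jRed A M) (P.map (IsLocalRing.residue A)) : redField A M) :
      LaurentSeries κ) = aeval (jRed A M : LaurentSeries κ) (P.map (IsLocalRing.residue A)) from
      (Polynomial.aeval_algHom_apply (redField A M).val (jRed A M) _).symm,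
      ← Polynomial.aeval_algHom_apply, ← redHom_levelJ_eq]
    refine (Algebra.adjoin_le (S := F₀.toSubalgebra) ?_)
      (Polynomial.aeval_mem_adjoin_singleton κ (redHom (levelExp A ιC N) (levelJ A ιC N)))
    rintro _ rfl
    exact ⟨levelJ A ιC N, 1, fun g _ => smul_levelJ g, fun _ _ => smul_one _, by simp, by simp⟩
  show qExpandAlgHomC κ N (redSer s : LaurentSeries κ) ∈ F₀
  rcases eq_or_ne s 0 with rfl | hs
  · simp
  obtain ⟨a, z, D, P, -, rfl, -, hD, hzw⟩ := exists_primitive S hs
  have h := congrArg (fun t => qExpandAlgHomC κ N (redSer t : LaurentSeries κ)) hzw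
  simp only [map_mul, map_sum, IntermediateField.coe_mul, AddSubmonoidClass.coe_finsetSum] at h
  have hDne : qExpandAlgHomC κ N (redSer (evInt (M := M) D) : LaurentSeries κ) ≠ 0 := by
    intro h0
    refine (goodModel S).ρ_ev_ne_zero hD (Subtype.ext ?_)
    exact (qExpandAlgHomC κ N).injective (h0.trans (map_zero _).symm)
  have hz : qExpandAlgHomC κ N (redSer z : LaurentSeries κ) ∈ F₀ := by
    rw [show qExpandAlgHomC κ N (redSer z : LaurentSeries κ) =
      (qExpandAlgHomC κ N (redSer (evInt (M := M) D) : LaurentSeries κ))⁻¹ *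
        (qExpandAlgHomC κ N (redSer (evInt (M := M) D) : LaurentSeries κ) *
          qExpandAlgHomC κ N (redSer z : LaurentSeries κ)) by field_simp, h]
    exact mul_mem (inv_mem (hev D)) (sum_mem fun i _ => mul_mem (hev (P i)) (hb i))
  rw [map_mul, IntermediateField.coe_mul, map_mul]
  refine mul_mem ?_ hz
  rw [redSer_constInt,
    show ((algebraMap κ (redField A M) (IsLocalRing.residue A a) : redField A M) : LaurentSeries κ)
      = algebraMap κ (LaurentSeries κ) (IsLocalRing.residue A a) from rfl, AlgHom.commutes]
  exact F₀.algebraMap_mem _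

/-- The reduced field is a function field. -/
theorem isFunctionField_redField (S : GoodSetup A M N K) :
    FFBasic.IsFunctionField κ (redField A M) := by
  refine ⟨jRed A M, transcendental_jRed, ?_⟩
  have : Module.Free (IntermediateField.adjoin κ {jRed A M}) (redField A M) :=
    Module.Free.of_divisionRing _ _
  refine Module.finite_of_finrank_pos ?_
  rw [← Deuring.Modular.relfinrank_adjoin_eq, ← IntermediateField.relfinrank_map_map _ _
    (qExpandAlgHomC κ N)]
  have hX : (IntermediateField.adjoin κ {(jRed A M : LaurentSeries κ)}).map (qExpandAlgHomC κ N) =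
      IntermediateField.adjoin κ {redHom (levelExp A ιC N) (levelJ A ιC N)} := by
    rw [IntermediateField.adjoin_map, Set.image_singleton, redHom_levelJ_eq (M := M)]
  have h1 : (IntermediateField.adjoin κ {(jRed A M : LaurentSeries κ)}).map (qExpandAlgHomC κ N) ≤
      (redField A M).map (qExpandAlgHomC κ N) :=
    IntermediateField.map_mono _ (IntermediateField.adjoin_simple_le_iff.mpr (jRed A M).2)
  have hmul := IntermediateField.relfinrank_mul_relfinrank h1 (map_redField_le S)
  rw [hX, S.redModel.relfinrank_eq_index (gammaH A M N) _ (S.redModel.mem_ratioField _)] at hmul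
  rw [hX]
  exact Nat.pos_of_ne_zero fun h0 =>
    Subgroup.index_ne_zero_of_finite (H := gammaH A M N) (by rw [← hmul, h0, zero_mul])

end FLTAgent.GammaH

end
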