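import Fermat.Agent.GammaH.EigenClass
import Fermat.Agent.GammaH.Frobenius
import Fermat.Agent.GammaH.Levels
import Fermat.Agent.GaloisAttach.Realize
import Fermat.Agent.Density.Chebotarev
import Fermat.Prelude.Def_GaloisRep_Residual

/-!
# The residual representation on the eigen part of `V_ℓ(M)`

On the part of `V_ℓ(M)` cut out by the eigen character, `g + det(g) g⁻¹` is given by an
operator, whose eigenvalue is a trace function; this yields the two dimensional representation
with the traces and determinants of the eigen system (`exists_rep`).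
-/

set_option autoImplicit false
set_option maxSynthPendingDepth 3

noncomputable section

open UpperHalfPlane CongruenceSubgroup ModularCurve
open scoped MatrixGroups

namespace FLTAgent.GammaH

open FLTAgent.LevelM

local notation "Qbar" => AlgebraicClosure ℚ
local notation "GalQ" => AlgebraicClosure ℚ ≃ₐ[ℚ] AlgebraicClosure ℚ

section Action

variable {M : ℕ} [NeZero M] [Fact (1 < M)] {n : ℕ} [NeZero n]
  (hsurj : Function.Surjective (kummer M n))

theorem actKum_one (x : Kum M n) : actKum hsurj (1 : HAlg M) x = x :=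
  DFunLike.congr_fun ((actKum hsurj).map_one') x

theorem actKum_natCast (m : ℕ) (x : Kum M n) : actKum hsurj (m : HAlg M) x = m • x := by
  have h := actKum_algebraMap hsurj (m : ℤ) x
  rw [map_natCast, natCast_zsmul] at h
  exact h

theorem actKum_sub_eq_zero {s t : HAlg M} {x : Kum M n}
    (h : actKum hsurj s x = actKum hsurj t x) : actKum hsurj (s - t) x = 0 := by
  exact right_eq_add.mp (h.symm.trans
    ((congrArg (fun u => actKum hsurj u x) (sub_add_cancel s t)).symm.trans
      (actKum_add hsurj (s - t) t x)))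

theorem actKum_map_zero (t : HAlg M) : actKum hsurj t (0 : Kum M n) = 0 :=
  AddMonoidHom.map_zero (actKum hsurj t : Kum M n →+ Kum M n)

theorem actKum_map_add (t : HAlg M) (x y : Kum M n) :
    actKum hsurj t (x + y) = actKum hsurj t x + actKum hsurj t y :=
  AddMonoidHom.map_add (actKum hsurj t : Kum M n →+ Kum M n) x y

theorem actKum_map_neg (t : HAlg M) (x : Kum M n) : actKum hsurj t (-x) = -actKum hsurj t x :=
  AddMonoidHom.map_neg (actKum hsurj t : Kum M n →+ Kum M n) x

theorem exists_idem_pow [Finite (Kum M n)] (t : HAlg M) :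
    ∃ N : ℕ, 0 < N ∧ ∀ x, actKum hsurj (t ^ (N + N)) x = actKum hsurj (t ^ N) x := by
  have : Finite (AddMonoid.End (Kum M n)) :=
    Finite.of_injective (fun e => (e : Kum M n → Kum M n)) DFunLike.coe_injective
  obtain ⟨i, j, hij, he⟩ := Finite.exists_ne_map_eq_of_infinite (fun m : ℕ => actKum hsurj (t ^ m))
  wlog hlt : i < j generalizing i j
  · exact this j i hij.symm he.symm (lt_of_le_of_ne (not_lt.mp hlt) hij.symm)
  obtain ⟨d, hd⟩ : ∃ d, d = j - i := ⟨_, rfl⟩
  have step : ∀ m, i ≤ m → ∀ x, actKum hsurj (t ^ (m + d)) x = actKum hsurj (t ^ m) x := by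
    intro m hm x
    have e1 : t ^ (m + d) = t ^ (m - i) * t ^ j := by rw [← pow_add]; congr 1; omega
    have e2 : t ^ m = t ^ (m - i) * t ^ i := by rw [← pow_add]; congr 1; omega
    refine (congrArg (fun u => actKum hsurj u x) e1).trans
      ((actKum_mul hsurj (t ^ (m - i)) (t ^ j) x).trans ?_)
    refine Eq.trans ?_ ((actKum_mul hsurj (t ^ (m - i)) (t ^ i) x).symm.trans
      (congrArg (fun u => actKum hsurj u x) e2).symm)
    exact congrArg _ (DFunLike.congr_fun he.symm x)
  have steps : ∀ c m, i ≤ m → ∀ x, actKum hsurj (t ^ (m + c * d)) x = actKum hsurj (t ^ m) x := by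
    intro c
    induction c with
    | zero =>
      intro m _ x
      exact congrArg (fun u => actKum hsurj (t ^ u) x) (by omega)
    | succ c ih =>
      intro m hm x
      exact (congrArg (fun u => actKum hsurj (t ^ u) x)
        (show m + (c + 1) * d = m + c * d + d by rw [add_one_mul, add_assoc])).trans
        ((step _ (by omega) x).trans (ih m hm x))
  refine ⟨(i + 1) * d, Nat.mul_pos (Nat.succ_pos _) (by omega), fun x => steps (i + 1) _ ?_ x⟩
  have : (i + 1) * 1 ≤ (i + 1) * d := Nat.mul_le_mul_left _ (by omega)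
  omega

end Action

section Pseudo

variable {R G : Type*} [Ring R] [Group G] (γ : G →* R)

theorem pseudo_comm {d t : R} (hd : ∀ g, d * γ g = γ g * d) (ht : ∀ g, t * γ g = γ g * t)
    {x y : G} (h : γ (x * y) + d * γ (x * y)⁻¹ = t) : γ (y * x) + d * γ (y * x)⁻¹ = t := by
  have e1 : γ (y * x) = γ y * γ (x * y) * γ y⁻¹ := by
    rw [← map_mul, ← map_mul]; congr 1; group
  have e2 : γ (y * x)⁻¹ = γ y * γ (x * y)⁻¹ * γ y⁻¹ := by
    rw [← map_mul, ← map_mul]; congr 1; group
  calc γ (y * x) + d * γ (y * x)⁻¹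
      = γ y * γ (x * y) * γ y⁻¹ + d * γ y * γ (x * y)⁻¹ * γ y⁻¹ := by
        rw [e1, e2]; simp only [mul_assoc]
    _ = γ y * (γ (x * y) + d * γ (x * y)⁻¹) * γ y⁻¹ := by
        rw [hd y, mul_add, add_mul]; simp only [mul_assoc]
    _ = γ y * t * γ y⁻¹ := by rw [h]
    _ = t := by rw [mul_assoc, ht, ← mul_assoc, ← map_mul, mul_inv_cancel, map_one, one_mul]

theorem pseudo_mul {r s b a c e : R} {x y : G} (hc : ∀ g, c * γ g = γ g * c)
    (hs' : ∀ g, s * γ g = γ g * s) (hr : γ x + a * γ x⁻¹ = r) (hs : γ y + c * γ y⁻¹ = s)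
    (hb : γ (x * y⁻¹) + e * γ (x * y⁻¹)⁻¹ = b) (hce : c * e = a) :
    γ (x * y) + a * c * γ (x * y)⁻¹ = r * s - c * b := by
  have e1 : r * s = γ x * s + a * (s * γ x⁻¹) := by rw [← hr, add_mul, mul_assoc, hs']
  have e2 : γ x * s = γ (x * y) + c * γ (x * y⁻¹) := by
    rw [← hs, mul_add, ← mul_assoc, ← hc, mul_assoc, ← map_mul, ← map_mul]
  have e3 : s * γ x⁻¹ = γ (y * x⁻¹) + c * γ (x * y)⁻¹ := by
    rw [← hs, add_mul, mul_assoc, ← map_mul, ← map_mul, mul_inv_rev]
  have e4 : c * b = c * γ (x * y⁻¹) + a * γ (y * x⁻¹) := by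
    rw [← hb, mul_add, ← mul_assoc, hce, mul_inv_rev, inv_inv]
  rw [e1, e2, e3, e4, mul_add, ← mul_assoc a c]
  abel

/- The rewriting below is done over an abstract ring: in `AddMonoid.End` of a subgroup of `Kum M ℓ`
the instance terms are so large that every `rw` takes tens of seconds. -/

theorem pseudo_one {d o p : R} (ho : o = 1) (hd : d = o) (hp : p = o + o) :
    γ 1 + d * γ 1⁻¹ = p := by
  rw [hp, hd, ho, inv_one, map_one, mul_one]

theorem pseudo_comm_congr {d d' t : R} (hd : ∀ g, d * γ g = γ g * d)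
    (ht : ∀ g, t * γ g = γ g * t) {x y : G} (e : d' = d)
    (h : γ (x * y) + d * γ (x * y)⁻¹ = t) : γ (y * x) + d' * γ (y * x)⁻¹ = t := by
  rw [e]
  exact pseudo_comm γ hd ht h

theorem pseudo_mul_congr {r s b a c e a' t : R} {x y : G} (hc : ∀ g, c * γ g = γ g * c)
    (hs' : ∀ g, s * γ g = γ g * s) (hr : γ x + a * γ x⁻¹ = r) (hs : γ y + c * γ y⁻¹ = s)
    (hb : γ (x * y⁻¹) + e * γ (x * y⁻¹)⁻¹ = b) (hce : c * e = a) (ha' : a' = a * c)
    (ht : t = r * s - c * b) : γ (x * y) + a' * γ (x * y)⁻¹ = t := by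
  rw [ha', ht]
  exact pseudo_mul γ hc hs' hr hs hb hce

theorem pseudo_inv {x : G} {a o z : R} (hx : x⁻¹ = x) (ho : o = 1) (hz : z + z = z)
    (ha : a + o = z) : γ x + a * γ x⁻¹ = z := by
  have h0 : z = 0 := right_eq_add.mp hz.symm
  subst h0 ho
  rw [hx, ← one_add_mul, add_comm, ha, zero_mul]

theorem pseudo_agree {x y : G} {d d' t : R} (e : γ x = γ y) (e' : γ x⁻¹ = γ y⁻¹) (ed : d = d')
    (h : γ y + d' * γ y⁻¹ = t) : γ x + d * γ x⁻¹ = t := by
  rw [e, e', ed]
  exact h

theorem pseudo_sub {u v u' v' w : R} (hu : u' = u) (hv : v' = v) (h : w + v' = u') :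
    w = u - v := by
  subst hu hv
  exact eq_sub_of_add_eq h

end Pseudo

namespace EigenInput

variable {M : ℕ} [NeZero M] [Fact (1 < M)] {k : Type} [Field k] {ℓ : ℕ} [NeZero ℓ] [CharP k ℓ]
  (E : EigenInput M k) (hbij : Function.Bijective (kummer M ℓ))

/-- The part of `V_ℓ(M)` killed by the kernel of the eigen character. -/
def eigSub : AddSubgroup (Kum M ℓ) where
  carrier := {x | ∀ t : HAlg M, E.theta t = 0 → actKum hbij.surjective t x = 0}
  zero_mem' t _ := actKum_map_zero hbij.surjective t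
  add_mem' {x y} hx hy t ht :=
    (actKum_map_add hbij.surjective t x y).trans
      ((congrArg₂ (· + ·) (hx t ht) (hy t ht)).trans (add_zero _))
  neg_mem' {x} hx t ht :=
    (actKum_map_neg hbij.surjective t x).trans ((congrArg Neg.neg (hx t ht)).trans neg_zero)

theorem exists_mem_eigSub [Finite (Kum M ℓ)] : ∃ x ∈ E.eigSub hbij, x ≠ 0 := by
  classical
  choose N hN0 hN using exists_idem_pow hbij.surjective (M := M)
  -- finitely many representatives of the kernel
  have : Finite (AddMonoid.End (Kum M ℓ)) :=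
    Finite.of_injective (fun e => (e : Kum M ℓ → Kum M ℓ)) DFunLike.coe_injective
  obtain ⟨L, hL0, hL⟩ : ∃ L : List (HAlg M), (∀ t ∈ L, E.theta t = 0) ∧
      ∀ t, E.theta t = 0 → ∃ t' ∈ L, actKum hbij.surjective t = actKum hbij.surjective t' := by
    let K : Set (AddMonoid.End (Kum M ℓ)) := {e | ∃ t, E.theta t = 0 ∧ actKum hbij.surjective t = e}
    choose r hr using fun e : K => e.2
    refine ⟨(Set.toFinite (Set.range r)).toFinset.toList, fun t ht => ?_, fun t ht => ?_⟩
    · rw [Finset.mem_toList, Set.Finite.mem_toFinset] at ht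
      obtain ⟨e, rfl⟩ := ht
      exact (hr e).1
    · refine ⟨r ⟨_, t, ht, rfl⟩, ?_, (hr ⟨_, t, ht, rfl⟩).2.symm⟩
      rw [Finset.mem_toList, Set.Finite.mem_toFinset]
      exact ⟨_, rfl⟩
  -- an element outside the kernel annihilating their idempotent powers
  obtain ⟨P, hP1, hP⟩ : ∃ P : HAlg M, E.theta P = 1 ∧
      ∀ t ∈ L, ∀ x, actKum hbij.surjective (t ^ N t) (actKum hbij.surjective P x) = 0 := by
    clear hL
    induction L with
    | nil => exact ⟨1, map_one _, fun t ht => by simp at ht⟩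
    | cons a L ih =>
      obtain ⟨P, hP1, hP⟩ := ih fun t ht => hL0 t (List.mem_cons_of_mem a ht)
      refine ⟨(1 - a ^ N a) * P, ?_, fun t ht x => ?_⟩
      · rw [map_mul, map_sub, map_one, map_pow, hL0 a List.mem_cons_self, zero_pow (hN0 a).ne',
          sub_zero, one_mul, hP1]
      rw [actKum_mul hbij.surjective (1 - a ^ N a) P x]
      rcases List.mem_cons.mp ht with rfl | ht
      · refine (actKum_mul hbij.surjective (t ^ N t) (1 - t ^ N t) _).symm.trans ?_
        refine (congrArg (fun u => actKum hbij.surjective u (actKum hbij.surjective P x))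
          (show t ^ N t * (1 - t ^ N t) = t ^ N t - t ^ (N t + N t) by
            rw [mul_sub, mul_one, ← pow_add])).trans ?_
        exact actKum_sub_eq_zero hbij.surjective (hN t _).symm
      · have hc : actKum hbij.surjective (t ^ N t)
            (actKum hbij.surjective (1 - a ^ N a) (actKum hbij.surjective P x)) =
            actKum hbij.surjective (1 - a ^ N a)
              (actKum hbij.surjective (t ^ N t) (actKum hbij.surjective P x)) :=
          DFunLike.congr_fun (actKum_commute hbij.surjective (t ^ N t) (1 - a ^ N a)).eq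
            (actKum hbij.surjective P x)
        exact hc.trans ((congrArg _ (hP t ht x)).trans
          (actKum_map_zero hbij.surjective (1 - a ^ N a)))
  obtain ⟨x₀, hx₀⟩ : ∃ x, actKum hbij.surjective P x ≠ 0 := by
    by_contra! h
    have := E.theta_eq_zero_of_actKum hbij (t := P) (AddMonoidHom.ext fun x => h x)
    rw [hP1] at this
    exact one_ne_zero this
  have key : ∀ L' : List (HAlg M), (∀ t ∈ L', t ∈ L) → ∃ v : Kum M ℓ, v ≠ 0 ∧
      (∀ t ∈ L, actKum hbij.surjective (t ^ N t) v = 0) ∧ ∀ t ∈ L',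
        actKum hbij.surjective t v = 0 := by
    intro L'
    induction L' with
    | nil => intro _; exact ⟨_, hx₀, fun t ht => hP t ht x₀, fun t ht => by simp at ht⟩
    | cons a L' ih =>
      intro hsub
      obtain ⟨v, hv0, hvN, hv⟩ := ih fun t ht => hsub t (List.mem_cons_of_mem a ht)
      have hex : ∃ m, actKum hbij.surjective (a ^ m) v = 0 := ⟨_, hvN a (hsub a List.mem_cons_self)⟩
      obtain ⟨m, hm⟩ : ∃ m, m = Nat.find hex := ⟨_, rfl⟩
      have hm0 : 0 < m := by
        rw [hm, Nat.find_pos, pow_zero, actKum_one]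
        exact hv0
      have hcomm : ∀ s, actKum hbij.surjective s (actKum hbij.surjective (a ^ (m - 1)) v)
          = actKum hbij.surjective (a ^ (m - 1)) (actKum hbij.surjective s v) := fun s =>
        DFunLike.congr_fun (actKum_commute hbij.surjective s (a ^ (m - 1))).eq v
      refine ⟨actKum hbij.surjective (a ^ (m - 1)) v,
        Nat.find_min hex (show m - 1 < Nat.find hex by omega), fun t ht => ?_,
        fun t ht => ?_⟩
      · exact (hcomm _).trans ((congrArg _ (hvN t ht)).trans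
          (actKum_map_zero hbij.surjective (a ^ (m - 1))))
      · rcases List.mem_cons.mp ht with rfl | ht
        · refine (actKum_mul hbij.surjective t (t ^ (m - 1)) v).symm.trans ?_
          rw [← pow_succ', Nat.sub_add_cancel hm0, hm]
          exact Nat.find_spec hex
        · exact (hcomm _).trans ((congrArg _ (hv t ht)).trans
            (actKum_map_zero hbij.surjective (a ^ (m - 1))))
  obtain ⟨v, hv0, -, hv⟩ := key L fun _ h => h
  refine ⟨v, fun t ht => ?_, hv0⟩
  obtain ⟨t', ht', e⟩ := hL t ht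
  rw [e]
  exact hv t' ht'

omit [CharP k ℓ] in
/-- Operators with equal eigenvalues agree on the eigen part. -/
theorem actKum_eq_of_theta_eq {s t : HAlg M} (h : E.theta s = E.theta t) {x : Kum M ℓ}
    (hx : x ∈ E.eigSub hbij) : actKum hbij.surjective s x = actKum hbij.surjective t x := by
  have h1 := hx (s - t) (by rw [map_sub, h, sub_self])
  exact (congrArg (fun u => actKum hbij.surjective u x) (sub_add_cancel s t)).symm.trans
    ((actKum_add hbij.surjective (s - t) t x).trans
      ((congrArg (fun u => u + actKum hbij.surjective t x) h1).trans (zero_add _)))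

/-- An operator killing the eigen part has eigenvalue `0`. -/
theorem theta_eq_zero_of_eigSub [Finite (Kum M ℓ)] {t : HAlg M}
    (h : ∀ x ∈ E.eigSub hbij, actKum hbij.surjective t x = 0) : E.theta t = 0 := by
  classical
  obtain ⟨x, hx, hx0⟩ := E.exists_mem_eigSub hbij
  by_contra h0
  obtain ⟨N, hN0, hN⟩ := exists_idem_pow hbij.surjective t
  have h1 := E.theta_eq_zero_of_actKum hbij (t := t ^ (N + N) - t ^ N)
    (AddMonoidHom.ext fun y => actKum_sub_eq_zero hbij.surjective (hN y))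
  rw [map_sub, map_pow, map_pow, sub_eq_zero, pow_add] at h1
  have h2 : E.theta (t ^ (N - 1) * t) = E.theta 1 := by
    rw [map_one, map_mul, map_pow, ← pow_succ, Nat.sub_add_cancel hN0]
    exact (mul_eq_left₀ (pow_ne_zero N h0)).mp h1
  have h3 := E.actKum_eq_of_theta_eq hbij h2 hx
  exact hx0 ((actKum_one hbij.surjective x).symm.trans (h3.symm.trans
    ((actKum_mul hbij.surjective (t ^ (N - 1)) t x).trans ((congrArg _ (h x hx)).trans
      (actKum_map_zero hbij.surjective (t ^ (N - 1)))))))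

/-- Operators on the eigen part. -/
def eigAct (t : HAlg M) : AddMonoid.End ↥(E.eigSub hbij) :=
  AddMonoidHom.mk' (fun x => ⟨actKum hbij.surjective t x.1, fun s hs => by
      have h : actKum hbij.surjective s (actKum hbij.surjective t x.1) =
          actKum hbij.surjective t (actKum hbij.surjective s x.1) :=
        DFunLike.congr_fun (actKum_commute hbij.surjective s t).eq x.1
      exact h.trans ((congrArg _ (x.2 s hs)).trans (actKum_map_zero hbij.surjective t))⟩)
    fun x y => Subtype.ext ((actKum hbij.surjective t).map_add x.1 y.1)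

/-- Galois on the eigen part. -/
def eigGal : GalQ →* AddMonoid.End ↥(E.eigSub hbij) where
  toFun g := AddMonoidHom.mk' (fun x => ⟨galKum ℓ g x.1, fun s hs => by
      rw [← galKum_actKum hbij.surjective g s x.1, x.2 s hs]
      exact AddMonoidHom.map_zero (galKum (M := M) ℓ g : Kum M ℓ →+ Kum M ℓ)⟩)
    fun x y => Subtype.ext (galKum_add g x.1 y.1)
  map_one' := AddMonoidHom.ext fun x => Subtype.ext (galKum_one x.1)
  map_mul' g h := AddMonoidHom.ext fun x => Subtype.ext (galKum_mul g h x.1)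

omit [CharP k ℓ] in
theorem coe_eigGal (g : GalQ) (x : ↥(E.eigSub hbij)) :
    (E.eigGal hbij g x : Kum M ℓ) = galKum ℓ g x.1 := rfl

omit [CharP k ℓ] in
theorem eigAct_mul (s t : HAlg M) :
    E.eigAct hbij (s * t) = E.eigAct hbij s * E.eigAct hbij t :=
  AddMonoidHom.ext fun x => Subtype.ext (actKum_mul hbij.surjective s t x.1)

omit [CharP k ℓ] in
theorem eigAct_add (s t : HAlg M) :
    E.eigAct hbij (s + t) = E.eigAct hbij s + E.eigAct hbij t :=
  AddMonoidHom.ext fun x => Subtype.ext (actKum_add hbij.surjective s t x.1)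

omit [CharP k ℓ] in
theorem eigAct_mul_sub (r s q b : HAlg M) :
    E.eigAct hbij (r * s - q * b)
      = E.eigAct hbij r * E.eigAct hbij s - E.eigAct hbij q * E.eigAct hbij b :=
  pseudo_sub (E.eigAct_mul hbij r s) (E.eigAct_mul hbij q b)
    ((E.eigAct_add hbij _ _).symm.trans (congrArg (E.eigAct hbij) (sub_add_cancel _ _)))

omit [CharP k ℓ] in
theorem eigAct_one : E.eigAct hbij 1 = 1 :=
  AddMonoidHom.ext fun x => Subtype.ext (actKum_one hbij.surjective x.1)

omit [CharP k ℓ] in
theorem eigAct_congr {s t : HAlg M} (h : E.theta s = E.theta t) :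
    E.eigAct hbij s = E.eigAct hbij t :=
  AddMonoidHom.ext fun x => Subtype.ext (E.actKum_eq_of_theta_eq hbij h x.2)

omit [CharP k ℓ] in
theorem eigAct_eigGal (g : GalQ) (t : HAlg M) :
    E.eigAct hbij t * E.eigGal hbij g = E.eigGal hbij g * E.eigAct hbij t :=
  AddMonoidHom.ext fun x => Subtype.ext (galKum_actKum hbij.surjective g t x.1).symm

/-- An element with eigenvalue the determinant at `g`. -/
def detOp (g : GalQ) : HAlg M :=
  (cycExp M g : HAlg M) * FreeAlgebra.ι ℤ (Sum.inr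
    ⟨sigmaP M (cycExp M g) (coprime_cycExp g), sigmaP_mem _ _⟩)

variable (hℓM : ℓ ∣ M)

/-- The determinant character. -/
def detChar : GalQ →* k where
  toFun g := ZMod.castHom hℓM k (cycM M g) * E.φ ⟨E.χ (cycM M g), E.hχ _⟩
  map_one' := by
    rw [show (⟨E.χ (cycM M 1), E.hχ _⟩ : E.R) = 1 from
      Subtype.ext (by simp), map_one, map_one, map_one, mul_one]
  map_mul' g h := by
    rw [show (⟨E.χ (cycM M (g * h)), E.hχ _⟩ : E.R)
        = ⟨E.χ (cycM M g), E.hχ _⟩ * ⟨E.χ (cycM M h), E.hχ _⟩ from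
      Subtype.ext (by simp), map_mul, map_mul, map_mul]
    ring

omit [Fact (1 < M)] [NeZero ℓ] in
theorem detChar_apply (g : GalQ) :
    E.detChar hℓM g = ZMod.castHom hℓM k (cycM M g) * E.φ ⟨E.χ (cycM M g), E.hχ _⟩ := rfl

omit [Fact (1 < M)] [NeZero ℓ] in
theorem theta_detOp (g : GalQ) : E.theta (detOp g) = E.detChar hℓM g := by
  rw [detOp, map_mul, map_natCast, theta_D, detChar_apply, cycM_apply, map_natCast]
  congr 2
  exact Subtype.ext (congrArg E.χ (sigmaP_apply _ _))

/-- `t` computes `g + det(g) g⁻¹` on the eigen part. -/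
def EigWit (g : GalQ) (t : HAlg M) : Prop :=
  E.eigGal hbij g + E.eigAct hbij (detOp g) * E.eigGal hbij g⁻¹ = E.eigAct hbij t

theorem theta_eq_of_eigAct_eq [Finite (Kum M ℓ)] {s t : HAlg M}
    (h : E.eigAct hbij s = E.eigAct hbij t) : E.theta s = E.theta t := by
  rw [← sub_eq_zero, ← map_sub]
  refine E.theta_eq_zero_of_eigSub hbij fun x hx => actKum_sub_eq_zero hbij.surjective ?_
  exact congrArg Subtype.val (DFunLike.congr_fun h ⟨x, hx⟩)

include hℓM in
omit [NeZero M] [Fact (1 < M)] [NeZero ℓ] in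
theorem not_dvd_level {p : ℕ} (hpM : ¬ p ∣ M) : ¬ p ∣ ℓ := fun h => hpM (h.trans hℓM)

include hℓM in
theorem eigWit_frobenius {p : ℕ} (hp : p.Prime) (hpM : ¬ p ∣ M) {A : ValuationSubring Qbar}
    (hA : A.LiesOverPrime p) {σ : GalQ} (hσ : A.IsFrobeniusAt σ p) :
    E.EigWit hbij σ (FreeAlgebra.ι ℤ (Sum.inl ⟨p, hp, hpM⟩)) := by
  have : Fact p.Prime := ⟨hp⟩
  refine AddMonoidHom.ext fun x => Subtype.ext ?_
  have h := galKum_frobenius hA hp hpM hbij.surjective (not_dvd_level hℓM hpM) hσ (galKum ℓ σ⁻¹ x.1)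
  have hx : galKum ℓ σ (galKum ℓ σ⁻¹ x.1) = x.1 :=
    (galKum_mul σ σ⁻¹ x.1).symm.trans
      ((congrArg (fun u => galKum ℓ u x.1) (mul_inv_cancel σ)).trans (galKum_one x.1))
  rw [hx] at h
  show galKum ℓ σ x.1 + actKum hbij.surjective (detOp σ) (galKum ℓ σ⁻¹ x.1)
    = actKum hbij.surjective (FreeAlgebra.ι ℤ (Sum.inl ⟨p, hp, hpM⟩)) x.1
  rw [actKum_ι]
  refine Eq.trans ?_ h
  congr 1
  have hθ : E.theta (detOp σ) = E.theta ((p : HAlg M) * FreeAlgebra.ι ℤ (Sum.inr
      ⟨sigmaT (M := M) hp hpM, sigmaT_mem hp hpM⟩)) := by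
    rw [E.theta_detOp hℓM, map_mul, map_natCast, theta_D, detChar_apply,
      cycM_frobenius hp hA hpM hσ,
      map_natCast]
    congr 2
    exact Subtype.ext (congrArg E.χ (sigmaP_apply _ _).symm)
  refine (E.actKum_eq_of_theta_eq hbij hθ (E.eigGal hbij σ⁻¹ x).2).trans ?_
  rw [coe_eigGal, actKum_mul hbij.surjective (p : HAlg M), actKum_natCast, actKum_ι]
  rfl

include hℓM in
theorem eigAct_detOp_congr {g h : GalQ} (e : cycM M g = cycM M h) :
    E.eigAct hbij (detOp g) = E.eigAct hbij (detOp h) := by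
  refine E.eigAct_congr hbij ?_
  rw [detOp, detOp, map_mul, map_mul, map_natCast, map_natCast, theta_D, theta_D]
  have h1 : ((cycExp M g : ℕ) : k) = (cycExp M h : ℕ) := by
    have := congrArg (fun z : ZMod M => ZMod.castHom hℓM k z) e
    simpa [cycM_apply] using this
  rw [h1]
  congr 2
  exact Subtype.ext (congrArg E.χ (by rw [sigmaP_apply, sigmaP_apply]; exact e))

include hℓM in
theorem EigWit.of_agree {g h : GalQ} {t : HAlg M} (hw : E.EigWit hbij h t)
    (h1 : ∀ x : Kum M ℓ, galKum ℓ g x = galKum ℓ h x)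
    (h2 : ∀ x : Kum M ℓ, galKum ℓ g⁻¹ x = galKum ℓ h⁻¹ x) (e : cycM M g = cycM M h) :
    E.EigWit hbij g t := by
  have e1 : E.eigGal hbij g = E.eigGal hbij h :=
    AddMonoidHom.ext fun x => Subtype.ext (h1 x.1)
  have e2 : E.eigGal hbij g⁻¹ = E.eigGal hbij h⁻¹ :=
    AddMonoidHom.ext fun x => Subtype.ext (h2 x.1)
  exact pseudo_agree (E.eigGal hbij) e1 e2 (E.eigAct_detOp_congr hbij hℓM e) hw

include hℓM in
theorem exists_eigWit [Finite (Kum M ℓ)] (g : GalQ) : ∃ t, E.EigWit hbij g t := by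
  obtain ⟨L, hLfd, hLgal, hL⟩ := exists_level (M := M) ℓ
  obtain ⟨p, hp, hpS, A, hA, -, σ, hσ, hag⟩ :=
    Density.exists_frobenius_agree L g (M.primeFactors)
  have hpM : ¬ p ∣ M := fun h => hpS (Nat.mem_primeFactors.mpr ⟨hp, h, NeZero.ne M⟩)
  refine ⟨_, (E.eigWit_frobenius hbij hℓM hp hpM hA hσ).of_agree E hbij hℓM ?_ ?_ ?_⟩
  · intro x
    have hu : ∀ y ∈ L, (σ⁻¹ * g) y = y := fun y hy => by
      rw [AlgEquiv.mul_apply, hag y hy, ← AlgEquiv.mul_apply, inv_mul_cancel, AlgEquiv.one_apply]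
    conv_rhs => rw [← (hL _ hu).2 x]
    rw [← galKum_mul, mul_inv_cancel_left]
  · intro x
    have hu : ∀ y ∈ L, (g⁻¹ * σ) y = y := fun y hy => by
      rw [AlgEquiv.mul_apply, ← hag y hy, ← AlgEquiv.mul_apply, inv_mul_cancel, AlgEquiv.one_apply]
    rw [← mul_inv_cancel_right g⁻¹ σ]
    exact (galKum_mul (g⁻¹ * σ) σ⁻¹ x).trans ((hL _ hu).2 _)
  · have hu : ∀ y ∈ L, (σ⁻¹ * g) y = y := fun y hy => by
      rw [AlgEquiv.mul_apply, hag y hy, ← AlgEquiv.mul_apply, inv_mul_cancel, AlgEquiv.one_apply]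
    rw [show g = σ * (σ⁻¹ * g) by group, map_mul, (hL _ hu).1, mul_one]

variable [Finite (Kum M ℓ)]

/-- The trace function. -/
def eigTr (g : GalQ) : k := E.theta (E.exists_eigWit hbij hℓM g).choose

theorem eigTr_eq {g : GalQ} {t : HAlg M} (h : E.EigWit hbij g t) :
    E.eigTr hbij hℓM g = E.theta t :=
  E.theta_eq_of_eigAct_eq hbij ((E.exists_eigWit hbij hℓM g).choose_spec.symm.trans h)

theorem isTraceFun : ModularityLifting.IsPseudoRep (E.eigTr hbij hℓM) (E.detChar hℓM) := by
  have hdet : ∀ g, E.theta (detOp g) = E.detChar hℓM g := E.theta_detOp hℓM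
  refine ⟨?_, fun x y => ?_, fun x y => ?_⟩
  · rw [E.eigTr_eq hbij hℓM (t := 1 + 1), map_add, map_one, one_add_one_eq_two]
    exact pseudo_one (E.eigGal hbij) (E.eigAct_one hbij)
      (E.eigAct_congr hbij (t := 1) (by rw [hdet, map_one, map_one])) (E.eigAct_add hbij 1 1)
  · obtain ⟨t, ht⟩ := E.exists_eigWit hbij hℓM (x * y)
    rw [E.eigTr_eq hbij hℓM ht]
    refine E.eigTr_eq hbij hℓM ?_
    have ed : E.eigAct hbij (detOp (y * x)) = E.eigAct hbij (detOp (x * y)) :=
      E.eigAct_detOp_congr hbij hℓM (by rw [map_mul, map_mul, mul_comm])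
    exact pseudo_comm_congr (E.eigGal hbij) (fun g => E.eigAct_eigGal hbij g _)
      (fun g => E.eigAct_eigGal hbij g _) ed ht
  · obtain ⟨r, hr⟩ := E.exists_eigWit hbij hℓM x
    obtain ⟨s, hs⟩ := E.exists_eigWit hbij hℓM y
    obtain ⟨b, hb⟩ := E.exists_eigWit hbij hℓM (x * y⁻¹)
    rw [E.eigTr_eq hbij hℓM hr, E.eigTr_eq hbij hℓM hs, E.eigTr_eq hbij hℓM hb,
      E.eigTr_eq hbij hℓM (g := x * y) (t := r * s - detOp y * b) ?_, map_sub, map_mul, map_mul,
      hdet, sub_add_cancel]
    have hce : E.eigAct hbij (detOp y) * E.eigAct hbij (detOp (x * y⁻¹))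
        = E.eigAct hbij (detOp x) := by
      refine (E.eigAct_mul hbij _ _).symm.trans (E.eigAct_congr hbij ?_)
      rw [map_mul, hdet, hdet, hdet, map_mul]
      have hyy : E.detChar hℓM y * E.detChar hℓM y⁻¹ = 1 := by
        rw [← map_mul, mul_inv_cancel, map_one]
      linear_combination E.detChar hℓM x * hyy
    have hxy : E.eigAct hbij (detOp (x * y))
        = E.eigAct hbij (detOp x) * E.eigAct hbij (detOp y) :=
      (E.eigAct_congr hbij (by rw [map_mul, hdet, hdet, hdet, map_mul])).trans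
        (E.eigAct_mul hbij _ _)
    exact pseudo_mul_congr (E.eigGal hbij) (fun g => E.eigAct_eigGal hbij g _)
      (fun g => E.eigAct_eigGal hbij g _) hr hs hb hce hxy (E.eigAct_mul_sub hbij _ _ _ _)

include hℓM in
theorem eigTr_mul_of_trivial {h : GalQ} (hh : ∀ x : Kum M ℓ, galKum ℓ h x = x)
    (hh' : ∀ x : Kum M ℓ, galKum ℓ h⁻¹ x = x) (hc : cycM M h = 1) (y : GalQ) :
    E.eigTr hbij hℓM (y * h) = E.eigTr hbij hℓM y := by
  obtain ⟨t, ht⟩ := E.exists_eigWit hbij hℓM y
  rw [E.eigTr_eq hbij hℓM ht]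
  refine E.eigTr_eq hbij hℓM (ht.of_agree E hbij hℓM ?_ ?_ ?_)
  · intro x; rw [galKum_mul, hh]
  · intro x; rw [mul_inv_rev, galKum_mul, hh']
  · rw [map_mul, hc, mul_one]

include hbij in
omit [Finite (Kum M ℓ)] in
theorem chi_neg_one : E.φ ⟨E.χ (-1), E.hχ _⟩ = 1 := by
  have hneg : (-1 : SL(2, ℤ)) ∈ Gamma0 M := by simp [Gamma0_mem]
  have h := E.theta_eq_zero_of_actKum hbij
    (t := FreeAlgebra.ι ℤ (Sum.inr ⟨-1, hneg⟩) - 1) (AddMonoidHom.ext fun x => by
      refine actKum_sub_eq_zero hbij.surjective ?_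
      rw [actKum_one, actKum_ι]
      obtain ⟨u, rfl⟩ := kumMk_surjective x
      exact congrArg kumMk (Subtype.ext (Units.ext ((dRep_normFF _ hneg _).trans
        (diaFF_neg_one hneg _)))))
  rw [map_sub, map_one, sub_eq_zero, theta_D] at h
  rw [← h]
  congr 2
  simp

include hℓM hbij in
/-- The residual representation of an eigen system. -/
theorem exists_rep [IsAlgClosed k] (hℓ2 : (2 : k) ≠ 0) :
    ∃ ρ : GalQ →* GL (Fin 2) k, GaloisFactorsThroughFiniteLevel ρ ∧ ∀ p : ℕ, p.Prime → ¬ p ∣ M →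
      ∀ A : ValuationSubring Qbar, A.LiesOverPrime p →
        (∀ σ ∈ A.inertiaSubgroupIn ℚ, ρ σ = 1) ∧ ∀ σ, A.IsFrobeniusAt σ p →
          (ρ σ).val.trace = E.φ ⟨_, E.hR p⟩ ∧ (ρ σ).val.det = (p : k) * E.φ ⟨E.χ p, E.hχ _⟩ := by
  have hf := E.isTraceFun hbij hℓM
  have hdc : E.detChar hℓM complexConjugation = -1 := by
    rw [detChar_apply, cycM_complexConjugation, map_neg, map_one]
    rw [E.chi_neg_one hbij, mul_one]
  have hfc : E.eigTr hbij hℓM complexConjugation = 0 := by
    rw [E.eigTr_eq hbij hℓM (t := 0), map_zero]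
    have hinv : (complexConjugation : GalQ)⁻¹ = complexConjugation :=
      inv_eq_of_mul_eq_one_right complexConjugation_mul_self
    refine pseudo_inv (E.eigGal hbij) hinv (E.eigAct_one hbij)
      ((E.eigAct_add hbij 0 0).symm.trans (congrArg (E.eigAct hbij) (add_zero 0))) ?_
    have hd : E.theta (detOp complexConjugation + 1) = E.theta 0 := by
      rw [map_add, E.theta_detOp hℓM, hdc, map_one, map_zero, neg_add_cancel]
    exact (E.eigAct_add hbij _ _).symm.trans (E.eigAct_congr hbij hd)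
  obtain ⟨R⟩ := GaloisAttach.exists_realization hf complexConjugation (α := (1 : k)) (β := -1)
    (fun h => hℓ2 (by linear_combination h)) (by rw [hfc, add_neg_cancel])
    (by rw [hdc, one_mul]) ⊤ trivial trivial (fun _ => trivial)
  have key : ∀ h : GalQ, (∀ x : Kum M ℓ, galKum ℓ h x = x) →
      (∀ x : Kum M ℓ, galKum ℓ h⁻¹ x = x) → cycM M h = 1 → R.M h = 1 := by
    intro h hh hh' hc
    refine sub_eq_zero.mp (Matrix.ext fun i j => ?_)
    have := R.bound_mem ⊥ (fun o _ x hx => by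
        rw [AddSubgroup.mem_bot] at hx ⊢; rw [hx, mul_zero]) h
      (fun y => by rw [E.eigTr_mul_of_trivial hbij hℓM hh hh' hc, sub_self]; exact zero_mem _) i j
    rw [AddSubgroup.mem_bot] at this
    exact (mul_eq_zero.mp this).resolve_left R.bound_ne
  refine ⟨R.M.toHomUnits, ?_, fun p hp hpM A hA => ⟨fun σ hσ => ?_, fun σ hσ => ?_⟩⟩
  · obtain ⟨L, hLfd, -, hL⟩ := exists_level (M := M) ℓ
    refine ⟨L, hLfd, fun σ hσ => Units.ext ?_⟩
    have hσ' : ∀ y ∈ L, σ⁻¹ y = y := fun y hy => by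
      conv_lhs => rw [← hσ y hy]
      rw [← AlgEquiv.mul_apply, inv_mul_cancel, AlgEquiv.one_apply]
    exact key σ (hL σ hσ).2 (hL _ hσ').2 (hL σ hσ).1
  · have : Fact p.Prime := ⟨hp⟩
    refine Units.ext (key σ (galKum_inertia hA hpM (not_dvd_level hℓM hpM) hσ)
      (galKum_inertia hA hpM (not_dvd_level hℓM hpM) (inv_mem hσ)) (cycM_inertia hp hA hpM hσ))
  · refine ⟨?_, ?_⟩
    · rw [MonoidHom.coe_toHomUnits, R.trace_eq,
        E.eigTr_eq hbij hℓM (E.eigWit_frobenius hbij hℓM hp hpM hA hσ), E.theta_T hp hpM]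
    · rw [MonoidHom.coe_toHomUnits, R.det_eq, detChar_apply, map_natCast_cycM (hℓM := hℓM)
        (cycM_frobenius hp hA hpM hσ)]
      congr 2
      exact Subtype.ext (congrArg E.χ (cycM_frobenius hp hA hpM hσ))
where
  map_natCast_cycM {p : ℕ} {g : GalQ} (hℓM : ℓ ∣ M) (h : cycM M g = p) :
      ZMod.castHom hℓM k (cycM M g) = p := by rw [h, map_natCast]

end EigenInput

end FLTAgent.GammaH

end
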