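import Fermat.Agent.GammaH.Base
import Fermat.Agent.LevelM.XRatio
import Fermat.Agent.LevelM.Descend
import Mathlib.NumberTheory.ModularForms.LevelOne.GradedRing

/-!
# Torsion functions: modular functions permuted by `SL(2, ℤ)` and by Galois

`wFun v = E₄ E₆ / Δ · ∑_u (℘_v - ℘_u)`, a function of weight `0` attached to a nonzero
`v ∈ (ℤ/M)²`.
-/

set_option autoImplicit false

noncomputable section

open UpperHalfPlane Filter CongruenceSubgroup ModularCurve
open scoped Manifold MatrixGroups Topology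

namespace FLTAgent.GammaH

open FLTAgent.LevelM FLTAgent.HeckeJacobian

local notation "Qbar" => AlgebraicClosure ℚ
local notation "GalQ" => AlgebraicClosure ℚ ≃ₐ[ℚ] AlgebraicClosure ℚ
local notation "𝕢" => Function.Periodic.qParam

/-! ## Rational expansions -/

/-- An expansion in `q` with rational coefficients. -/
def RatExp (f : ℍ → ℂ) : Prop :=
  ∃ t : LaurentSeries ℚ, HasExp 1 f (coeffMap (algebraMap ℚ ℂ) t)

theorem RatExp.add {f g : ℍ → ℂ} (hf : RatExp f) (hg : RatExp g) : RatExp (f + g) := by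
  obtain ⟨s, hs⟩ := hf; obtain ⟨t, ht⟩ := hg
  exact ⟨s + t, by rw [map_add]; exact hs.add ht⟩

theorem RatExp.sub {f g : ℍ → ℂ} (hf : RatExp f) (hg : RatExp g) : RatExp (f - g) := by
  obtain ⟨s, hs⟩ := hf; obtain ⟨t, ht⟩ := hg
  exact ⟨s - t, by rw [map_sub]; exact hs.sub ht⟩

theorem RatExp.mul {f g : ℍ → ℂ} (hf : RatExp f) (hg : RatExp g) : RatExp (f * g) := by
  obtain ⟨s, hs⟩ := hf; obtain ⟨t, ht⟩ := hg
  exact ⟨s * t, by rw [map_mul]; exact hs.mul ht⟩

theorem ratExp_const (c : ℚ) : RatExp (fun _ => (c : ℂ)) :=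
  ⟨HahnSeries.C c, by
    rw [HahnSeries.C_apply, coeffMap_single, ← HahnSeries.C_apply, eq_ratCast]
    exact hasExp_C 1 _⟩

theorem RatExp.inv {f : ℍ → ℂ} (hf : RatExp f) (h0 : ∃ τ, f τ ≠ 0) (hd : MDiff f) :
    RatExp f⁻¹ := by
  obtain ⟨s, hs⟩ := hf
  refine ⟨s⁻¹, ?_⟩
  rw [map_inv₀]
  refine hs.inv one_pos fun h => ?_
  obtain ⟨τ, hτ⟩ := h0
  exact hτ (congrFun (eq_of_hasExp hd mdifferentiable_const (h ▸ hs) (hasExp_zero 1)) τ)

/-- A level one form with rational `q`-expansion coefficients. -/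
theorem ratExp_form {k : ℤ} (F : ModularForm 𝒮ℒ k)
    (h : ∀ m, ∃ c : ℚ, (c : ℂ) = (qExpansion 1 F).coeff m) : RatExp (F : ℍ → ℂ) := by
  choose c hc using h
  refine ⟨HahnSeries.ofPowerSeries ℤ ℚ (PowerSeries.mk c), Eventually.of_forall fun τ => ?_⟩
  refine (Nat.cast_injective.hasSum_iff (g := ((↑) : ℕ → ℤ)) fun k hk => ?_).mp ?_
  · rw [coeffMap_coeff, ofPowerSeries_coeff_of_neg, map_zero, zero_mul]
    by_contra h0
    exact hk ⟨k.toNat, Int.toNat_of_nonneg (not_lt.mp h0)⟩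
  · have := ModularForm.hasSum_qExpansion (f := F) one_pos one_mem_strictPeriods_SL τ
    refine this.congr_fun fun m => ?_
    simp [Function.comp_apply, hc]

theorem ratExp_E₄ : RatExp (ModularForm.E₄ : ℍ → ℂ) := by
  refine ratExp_form _ fun m => ?_
  have := EisensteinSeries.E_qExpansion_coeff (k := 4) (by norm_num) ⟨2, rfl⟩ m
  refine ⟨if m = 0 then 1 else -(2 * 4 / bernoulli 4) * (ArithmeticFunction.sigma 3 m), ?_⟩
  rw [show (ModularForm.E₄ : ModularForm 𝒮ℒ 4) = ModularForm.E (k := 4) (by norm_num) from rfl,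
    this]
  split <;> simp

theorem ratExp_E₆ : RatExp (ModularForm.E₆ : ℍ → ℂ) := by
  refine ratExp_form _ fun m => ?_
  have := EisensteinSeries.E_qExpansion_coeff (k := 6) (by norm_num) ⟨3, rfl⟩ m
  refine ⟨if m = 0 then 1 else -(2 * 6 / bernoulli 6) * (ArithmeticFunction.sigma 5 m), ?_⟩
  rw [show (ModularForm.E₆ : ModularForm 𝒮ℒ 6) = ModularForm.E (k := 6) (by norm_num) from rfl,
    this]
  split <;> simp

theorem mdiff_discriminant : MDiff ModularForm.discriminant := by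
  simpa using CuspForm.discriminant.holo'

theorem mdiff_inv_discriminant : MDiff (ModularForm.discriminant)⁻¹ :=
  mdifferentiable_fun_inv mdiff_discriminant ModularForm.discriminant_ne_zero

theorem ratExp_discriminant : RatExp ModularForm.discriminant := by
  have h := ((ratExp_E₄.mul (ratExp_E₄.mul ratExp_E₄)).sub (ratExp_E₆.mul ratExp_E₆)).mul
    (ratExp_const (1 / 1728))
  convert h using 1
  funext τ
  rw [ModularForm.discriminant_eq_E₄_cube_sub_E₆_sq]
  simp only [Pi.mul_apply, Pi.sub_apply]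
  push_cast
  ring

theorem ratExp_inv_discriminant : RatExp (ModularForm.discriminant)⁻¹ :=
  ratExp_discriminant.inv ⟨UpperHalfPlane.I, ModularForm.discriminant_ne_zero _⟩ mdiff_discriminant

/-- The automorphy factor `cτ + d`. -/
def jac (γ : SL(2, ℤ)) (τ : ℍ) : ℂ := (γ 1 0 : ℂ) * τ + γ 1 1

theorem jac_ne_zero (γ : SL(2, ℤ)) (τ : ℍ) : jac γ τ ≠ 0 := autFactor_ne_zero γ τ

theorem levelOne_smul {k : ℤ} (F : ModularForm 𝒮ℒ k) (γ : SL(2, ℤ)) (τ : ℍ) :
    F (γ • τ) = jac γ τ ^ k * F τ := by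
  rw [ModularFF.slash_eqn_SL F γ τ]
  simp [jac, UpperHalfPlane.denom, mul_comm]

theorem discriminant_smul (γ : SL(2, ℤ)) (τ : ℍ) :
    ModularForm.discriminant (γ • τ) = jac γ τ ^ (12 : ℤ) * ModularForm.discriminant τ := by
  have h := levelOne_smul (CuspForm.discriminant : ModularForm 𝒮ℒ 12) γ τ
  simpa using h

/-- `E₄ E₆ / Δ`, of weight `-2`. -/
def gTen : ℍ → ℂ :=
  (ModularForm.E₄ : ℍ → ℂ) * (ModularForm.E₆ : ℍ → ℂ) * (ModularForm.discriminant)⁻¹

theorem mdiff_gTen : MDiff gTen :=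
  (ModularForm.E₄.holo'.mul ModularForm.E₆.holo').mul mdiff_inv_discriminant

theorem ratExp_gTen : RatExp gTen := (ratExp_E₄.mul ratExp_E₆).mul ratExp_inv_discriminant

theorem gTen_smul (γ : SL(2, ℤ)) (τ : ℍ) : jac γ τ ^ 2 * gTen (γ • τ) = gTen τ := by
  have := jac_ne_zero γ τ
  have hd := ModularForm.discriminant_ne_zero τ
  simp only [gTen, Pi.mul_apply, Pi.inv_apply, levelOne_smul, discriminant_smul]
  field_simp

theorem exists_gTen_ne_zero : ∃ τ, gTen τ ≠ 0 := by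
  by_contra! h
  have hd := fun τ => ModularForm.discriminant_ne_zero τ
  let e4 : Hol := ⟨_, ModularForm.E₄.holo'⟩
  let e6 : Hol := ⟨_, ModularForm.E₆.holo'⟩
  have hprod : e4 * e6 = 0 := Subtype.ext (funext fun τ => by
    simpa [gTen, hd τ, e4, e6] using h τ)
  rcases mul_eq_zero.mp hprod with h0 | h0
  · obtain ⟨τ, hτ⟩ := ModularFF.exists_jFun_eq 1
    have h4 : ModularForm.E₄ τ = 0 := congrFun (congrArg Subtype.val h0) τ
    simp [ModularFF.jFun, h4] at hτ
  · obtain ⟨τ, hτ⟩ := ModularFF.exists_jFun_eq 0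
    have h6 : ModularForm.E₆ τ = 0 := congrFun (congrArg Subtype.val h0) τ
    have h4 : ModularForm.E₄ τ = 0 := by
      simpa [ModularFF.jFun, hd τ] using hτ
    exact hd τ (by rw [ModularForm.discriminant_eq_E₄_cube_sub_E₆_sq, h4, h6]; norm_num)

/-! ## Torsion sums -/

variable {M : ℕ} [NeZero M]

/-- The nonzero elements of `(ℤ/M)²`. -/
def nonzeroPts (M : ℕ) [NeZero M] : Finset (Fin 2 → ZMod M) := Finset.univ.filter (· ≠ 0)

theorem mem_nonzeroPts {u : Fin 2 → ZMod M} : u ∈ nonzeroPts M ↔ u ≠ 0 := by simp [nonzeroPts]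

/-- `∑_u (℘_v - ℘_u)`, normalised. -/
def ySum (v : Fin 2 → ZMod M) : ℍ → ℂ := ∑ u ∈ nonzeroPts M, xdiff M v u

theorem ySum_smul (γ : SL(2, ℤ)) {v : Fin 2 → ZMod M} (τ : ℍ) :
    ySum v (γ • τ) = jac γ τ ^ 2 * ySum (vact v γ) τ := by
  simp only [ySum, Finset.sum_apply, xdiff_smul, ← Finset.mul_sum, jac]
  congr 1
  refine Finset.sum_bijective (fun u => vact u γ)
    ⟨vact_injective γ, (Finite.injective_iff_surjective).mp (vact_injective γ)⟩ (fun u => ?_)
    (fun _ _ => rfl)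
  simp only [mem_nonzeroPts]
  exact ⟨fun h => vact_ne_zero h γ, fun h h0 => h (by rw [h0, vact_zero])⟩

theorem ySum_sub (v w : Fin 2 → ZMod M) :
    ySum v - ySum w = ((nonzeroPts M).card : ℂ) • xdiff M v w := by
  funext τ
  simp only [ySum, Pi.sub_apply, Finset.sum_apply, ← Finset.sum_sub_distrib, Pi.smul_apply,
    smul_eq_mul, xdiff, sub_sub_sub_cancel_right, Finset.sum_const, nsmul_eq_mul]

/-- The weight zero function attached to `v`. -/
def wFun (v : Fin 2 → ZMod M) : ℍ → ℂ := gTen * ySum v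

theorem act_wFun (γ : SL(2, ℤ)) (v : Fin 2 → ZMod M) : act γ (wFun v) = wFun (vact v γ) := by
  funext τ
  simp only [act_apply, wFun, Pi.mul_apply, ySum_smul]
  rw [← gTen_smul γ τ]
  ring

theorem mdiff_wFun {v : Fin 2 → ZMod M} (hv : v ≠ 0) : MDiff (wFun v) :=
  mdiff_gTen.mul (MDifferentiable.sum fun _ hu => mdifferentiable_xdiff hv (mem_nonzeroPts.mp hu))

theorem wFun_ne {v w : Fin 2 → ZMod M} (hv : v ≠ 0) (hw : w ≠ 0) (h1 : v ≠ w) (h2 : v ≠ -w) :
    wFun v ≠ wFun w := fun h => by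
  obtain ⟨τ, hτ⟩ := exists_gTen_ne_zero
  have h' := congrFun h τ
  simp only [wFun, Pi.mul_apply] at h'
  have h'' := congrFun (ySum_sub v w) τ
  rw [Pi.sub_apply, mul_left_cancel₀ hτ h', sub_self, Pi.smul_apply, smul_eq_mul] at h''
  refine mul_ne_zero ?_ (xdiff_ne_zero hv hw h1 h2 τ) h''.symm
  exact_mod_cast Finset.card_ne_zero.mpr ⟨v, mem_nonzeroPts.mpr hv⟩

/-! ## Galois action on the expansions -/

theorem exists_iotaC_zeta (M : ℕ) [NeZero M] : ∃ z : Qbar, iotaC z = zetaM M := by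
  obtain ⟨ξ, hξ⟩ := HasEnoughRootsOfUnity.exists_primitiveRoot Qbar M
  have hξ' : IsPrimitiveRoot (iotaC ξ) M := hξ.map_of_injective iotaC_injective
  obtain ⟨i, -, hi⟩ := hξ'.eq_pow_of_pow_eq_one
    (zetaM_isPrimitiveRoot (NeZero.pos M)).pow_eq_one
  exact ⟨ξ ^ i, by rw [map_pow, hi]⟩

variable (M) in
/-- The root of unity mapping to `exp (2πi/M)`. -/
def zetaQ : Qbar := (exists_iotaC_zeta M).choose

@[simp] theorem iotaC_zetaQ : iotaC (zetaQ M) = zetaM M := (exists_iotaC_zeta M).choose_spec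

theorem zetaQ_isPrimitiveRoot : IsPrimitiveRoot (zetaQ M) M :=
  IsPrimitiveRoot.of_map_of_injective (f := iotaC)
    (by rw [iotaC_zetaQ]; exact zetaM_isPrimitiveRoot (NeZero.pos M)) iotaC_injective

/-- `σ` acts on `M`-th roots of unity through exponentiation by `cycExp σ`. -/
theorem exists_cycExp (σ : GalQ) : ∃ k : ℕ, k.Coprime M ∧ σ (zetaQ M) = zetaQ M ^ k := by
  have h : IsPrimitiveRoot (σ (zetaQ M)) M := zetaQ_isPrimitiveRoot.map_of_injective σ.injective
  obtain ⟨i, -, hc, hi⟩ := zetaQ_isPrimitiveRoot.isPrimitiveRoot_iff.mp h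
  exact ⟨i, hc, hi.symm⟩

variable (M) in
/-- The cyclotomic exponent of `σ`. -/
def cycExp (σ : GalQ) : ℕ := (exists_cycExp (M := M) σ).choose

theorem coprime_cycExp (σ : GalQ) : (cycExp M σ).Coprime M :=
  (exists_cycExp (M := M) σ).choose_spec.1

theorem apply_zetaQ (σ : GalQ) : σ (zetaQ M) = zetaQ M ^ cycExp M σ :=
  (exists_cycExp (M := M) σ).choose_spec.2

variable (M) in
/-- Algebraic version of `xTerm`. -/
def xTermQ (a b : ℤ) (p : ℤ × ℕ) : Qbar :=
  if (M : ℤ) ∣ p.1 - a ∧ p.1 ≠ 0 then (p.2 : Qbar) * zetaQ M ^ (p.1.sign * b * p.2) else 0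

variable (M) in
/-- Algebraic version of `xCoeff`. -/
def xCoeffQ (a b : ℤ) (m : ℕ) : Qbar :=
  if m = 0 then (if (M : ℤ) ∣ a then zetaQ M ^ b / (1 - zetaQ M ^ b) ^ 2 else 0)
  else ∑ p ∈ xBox m, xTermQ M a b p

theorem iotaC_xCoeffQ (a b : ℤ) (m : ℕ) : iotaC (xCoeffQ M a b m) = xCoeff M a b m := by
  simp only [xCoeffQ, xCoeff, xTermQ, xTerm]
  split_ifs <;> simp [map_sum, apply_ite, map_zpow₀]

theorem xCoeffQ_congr {a b a' b' : ℤ} (ha : (M : ℤ) ∣ a - a') (hb : (M : ℤ) ∣ b - b') (m : ℕ) :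
    xCoeffQ M a b m = xCoeffQ M a' b' m := by
  have hz : ∀ c : ℤ, zetaQ M ^ (c * b) = zetaQ M ^ (c * b') := fun c => by
    have h0 : zetaQ M ≠ 0 := zetaQ_isPrimitiveRoot.ne_zero (NeZero.ne M)
    rw [← div_eq_one_iff_eq (zpow_ne_zero _ h0), ← zpow_sub₀ h0, ← mul_sub,
      zetaQ_isPrimitiveRoot.zpow_eq_one_iff_dvd]
    exact dvd_mul_of_dvd_right hb c
  have hd : ∀ e : ℤ, (M : ℤ) ∣ e - a ↔ (M : ℤ) ∣ e - a' := fun e => by
    rw [show e - a' = e - a + (a - a') by ring, dvd_add_left ha]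
  have h0 := hd 0
  simp only [zero_sub, dvd_neg] at h0
  simp only [xCoeffQ, xTermQ]
  congr 1
  · rw [show b = 1 * b by ring, hz 1, one_mul]
    exact if_congr h0 rfl rfl
  · refine Finset.sum_congr rfl fun p _ => ?_
    rw [show p.1.sign * b * (p.2 : ℤ) = p.1.sign * p.2 * b by ring, hz,
      show p.1.sign * (p.2 : ℤ) * b' = p.1.sign * b' * p.2 by ring]
    exact if_congr (and_congr_left fun _ => hd p.1) rfl rfl

theorem apply_xCoeffQ (σ : GalQ) (a b : ℤ) (m : ℕ) :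
    σ (xCoeffQ M a b m) = xCoeffQ M a ((cycExp M σ : ℤ) * b) m := by
  have hz : ∀ c : ℤ, σ (zetaQ M ^ c) = zetaQ M ^ ((cycExp M σ : ℤ) * c) := fun c => by
    rw [map_zpow₀, apply_zetaQ, ← zpow_natCast, ← zpow_mul]
  simp only [xCoeffQ, xTermQ]
  split_ifs with h1 h2
  · simp [map_div₀, map_pow, map_sub, hz]
  · exact map_zero σ
  · rw [map_sum]
    refine Finset.sum_congr rfl fun p _ => ?_
    split_ifs
    · rw [map_mul, map_natCast, hz]
      congr 2
      ring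
    · exact map_zero σ

/-- The coefficients of `ySum v`. -/
def yCoeffQ (v : Fin 2 → ZMod M) (m : ℕ) : Qbar :=
  ∑ u ∈ nonzeroPts M, (xCoeffQ M (v 0).val (v 1).val m - xCoeffQ M (u 0).val (u 1).val m)

/-- The expansion of `ySum v` in `q^(1/M)`. -/
def ySerQ (v : Fin 2 → ZMod M) : LaurentSeries Qbar :=
  HahnSeries.ofPowerSeries ℤ Qbar (PowerSeries.mk (yCoeffQ v))

theorem hasExp_ySum {v : Fin 2 → ZMod M} (hv : v ≠ 0) :
    HasExp M (ySum v) (liftC (ySerQ v)) := by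
  have h : HasExp M (ySum v) (∑ u ∈ nonzeroPts M,
      (xSeries M (v 0).val (v 1).val - xSeries M (u 0).val (u 1).val)) := by
    refine hasExp_finset_sum _ fun u hu => ?_
    have hu' := mem_nonzeroPts.mp hu
    rw [Ne, show v = ![((((v 0).val : ℕ) : ℤ) : ZMod M), ((((v 1).val : ℕ) : ℤ) : ZMod M)] by
      ext i; fin_cases i <;> simp, lift_eq_zero_iff] at hv
    rw [Ne, show u = ![((((u 0).val : ℕ) : ℤ) : ZMod M), ((((u 1).val : ℕ) : ℤ) : ZMod M)] by
      ext i; fin_cases i <;> simp, lift_eq_zero_iff] at hu'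
    exact hasExp_xvalZ_sub (NeZero.pos M) hv hu'
  convert h using 1
  ext n
  rw [liftC_coeff, ySerQ, HahnSeries.coeff_sum]
  rcases lt_or_ge n 0 with hn | hn
  · simp [ofPowerSeries_coeff_of_neg _ hn, HahnSeries.coeff_sub, xSeries_coeff_neg _ _ hn]
  · lift n to ℕ using hn
    simp [HahnSeries.ofPowerSeries_apply_coeff, HahnSeries.coeff_sub, xSeries_coeff, yCoeffQ,
      map_sum, iotaC_xCoeffQ]

/-- Multiplication of the second coordinate by `k`. -/
def scaleSnd (k : ℕ) (v : Fin 2 → ZMod M) : Fin 2 → ZMod M := ![v 0, (k : ZMod M) * v 1]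

omit [NeZero M] in
theorem scaleSnd_injective {k : ℕ} (hk : k.Coprime M) :
    Function.Injective (scaleSnd (M := M) k) := fun u v h => by
  have h0 := congrFun h 0
  have h1 := congrFun h 1
  simp only [scaleSnd, Matrix.cons_val_zero, Matrix.cons_val_one, Matrix.cons_val_fin_one] at h0 h1
  ext i
  fin_cases i
  · exact h0
  · exact ((ZMod.unitOfCoprime k hk).isUnit.mul_left_cancel h1 :)

omit [NeZero M] in
theorem scaleSnd_zero (k : ℕ) : scaleSnd (M := M) k 0 = 0 := by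
  ext i; fin_cases i <;> simp [scaleSnd]

theorem coeffMap_ySerQ (σ : GalQ) (v : Fin 2 → ZMod M) :
    coeffMap (σ : Qbar →+* Qbar) (ySerQ v) = ySerQ (scaleSnd (cycExp M σ) v) := by
  ext n
  rw [coeffMap_coeff, ySerQ, ySerQ]
  rcases lt_or_ge n 0 with hn | hn
  · simp [ofPowerSeries_coeff_of_neg _ hn]
  · lift n to ℕ using hn
    simp only [HahnSeries.ofPowerSeries_apply_coeff, PowerSeries.coeff_mk, yCoeffQ, map_sum,
      map_sub, RingHom.coe_coe, apply_xCoeffQ]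
    have hinj := scaleSnd_injective (coprime_cycExp (M := M) σ)
    have key : ∀ w : Fin 2 → ZMod M, xCoeffQ M (w 0).val ((cycExp M σ : ℤ) * (w 1).val) n =
        xCoeffQ M ((scaleSnd (cycExp M σ) w) 0).val ((scaleSnd (cycExp M σ) w) 1).val n := fun w =>
      xCoeffQ_congr (by simp [scaleSnd]) (by
        rw [← ZMod.intCast_eq_intCast_iff_dvd_sub]
        simp [scaleSnd]) n
    simp only [key]
    refine Finset.sum_bijective (scaleSnd (cycExp M σ))
      ⟨hinj, Finite.injective_iff_surjective.mp hinj⟩ (fun u => ?_) (fun _ _ => rfl)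
    simp only [mem_nonzeroPts]
    exact ⟨fun h h0 => h (hinj (h0.trans (scaleSnd_zero _).symm)),
      fun h h0 => h (by rw [h0, scaleSnd_zero])⟩

/-- The rational series of `E₄ E₆ / Δ`. -/
def gSer : LaurentSeries ℚ := ratExp_gTen.choose

theorem hasExp_gTen : HasExp M gTen (liftC (qExpand Qbar M (coeffEmb Qbar gSer))) := by
  have h := ratExp_gTen.choose_spec.qExpand M
  rw [mul_one] at h
  convert h using 1
  rw [liftC, coeffMap_qExpand, coeffEmb, coeffMap_coeffMap]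
  congr 1
  exact coeffMap_congr (RingHom.ext_rat _ _) _

/-- The expansion of `wFun v` in `q^(1/M)`. -/
def wSerQ (v : Fin 2 → ZMod M) : LaurentSeries Qbar :=
  qExpand Qbar M (coeffEmb Qbar gSer) * ySerQ v

theorem hasExp_wFun {v : Fin 2 → ZMod M} (hv : v ≠ 0) : HasExp M (wFun v) (liftC (wSerQ v)) := by
  rw [wSerQ, map_mul]
  exact hasExp_gTen.mul (hasExp_ySum hv)

theorem coeffMap_wSerQ (σ : GalQ) (v : Fin 2 → ZMod M) :
    coeffMap (σ : Qbar →+* Qbar) (wSerQ v) = wSerQ (scaleSnd (cycExp M σ) v) := by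
  rw [wSerQ, map_mul, coeffMap_qExpand, coeffMap_coeffEmb, coeffMap_ySerQ, wSerQ]

theorem wFun_mem {t : ZMod M} (ht : t ≠ 0) : wFun ![0, t] ∈ modFun M := by
  have hv : (![0, t] : Fin 2 → ZMod M) ≠ 0 := fun h => ht (congrFun h 1)
  have hinv : ∀ γ ∈ Gamma1 M, act γ (wFun ![0, t]) = wFun ![0, t] := fun γ hγ => by
    obtain ⟨ha, hd, hc⟩ := (Gamma1_mem M γ).mp hγ
    rw [act_wFun]
    congr 1
    ext i
    fin_cases i <;> simp [vact, redMat, Matrix.vecMul, dotProduct, Fin.sum_univ_two, ha, hd, hc]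
  refine mem_modFun.mpr ⟨mdiff_wFun hv, hinv, fun γ => ?_, ?_⟩
  · rw [act_wFun]
    exact ⟨_, hasExp_wFun (vact_ne_zero hv γ)⟩
  · have hs : HasExp (M * 1) (wFun ![0, t]) (liftC (wSerQ ![0, t])) := by
      rw [mul_one]; exact hasExp_wFun hv
    obtain ⟨u, hu, huc⟩ := hs.exists_descend one_pos
      (hinv _ (by simp [ModularGroup.coe_T, Gamma1_mem]))
    obtain ⟨u', rfl⟩ := exists_liftC_eq (s := u) fun n => ⟨_, (huc n).symm⟩
    exact ⟨u', hu⟩

/-- `wFun (0,t)` as a modular function. -/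
def wMod {t : ZMod M} (ht : t ≠ 0) : modFun M := ⟨_, wFun_mem ht⟩

theorem qExpand_ser_wMod {t : ZMod M} (ht : t ≠ 0) :
    qExpand Qbar M (ser (wMod ht)) = wSerQ ![0, t] := by
  have h := (hasExp_ser (wMod ht)).qExpand M
  rw [mul_one, show qExpand ℂ M (liftC (ser (wMod ht))) = liftC (qExpand Qbar M (ser (wMod ht)))
    from (coeffMap_qExpand _ _ _).symm] at h
  exact liftC_injective (h.unique (NeZero.pos M)
    (hasExp_wFun fun h0 => ht (congrFun h0 1)))

theorem coeffMap_ser_wMod (σ : GalQ) {t : ZMod M} (ht : t ≠ 0) :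
    ∃ (t' : ZMod M) (ht' : t' ≠ 0),
      coeffMap (σ : Qbar →+* Qbar) (ser (wMod ht)) = ser (wMod ht') := by
  have hu := (ZMod.unitOfCoprime (cycExp M σ) (coprime_cycExp σ)).isUnit
  refine ⟨(cycExp M σ : ZMod M) * t, fun h => ht (hu.mul_right_eq_zero.mp h), ?_⟩
  refine qExpand_injective M ?_
  rw [← coeffMap_qExpand, qExpand_ser_wMod, qExpand_ser_wMod, coeffMap_wSerQ]
  congr 1

end FLTAgent.GammaH

end
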