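import Fermat.Agent.GammaH.Places

/-!
# Explicit modular functions forcing the ramification over `0` and `1728`

Products of powers of differences of torsion values of `℘` give a unit `u` with `u j²` a cube
and `u (j - 1728)` a square in the ring of modular functions (`exists_unit_and_roots`).
-/

set_option autoImplicit false

noncomputable section

open UpperHalfPlane Filter CongruenceSubgroup ModularCurve
open scoped Manifold MatrixGroups Topology

namespace FLTAgent.GammaH

open FLTAgent.LevelM FLTAgent.HeckeJacobian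

local notation "Qbar" => AlgebraicClosure ℚ

variable {M : ℕ} [NeZero M]

/-- An invariant function with algebraic expansion in `q^(1/M)` at `∞` and expansions at all
cusps is a modular function. -/
theorem mem_modFun_of_width {f : ℍ → ℂ} (hd : MDiff f)
    (hinv : ∀ γ ∈ Gamma1 M, act γ f = f) (hexp : ∀ γ, ∃ s, HasExp M (act γ f) s)
    (halg : ∃ t : LaurentSeries Qbar, HasExp M f (liftC t)) : f ∈ modFun M := by
  refine mem_modFun.mpr ⟨hd, hinv, hexp, ?_⟩
  obtain ⟨t, ht⟩ := halg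
  have hs : HasExp (M * 1) f (liftC t) := by rw [mul_one]; exact ht
  obtain ⟨u, hu, huc⟩ := hs.exists_descend one_pos
    (hinv _ (by simp [ModularGroup.coe_T, Gamma1_mem]))
  obtain ⟨u', rfl⟩ := exists_liftC_eq (s := u) fun n => ⟨_, (huc n).symm⟩
  exact ⟨u', hu⟩

/-- The expansion of a torsion difference. -/
def xdSerQ (v w : Fin 2 → ZMod M) : LaurentSeries Qbar :=
  HahnSeries.ofPowerSeries ℤ Qbar
    (PowerSeries.mk fun m => xCoeffQ M (v 0).val (v 1).val m - xCoeffQ M (w 0).val (w 1).val m)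

theorem hasExp_xdiffQ {v w : Fin 2 → ZMod M} (hv : v ≠ 0) (hw : w ≠ 0) :
    HasExp M (xdiff M v w) (liftC (xdSerQ v w)) := by
  have hv' := hv
  have hw' := hw
  rw [Ne, show v = ![((((v 0).val : ℕ) : ℤ) : ZMod M), ((((v 1).val : ℕ) : ℤ) : ZMod M)] by
    ext i; fin_cases i <;> simp, lift_eq_zero_iff] at hv'
  rw [Ne, show w = ![((((w 0).val : ℕ) : ℤ) : ZMod M), ((((w 1).val : ℕ) : ℤ) : ZMod M)] by
    ext i; fin_cases i <;> simp, lift_eq_zero_iff] at hw'
  suffices heq : liftC (xdSerQ v w) =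
      xSeries M (v 0).val (v 1).val - xSeries M (w 0).val (w 1).val by
    rw [heq]; exact hasExp_xvalZ_sub (NeZero.pos M) hv' hw'
  ext n
  rw [liftC_coeff, xdSerQ]
  rcases lt_or_ge n 0 with hn | hn
  · simp [ofPowerSeries_coeff_of_neg _ hn, HahnSeries.coeff_sub, xSeries_coeff_neg _ _ hn]
  · lift n to ℕ using hn
    simp [HahnSeries.ofPowerSeries_apply_coeff, HahnSeries.coeff_sub, xSeries_coeff, iotaC_xCoeffQ]

/-- A pair of points whose difference of values never vanishes. -/
def GoodPair (v w : Fin 2 → ZMod M) : Prop := v ≠ 0 ∧ w ≠ 0 ∧ v ≠ w ∧ v ≠ -w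

omit [NeZero M] in
theorem GoodPair.vact {v w : Fin 2 → ZMod M} (h : GoodPair v w) (γ : SL(2, ℤ)) :
    GoodPair (LevelM.vact v γ) (LevelM.vact w γ) :=
  ⟨vact_ne_zero h.1 γ, vact_ne_zero h.2.1 γ, fun e => h.2.2.1 (vact_injective γ e),
    fun e => h.2.2.2 (vact_injective γ (e.trans (vact_neg w γ).symm))⟩

theorem GoodPair.ne_zero {v w : Fin 2 → ZMod M} (h : GoodPair v w) (τ : ℍ) :
    xdiff M v w τ ≠ 0 := xdiff_ne_zero h.1 h.2.1 h.2.2.1 h.2.2.2 τ

theorem GoodPair.mdiff_zpow {v w : Fin 2 → ZMod M} (h : GoodPair v w) (k : ℤ) :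
    MDiff ((xdiff M v w) ^ k) := by
  have hd := mdifferentiable_xdiff h.1 h.2.1
  cases k with
  | ofNat n => simpa using hd.pow n
  | negSucc n =>
    rw [zpow_negSucc]
    exact mdifferentiable_fun_inv (hd.pow _) fun τ => pow_ne_zero _ (h.ne_zero τ)

theorem GoodPair.hasExp_zpow {v w : Fin 2 → ZMod M} (h : GoodPair v w) (k : ℤ) :
    HasExp M ((xdiff M v w) ^ k) (liftC (xdSerQ v w ^ k)) := by
  have hs := hasExp_xdiffQ h.1 h.2.1
  rw [map_zpow₀]
  cases k with
  | ofNat n => simpa using hs.pow n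
  | negSucc n =>
    rw [zpow_negSucc, zpow_negSucc]
    refine (hs.pow _).inv (NeZero.pos M) (pow_ne_zero _ fun h0 => h.ne_zero UpperHalfPlane.I ?_)
    exact congrFun (eq_of_hasExp (mdifferentiable_xdiff h.1 h.2.1) mdifferentiable_const
      (h0 ▸ hs) (hasExp_zero M)) _

/-- `G (℘_v - ℘_w)^k` is a modular function when `G` has weight `-2k`. -/
theorem mem_levelOne_mul_zpow {G : ℍ → ℂ} (hG : MDiff G) (hGr : RatExp G) (k : ℤ)
    (hwt : ∀ (γ : SL(2, ℤ)) (τ : ℍ), (jac γ τ ^ (2 : ℕ)) ^ k * G (γ • τ) = G τ)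
    {a b : ZMod M} (h : GoodPair ![0, a] ![0, b]) :
    G * (xdiff M ![0, a] ![0, b]) ^ k ∈ modFun M := by
  have hact : ∀ γ : SL(2, ℤ), act γ (G * (xdiff M ![0, a] ![0, b]) ^ k) =
      G * (xdiff M (LevelM.vact ![0, a] γ) (LevelM.vact ![0, b] γ)) ^ k := fun γ => by
    funext τ
    simp only [act_apply, Pi.mul_apply, Pi.pow_apply, xdiff_smul]
    rw [mul_zpow, ← hwt γ τ, jac]
    ring
  have hGs : ∃ t : LaurentSeries Qbar, HasExp M G (liftC t) := by
    obtain ⟨t, ht⟩ := hGr
    have h1 := ht.qExpand M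
    rw [mul_one] at h1
    refine ⟨qExpand Qbar M (coeffEmb Qbar t), ?_⟩
    convert h1 using 1
    rw [liftC, coeffMap_qExpand, coeffEmb, coeffMap_coeffMap]
    congr 1
    exact coeffMap_congr (RingHom.ext_rat _ _) _
  obtain ⟨t, ht⟩ := hGs
  refine mem_modFun_of_width (hG.mul (h.mdiff_zpow k)) (fun γ hγ => ?_) (fun γ => ?_)
    ⟨t * xdSerQ ![0, a] ![0, b] ^ k, by rw [map_mul]; exact ht.mul (h.hasExp_zpow k)⟩
  · obtain ⟨ha, hd, hc⟩ := (Gamma1_mem M γ).mp hγ
    have hfix : ∀ c : ZMod M, LevelM.vact ![0, c] γ = ![0, c] := fun c => by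
      ext i
      fin_cases i <;> simp [LevelM.vact, redMat, Matrix.vecMul, dotProduct,
        Fin.sum_univ_two, hd, hc]
    rw [hact, hfix, hfix]
  · rw [hact]
    exact ⟨_, ht.mul ((h.vact γ).hasExp_zpow k)⟩

variable (h5 : 5 ≤ M)
include h5

omit [NeZero M] in
theorem goodPair_one_two : GoodPair (![0, 1] : Fin 2 → ZMod M) ![0, 2] := by
  have key : ∀ n : ℕ, 0 < n → n < 5 → ((n : ℕ) : ZMod M) ≠ 0 := fun n hn hn5 h => by
    rw [ZMod.natCast_eq_zero_iff] at h
    have := Nat.le_of_dvd hn h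
    omega
  refine ⟨fun h => ?_, fun h => ?_, fun h => ?_, fun h => ?_⟩
  · exact key 1 one_pos (by norm_num) (by simpa using congrFun h 1)
  · exact key 2 two_pos (by norm_num) (by simpa using congrFun h 1)
  · refine key 1 one_pos (by norm_num) ?_
    have := congrFun h 1
    simp at this
    push_cast
    linear_combination -this
  · refine key 3 three_pos (by norm_num) ?_
    have := congrFun h 1
    simp at this
    push_cast
    linear_combination this

theorem exists_unit_and_roots : ∃ u u' a b : modFun M, u * u' = 1 ∧ a ^ 3 = u * jMod M ^ 2 ∧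
    b ^ 2 = u * (jMod M - constHom 1728) := by
  have hp := goodPair_one_two h5
  set E4 : ℍ → ℂ := (ModularForm.E₄ : ℍ → ℂ)
  set E6 : ℍ → ℂ := (ModularForm.E₆ : ℍ → ℂ)
  set D : ℍ → ℂ := ModularForm.discriminant
  have hD : ∀ τ, D τ ≠ 0 := fun τ => ModularForm.discriminant_ne_zero τ
  have w4 := fun γ τ => levelOne_smul ModularForm.E₄ γ τ
  have w6 := fun γ τ => levelOne_smul ModularForm.E₆ γ τ
  have wD := fun γ τ => discriminant_smul γ τ
  refine ⟨⟨_, mem_levelOne_mul_zpow (G := D⁻¹) mdiff_inv_discriminant ratExp_inv_discriminant 6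
      (fun γ τ => ?_) hp⟩,
    ⟨_, mem_levelOne_mul_zpow (G := D) mdiff_discriminant ratExp_discriminant (-6)
      (fun γ τ => ?_) hp⟩,
    ⟨_, mem_levelOne_mul_zpow (G := E4 * E4 * D⁻¹)
      ((ModularForm.E₄.holo'.mul ModularForm.E₄.holo').mul mdiff_inv_discriminant)
      ((ratExp_E₄.mul ratExp_E₄).mul ratExp_inv_discriminant) 2 (fun γ τ => ?_) hp⟩,
    ⟨_, mem_levelOne_mul_zpow (G := E6 * D⁻¹)
      (ModularForm.E₆.holo'.mul mdiff_inv_discriminant)
      (ratExp_E₆.mul ratExp_inv_discriminant) 3 (fun γ τ => ?_) hp⟩, ?_, ?_, ?_⟩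
  · have := jac_ne_zero γ τ
    have := hD τ
    simp only [Pi.inv_apply, D, wD]
    field_simp
  · have := jac_ne_zero γ τ
    have := hD τ
    simp only [D, wD]
    field_simp
  · have := jac_ne_zero γ τ
    have := hD τ
    simp only [Pi.mul_apply, Pi.inv_apply, E4, D, w4, wD]
    field_simp
  · have := jac_ne_zero γ τ
    have := hD τ
    simp only [Pi.mul_apply, Pi.inv_apply, E6, D, w6, wD]
    field_simp
  · refine Subtype.ext (funext fun τ => ?_)
    have := hp.ne_zero τ
    have := hD τ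
    simp only [MulMemClass.coe_mul, OneMemClass.coe_one, Pi.mul_apply, Pi.inv_apply, Pi.pow_apply,
      Pi.one_apply]
    field_simp
  · refine Subtype.ext (funext fun τ => ?_)
    have := hD τ
    simp only [MulMemClass.coe_mul, SubmonoidClass.coe_pow, Pi.mul_apply,
      Pi.inv_apply, Pi.pow_apply,
      coe_jMod, ModularFF.jFun, E4, D]
    field_simp
  · refine Subtype.ext (funext fun τ => ?_)
    have hd := ModularForm.discriminant_eq_E₄_cube_sub_E₆_sq τ
    have := hD τ
    simp only [MulMemClass.coe_mul, SubmonoidClass.coe_pow, AddSubgroupClass.coe_sub, Pi.mul_apply,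
      Pi.inv_apply, Pi.pow_apply, Pi.sub_apply, coe_jMod, ModularFF.jFun, coe_constHom, E6, D]
    rw [map_ofNat iotaC 1728]
    have h6 : ModularForm.E₆ τ ^ 2 =
        ModularForm.E₄ τ ^ 3 - 1728 * ModularForm.discriminant τ := by
      linear_combination 1728 * hd
    have hd0 : ModularForm.discriminant τ ≠ 0 := hD τ
    rw [mul_pow, mul_pow, h6]
    field_simp
    try ring

end FLTAgent.GammaH

end
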